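import Fermat.Agent.Red.Param

/-!
# The specialisation map of a good reduction
-/

set_option autoImplicit false
set_option linter.unusedSectionVars false
set_option linter.style.haveILetI false
set_option linter.unusedVariables false

open AlgebraicCurve IntermediateField IsDedekindDomain
open scoped IntermediateField.algebraAdjoinAdjoin

namespace Fermat.Agent.Red

open Fermat.Agent.FF

variable {K k : Type*} [Field K] [Field k] {A : ValuationSubring K} {π : A →+* k}
  {F Fk : Type*} [Field F] [Algebra K F] [Field Fk] [Algebra k Fk]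
  {R : ConstRed A π F Fk} {x : F} {xb : Fk}

theorem finrank_adjoin_inv {K F : Type*} [Field K] [Field F] [Algebra K F] (x : F) :
    Module.finrank K⟮x⁻¹⟯ F = Module.finrank K⟮x⟯ F := by
  rw [RR.adjoin_simple_inv' (K := K) x]

theorem IsCoord.ne_zero (hx : IsCoord R x xb) : xb ≠ 0 := transcendental_ne_zero hx.transcendental

/-- the other coordinate -/
theorem IsCoord.inv (hx : IsCoord R x xb) : IsCoord R x⁻¹ xb⁻¹ where
  isRed := hx.isRed.inv hx.ne_zero
  transcendental := RR.transcendental_inv' hx.transcendental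
  finiteDimensional := by
    rw [RR.adjoin_simple_inv' (K := K) x]; exact hx.finiteDimensional
  finiteDimensionalk := by
    rw [RR.adjoin_simple_inv' (K := k) xb]; exact hx.finiteDimensionalk
  finrank_eq := by
    rw [finrank_adjoin_inv, finrank_adjoin_inv]
    exact hx.finrank_eq

variable [IsAlgClosed K] [IsFnField K F] [IsAlgClosed k] [IsFnField k Fk]

theorem pi_eq_zero_of_inv_notMem (R : ConstRed A π F Fk) {a : K} (ha : a ∉ A) :
    ∃ h : a⁻¹ ∈ A, π ⟨a⁻¹, h⟩ = 0 := by
  have ha0 : a ≠ 0 := by rintro rfl; exact ha A.zero_mem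
  have hainv : a⁻¹ ∈ A := (A.mem_or_inv_mem a).resolve_left ha
  refine ⟨hainv, ?_⟩
  rw [R.pi_eq_zero_iff]
  intro hu
  obtain ⟨b, hb⟩ := hu.exists_right_inv
  have hb' : a⁻¹ * (b : K) = 1 := congrArg Subtype.val hb
  have : (b : K) = a := by field_simp at hb'; exact hb'
  exact ha (this ▸ b.2)

/-- if the value of `x` at `P` is not in `A`, then `x⁻¹` has a value reducing to `0`. -/
theorem exists_hasVal_inv (R : ConstRed A π F Fk) (P : Place K F) (x : F)
    (h : ¬ ∃ a : A, HasVal P x a) : ∃ b : A, HasVal P x⁻¹ b ∧ π b = 0 := by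
  by_cases hx : 0 ≤ P.ord x
  · obtain ⟨a, ha⟩ := exists_hasVal hx
    have haA : a ∉ A := fun h' => h ⟨⟨a, h'⟩, ha⟩
    obtain ⟨h1, h2⟩ := pi_eq_zero_of_inv_notMem R haA
    have ha0 : a ≠ 0 := by rintro rfl; exact haA A.zero_mem
    exact ⟨⟨a⁻¹, h1⟩, ha.inv ha0, h2⟩
  · refine ⟨0, ?_, map_zero π⟩
    have : HasVal P x⁻¹ 0 := by
      rw [hasVal_zero_iff, P.ord_inv]
      right
      omega
    exact this

variable (hC : Chart R x xb) (hC' : Chart R x⁻¹ xb⁻¹)

open Classical in
/-- the specialisation map -/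
noncomputable def spec (P : Place K F) : Place k Fk :=
  if h : ∃ a : A, HasVal P x a then (hC.exists_sp h.choose_spec).choose
  else (hC'.exists_sp (exists_hasVal_inv R P x h).choose_spec.1).choose

theorem spec_eq_iff {P : Place K F} {Q : Place k Fk} (hQ : 0 ≤ Q.ord xb) :
    spec hC hC' P = Q ↔ Sp R x xb P Q := by
  by_cases h : ∃ a : A, HasVal P x a
  · have h1 : Sp R x xb P (spec hC hC' P) := by
      rw [spec, dif_pos h]
      exact (hC.exists_sp h.choose_spec).choose_spec
    constructor
    · rintro rfl; exact h1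
    · intro h2
      exact hC.sp_unique h1 h2
  · constructor
    · intro h1
      exfalso
      obtain ⟨b, hb, hπb⟩ := exists_hasVal_inv R P x h
      have h2 : Sp R x⁻¹ xb⁻¹ P (spec hC hC' P) := by
        rw [spec, dif_neg h]
        exact (hC'.exists_sp (exists_hasVal_inv R P x h).choose_spec.1).choose_spec
      have h3 := hC'.sp_val_x h2 hb
      rw [hπb, h1, hasVal_zero_iff, Place.ord_inv] at h3
      rcases h3 with h3 | h3
      · exact hC.isCoord.ne_zero (inv_eq_zero.mp h3)
      · omega
    · intro h1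
      exact absurd h1.1 h

theorem spec_eq_iff' {P : Place K F} {Q : Place k Fk} (hQ : Q.ord xb < 0) :
    spec hC hC' P = Q ↔ Sp R x⁻¹ xb⁻¹ P Q := by
  by_cases h : ∃ a : A, HasVal P x a
  · have h1 : Sp R x xb P (spec hC hC' P) := by
      rw [spec, dif_pos h]
      exact (hC.exists_sp h.choose_spec).choose_spec
    constructor
    · rintro rfl
      exact absurd h1.2.1 (not_le.mpr hQ)
    · intro h2
      exfalso
      obtain ⟨a, ha⟩ := h
      obtain ⟨b, hb⟩ := h2.1
      have h3 := hC'.sp_val_x h2 hb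
      have h4 : HasVal Q xb⁻¹ 0 := by
        rw [hasVal_zero_iff, Place.ord_inv]
        right; omega
      have h5 : π b = 0 := h3.unique h4
      have h6 : (a : K) * (b : K) = 1 := by
        have h7 := ha.mul hb
        rw [mul_inv_cancel₀ (transcendental_ne_zero hC.transcendental)] at h7
        exact h7.unique (hasVal_one P)
      have h7 : a * b = 1 := Subtype.ext h6
      have h8 := congrArg π h7
      rw [map_mul, h5, mul_zero, map_one] at h8
      exact zero_ne_one h8
  · have h2 : Sp R x⁻¹ xb⁻¹ P (spec hC hC' P) := by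
      rw [spec, dif_neg h]
      exact (hC'.exists_sp (exists_hasVal_inv R P x h).choose_spec.1).choose_spec
    constructor
    · rintro rfl; exact h2
    · intro h3
      exact hC'.sp_unique h2 h3

/-- The specialisation map of a good reduction. -/
noncomputable def specOf (hπ : Function.Surjective π) : Spec R where
  r := spec hC hC'
  surj := by
    intro Q
    by_cases hQ : 0 ≤ Q.ord xb
    · obtain ⟨P, hP⟩ := hC.exists_sp_place hπ hQ
      exact ⟨P, (spec_eq_iff hC hC' hQ).2 hP⟩
    · push Not at hQ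
      obtain ⟨P, hP⟩ := hC'.exists_sp_place hπ (Q := Q) (by rw [Q.ord_inv]; omega)
      exact ⟨P, (spec_eq_iff' hC hC' hQ).2 hP⟩
  deg_eq := by
    intro P
    rw [RR.deg_eq_one, RR.deg_eq_one]
  ord_eq := by
    classical
    intro f z hf hz D hD Q
    rw [mapDomain_apply_sum]
    simp only [hD]
    by_cases hQ : 0 ≤ Q.ord xb
    · exact hC.ord_eq hπ hQ hf hz D hD _ fun P => by
        rw [Finset.mem_filter, spec_eq_iff hC hC' hQ]
    · push Not at hQ
      exact hC'.ord_eq hπ (by rw [Q.ord_inv]; omega) hf hz D hD _ fun P => by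
        rw [Finset.mem_filter, spec_eq_iff' hC hC' hQ]
  exists_local := by
    intro Q
    by_cases hQ : 0 ≤ Q.ord xb
    · obtain ⟨t, τ, ht⟩ := hC.exists_param hπ hQ
      refine ⟨t, τ, ht.isRed, ht.ord_eq, fun P hP => ?_⟩
      obtain ⟨α, -, hα⟩ := ht.val ((spec_eq_iff hC hC' hQ).1 hP)
      exact hα.nonneg
    · push Not at hQ
      obtain ⟨t, τ, ht⟩ := hC'.exists_param hπ (Q := Q) (by rw [Q.ord_inv]; omega)
      refine ⟨t, τ, ht.isRed, ht.ord_eq, fun P hP => ?_⟩
      obtain ⟨α, -, hα⟩ := ht.val ((spec_eq_iff' hC hC' hQ).1 hP)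
      exact hα.nonneg

theorem specOf_r (hπ : Function.Surjective π) : (specOf hC hC' hπ).r = spec hC hC' := rfl

end Fermat.Agent.Red
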