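import Fermat.Agent.Red.Basic
import Fermat.Agent.FF.FnField

/-!
# Injectivity of the specialisation on torsion prime to the residue characteristic
-/

set_option autoImplicit false
set_option linter.unusedSectionVars false

open AlgebraicCurve

namespace Fermat.Agent.Red

open Fermat.Agent.FF

section Aux

theorem mapDomain_apply_sum {X Y : Type*} [DecidableEq Y] (r : X → Y) (D : X →₀ ℤ) (Q : Y) :
    Finsupp.mapDomain r D Q = ∑ P ∈ D.support with r P = Q, D P := by
  rw [Finsupp.mapDomain, Finsupp.sum_apply, Finsupp.sum, Finset.sum_filter]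
  refine Finset.sum_congr rfl fun P _ => ?_
  rw [Finsupp.single_apply]

variable {k Fk : Type*} [Field k] [Field Fk] [Algebra k Fk]

theorem ord_prod {ι : Type*} (Q : Place k Fk) (s : Finset ι) (f : ι → Fk) (h : ∀ i ∈ s, f i ≠ 0) :
    Q.ord (∏ i ∈ s, f i) = ∑ i ∈ s, Q.ord (f i) := by
  classical
  induction s using Finset.induction_on with
  | empty => simp
  | insert i s his ih =>
    rw [Finset.prod_insert his, Finset.sum_insert his, Place.ord_mul, ih]
    · exact fun j hj => h j (Finset.mem_insert_of_mem hj)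
    · exact h i (Finset.mem_insert_self i s)
    · exact Finset.prod_ne_zero_iff.mpr fun j hj => h j (Finset.mem_insert_of_mem hj)

/-- order of a polynomial in a uniformizer. -/
theorem ord_aeval_le (Q : Place k Fk) {τ : Fk} (hτ : Q.ord τ = 1) (n : ℕ) (p : Polynomial k)
    (hn : p.natDegree ≤ n) (hp : p ≠ 0) :
    Polynomial.aeval τ p ≠ 0 ∧ 0 ≤ Q.ord (Polynomial.aeval τ p) ∧
      Q.ord (Polynomial.aeval τ p) ≤ n := by
  have hτ0 : τ ≠ 0 := by rintro rfl; simp at hτ
  induction n generalizing p with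
  | zero =>
    have h1 : p = Polynomial.C (p.coeff 0) := Polynomial.eq_C_of_natDegree_le_zero hn
    have h2 : p.coeff 0 ≠ 0 := by
      intro h; rw [h, Polynomial.C_0] at h1; exact hp h1
    rw [h1, Polynomial.aeval_C, ord_algebraMap]
    refine ⟨by simpa using h2, le_rfl, by simp⟩
  | succ n ih =>
    have hdec : Polynomial.X * p.divX + Polynomial.C (p.coeff 0) = p := Polynomial.X_mul_divX_add p
    have hdeg : p.divX.natDegree ≤ n := by
      rw [Polynomial.natDegree_divX_eq_natDegree_tsub_one]; omega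
    have haev : Polynomial.aeval τ p = algebraMap k Fk (p.coeff 0) +
        τ * Polynomial.aeval τ p.divX := by
      conv_lhs => rw [← hdec]
      rw [map_add, map_mul, Polynomial.aeval_X, Polynomial.aeval_C, add_comm]
    by_cases hd : p.divX = 0
    · rw [hd] at haev
      simp only [map_zero, mul_zero, add_zero] at haev
      have h2 : p.coeff 0 ≠ 0 := by
        intro h
        apply hp
        rw [← hdec, hd, h]; simp
      rw [haev, ord_algebraMap]
      refine ⟨by simpa using h2, le_rfl, by positivity⟩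
    obtain ⟨h1, h2, h3⟩ := ih p.divX hdeg hd
    have h4 : Q.ord (τ * Polynomial.aeval τ p.divX) = 1 + Q.ord (Polynomial.aeval τ p.divX) := by
      rw [Q.ord_mul hτ0 h1, hτ]
    by_cases h0 : p.coeff 0 = 0
    · rw [haev, h0, map_zero, zero_add, h4]
      refine ⟨mul_ne_zero hτ0 h1, by omega, by push_cast; omega⟩
    · have h5 : Q.ord (Polynomial.aeval τ p) = 0 := by
        rw [haev, ord_add_eq_of_lt Q (by simpa using h0), ord_algebraMap]
        right
        rw [ord_algebraMap, h4]; omega
      refine ⟨?_, h5.ge, by rw [h5]; positivity⟩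
      rw [haev]
      intro h
      have h6 : algebraMap k Fk (p.coeff 0) = -(τ * Polynomial.aeval τ p.divX) :=
        eq_neg_of_add_eq_zero_left h
      have h7 := congrArg Q.ord h6
      rw [ord_algebraMap, ord_neg, h4] at h7
      omega

/-- evaluation at a place of degree one -/
theorem exists_const_sub (v : Place k Fk) (hdeg : v.deg = 1) {f : Fk} (h : 0 ≤ v.ord f) :
    ∃ a : k, f = algebraMap k Fk a ∨ 0 < v.ord (f - algebraMap k Fk a) := by
  have hf : f ∈ v.toValuationSubring := mem_of_ord_nonneg v h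
  obtain ⟨a, ha⟩ : ∃ a : k, algebraMap k v.ResidueField a =
      IsLocalRing.residue _ (⟨f, hf⟩ : v.toValuationSubring) := by
    have h1 : Module.finrank k v.ResidueField = 1 := hdeg
    have h2 := (finrank_eq_one_iff_of_nonzero' (1 : v.ResidueField) one_ne_zero).mp h1
      (IsLocalRing.residue _ (⟨f, hf⟩ : v.toValuationSubring))
    obtain ⟨a, ha⟩ := h2
    exact ⟨a, by rw [← ha, Algebra.smul_def, mul_one]⟩
  refine ⟨a, ?_⟩
  have h3 : IsLocalRing.residue _ ((⟨f, hf⟩ : v.toValuationSubring) -
      algebraMap k v.toValuationSubring a) = 0 := by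
    rw [map_sub, ← ha]
    exact sub_self _
  rw [IsLocalRing.residue_eq_zero_iff, coe_mem_maximalIdeal_iff] at h3
  rcases h3 with h3 | h3
  · left
    have : f - algebraMap k Fk a = 0 := h3
    exact sub_eq_zero.mp this
  · right
    exact h3

end Aux

variable {K k : Type*} [Field K] [Field k] {A : ValuationSubring K} {π : A →+* k}
  {F Fk : Type*} [Field F] [Algebra K F] [Field Fk] [Algebra k Fk]

/-- A specialisation map of places, compatible with the divisors of functions. -/
structure Spec (R : ConstRed A π F Fk) where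
  /-- the specialisation of places -/
  r : Place K F → Place k Fk
  surj : Function.Surjective r
  deg_eq : ∀ P, (r P).deg = P.deg
  ord_eq : ∀ (f : F) (z : Fk), R.IsRed f z → z ≠ 0 → ∀ D : Divisor K F, (∀ P, D P = P.ord f) →
    ∀ Q, Finsupp.mapDomain r D Q = Q.ord z
  exists_local : ∀ Q, ∃ (t : F) (τ : Fk), R.IsRed t τ ∧ Q.ord τ = 1 ∧ ∀ P, r P = Q → 0 ≤ P.ord t


section Disc

variable [CharZero K] [IsFnField K F] {R : ConstRed A π F Fk} (S : Spec R)

open Classical in
theorem Spec.ord_eq_sum {f : F} {z : Fk} (h : R.IsRed f z) (hz : z ≠ 0) (Q : Place k Fk) :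
    Q.ord z = ∑ P ∈ (divOf (K := K) f).support with S.r P = Q, P.ord f := by
  rw [← S.ord_eq f z h hz (divOf f) (fun _ => rfl) Q, mapDomain_apply_sum]
  rfl

theorem Spec.ord_nonneg {f : F} {z : Fk} (h : R.IsRed f z) (hz : z ≠ 0) (Q : Place k Fk)
    (hreg : ∀ P, S.r P = Q → 0 ≤ P.ord f) : 0 ≤ Q.ord z := by
  classical
  rw [S.ord_eq_sum h hz Q]
  refine Finset.sum_nonneg fun P hP => ?_
  rw [Finset.mem_filter] at hP
  exact hreg P hP.2

theorem Spec.ord_le {f : F} {z : Fk} (h : R.IsRed f z) (hz : z ≠ 0) (Q : Place k Fk)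
    (hreg : ∀ P, S.r P = Q → 0 ≤ P.ord f) {P : Place K F} (hP : S.r P = Q) :
    P.ord f ≤ Q.ord z := by
  classical
  rw [S.ord_eq_sum h hz Q]
  by_cases hP0 : P.ord f = 0
  · rw [hP0]
    refine Finset.sum_nonneg fun P' hP' => ?_
    rw [Finset.mem_filter] at hP'
    exact hreg P' hP'.2
  · refine Finset.single_le_sum (f := fun P : Place K F => P.ord f) (fun P' hP' => ?_) ?_
    · rw [Finset.mem_filter] at hP'
      exact hreg P' hP'.2
    · rw [Finset.mem_filter, Finsupp.mem_support_iff]
      exact ⟨hP0, hP⟩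

theorem Spec.add_ord_le {f : F} {z : Fk} (h : R.IsRed f z) (hz : z ≠ 0) (Q : Place k Fk)
    (hreg : ∀ P, S.r P = Q → 0 ≤ P.ord f) {P P' : Place K F} (hP : S.r P = Q) (hP' : S.r P' = Q)
    (hne : P' ≠ P) : P.ord f + P'.ord f ≤ Q.ord z := by
  classical
  by_cases hP0 : P.ord f = 0
  · rw [hP0, zero_add]
    exact S.ord_le h hz Q hreg hP'
  by_cases hP'0 : P'.ord f = 0
  · rw [hP'0, add_zero]
    exact S.ord_le h hz Q hreg hP
  rw [S.ord_eq_sum h hz Q]
  have hsub : ({P, P'} : Finset (Place K F)) ⊆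
      {P ∈ (divOf (K := K) f).support | S.r P = Q} := by
    intro P'' hP''
    rw [Finset.mem_insert, Finset.mem_singleton] at hP''
    rw [Finset.mem_filter, Finsupp.mem_support_iff]
    rcases hP'' with rfl | rfl
    · exact ⟨hP0, hP⟩
    · exact ⟨hP'0, hP'⟩
  have h1 := Finset.sum_le_sum_of_subset_of_nonneg (f := fun P : Place K F => P.ord f) hsub
    (fun P'' hP'' _ => by
      rw [Finset.mem_filter] at hP''
      exact hreg P'' hP''.2)
  rwa [Finset.sum_pair hne.symm] at h1

/-- A local parameter `t` on the residue disc of `Q`: the functions `t - α`. -/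
theorem Spec.disc [IsAlgClosed K] (Q : Place k Fk) {t : F} {τ : Fk} (ht : R.IsRed t τ)
    (hτ : Q.ord τ = 1)
    (hreg : ∀ P, S.r P = Q → 0 ≤ P.ord t) (P : Place K F) (hP : S.r P = Q) :
    ∃ α : A, π α = 0 ∧ P.ord (t - algebraMap K F α) = 1 ∧
      ∀ P', S.r P' = Q → P' ≠ P → P'.ord (t - algebraMap K F α) = 0 := by
  have hreg' : ∀ (a : K) (P' : Place K F), S.r P' = Q → 0 ≤ P'.ord (t - algebraMap K F a) := by
    intro a P' hP'
    apply ord_nonneg_of_mem
    exact sub_mem (mem_of_ord_nonneg P' (hreg P' hP')) (P'.algebraMap_mem' a)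
  obtain ⟨a, ha⟩ := exists_const_sub P (deg_eq_one P) (hreg P hP)
  have hta : t ≠ algebraMap K F a := by
    intro hta
    have h1 := ht.mem
    rw [hta, R.algebraMap_mem_iff] at h1
    have h2 := R.isRed_algebraMap h1
    rw [← hta] at h2
    rw [ht.unique h2, ord_algebraMap] at hτ
    norm_num at hτ
  replace ha := ha.resolve_left hta
  by_cases haA : a ∈ A
  · have h1 : R.IsRed (t - algebraMap K F a) (τ - algebraMap k Fk (π ⟨a, haA⟩)) :=
      ht.sub (R.isRed_algebraMap haA)
    have hne : τ - algebraMap k Fk (π ⟨a, haA⟩) ≠ 0 := by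
      intro h
      rw [sub_eq_zero.mp h, ord_algebraMap] at hτ
      norm_num at hτ
    have h2 := S.ord_le h1 hne Q (hreg' a) hP
    have hπ : π ⟨a, haA⟩ = 0 := by
      by_contra hπ
      have h3 : Q.ord (τ - algebraMap k Fk (π ⟨a, haA⟩)) = 0 := by
        rw [sub_eq_neg_add, ord_add_eq_of_lt Q, ord_neg, ord_algebraMap]
        · simpa using hπ
        · right
          rw [ord_neg, ord_algebraMap, hτ]; norm_num
      omega
    have h3 : Q.ord (τ - algebraMap k Fk (π ⟨a, haA⟩)) = 1 := by
      rw [hπ, map_zero, sub_zero, hτ]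
    refine ⟨⟨a, haA⟩, hπ, by change P.ord (t - algebraMap K F a) = 1; omega,
      fun P' hP' hne' => ?_⟩
    have h4 := S.add_ord_le h1 hne Q (hreg' a) hP hP' hne'
    have h5 := hreg' a P' hP'
    change P'.ord (t - algebraMap K F a) = 0
    omega
  · exfalso
    have ha0 : a ≠ 0 := by rintro rfl; exact haA A.zero_mem
    have hainv : a⁻¹ ∈ A := (A.mem_or_inv_mem a).resolve_left haA
    have hπ : π ⟨a⁻¹, hainv⟩ = 0 := by
      rw [R.pi_eq_zero_iff]
      intro hu
      obtain ⟨b, hb⟩ := hu.exists_right_inv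
      have hb' : a⁻¹ * (b : K) = 1 := congrArg Subtype.val hb
      have : (b : K) = a := by field_simp at hb'; exact hb'
      exact haA (this ▸ b.2)
    have h1 : R.IsRed (1 - algebraMap K F a⁻¹ * t) 1 := by
      have := R.isRed_one.sub ((R.isRed_algebraMap hainv).mul ht)
      rwa [hπ, map_zero, zero_mul, sub_zero] at this
    have h2 : 1 - algebraMap K F a⁻¹ * t = algebraMap K F (-a⁻¹) * (t - algebraMap K F a) := by
      rw [mul_sub, ← map_mul, neg_mul, inv_mul_cancel₀ ha0, map_neg, map_neg, map_one]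
      ring
    have h3 : ∀ P' : Place K F, P'.ord (1 - algebraMap K F a⁻¹ * t) =
        P'.ord (t - algebraMap K F a) := by
      intro P'
      rw [h2, P'.ord_mul (by simpa using ha0) (sub_ne_zero.mpr hta), ord_algebraMap, zero_add]
    have h4 := S.ord_le h1 one_ne_zero Q (fun P' hP' => by rw [h3]; exact hreg' a P' hP') hP
    rw [h3, Place.ord_one] at h4
    omega

/-- In a valuation ring a finite nonempty set has an element dividing all the others. -/
theorem exists_dvd_all {A : Type*} [CommRing A] [IsDomain A] [ValuationRing A] [DecidableEq A]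
    (s : Finset A) (hs : s.Nonempty) : ∃ d ∈ s, ∀ x ∈ s, d ∣ x := by
  induction hs using Finset.Nonempty.cons_induction with
  | singleton a => exact ⟨a, by simp, by simp⟩
  | cons a s ha hs ih =>
    obtain ⟨d, hd, h⟩ := ih
    rcases ValuationRing.dvd_total a d with h1 | h1
    · refine ⟨a, by simp, fun x hx => ?_⟩
      rw [Finset.mem_cons] at hx
      rcases hx with rfl | hx
      · exact dvd_rfl
      · exact h1.trans (h x hx)
    · refine ⟨d, by simp [hd], fun x hx => ?_⟩
      rw [Finset.mem_cons] at hx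
      rcases hx with rfl | hx
      · exact h1
      · exact h x hx

/-- the product of the `(T - α P)` over the points of a divisor in a residue disc. -/
noncomputable def discPoly (S : Spec R) (Q : Place k Fk) (α : Place K F → A) (E : Divisor K F) :
    Polynomial A :=
  open Classical in ∏ P ∈ E.support with S.r P = Q, (Polynomial.X - Polynomial.C (α P)) ^ (E P).toNat

theorem discPoly_monic (S : Spec R) (Q : Place k Fk) (α : Place K F → A) (E : Divisor K F) :
    (discPoly S Q α E).Monic := by
  classical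
  exact Polynomial.monic_prod_of_monic _ _ fun P _ => (Polynomial.monic_X_sub_C _).pow _

theorem discPoly_natDegree (S : Spec R) (Q : Place k Fk) (α : Place K F → A) (E : Divisor K F)
    (hE : ∀ P, 0 ≤ E P) {b : ℕ} (hb : Finsupp.mapDomain S.r E Q = b) :
    (discPoly S Q α E).natDegree = b := by
  classical
  rw [discPoly, Polynomial.natDegree_prod_of_monic _ _
    (fun P _ => (Polynomial.monic_X_sub_C _).pow _)]
  have h1 : ∀ P ∈ {P ∈ E.support | S.r P = Q},
      ((Polynomial.X - Polynomial.C (α P)) ^ (E P).toNat).natDegree = (E P).toNat := by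
    intro P _
    rw [(Polynomial.monic_X_sub_C _).natDegree_pow, Polynomial.natDegree_X_sub_C, mul_one]
  rw [Finset.sum_congr rfl h1]
  rw [mapDomain_apply_sum] at hb
  zify
  rw [← hb]
  refine Finset.sum_congr rfl fun P _ => ?_
  exact Int.toNat_of_nonneg (hE P)

theorem discPoly_map (S : Spec R) (Q : Place k Fk) (α : Place K F → A) (E : Divisor K F)
    (hα : ∀ P, S.r P = Q → π (α P) = 0)
    (hE : ∀ P, 0 ≤ E P) {b : ℕ} (hb : Finsupp.mapDomain S.r E Q = b) :
    (discPoly S Q α E).map π = Polynomial.X ^ b := by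
  classical
  have h0 := discPoly_natDegree S Q α E hE hb
  have h1 : (discPoly S Q α E).map π =
      ∏ P ∈ E.support with S.r P = Q, (Polynomial.X : Polynomial k) ^ (E P).toNat := by
    rw [discPoly, Polynomial.map_prod]
    refine Finset.prod_congr rfl fun P hP => ?_
    rw [Finset.mem_filter] at hP
    simp [hα P hP.2]
  rw [Finset.prod_pow_eq_pow_sum] at h1
  have h2 := (discPoly_monic S Q α E).natDegree_map π
  rw [h1, h0, Polynomial.natDegree_X_pow] at h2
  rw [h1, h2]

/-- Main local estimate. -/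
theorem Spec.local_bound [IsAlgClosed K] (m : ℕ) (hm : (m : k) ≠ 0) (Q : Place k Fk)
    (E B : Divisor K F) (hE : ∀ P, 0 ≤ E P) (hB : ∀ P, 0 ≤ B P) {b : ℕ}
    (hEb : Finsupp.mapDomain S.r E Q = b) (hBb : Finsupp.mapDomain S.r B Q = b)
    {h h₁ : F} {c : A} (hc0 : c ≠ 0) (hc : π c = 0) {z₁ : Fk} (hz : R.IsRed h₁ z₁) (hz₁ : z₁ ≠ 0)
    (hh : h = 1 + algebraMap K F c * h₁) (hh0 : h ≠ 0)
    (hord : ∀ P, P.ord h = m * (E P - B P)) : -(b : ℤ) ≤ Q.ord z₁ := by
  classical
  obtain ⟨t, τ, ht, hτ, hreg⟩ := S.exists_local Q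
  have hτ0 : τ ≠ 0 := by rintro rfl; simp at hτ
  have hm0 : m ≠ 0 := by rintro rfl; simp at hm
  -- the parameters of the points of the disc
  have hdisc := fun P hP => S.disc Q ht hτ hreg P hP
  choose! α hα0 hα1 hα2 using hdisc
  have htα : ∀ a : A, t - algebraMap K F a ≠ 0 := by
    intro a hta
    have h2 := R.isRed_coe a
    rw [← sub_eq_zero.mp hta] at h2
    rw [ht.unique h2, ord_algebraMap] at hτ
    norm_num at hτ
  set ev : Polynomial A →+* F :=
    Polynomial.eval₂RingHom ((algebraMap K F).comp A.subtype) t with hev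
  set evk : Polynomial k →+* Fk := (Polynomial.aeval (R := k) τ).toRingHom with hevk
  have hred : ∀ p : Polynomial A, R.IsRed (ev p) (evk (p.map π)) := by
    intro p
    have h1 := ht.aeval p
    have h2 : evk (p.map π) = Polynomial.eval₂ ((algebraMap k Fk).comp π) τ p := by
      change Polynomial.aeval τ (p.map π) = _
      rw [Polynomial.aeval_def, Polynomial.eval₂_map]
    rw [h2]
    exact h1
  -- the orders of the evaluations
  have hordev : ∀ D : Divisor K F, (∀ P, 0 ≤ D P) → ev (discPoly S Q α D) ≠ 0 ∧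
      ∀ P, S.r P = Q → P.ord (ev (discPoly S Q α D)) = D P := by
    intro D hD
    have h1 : ev (discPoly S Q α D) = ∏ P ∈ D.support with S.r P = Q,
        (t - algebraMap K F (α P)) ^ (D P).toNat := by
      rw [discPoly, map_prod]
      refine Finset.prod_congr rfl fun P _ => ?_
      rw [map_pow, map_sub]
      simp [hev]
    have h2 : ∀ P ∈ {P ∈ D.support | S.r P = Q},
        (t - algebraMap K F (α P)) ^ (D P).toNat ≠ 0 := fun P _ => pow_ne_zero _ (htα _)
    refine ⟨?_, fun P hP => ?_⟩
    · rw [h1]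
      exact Finset.prod_ne_zero_iff.mpr h2
    · rw [h1, ord_prod P _ _ h2]
      have h3 : ∀ P' ∈ {P ∈ D.support | S.r P = Q},
          P.ord ((t - algebraMap K F (α P')) ^ (D P').toNat) = if P' = P then D P else 0 := by
        intro P' hP'
        rw [Finset.mem_filter] at hP'
        rw [ord_pow, Int.toNat_of_nonneg (hD P')]
        split_ifs with heq
        · subst heq
          rw [hα1 P' hP'.2, mul_one]
        · rw [hα2 P' hP'.2 P hP (Ne.symm heq), mul_zero]
      rw [Finset.sum_congr rfl h3, Finset.sum_ite_eq']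
      split_ifs with hmem
      · rfl
      · rw [Finset.mem_filter, Finsupp.mem_support_iff, not_and_or, not_not] at hmem
        rcases hmem with h4 | h4
        · exact h4.symm
        · exact absurd hP h4
  set e := discPoly S Q α E with he
  set w := discPoly S Q α B with hw
  obtain ⟨hY0, hYord⟩ := hordev E hE
  obtain ⟨hX0, hXord⟩ := hordev B hB
  have heM : e.map π = Polynomial.X ^ b := discPoly_map S Q α E hα0 hE hEb
  have hwM : w.map π = Polynomial.X ^ b := discPoly_map S Q α B hα0 hB hBb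
  have hXred : R.IsRed (ev w) (τ ^ b) := by
    have := hred w; rw [hwM] at this; simpa [hevk] using this
  have hYred : R.IsRed (ev e) (τ ^ b) := by
    have := hred e; rw [heM] at this; simpa [hevk] using this
  -- the generator of the ideal generated by `c` and the coefficients of `e - w`
  obtain ⟨d, hds, hdall⟩ := exists_dvd_all
    (insert c ((Finset.range (b + 1)).image fun i => (e - w).coeff i)) (Finset.insert_nonempty _ _)
  have hcoeff : ∀ i, d ∣ (e - w).coeff i := by
    intro i
    by_cases hi : i < b + 1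
    · apply hdall
      exact Finset.mem_insert_of_mem (Finset.mem_image_of_mem _ (Finset.mem_range.mpr hi))
    · rw [Polynomial.coeff_sub, Polynomial.coeff_eq_zero_of_natDegree_lt,
        Polynomial.coeff_eq_zero_of_natDegree_lt, sub_zero]
      · exact dvd_zero d
      · rw [hw, discPoly_natDegree S Q α B hB hBb]; omega
      · rw [he, discPoly_natDegree S Q α E hE hEb]; omega
  obtain ⟨δ₁, hδ₁⟩ : Polynomial.C d ∣ (e - w) := (Polynomial.C_dvd_iff_dvd_coeff d _).mpr hcoeff
  obtain ⟨c₁, hc₁⟩ : d ∣ c := hdall c (Finset.mem_insert_self _ _)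
  have hd0 : d ≠ 0 := by rintro rfl; rw [zero_mul] at hc₁; exact hc0 hc₁
  have hδM : (e - w).map π = 0 := by rw [Polynomial.map_sub, heM, hwM, sub_self]
  have hcase : (c₁ = 1 ∧ π d = 0) ∨ ((∃ i, δ₁.coeff i = 1) ∧ π d = 0) := by
    rw [Finset.mem_insert, Finset.mem_image] at hds
    rcases hds with h1 | ⟨i, -, hi⟩
    · left
      refine ⟨?_, by rw [h1, hc]⟩
      apply mul_left_cancel₀ hd0
      rw [← hc₁, mul_one, h1]
    · right
      refine ⟨⟨i, ?_⟩, ?_⟩
      · apply mul_left_cancel₀ hd0
        rw [← Polynomial.coeff_C_mul, ← hδ₁, mul_one]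
        exact hi
      · rw [← hi, ← Polynomial.coeff_map, hδM, Polynomial.coeff_zero]
  have hπd : π d = 0 := by rcases hcase with h | h <;> exact h.2
  set X := ev w with hX
  set Y := ev e with hY
  set Δ := ev δ₁ with hΔ
  set dF : F := algebraMap K F d with hdF
  have hdF0 : dF ≠ 0 := by
    rw [hdF]
    intro h
    apply hd0
    exact Subtype.ext (by simpa using h)
  have hYX : Y = X + dF * Δ := by
    have h1 : e = w + Polynomial.C d * δ₁ := by rw [← hδ₁]; ring
    rw [hY, h1, map_add, map_mul]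
    congr 1
    congr 1
    simp [hev, hdF]
  have hdred : R.IsRed dF 0 := by
    have := R.isRed_coe d
    rwa [hπd, map_zero] at this
  have hcred : R.IsRed (algebraMap K F c₁) (algebraMap k Fk (π c₁)) := R.isRed_coe c₁
  have hΔred := hred δ₁
  -- expansion of the power
  obtain ⟨Z, hZmem, hZ⟩ : ∃ Z ∈ R.O, Y ^ m = X ^ m + m * X ^ (m - 1) * (dF * Δ) +
      Z * (dF * Δ) ^ 2 := by
    have h1 := Polynomial.powAddExpansion (⟨X, hXred.mem⟩ : R.O)
      ⟨dF * Δ, (hdred.mul hΔred).mem⟩ m
    obtain ⟨Z, hZ⟩ := h1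
    refine ⟨Z, Z.2, ?_⟩
    have h2 := congrArg Subtype.val hZ
    rw [hYX]
    simpa using h2
  obtain ⟨ζ, hζ⟩ := R.exists_isRed_of_mem hZmem
  -- the unit `u`
  set u : F := h * (X / Y) ^ m with hu
  have hτb : τ ^ b ≠ 0 := pow_ne_zero _ hτ0
  have hhred : R.IsRed h 1 := by
    have h1 := R.isRed_one.add ((R.isRed_coe c).mul hz)
    rw [hc, map_zero, zero_mul, add_zero, ← hh] at h1
    exact h1
  have hured : R.IsRed u 1 := by
    have h1 := hhred.mul ((hXred.div hYred hτb).pow m)
    rwa [div_self hτb, one_pow, mul_one] at h1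
  have huY : Y ^ m * u = X ^ m * h := by
    rw [hu, div_pow]
    field_simp
  have huord : ∀ P, S.r P = Q → P.ord u = 0 := by
    intro P hP
    rw [hu, P.ord_mul hh0 (pow_ne_zero _ (div_ne_zero hX0 hY0)), ord_pow, div_eq_mul_inv,
      P.ord_mul hX0 (inv_ne_zero hY0), P.ord_inv, hord, hXord P hP, hYord P hP]
    ring
  set W : F := algebraMap K F c₁ * (X ^ m * h₁) -
    u * (m * X ^ (m - 1) * Δ + Z * dF * Δ ^ 2) with hW
  have hWeq : X ^ m * (u - 1) = dF * W := by
    have hcF : algebraMap K F c = dF * algebraMap K F c₁ := by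
      rw [hdF, ← map_mul]
      congr 1
      exact congrArg Subtype.val hc₁
    have h1 : X ^ m * h = X ^ m + dF * (algebraMap K F c₁ * (X ^ m * h₁)) := by
      rw [hh, hcF]; ring
    rw [hZ, h1] at huY
    rw [hW]
    linear_combination huY
  set D' : Fk := evk (δ₁.map π) with hD'
  have hWred : R.IsRed W (algebraMap k Fk (π c₁) * ((τ ^ b) ^ m * z₁) -
      1 * (m * (τ ^ b) ^ (m - 1) * D' + ζ * 0 * D' ^ 2)) := by
    have hmred : R.IsRed (m : F) (m : Fk) := by
      have := R.isRed_coe (m : A)
      simpa using this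
    exact (hcred.mul ((hXred.pow m).mul hz)).sub (hured.mul
      (((hmred.mul (hXred.pow (m - 1))).mul hΔred).add ((hζ.mul hdred).mul (hΔred.pow 2))))
  set u₁ : F := (u - 1) / dF with hu₁
  have hu₁eq : u₁ = W / X ^ m := by
    rw [hu₁]
    field_simp
    linear_combination hWeq
  set ν : Fk := (algebraMap k Fk (π c₁) * ((τ ^ b) ^ m * z₁) -
      1 * (m * (τ ^ b) ^ (m - 1) * D' + ζ * 0 * D' ^ 2)) / (τ ^ b) ^ m with hν
  have hu₁red : R.IsRed u₁ ν := by
    rw [hu₁eq]
    exact hWred.div (hXred.pow m) (pow_ne_zero _ hτb)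
  have hu₁reg : ∀ P, S.r P = Q → 0 ≤ P.ord u₁ := by
    intro P hP
    apply ord_nonneg_of_mem
    rw [hu₁, div_eq_mul_inv]
    refine mul_mem (sub_mem (mem_of_ord_nonneg P (huord P hP).ge) (one_mem _)) ?_
    rw [hdF, ← map_inv₀]
    exact P.algebraMap_mem' _
  have hνord : 0 ≤ Q.ord ν := by
    rcases eq_or_ne ν 0 with h1 | h1
    · rw [h1]; simp
    · exact S.ord_nonneg hu₁red h1 Q hu₁reg
  -- the final identity on the special fibre
  have hfin : algebraMap k Fk (π c₁) * (τ ^ b * z₁) = τ ^ b * ν + m * D' := by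
    have h1 : (τ ^ b) ^ m = (τ ^ b) ^ (m - 1) * τ ^ b := by
      rw [← pow_succ]
      congr 1
      omega
    rw [hν, h1]
    field_simp
    ring
  have hmFk : (m : Fk) ≠ 0 := by
    have : (m : Fk) = algebraMap k Fk (m : k) := by simp
    rw [this]
    exact (map_ne_zero _).mpr hm
  have hD'nn : 0 ≤ Q.ord D' := by
    by_cases h0 : δ₁.map π = 0
    · rw [hD', h0, map_zero]; simp
    · exact (ord_aeval_le Q hτ _ _ le_rfl h0).2.1
  by_cases hc₁0 : π c₁ = 0
  · exfalso
    rw [hc₁0, map_zero, zero_mul] at hfin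
    have h1 : ∃ i, δ₁.coeff i = 1 := by
      rcases hcase with h | h
      · rw [h.1, map_one] at hc₁0
        exact absurd hc₁0 one_ne_zero
      · exact h.1
    obtain ⟨i, hi⟩ := h1
    have h2 : δ₁.map π ≠ 0 := by
      intro h3
      have h4 := congrArg (fun p => Polynomial.coeff p i) h3
      simp [Polynomial.coeff_map, hi] at h4
    have hdeg : (δ₁.map π).natDegree < b := by
      have h5 : e - w ≠ 0 := by
        intro h6
        rw [h6] at hδ₁
        have h7 : δ₁ = 0 := by
          rcases mul_eq_zero.mp hδ₁.symm with h8 | h8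
          · exact absurd (Polynomial.C_eq_zero.mp h8) hd0
          · exact h8
        rw [h7] at h2
        simp at h2
      have h8 : e.natDegree = b := discPoly_natDegree S Q α E hE hEb
      have h9 : w.natDegree = b := discPoly_natDegree S Q α B hB hBb
      have h10 : (e - w).degree < e.degree := by
        apply Polynomial.degree_sub_lt_left
        · rw [Polynomial.degree_eq_natDegree (discPoly_monic S Q α E).ne_zero,
            Polynomial.degree_eq_natDegree (discPoly_monic S Q α B).ne_zero, h8, h9]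
        · exact (discPoly_monic S Q α E).ne_zero
        · rw [(discPoly_monic S Q α E).leadingCoeff, (discPoly_monic S Q α B).leadingCoeff]
      have h11 : (e - w).natDegree < b := by
        rw [← h8]
        exact Polynomial.natDegree_lt_natDegree h5 h10
      have h12 : (e - w).natDegree = δ₁.natDegree := by
        rw [hδ₁, Polynomial.natDegree_C_mul hd0]
      calc (δ₁.map π).natDegree ≤ δ₁.natDegree := Polynomial.natDegree_map_le
        _ < b := by rw [← h12]; exact h11
    obtain ⟨h3, h4, h5⟩ := ord_aeval_le Q hτ _ _ le_rfl h2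
    have h6 : τ ^ b * ν = -(m * D') := by linear_combination -hfin
    have hD'0 : D' ≠ 0 := h3
    have hν0 : ν ≠ 0 := by
      intro h7
      rw [h7, mul_zero] at h6
      exact (neg_ne_zero.mpr (mul_ne_zero hmFk hD'0)) h6.symm
    have h7 := congrArg Q.ord h6
    rw [Q.ord_mul hτb hν0, ord_pow, hτ, ord_neg, Q.ord_mul hmFk hD'0] at h7
    have h8 : Q.ord (m : Fk) = 0 := by
      have : (m : Fk) = algebraMap k Fk m := by simp
      rw [this, ord_algebraMap]
    have h9 : Q.ord D' ≤ (δ₁.map π).natDegree := h5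
    rw [h8] at h7
    omega
  · have hcF : algebraMap k Fk (π c₁) ≠ 0 := by simpa using hc₁0
    have h1 : 0 ≤ Q.ord (algebraMap k Fk (π c₁) * (τ ^ b * z₁)) := by
      rw [hfin]
      apply ord_nonneg_of_mem
      refine add_mem (mul_mem (pow_mem (mem_of_ord_nonneg Q ?_) _) (mem_of_ord_nonneg Q hνord))
        (mul_mem ?_ (mem_of_ord_nonneg Q hD'nn))
      · rw [hτ]; norm_num
      · have : (m : Fk) = algebraMap k Fk m := by simp
        rw [this]
        exact Q.algebraMap_mem' _
    rw [Q.ord_mul hcF (mul_ne_zero hτb hz₁), ord_algebraMap, zero_add, Q.ord_mul hτb hz₁, ord_pow,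
      hτ] at h1
    omega

open Classical in
/-- **Injectivity on torsion prime to the residue characteristic.** -/
theorem Spec.isPrincipal_of_torsion [IsAlgClosed K] (m : ℕ) (hm : (m : k) ≠ 0)
    (hπ : Function.Surjective π)
    (hnc : ∀ h : F, h ∉ (algebraMap K F).range → ∃ (a c : K), c ≠ 0 ∧ ∃ z : Fk,
      z ∉ (algebraMap k Fk).range ∧ R.IsRed ((h - algebraMap K F a) / algebraMap K F c) z)
    (Bbar : Divisor k Fk) (hB0 : ∀ Q, 0 ≤ Bbar Q)
    (hB1 : ∀ z : Fk, z ≠ 0 → (∀ Q, 0 ≤ Bbar Q + Q.ord z) → z ∈ (algebraMap k Fk).range)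
    (hRR : ∀ D : Divisor K F, Divisor.degree D = Divisor.degree Bbar →
      ∃ f : F, f ≠ 0 ∧ ∀ P, 0 ≤ D P + P.ord f)
    (D : Divisor K F) (hD : Divisor.degree D = 0) (hmD : Divisor.IsPrincipal (m • D))
    (hrD : Divisor.IsPrincipal (Finsupp.mapDomain S.r D)) : Divisor.IsPrincipal D := by
  -- lift of the divisor `Bbar`
  set s : Place k Fk → Place K F := Function.surjInv S.surj with hs
  have hrs : ∀ Q, S.r (s Q) = Q := Function.surjInv_eq S.surj
  set B : Divisor K F := Finsupp.mapDomain s Bbar with hBdef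
  have hrB : Finsupp.mapDomain S.r B = Bbar := by
    rw [hBdef, ← Finsupp.mapDomain_comp]
    have : S.r ∘ s = id := funext hrs
    rw [this, Finsupp.mapDomain_id]
  have hBnn : ∀ P, 0 ≤ B P := by
    intro P
    rw [hBdef, mapDomain_apply_sum]
    exact Finset.sum_nonneg fun Q _ => hB0 Q
  have hdegr : ∀ D : Divisor K F, Divisor.degree (Finsupp.mapDomain S.r D) =
      Divisor.degree D := by
    intro D
    induction D using Finsupp.induction with
    | zero => simp
    | single_add P n D _ _ ih =>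
      rw [Finsupp.mapDomain_add, map_add, map_add, ih, Finsupp.mapDomain_single,
        Divisor.degree_single, Divisor.degree_single, S.deg_eq]
  have hdegB : Divisor.degree B = Divisor.degree Bbar := by rw [← hrB, hdegr]
  obtain ⟨f, hf0, hf⟩ := hRR (D + B) (by rw [map_add, hD, zero_add, hdegB])
  obtain ⟨cf, hcf0, zf, hzf0, hzf⟩ := R.exists_isRed_mul hf0
  -- replace `f` by its scaled version
  obtain ⟨f, hf0, hf, hzf⟩ : ∃ f : F, f ≠ 0 ∧ (∀ P, 0 ≤ (D + B) P + P.ord f) ∧
      R.IsRed f zf := by
    refine ⟨algebraMap K F cf * f, mul_ne_zero (by simpa using hcf0) hf0, fun P => ?_, hzf⟩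
    rw [P.ord_mul (by simpa using hcf0) hf0, ord_algebraMap, zero_add]
    exact hf P
  set E : Divisor K F := D + B + divOf f with hE
  have hEnn : ∀ P, 0 ≤ E P := by
    intro P
    rw [hE, Finsupp.add_apply, divOf_apply]
    exact hf P
  have hrf : ∀ Q, Finsupp.mapDomain S.r (divOf f) Q = Q.ord zf :=
    S.ord_eq f zf hzf hzf0 (divOf f) (fun _ => rfl)
  obtain ⟨wz, hwz0, hwz⟩ := hrD
  have hrE : ∀ Q, Finsupp.mapDomain S.r E Q = Bbar Q + Q.ord (wz * zf) := by
    intro Q
    rw [hE, Finsupp.mapDomain_add, Finsupp.mapDomain_add, Finsupp.add_apply, Finsupp.add_apply,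
      hrB, hrf, hwz, Q.ord_mul hwz0 hzf0]
    ring
  have hrEnn : ∀ Q, 0 ≤ Finsupp.mapDomain S.r E Q := by
    intro Q
    rw [mapDomain_apply_sum]
    exact Finset.sum_nonneg fun P _ => hEnn P
  have hconst : wz * zf ∈ (algebraMap k Fk).range := by
    apply hB1 _ (mul_ne_zero hwz0 hzf0)
    intro Q
    rw [← hrE]
    exact hrEnn Q
  obtain ⟨cc, hcc⟩ := hconst
  have hrE' : Finsupp.mapDomain S.r E = Bbar := by
    ext Q
    rw [hrE, ← hcc, ord_algebraMap, add_zero]
  -- the function `h` with divisor `m (E - B)`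
  obtain ⟨h₀, hh₀0, hh₀⟩ := hmD
  obtain ⟨ch, hch0, zh, hzh0, hzh⟩ := R.exists_isRed_mul (mul_ne_zero hh₀0 (pow_ne_zero m hf0))
  have hordh : ∀ P : Place K F, P.ord (algebraMap K F ch * (h₀ * f ^ m)) =
      m * (E P - B P) := by
    intro P
    rw [P.ord_mul (by simpa using hch0) (mul_ne_zero hh₀0 (pow_ne_zero m hf0)), ord_algebraMap,
      P.ord_mul hh₀0 (pow_ne_zero m hf0), ord_pow, ← hh₀ P, hE]
    simp only [Finsupp.add_apply, Finsupp.smul_apply, divOf_apply, nsmul_eq_mul]
    ring
  have hzhord : ∀ Q : Place k Fk, Q.ord zh = 0 := by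
    intro Q
    have h1 := S.ord_eq _ zh hzh hzh0 ((m : ℤ) • (E - B)) (fun P => by
      rw [hordh P]; simp) Q
    rw [← h1]
    have h2 : Finsupp.mapDomain S.r ((m : ℤ) • (E - B)) = 0 := by
      rw [← Finsupp.mapDomain.addMonoidHom_apply, map_zsmul, map_sub]
      rw [Finsupp.mapDomain.addMonoidHom_apply, Finsupp.mapDomain.addMonoidHom_apply, hrE', hrB,
        sub_self, smul_zero]
    rw [h2]; rfl
  have hzhc : zh ∈ (algebraMap k Fk).range :=
    hB1 zh hzh0 fun Q => by rw [hzhord, add_zero]; exact hB0 Q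
  obtain ⟨κ, hκ⟩ := hzhc
  obtain ⟨κ', rfl⟩ := hπ κ
  have hκ0 : π κ' ≠ 0 := by rintro h; rw [h, map_zero] at hκ; exact hzh0 hκ.symm
  -- `h` reduces to `1`
  set h : F := (algebraMap K F ch * (h₀ * f ^ m)) / algebraMap K F κ' with hhdef
  have hκF : (algebraMap K F κ') ≠ 0 := (R.isRed_coe κ').ne_zero (by simpa using hκ0)
  have hκK : (κ' : K) ≠ 0 := by intro h; rw [h, map_zero] at hκF; exact hκF rfl
  have hhred : R.IsRed h 1 := by
    have h1 := hzh.div (R.isRed_coe κ') (by simpa using hκ0)
    rwa [← hκ, div_self (by simpa using hκ0)] at h1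
  have hh0 : h ≠ 0 := hhred.ne_zero one_ne_zero
  have hordh' : ∀ P : Place K F, P.ord h = m * (E P - B P) := by
    intro P
    rw [hhdef, div_eq_mul_inv, ← map_inv₀, P.ord_mul (mul_ne_zero (by simpa using hch0)
      (mul_ne_zero hh₀0 (pow_ne_zero m hf0))) (by simpa using hκK), ord_algebraMap, add_zero,
      hordh]
  have hm0 : m ≠ 0 := by rintro rfl; simp at hm
  by_cases hconst : h ∈ (algebraMap K F).range
  · obtain ⟨a, ha⟩ := hconst
    have hEB : ∀ P, E P = B P := by
      intro P
      have h1 := hordh' P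
      rw [← ha, ord_algebraMap] at h1
      have h2 : E P - B P = 0 := by
        rcases mul_eq_zero.mp h1.symm with h3 | h3
        · exact absurd (by exact_mod_cast h3) hm0
        · exact h3
      linarith
    refine ⟨f⁻¹, inv_ne_zero hf0, fun P => ?_⟩
    have h1 := hEB P
    rw [hE, Finsupp.add_apply, Finsupp.add_apply, divOf_apply] at h1
    rw [P.ord_inv]
    linarith
  · exfalso
    obtain ⟨a, c, hc0, z, hz, hzred⟩ := hnc h hconst
    -- `c` is in the maximal ideal
    have hcF : algebraMap K F c ≠ 0 := by simpa using hc0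
    have hcinv : c⁻¹ ∉ A := by
      intro hcA
      have h1 := hhred.mul (R.isRed_algebraMap hcA)
      have h2 := h1.sub hzred
      have h3 : h * algebraMap K F c⁻¹ - (h - algebraMap K F a) / algebraMap K F c =
          algebraMap K F (a / c) := by
        rw [map_inv₀, map_div₀]
        field_simp
        ring
      rw [h3] at h2
      have h4 := (R.algebraMap_mem_iff _).1 h2.mem
      have h5 := h2.unique (R.isRed_algebraMap h4)
      apply hz
      refine ⟨π ⟨c⁻¹, hcA⟩ - π ⟨a / c, h4⟩, ?_⟩
      rw [map_sub, ← h5]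
      ring
    have hcA : c ∈ A := by
      have := (A.mem_or_inv_mem c)
      exact this.resolve_right hcinv
    have hπc : π ⟨c, hcA⟩ = 0 := by
      rw [R.pi_eq_zero_iff]
      intro hu
      obtain ⟨b, hb⟩ := hu.exists_right_inv
      have hb' : c * (b : K) = 1 := congrArg Subtype.val hb
      have : (b : K) = c⁻¹ := eq_inv_of_mul_eq_one_right hb'
      exact hcinv (this ▸ b.2)
    have hared : R.IsRed (algebraMap K F a) 1 := by
      have h1 := hhred.sub ((R.isRed_algebraMap hcA).mul hzred)
      rw [hπc, map_zero, zero_mul, sub_zero] at h1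
      have h2 : h - algebraMap K F c * ((h - algebraMap K F a) / algebraMap K F c) =
          algebraMap K F a := by
        field_simp; ring
      rwa [h2] at h1
    have haA : a ∈ A := (R.algebraMap_mem_iff _).1 hared.mem
    have haF0 : algebraMap K F a ≠ 0 := hared.ne_zero one_ne_zero
    have haK0 : a ≠ 0 := by intro h; rw [h, map_zero] at haF0; exact haF0 rfl
    have hainv := hared.inv one_ne_zero
    rw [inv_one] at hainv
    have hainvA : a⁻¹ ∈ A := by
      have := hainv.mem
      rwa [← map_inv₀, R.algebraMap_mem_iff] at this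
    -- normalise
    set h₁ : F := (h - algebraMap K F a) / algebraMap K F c with hh₁
    have hz0 : z ≠ 0 := by
      rintro rfl
      exact hz (zero_mem _)
    have hfinal : z ∈ (algebraMap k Fk).range := by
      apply hB1 z hz0
      intro Q
      obtain ⟨b, hb⟩ : ∃ b : ℕ, Bbar Q = b := ⟨(Bbar Q).toNat, (Int.toNat_of_nonneg (hB0 Q)).symm⟩
      have hEb : Finsupp.mapDomain S.r E Q = b := by rw [hrE', hb]
      have hBb : Finsupp.mapDomain S.r B Q = b := by rw [hrB, hb]
      have hc' : (⟨c, hcA⟩ * ⟨a⁻¹, hainvA⟩ : A) ≠ 0 := by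
        intro h
        have := congrArg Subtype.val h
        simp [hc0, haK0] at this
      have hhh : h / algebraMap K F a = 1 +
          algebraMap K F ((⟨c, hcA⟩ * ⟨a⁻¹, hainvA⟩ : A) : K) * h₁ := by
        have h1 : ((⟨c, hcA⟩ * ⟨a⁻¹, hainvA⟩ : A) : K) = c * a⁻¹ := rfl
        rw [h1, hh₁, map_mul, map_inv₀]
        field_simp
        ring
      have key := S.local_bound m hm Q E B hEnn hBnn hEb hBb (h := h / algebraMap K F a)
        (h₁ := h₁) (c := ⟨c, hcA⟩ * ⟨a⁻¹, hainvA⟩) hc' (by rw [map_mul, hπc, zero_mul]) hzred hz0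
        hhh (div_ne_zero hh0 haF0) (fun P => by
          rw [div_eq_mul_inv, ← map_inv₀, P.ord_mul hh0 (by simpa using haK0), ord_algebraMap,
            add_zero, hordh'])
      rw [hb]
      linarith
    exact hz hfinal

end Disc

end Fermat.Agent.Red
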