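import Fermat.Agent.RR.Places
import Fermat.Agent.Red.Torsion

/-!
# Values of functions at places (algebraically closed constants)
-/

set_option autoImplicit false
set_option linter.unusedSectionVars false
set_option linter.style.haveILetI false

open AlgebraicCurve IntermediateField IsDedekindDomain
open scoped IntermediateField.algebraAdjoinAdjoin

namespace Fermat.Agent.Red

open Fermat.Agent.FF

variable {K F : Type*} [Field K] [Field F] [Algebra K F] [IsAlgClosed K] [IsFnField K F]

/-- evaluation at a place -/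
noncomputable def ev (P : Place K F) : P.toValuationSubring →+* K :=
  ((RingEquiv.ofBijective (algebraMap K P.ResidueField)
    (RR.bijective_algebraMap_residueField P)).symm : P.ResidueField →+* K).comp
    (IsLocalRing.residue P.toValuationSubring)

theorem algebraMap_ev (P : Place K F) (f : P.toValuationSubring) :
    algebraMap K P.ResidueField (ev P f) = IsLocalRing.residue P.toValuationSubring f := by
  change (RingEquiv.ofBijective (algebraMap K P.ResidueField)
    (RR.bijective_algebraMap_residueField P)) ((RingEquiv.ofBijective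
      (algebraMap K P.ResidueField) (RR.bijective_algebraMap_residueField P)).symm _) = _
  rw [RingEquiv.apply_symm_apply]

theorem ev_eq_iff (P : Place K F) (f : P.toValuationSubring) (c : K) :
    ev P f = c ↔ algebraMap K P.ResidueField c = IsLocalRing.residue P.toValuationSubring f := by
  rw [← algebraMap_ev]
  constructor
  · rintro rfl; rfl
  · intro h
    exact ((algebraMap K P.ResidueField).injective h).symm

/-- `HasVal P f c`: the function `f` is regular at `P` with value `c`. -/
def HasVal (P : Place K F) (f : F) (c : K) : Prop :=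
  ∃ h : f ∈ P.toValuationSubring, ev P ⟨f, h⟩ = c

variable {P : Place K F}

theorem HasVal.mem {f : F} {c : K} (h : HasVal P f c) : f ∈ P.toValuationSubring := h.1

theorem HasVal.nonneg {f : F} {c : K} (h : HasVal P f c) : 0 ≤ P.ord f :=
  ord_nonneg_of_mem P h.mem

theorem exists_hasVal {f : F} (h : 0 ≤ P.ord f) : ∃ c, HasVal P f c :=
  ⟨_, mem_of_ord_nonneg P h, rfl⟩

theorem HasVal.unique {f : F} {c c' : K} (h : HasVal P f c) (h' : HasVal P f c') : c = c' := by
  obtain ⟨_, rfl⟩ := h
  obtain ⟨_, rfl⟩ := h'
  rfl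

theorem HasVal.add {f g : F} {c d : K} (h : HasVal P f c) (h' : HasVal P g d) :
    HasVal P (f + g) (c + d) := by
  obtain ⟨h1, rfl⟩ := h
  obtain ⟨h2, rfl⟩ := h'
  exact ⟨add_mem h1 h2, by rw [← map_add]; rfl⟩

theorem HasVal.mul {f g : F} {c d : K} (h : HasVal P f c) (h' : HasVal P g d) :
    HasVal P (f * g) (c * d) := by
  obtain ⟨h1, rfl⟩ := h
  obtain ⟨h2, rfl⟩ := h'
  exact ⟨mul_mem h1 h2, by rw [← map_mul]; rfl⟩

theorem HasVal.neg {f : F} {c : K} (h : HasVal P f c) : HasVal P (-f) (-c) := by
  obtain ⟨h1, rfl⟩ := h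
  exact ⟨neg_mem h1, by rw [← map_neg]; rfl⟩

theorem HasVal.sub {f g : F} {c d : K} (h : HasVal P f c) (h' : HasVal P g d) :
    HasVal P (f - g) (c - d) := by
  rw [sub_eq_add_neg, sub_eq_add_neg]
  exact h.add h'.neg

theorem HasVal.pow {f : F} {c : K} (h : HasVal P f c) (n : ℕ) : HasVal P (f ^ n) (c ^ n) := by
  obtain ⟨h1, rfl⟩ := h
  exact ⟨pow_mem h1 n, by rw [← map_pow]; rfl⟩

theorem hasVal_algebraMap (P : Place K F) (c : K) : HasVal P (algebraMap K F c) c := by
  refine ⟨P.algebraMap_mem' c, ?_⟩
  rw [ev_eq_iff]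
  rfl

theorem hasVal_one (P : Place K F) : HasVal P (1 : F) 1 := by
  simpa using hasVal_algebraMap P 1

theorem hasVal_zero (P : Place K F) : HasVal P (0 : F) 0 := by
  simpa using hasVal_algebraMap P 0

theorem hasVal_zero_iff {f : F} : HasVal P f 0 ↔ f = 0 ∨ 0 < P.ord f := by
  constructor
  · rintro ⟨h, h1⟩
    rw [ev_eq_iff, map_zero] at h1
    have h2 := (IsLocalRing.residue_eq_zero_iff _).mp h1.symm
    rwa [coe_mem_maximalIdeal_iff] at h2
  · intro h
    have hmem : f ∈ P.toValuationSubring := by
      rcases h with rfl | h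
      · exact zero_mem _
      · exact mem_of_ord_nonneg P h.le
    refine ⟨hmem, ?_⟩
    rw [ev_eq_iff, map_zero, eq_comm, IsLocalRing.residue_eq_zero_iff, coe_mem_maximalIdeal_iff]
    exact h

theorem hasVal_iff {f : F} {c : K} :
    HasVal P f c ↔ f - algebraMap K F c = 0 ∨ 0 < P.ord (f - algebraMap K F c) := by
  rw [← hasVal_zero_iff]
  constructor
  · intro h
    have := h.sub (hasVal_algebraMap P c)
    rwa [sub_self] at this
  · intro h
    have := h.add (hasVal_algebraMap P c)
    rwa [sub_add_cancel, zero_add] at this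

theorem HasVal.ord_eq_zero {f : F} {c : K} (h : HasVal P f c) (hc : c ≠ 0) : P.ord f = 0 := by
  apply le_antisymm _ h.nonneg
  by_contra hlt
  push Not at hlt
  exact hc (h.unique (hasVal_zero_iff.2 (Or.inr hlt)))

theorem HasVal.inv {f : F} {c : K} (h : HasVal P f c) (hc : c ≠ 0) : HasVal P f⁻¹ c⁻¹ := by
  have hf : f ≠ 0 := by
    rintro rfl
    exact hc (h.unique (hasVal_zero P))
  have h1 : 0 ≤ P.ord f⁻¹ := by rw [P.ord_inv, h.ord_eq_zero hc, neg_zero]
  obtain ⟨d, hd⟩ := exists_hasVal h1
  have h2 := h.mul hd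
  rw [mul_inv_cancel₀ hf] at h2
  have h3 := h2.unique (hasVal_one P)
  have h4 : d = c⁻¹ := by
    field_simp
    rw [mul_comm]
    exact h3
  rwa [← h4]

theorem HasVal.div {f g : F} {c d : K} (h : HasVal P f c) (h' : HasVal P g d) (hd : d ≠ 0) :
    HasVal P (f / g) (c / d) := by
  rw [div_eq_mul_inv, div_eq_mul_inv]
  exact h.mul (h'.inv hd)

theorem hasVal_sum {ι : Type*} (s : Finset ι) {f : ι → F} {c : ι → K}
    (h : ∀ i ∈ s, HasVal P (f i) (c i)) : HasVal P (∑ i ∈ s, f i) (∑ i ∈ s, c i) := by
  classical
  induction s using Finset.induction_on with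
  | empty => simpa using hasVal_zero P
  | insert i s his ih =>
    rw [Finset.sum_insert his, Finset.sum_insert his]
    exact (h i (Finset.mem_insert_self i s)).add
      (ih fun j hj => h j (Finset.mem_insert_of_mem hj))

theorem hasVal_prod {ι : Type*} (s : Finset ι) {f : ι → F} {c : ι → K}
    (h : ∀ i ∈ s, HasVal P (f i) (c i)) : HasVal P (∏ i ∈ s, f i) (∏ i ∈ s, c i) := by
  classical
  induction s using Finset.induction_on with
  | empty => simpa using hasVal_one P
  | insert i s his ih =>
    rw [Finset.prod_insert his, Finset.prod_insert his]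
    exact (h i (Finset.mem_insert_self i s)).mul
      (ih fun j hj => h j (Finset.mem_insert_of_mem hj))

theorem HasVal.aeval {x : F} {a : K} (h : HasVal P x a) (p : Polynomial K) :
    HasVal P (Polynomial.aeval x p) (p.eval a) := by
  rw [Polynomial.aeval_eq_sum_range, Polynomial.eval_eq_sum_range]
  refine hasVal_sum _ fun i _ => ?_
  rw [Algebra.smul_def]
  exact (hasVal_algebraMap P _).mul (h.pow i)

theorem HasVal.ord_sub_pos {x : F} {a : K} (h : HasVal P x a) (hx : x ≠ algebraMap K F a) :
    0 < P.ord (x - algebraMap K F a) :=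
  (hasVal_iff.1 h).resolve_left (sub_ne_zero.mpr hx)

omit [IsAlgClosed K] [IsFnField K F] in
theorem transcendental_ne {x : F} (hx : Transcendental K x) (a : K) : x ≠ algebraMap K F a := by
  rintro rfl
  exact hx (isAlgebraic_algebraMap a)

/-- elements integral over `K[x]` are regular where `x` is. -/
theorem mem_of_isIntegral {x : F} (P : Place K F) (hx : 0 ≤ P.ord x) {f : F}
    (hf : IsIntegral (Algebra.adjoin K {x}) f) : f ∈ P.toValuationSubring := by
  letI : Algebra (Algebra.adjoin K {x}) P.toValuationSubring :=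
    ((algebraMap (Algebra.adjoin K {x}) F).codRestrict P.toValuationSubring.toSubring
      (adjoin_mem_of_ord_nonneg P hx)).toAlgebra
  haveI : IsScalarTower (Algebra.adjoin K {x}) P.toValuationSubring F :=
    IsScalarTower.of_algebraMap_eq fun _ => rfl
  have hb'' : IsIntegral P.toValuationSubring f := hf.tower_top
  obtain ⟨y, hy⟩ := IsIntegrallyClosed.isIntegral_iff.mp hb''
  rw [← hy]
  exact y.2

/-- functions regular at all places where `x` is regular are integral over `K[x]`. -/
theorem isIntegral_of_forall {x : F} [Algebra.IsSeparable K⟮x⟯ F] [FiniteDimensional K⟮x⟯ F]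
    {f : F} (h : ∀ P : Place K F, 0 ≤ P.ord x → 0 ≤ P.ord f) :
    IsIntegral (Algebra.adjoin K {x}) f := by
  have h1 : f ∈ (algebraMap (integralClosure (Algebra.adjoin K {x}) F) F).range := by
    apply HeightOneSpectrum.mem_integers_of_valuation_le_one
    intro w
    rw [← adicValuation_ofHeightOneSpectrum (K := K)]
    apply Place.adicValuation_le_one_of_mem
    apply mem_of_ord_nonneg
    apply h
    apply ord_nonneg_of_mem
    exact algebraMap_mem_ofHeightOneSpectrum (K := K) (F := F) w
      (algebraMap (Algebra.adjoin K {x}) _ (gen x))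
  obtain ⟨⟨b, hb⟩, rfl⟩ := h1
  exact hb

end Fermat.Agent.Red
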