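import Fermat.Agent.Red.Param

/-!
# Values of functions which are regular on a residue disc
-/

set_option autoImplicit false
set_option linter.unusedSectionVars false
set_option linter.style.haveILetI false
set_option linter.unusedVariables false

open AlgebraicCurve IntermediateField IsDedekindDomain
open scoped IntermediateField.algebraAdjoinAdjoin

namespace Fermat.Agent.Red

open Fermat.Agent.FF

variable {K k : Type*} [Field K] [Field k] {A : ValuationSubring K} {π : A →+* k}
  {F Fk : Type*} [Field F] [Algebra K F] [Field Fk] [Algebra k Fk]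
  {R : ConstRed A π F Fk} {x : F} {xb : Fk}
  [IsAlgClosed K] [IsFnField K F] [IsAlgClosed k] [IsFnField k Fk]

variable (hC : Chart R x xb)

include hC

/-- A function which is regular on the residue disc of `Q` becomes integral over `K[x]` after
multiplication by a function which is a unit on the residue disc. -/
theorem Chart.exists_mult {Q : Place k Fk} (hQ : 0 ≤ Q.ord xb) {g : F}
    (hreg : ∀ P : Place K F, Sp R x xb P Q → 0 ≤ P.ord g) :
    ∃ (V : F) (N : Fk), IsIntegral (Algebra.adjoin K {x}) V ∧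
      IsIntegral (Algebra.adjoin K {x}) (V * g) ∧ R.IsRed V N ∧ N ≠ 0 ∧ Q.ord N = 0 := by
  classical
  haveI := hC.sep
  haveI := hC.sepk
  haveI := hC.isCoord.finiteDimensionalk
  haveI := hC.isCoord.finiteDimensional
  have hxb := hC.isCoord.transcendental
  have hx := hC.transcendental
  rcases eq_or_ne g 0 with rfl | hg0
  · exact ⟨1, 1, isIntegral_one, by rw [mul_zero]; exact isIntegral_zero, R.isRed_one, one_ne_zero,
      by simp⟩
  have hfin : {P : Place K F | P.ord g < 0}.Finite :=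
    (RR.finite_support_ord (K := K) g).subset fun P hP => ne_of_lt hP
  -- a function vanishing at a pole
  have key : ∀ P : Place K F, P.ord g < 0 → 0 ≤ P.ord x → ∃ (v : F) (ν : Fk),
      IsIntegral (Algebra.adjoin K {x}) v ∧ R.IsRed v ν ∧ ν ≠ 0 ∧ Q.ord ν = 0 ∧
      0 < P.ord v := by
    intro P hPg hPx
    obtain ⟨a, ha⟩ := exists_hasVal hPx
    by_cases haA : a ∈ A
    · obtain ⟨Q', hQ'⟩ := hC.exists_sp (a := ⟨a, haA⟩) ha
      have hne : Q' ≠ Q := by
        rintro rfl
        exact absurd (hreg P hQ') (not_le.mpr hPg)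
      obtain ⟨z, hzi, hz', hz0, hz⟩ := exists_separate hxb hne hQ hQ'.2.1
      obtain ⟨f, hf, hfi⟩ := hC.lift z hzi
      obtain ⟨c, hc⟩ := exists_hasVal (ord_nonneg_of_mem P (mem_of_isIntegral P hPx hfi))
      obtain ⟨h1, h2⟩ := hQ'.2.2 f z c hf hfi hc
      have h3 : π ⟨c, h1⟩ = 0 := h2.unique hz'
      have h4 : R.IsRed (f - algebraMap K F c) z := by
        have := hf.sub (R.isRed_algebraMap h1)
        rwa [h3, map_zero, sub_zero] at this
      refine ⟨f - algebraMap K F c, z, hfi.sub (isIntegral_const x c), h4, hz0, hz, ?_⟩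
      have h5 := hc.sub (hasVal_algebraMap P c)
      rw [sub_self] at h5
      exact (hasVal_zero_iff.1 h5).resolve_left (h4.ne_zero hz0)
    · have ha0 : a ≠ 0 := by rintro rfl; exact haA A.zero_mem
      have hainv : a⁻¹ ∈ A := (A.mem_or_inv_mem a).resolve_left haA
      have hπa : π ⟨a⁻¹, hainv⟩ = 0 := by
        rw [R.pi_eq_zero_iff]
        intro hu
        obtain ⟨b, hb⟩ := hu.exists_right_inv
        have hb' : a⁻¹ * (b : K) = 1 := congrArg Subtype.val hb
        have : (b : K) = a := by field_simp at hb'; exact hb'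
        exact haA (this ▸ b.2)
      have h1 : R.IsRed (1 - algebraMap K F a⁻¹ * x) 1 := by
        have := R.isRed_one.sub ((R.isRed_algebraMap hainv).mul hC.isCoord.isRed)
        rwa [hπa, map_zero, zero_mul, sub_zero] at this
      refine ⟨1 - algebraMap K F a⁻¹ * x, 1, isIntegral_one.sub
        ((isIntegral_const x _).mul (isIntegral_self x)), h1, one_ne_zero, by simp, ?_⟩
      have h5 := (hasVal_one P).sub ((hasVal_algebraMap P a⁻¹).mul ha)
      rw [inv_mul_cancel₀ ha0, sub_self] at h5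
      exact (hasVal_zero_iff.1 h5).resolve_left (h1.ne_zero one_ne_zero)
  choose! v ν hvi hvr hν0 hνQ hvP using key
  set s := hfin.toFinset.filter (fun P => 0 ≤ P.ord x) with hs
  have hsmem : ∀ P, P ∈ s ↔ P.ord g < 0 ∧ 0 ≤ P.ord x := by
    intro P
    rw [hs, Finset.mem_filter, Set.Finite.mem_toFinset]
    rfl
  set V : F := ∏ P ∈ s, v P ^ (P.ord g).natAbs with hV
  set N : Fk := ∏ P ∈ s, ν P ^ (P.ord g).natAbs with hN
  have hVN : R.IsRed V N := ConstRed.isRed_prod s fun P hP => by
    rw [hsmem] at hP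
    exact (hvr P hP.1 hP.2).pow _
  have hN0 : N ≠ 0 := Finset.prod_ne_zero_iff.mpr fun P hP => by
    rw [hsmem] at hP
    exact pow_ne_zero _ (hν0 P hP.1 hP.2)
  have hNQ : Q.ord N = 0 := by
    rw [hN, ord_prod Q s _ fun P hP => by
      rw [hsmem] at hP
      exact pow_ne_zero _ (hν0 P hP.1 hP.2)]
    refine Finset.sum_eq_zero fun P hP => ?_
    rw [hsmem] at hP
    rw [ord_pow, hνQ P hP.1 hP.2, mul_zero]
  have hVint : IsIntegral (Algebra.adjoin K {x}) V := by
    rw [hV]
    refine IsIntegral.prod _ fun P hP => ?_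
    rw [hsmem] at hP
    exact (hvi P hP.1 hP.2).pow _
  refine ⟨V, N, hVint, ?_, hVN, hN0, hNQ⟩
  apply isIntegral_of_forall
  intro P hPx
  have hV0 : V ≠ 0 := hVN.ne_zero hN0
  rw [P.ord_mul hV0 hg0]
  have hVnn : ∀ P', P' ∈ s → 0 ≤ P.ord (v P' ^ (P'.ord g).natAbs) := by
    intro P' hP'
    rw [hsmem] at hP'
    rw [ord_pow]
    have := ord_nonneg_of_mem P (mem_of_isIntegral P hPx (hvi P' hP'.1 hP'.2))
    positivity
  rw [hV, ord_prod P s _ fun P' hP' => by
    rw [hsmem] at hP'
    exact pow_ne_zero _ ((hvr P' hP'.1 hP'.2).ne_zero (hν0 P' hP'.1 hP'.2))]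
  by_cases hPg : P.ord g < 0
  · have hPs : P ∈ s := (hsmem P).2 ⟨hPg, hPx⟩
    have h1 := Finset.single_le_sum hVnn hPs
    have h2 : (P.ord g).natAbs ≤ P.ord (v P ^ (P.ord g).natAbs) := by
      rw [ord_pow]
      have := hvP P hPg hPx
      nlinarith [this]
    have h3 : ((P.ord g).natAbs : ℤ) = - P.ord g := by omega
    linarith
  · have h1 := Finset.sum_nonneg hVnn
    linarith

/-- **Values of regular functions**: if `g` is integral for the constant reduction, with
reduction `γ`, and regular on the residue disc of `Q`, then its value at every point `P` of the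
disc lies in `A` and reduces to the value of `γ` at `Q`. -/
theorem Chart.val_of_regular {Q : Place k Fk} {g : F} {γ : Fk} (hg : R.IsRed g γ)
    (hreg : ∀ P : Place K F, Sp R x xb P Q → 0 ≤ P.ord g) {P : Place K F}
    (hP : Sp R x xb P Q) {c : K} (hc : HasVal P g c) :
    ∃ h : c ∈ A, HasVal Q γ (π ⟨c, h⟩) := by
  obtain ⟨V, N, hVi, hVgi, hVN, hN0, hNQ⟩ := hC.exists_mult hP.2.1 hreg
  obtain ⟨a, ha⟩ := hP.1
  obtain ⟨d, hd⟩ := exists_hasVal (ord_nonneg_of_mem P (mem_of_isIntegral P ha.nonneg hVi))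
  obtain ⟨hdA, hd'⟩ := hP.2.2 V N d hVN hVi hd
  obtain ⟨e, he⟩ := exists_hasVal (ord_nonneg_of_mem P (mem_of_isIntegral P ha.nonneg hVgi))
  obtain ⟨heA, he'⟩ := hP.2.2 (V * g) (N * γ) e (hVN.mul hg) hVgi he
  have hde : e = d * c := he.unique (hd.mul hc)
  have hπd : π ⟨d, hdA⟩ ≠ 0 := by
    intro h0
    rw [h0, hasVal_zero_iff] at hd'
    rcases hd' with h | h
    · exact hN0 h
    · rw [hNQ] at h
      exact lt_irrefl _ h
  have hdu : IsUnit (⟨d, hdA⟩ : A) := by
    by_contra hu
    exact hπd ((R.pi_eq_zero_iff _).2 hu)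
  obtain ⟨b, hb⟩ := hdu.exists_left_inv
  have hb' : (b : K) * d = 1 := congrArg Subtype.val hb
  have hcA : c ∈ A := by
    have : c = b * e := by rw [hde, ← mul_assoc, hb', one_mul]
    rw [this]
    exact mul_mem b.2 heA
  refine ⟨hcA, ?_⟩
  have h1 := he'.div hd' hπd
  have h2 : N * γ / N = γ := by field_simp
  rw [h2] at h1
  have h3 : π ⟨e, heA⟩ / π ⟨d, hdA⟩ = π ⟨c, hcA⟩ := by
    rw [div_eq_iff hπd, ← map_mul]
    congr 1
    apply Subtype.ext
    change e = c * d
    rw [hde, mul_comm]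
  rwa [h3] at h1

end Fermat.Agent.Red
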