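import Fermat.Agent.Red.SpecOf
import Fermat.Agent.GoodRed.Main
import Fermat.Agent.RR.Duality

/-!
# Good reduction: equality of genera and injectivity on prime-to-`l` torsion
-/

set_option autoImplicit false
set_option linter.unusedSectionVars false
set_option linter.style.haveILetI false
set_option linter.unusedVariables false

open AlgebraicCurve IntermediateField IsDedekindDomain Module
open scoped IntermediateField.algebraAdjoinAdjoin

namespace Fermat.Agent.Red

open Fermat.Agent.FF

section General

variable {K F : Type*} [Field K] [Field F] [Algebra K F] [IsAlgClosed K] [IsFnField K F]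

/-- the lattice spaces of `GoodRed` are Riemann-Roch spaces -/
theorem Lm_eq_riemannRochSpace {x : F} [FiniteDimensional K⟮x⟯ F] [Algebra.IsSeparable K⟮x⟯ F]
    (hx : x ≠ 0) (m : ℕ) :
    GoodRed.Lm K x m = riemannRochSpace (m • RR.poleDiv (K := K) x) := by
  haveI : FiniteDimensional K⟮x⁻¹⟯ F := by
    rw [RR.adjoin_simple_inv' (K := K) x]; infer_instance
  haveI : Algebra.IsSeparable K⟮x⁻¹⟯ F := by
    rw [RR.adjoin_simple_inv' (K := K) x]; infer_instance
  ext f
  rw [GoodRed.mem_Lm]
  rcases eq_or_ne f 0 with rfl | hf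
  · simp only [Submodule.zero_mem, iff_true, mul_zero]
    exact ⟨isIntegral_zero, isIntegral_zero⟩
  have hxm : (x⁻¹ ^ m : F) ≠ 0 := pow_ne_zero _ (inv_ne_zero hx)
  rw [mem_riemannRochSpace_iff]
  constructor
  · rintro ⟨h1, h2⟩ v
    right
    rw [Finsupp.smul_apply, RR.poleDiv_apply, nsmul_eq_mul]
    by_cases hv : 0 ≤ v.ord x
    · have h3 := ord_nonneg_of_mem v (mem_of_isIntegral v hv h1)
      have h4 : max 0 (-v.ord x) = 0 := max_eq_left (by omega)
      rw [h4]
      omega
    · push Not at hv
      have h3 := ord_nonneg_of_mem v (mem_of_isIntegral v (x := x⁻¹) (by rw [v.ord_inv]; omega) h2)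
      rw [v.ord_mul hxm hf, ord_pow, v.ord_inv] at h3
      have h4 : max 0 (-v.ord x) = -v.ord x := max_eq_right (by omega)
      rw [h4]
      linarith
  · intro h
    constructor
    · apply isIntegral_of_forall (K := K) (x := x)
      intro v hv
      have h3 := (h v).resolve_left hf
      rw [Finsupp.smul_apply, RR.poleDiv_apply, nsmul_eq_mul] at h3
      have h4 : max 0 (-v.ord x) = 0 := max_eq_left (by omega)
      rw [h4] at h3
      simpa using h3
    · apply isIntegral_of_forall (K := K) (x := x⁻¹)
      intro v hv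
      rw [v.ord_inv] at hv
      have h3 := (h v).resolve_left hf
      rw [Finsupp.smul_apply, RR.poleDiv_apply, nsmul_eq_mul] at h3
      have h4 : max 0 (-v.ord x) = -v.ord x := max_eq_right (by omega)
      rw [h4] at h3
      rw [v.ord_mul hxm hf, ord_pow, v.ord_inv]
      linarith

theorem infinite_places : Infinite (Place K F) := by
  obtain ⟨x, hx⟩ := RR.exists_transcendental (K := K) (F := F)
  have hex : ∀ a : K, ∃ P : Place K F, HasVal P x a := by
    intro a
    have h1 : Transcendental K (x - algebraMap K F a)⁻¹ := by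
      apply RR.transcendental_inv'
      intro h
      apply hx
      have := h.add (isAlgebraic_algebraMap (R := K) (A := F) a)
      simpa using this
    obtain ⟨P, hP⟩ := RR.exists_ord_neg_of_transcendental h1
    refine ⟨P, ?_⟩
    rw [hasVal_iff]
    right
    rw [P.ord_inv] at hP
    omega
  choose P hP using hex
  exact Infinite.of_injective P fun a b hab => by
    have h1 := hP a
    have h2 := hP b
    rw [hab] at h1
    exact h1.unique h2

/-- general effective divisors: `ℓ(B) = 1` for some effective divisor `B` of every degree at most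
the genus -/
theorem exists_effective_ell_one (n : ℕ) (hn : n ≤ genusFF K F) :
    ∃ B : Divisor K F, 0 ≤ B ∧ Divisor.degree B = n ∧ RR.ell B = 1 := by
  classical
  induction n with
  | zero => exact ⟨0, le_rfl, by simp, RR.ell_zero⟩
  | succ n ih =>
    obtain ⟨B, hB0, hBd, hBl⟩ := ih (by omega)
    obtain ⟨W, hW⟩ := RR.exists_isCanonical K F
    have h1 := hW.riemann_roch B
    have h2 : 0 < RR.ell (W - B) := by
      rw [hBl, hBd] at h1
      omega
    obtain ⟨f, hf, hf0⟩ := RR.exists_mem_ne_zero_of_ell_pos h2
    have hfe := (RR.mem_riemannRochSpace_iff_divOf hf0).1 hf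
    -- a place outside the support
    haveI := infinite_places (K := K) (F := F)
    obtain ⟨Q, hQ⟩ := Infinite.exists_notMem_finset (W - B + RR.divOf f).support
    rw [Finsupp.notMem_support_iff] at hQ
    refine ⟨B + Finsupp.single Q 1, ?_, ?_, ?_⟩
    · exact hB0.trans (RR.single_one_le Q le_rfl)
    · rw [map_add, hBd, RR.degree_single']; push_cast; ring
    · have h3 := hW.riemann_roch (B + Finsupp.single Q 1)
      rw [map_add, RR.degree_single', hBd] at h3
      have h4 : RR.ell (W - (B + Finsupp.single Q 1)) < RR.ell (W - B) := by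
        apply Submodule.finrank_lt_finrank_of_lt
        refine lt_of_le_of_ne (RR.riemannRochSpace_mono ?_) ?_
        · intro v
          simp only [Finsupp.sub_apply, Finsupp.add_apply, Finsupp.single_apply]
          split_ifs <;> omega
        · intro heq
          rw [← heq, RR.mem_riemannRochSpace_iff_divOf hf0] at hf
          have h5 := hf Q
          simp only [Finsupp.coe_zero, Pi.zero_apply, Finsupp.add_apply, Finsupp.sub_apply,
            Finsupp.single_eq_same] at h5 hQ
          omega
      have h5 : RR.ell B ≤ RR.ell (B + Finsupp.single Q 1) :=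
        RR.ell_mono (RR.single_one_le Q le_rfl)
      rw [hBl, hBd] at h1
      omega

end General

variable {K k : Type*} [Field K] [Field k] {A : ValuationSubring K} {π : A →+* k}
  {F Fk : Type*} [Field F] [Algebra K F] [Field Fk] [Algebra k Fk]
  {R : ConstRed A π F Fk} {x : F} {xb : Fk} {B : Finset A}

theorem isCoord_of_goodCoord (hc : GoodRed.GoodCoord R x xb B) : IsCoord R x xb where
  isRed := hc.isRed
  transcendental := hc.trans
  finiteDimensional := hc.finite
  finiteDimensionalk := hc.finite'
  finrank_eq := hc.finrank_eq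

variable [IsAlgClosed K] [CharZero K] [IsAlgClosed k]

theorem chart_of_goodCoord (hc : GoodRed.GoodCoord R x xb B) (hπ : Function.Surjective π) :
    Chart R x xb where
  isCoord := isCoord_of_goodCoord hc
  sep := by
    haveI := hc.finite
    haveI : CharZero K⟮x⟯ := charZero_of_injective_algebraMap (algebraMap K K⟮x⟯).injective
    infer_instance
  sepk := hc.sep
  lift := by
    intro z hz
    obtain ⟨f, hf, hfz⟩ := hc.exists_lift_isInt hπ hz
    exact ⟨f, hfz, hf⟩

theorem chart_inv_of_goodCoord (hc : GoodRed.GoodCoord R x xb B) (hπ : Function.Surjective π) :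
    Chart R x⁻¹ xb⁻¹ := by
  classical
  exact chart_of_goodCoord hc.inv hπ

theorem isFnField_of_goodCoord (hc : GoodRed.GoodCoord R x xb B) : IsFnField K F :=
  haveI := hc.finite
  IsFnField.of_finiteDimensional hc.transK

theorem isFnField_of_goodCoord' (hc : GoodRed.GoodCoord R x xb B) : IsFnField k Fk :=
  haveI := hc.finite'
  IsFnField.of_finiteDimensional hc.trans

variable [IsFnField K F] [IsFnField k Fk]

theorem genusFF_eq_of_goodCoord (hc : GoodRed.GoodCoord R x xb B) (hπ : Function.Surjective π) :
    genusFF K F = genusFF k Fk := by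
  haveI := hc.finite
  haveI := hc.finite'
  haveI := hc.sep
  haveI : CharZero K⟮x⟯ := charZero_of_injective_algebraMap (algebraMap K K⟮x⟯).injective
  haveI : Algebra.IsSeparable K⟮x⟯ F := inferInstance
  obtain ⟨m0, h0⟩ := hc.exists_finrank_Lm_le
  have hn : 0 < finrank K⟮x⟯ F := finrank_pos
  set m := max m0 (2 * genusFF K F + 2 * genusFF k Fk) with hm
  have h1 := h0 m (le_max_left _ _)
  have h2 := hc.toIsCoord.finrank_Lm_le m
  have h3 : finrank K (GoodRed.Lm K x m) = finrank k (GoodRed.Lm k xb m) := le_antisymm h2 h1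
  rw [Lm_eq_riemannRochSpace hc.toIsCoord.ne_zero, Lm_eq_riemannRochSpace hc.toIsCoord.ne_zero'] at h3
  have hmn : m ≤ m * finrank K⟮x⟯ F := Nat.le_mul_of_pos_right m hn
  have hmg : 2 * genusFF K F + 2 * genusFF k Fk ≤ m := le_max_right _ _
  have hd1 : Divisor.degree (m • RR.poleDiv (K := K) x) = m * finrank K⟮x⟯ F := by
    rw [map_nsmul, RR.degree_poleDiv hc.transK, nsmul_eq_mul]
  have hd2 : Divisor.degree (m • RR.poleDiv (K := k) xb) = m * finrank K⟮x⟯ F := by
    rw [map_nsmul, RR.degree_poleDiv hc.trans, nsmul_eq_mul, hc.finrank_eq]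
  have h4 := RR.ell_eq_of_lt_degree (D := m • RR.poleDiv (K := K) x) (by
    rw [hd1]
    have : ((m * finrank K⟮x⟯ F : ℕ) : ℤ) = (m : ℤ) * finrank K⟮x⟯ F := by push_cast; ring
    rw [← this]
    omega)
  have h5 := RR.ell_eq_of_lt_degree (D := m • RR.poleDiv (K := k) xb) (by
    rw [hd2]
    have : ((m * finrank K⟮x⟯ F : ℕ) : ℤ) = (m : ℤ) * finrank K⟮x⟯ F := by push_cast; ring
    rw [← this]
    omega)
  rw [hd1] at h4
  rw [hd2] at h5
  have h6 : RR.ell (m • RR.poleDiv (K := K) x) = RR.ell (m • RR.poleDiv (K := k) xb) := h3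
  rw [h6] at h4
  omega

/-- the specialisation map attached to a good coordinate -/
noncomputable def specGood (hc : GoodRed.GoodCoord R x xb B) (hπ : Function.Surjective π) :
    Spec R :=
  specOf (chart_of_goodCoord hc hπ) (chart_inv_of_goodCoord hc hπ) hπ

/-- **Injectivity of the specialisation map on torsion of order prime to the residue
characteristic.** -/
theorem isPrincipal_of_torsion (hc : GoodRed.GoodCoord R x xb B) (hπ : Function.Surjective π)
    (S : Spec R) (m : ℕ) (hm : (m : k) ≠ 0) (D : Divisor K F) (hD : Divisor.degree D = 0)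
    (hmD : Divisor.IsPrincipal (m • D))
    (hrD : Divisor.IsPrincipal (Finsupp.mapDomain S.r D)) : Divisor.IsPrincipal D := by
  classical
  obtain ⟨Bbar, hB0, hBd, hBl⟩ := exists_effective_ell_one (K := k) (F := Fk) (genusFF k Fk) le_rfl
  have hB1 : ∀ z : Fk, z ≠ 0 → (∀ Q, 0 ≤ Bbar Q + Q.ord z) → z ∈ (algebraMap k Fk).range := by
    intro z hz h
    have h1 : z ∈ riemannRochSpace Bbar := by
      rw [mem_riemannRochSpace_iff]
      intro v
      right
      have := h v
      omega
    have h2 : (1 : Fk) ∈ riemannRochSpace Bbar := by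
      rw [mem_riemannRochSpace_iff]
      intro v
      right
      have := hB0 v
      simp only [Finsupp.coe_zero, Pi.zero_apply] at this
      rw [Place.ord_one]
      omega
    have h3 := (finrank_eq_one_iff_of_nonzero' (⟨1, h2⟩ : riemannRochSpace Bbar) (by
      intro h
      exact one_ne_zero (congrArg Subtype.val h))).mp hBl ⟨z, h1⟩
    obtain ⟨c, hc⟩ := h3
    refine ⟨c, ?_⟩
    have h4 : c • (1 : Fk) = z := congrArg Subtype.val hc
    rw [← h4, Algebra.smul_def, mul_one]
  have hgen := genusFF_eq_of_goodCoord hc hπ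
  have hRR : ∀ D : Divisor K F, Divisor.degree D = Divisor.degree Bbar →
      ∃ f : F, f ≠ 0 ∧ ∀ P, 0 ≤ D P + P.ord f := by
    intro D hD
    have h1 := RR.riemann_ineq D
    rw [hD, hBd, hgen] at h1
    obtain ⟨f, hf, hf0⟩ := RR.exists_mem_ne_zero_of_ell_pos (D := D) (by omega)
    refine ⟨f, hf0, fun P => ?_⟩
    have h2 := ((mem_riemannRochSpace_iff.1 hf) P).resolve_left hf0
    omega
  exact S.isPrincipal_of_torsion m hm hπ
    (fun h hh => (isCoord_of_goodCoord hc).exists_nonconst h hh) Bbar (fun Q => hB0 Q) hB1 hRR D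
    hD hmD hrD

end Fermat.Agent.Red
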