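import Fermat.Agent.Red.GaussAdjoin
import Fermat.Agent.Red.Genus

/-!
# Residue fields of Gauss valuations: determination by degrees
-/

set_option autoImplicit false
set_option linter.unusedSectionVars false
set_option linter.style.haveILetI false
set_option linter.unusedVariables false

noncomputable section

open AlgebraicCurve IntermediateField ModularCurve Module

namespace Fermat.Agent.Red

section General

variable {K Ω : Type*} [Field K] [Field Ω] [Algebra K Ω]

theorem map_adjoin_simple_val (E : IntermediateField K Ω) (x : E) :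
    (K⟮x⟯).map E.val = K⟮(x : Ω)⟯ := by
  rw [IntermediateField.adjoin_map, Set.image_singleton]
  rfl

theorem finrank_adjoin_sub (E : IntermediateField K Ω) (x : E) :
    finrank K⟮x⟯ E = IntermediateField.relfinrank K⟮(x : Ω)⟯ E := by
  rw [← IntermediateField.relfinrank_top_right, ← IntermediateField.relfinrank_map_map _ _ E.val,
    map_adjoin_simple_val]
  congr 1
  rw [← AlgHom.fieldRange_eq_map, IntermediateField.fieldRange_val]

theorem adjoin_simple_le_of_mem {E : IntermediateField K Ω} {x : Ω} (hx : x ∈ E) : K⟮x⟯ ≤ E :=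
  IntermediateField.adjoin_simple_le_iff.2 hx

end General

variable {L k : Type*} [Field L] [Field k] {A : ValuationSubring L} {π : A →+* k}
variable {E : IntermediateField L (LaurentSeries L)}

/-- The constant reduction of `E` with its full residue field. -/
def gaussConstRedFull (hE : GaussField π E) (hπ : ∀ a : A, π a = 0 ↔ ¬ IsUnit a)
    (hs : Function.Surjective π) : ConstRed A π E (gaussRes π E hs) :=
  gaussConstRed hE hπ (gaussRes π E hs) (fun f z hf h => ⟨f, hf, h⟩) (fun z hz => hz)

theorem isRed_full {hE : GaussField π E} {hπ : ∀ a : A, π a = 0 ↔ ¬ IsUnit a}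
    {hs : Function.Surjective π} {f : E} {z : gaussRes π E hs} :
    (gaussConstRedFull hE hπ hs).IsRed f z ↔ GRed π (f : LaurentSeries L) z :=
  gaussConstRed_isRed

theorem finite_of_bound {A' : ValuationSubring L} {π' : A' →+* k} {F Fk : Type*}
    [Field F] [Algebra L F] [Field Fk] [Algebra k Fk] {R : ConstRed A' π' F Fk} {x : F} {xb : Fk}
    (hx : R.IsRed x xb) (hxb : Transcendental k xb) [FiniteDimensional L⟮x⟯ F] :
    FiniteDimensional k⟮xb⟯ Fk ∧ finrank k⟮xb⟯ Fk ≤ finrank L⟮x⟯ F := by
  have key : ∀ s : Finset Fk, LinearIndependent k⟮xb⟯ (fun i : s => (i : Fk)) →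
      s.card ≤ finrank L⟮x⟯ F := by
    intro s hs
    choose w hw using fun i : s => R.exists_isRed (i : Fk)
    have h1 := linearIndependent_of_isRed hx hxb hw hs
    have h2 := h1.fintype_card_le_finrank
    rwa [Fintype.card_coe] at h2
  have hrank : Module.rank k⟮xb⟯ Fk ≤ (finrank L⟮x⟯ F : ℕ) := rank_le key
  have hfin : FiniteDimensional k⟮xb⟯ Fk := by
    rw [FiniteDimensional, ← Module.rank_lt_aleph0_iff]
    exact hrank.trans_lt (Cardinal.natCast_lt_aleph0)
  refine ⟨hfin, ?_⟩
  rw [← Module.finrank_eq_rank, Nat.cast_le] at hrank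
  exact hrank

theorem gaussRes_eq (hE : GaussField π E) (hπ : ∀ a : A, π a = 0 ↔ ¬ IsUnit a)
    (hs : Function.Surjective π) {Ek : IntermediateField k (LaurentSeries k)}
    (hle : Ek ≤ gaussRes π E hs) {x : E} {xb : Ek}
    (hx : GRed π (x : LaurentSeries L) xb) (htr : Transcendental k (xb : LaurentSeries k))
    [FiniteDimensional L⟮x⟯ E]
    (hn : finrank L⟮x⟯ E ≤ finrank k⟮xb⟯ Ek) : gaussRes π E hs = Ek := by
  set Er := gaussRes π E hs with hEr
  let xr : Er := ⟨xb, hle xb.2⟩
  have hxr : (gaussConstRedFull hE hπ hs).IsRed x xr := isRed_full.2 hx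
  have htr' : Transcendental k xr := by
    intro h
    apply htr
    have := h.algebraMap (A := LaurentSeries k)
    exact this
  obtain ⟨hfin, hrk⟩ := finite_of_bound (R := gaussConstRedFull hE hπ hs) hxr htr'
  have hpos : 0 < finrank k⟮xr⟯ Er := finrank_pos
  have hn' := hrk.trans hn
  have e1 : finrank k⟮xr⟯ Er = IntermediateField.relfinrank k⟮(xb : LaurentSeries k)⟯ Er :=
    finrank_adjoin_sub Er xr
  have e2 := finrank_adjoin_sub Ek xb
  have h1 : IntermediateField.relfinrank k⟮(xb : LaurentSeries k)⟯ Ek *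
      IntermediateField.relfinrank Ek Er =
      IntermediateField.relfinrank k⟮(xb : LaurentSeries k)⟯ Er :=
    IntermediateField.relfinrank_mul_relfinrank (adjoin_simple_le_of_mem xb.2) hle
  rw [e1, ← h1] at hpos
  have hn'' : IntermediateField.relfinrank k⟮(xb : LaurentSeries k)⟯ Ek *
      IntermediateField.relfinrank Ek Er ≤
      IntermediateField.relfinrank k⟮(xb : LaurentSeries k)⟯ Ek := by
    rw [h1, ← e1, ← e2]
    exact hn'
  have h5 : 0 < IntermediateField.relfinrank k⟮(xb : LaurentSeries k)⟯ Ek :=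
    Nat.pos_of_ne_zero fun h0 => by rw [h0, zero_mul] at hpos; exact lt_irrefl _ hpos
  have h6 : 0 < IntermediateField.relfinrank Ek Er :=
    Nat.pos_of_ne_zero fun h0 => by rw [h0, mul_zero] at hpos; exact lt_irrefl _ hpos
  have h7 : IntermediateField.relfinrank Ek Er ≤ 1 :=
    Nat.le_of_mul_le_mul_left (by rw [mul_one]; exact hn'') h5
  exact le_antisymm (IntermediateField.relfinrank_eq_one_iff.1 (by omega)) hle

end Fermat.Agent.Red
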