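import Fermat.Agent.Red.Assembly
import Fermat.Agent.RedQ.HauptRel

/-!
# Good coordinates on `X₀(N)` and injectivity of reduction on prime-to-`ℓ` torsion
-/

set_option autoImplicit false
set_option linter.unusedSectionVars false
set_option linter.style.haveILetI false
set_option linter.unusedVariables false

noncomputable section

open AlgebraicCurve IntermediateField ModularCurve Module Fermat.Agent.FF

namespace Fermat.Agent.Red

theorem haupt3_mem_bar {M : ℕ} [NeZero M] (h : 3 ∣ M) :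
    coeffMap (Int.castRingHom (AlgebraicClosure ℚ)) (RedQ.haupt3 ℤ) ∈ modularFunctionFieldBar M := by
  rw [bar_eq, RedQ.coeffMap_hauptC]
  exact full_degeneracyC_le _ h (RedQ.haupt3_mem_charZero (AlgebraicClosure ℚ))

theorem haupt2_mem_bar {M : ℕ} [NeZero M] (h : 2 ∣ M) :
    coeffMap (Int.castRingHom (AlgebraicClosure ℚ)) (RedQ.haupt2 ℤ) ∈ modularFunctionFieldBar M := by
  rw [bar_eq, RedQ.coeffMap_hauptC]
  exact full_degeneracyC_le _ h (RedQ.haupt2_mem_charZero (AlgebraicClosure ℚ))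

variable {N : ℕ} [NeZero N] {ℓ : ℕ} [hℓ : Fact ℓ.Prime]
  {A : ValuationSubring (AlgebraicClosure ℚ)} {k : Type*} [Field k] {π : A →+* k}

/-- `X₀(N)` has a good coordinate at `ℓ ∤ N` if `3 ∣ N` for `ℓ = 2` and `2 ∣ N` for `ℓ = 3`. -/
theorem exists_goodCoord (hA : A.LiesOverPrime ℓ)
    (hπ : ∀ a : A, π a = 0 ↔ ¬ IsUnit a) (hs : Function.Surjective π) (hN : ¬ ℓ ∣ N)
    (h2 : ℓ = 2 → 3 ∣ N) (h3 : ℓ = 3 → 2 ∣ N) :
    ∃ (x : modularFunctionFieldBar N) (xb : modularFunctionFieldFullC k N) (B : Finset A),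
      GoodRed.GoodCoord (redX N hA hπ hs hN) x xb B := by
  haveI : IsAlgClosed k := isAlgClosed_of_surjective hs
  by_cases hl2 : ℓ = 2
  · subst hl2
    exact ⟨_, _, _, goodCoord_T hA hπ hs hN (haupt3_mem_bar (h2 rfl)) (RedQ.haupt3_rel ℤ)⟩
  by_cases hl3 : ℓ = 3
  · subst hl3
    exact ⟨_, _, _, goodCoord_H hA hπ hs hN (haupt2_mem_bar (h3 rfl)) (RedQ.haupt2_rel ℤ)⟩
  exact ⟨_, _, _, goodCoord_jB hA hπ hs hN hl2 hl3⟩

/-- **Reduction modulo `ℓ ∤ N` is injective on the prime-to-`ℓ` torsion of `J₀(N)`.** -/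
theorem eq_zero_of_reductionAlong (hN : ¬ ℓ ∣ N) (hA : A.LiesOverPrime ℓ)
    (hπ : ∀ a : A, π a = 0 ↔ ¬ IsUnit a) (hs : Function.Surjective π)
    (h : ReductionInputsAlong A π N) (m : ℕ) (hm : ¬ ℓ ∣ m)
    (z : JZero N) (hmz : m • z = 0) (hz : reductionAlong A π N z = 0) : z = 0 := by
  have hself : (modularFunctionFieldBar N).relfinrank (modularFunctionFieldBar N) = 1 :=
    IntermediateField.relfinrank_self _
  by_cases hl2 : ℓ = 2
  · subst hl2
    by_cases h3 : 3 ∣ N
    · obtain ⟨x, xb, B, hc⟩ := exists_goodCoord hA hπ hs hN (fun _ => h3) (by norm_num)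
      exact eq_zero_of_goodCoord hN hA hπ hs dvd_rfl hN hc h m hm
        (by rw [hself]; exact Nat.coprime_one_right m) z hmz hz
    · have hM : ¬ 2 ∣ N * 3 := by omega
      obtain ⟨x, xb, B, hc⟩ := exists_goodCoord (N := N * 3) hA hπ hs hM
        (fun _ => dvd_mul_left 3 N) (by norm_num)
      refine eq_zero_of_goodCoord hN hA hπ hs (dvd_mul_right N 3) hM hc h m hm ?_ z hmz hz
      have h4 := JZ.relfinrank_FN_prime S24Lib.modularFieldInputs_Qbar (M := N) (p := 3)
        Nat.prime_three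
      rw [if_neg h3] at h4
      change Nat.Coprime m ((JZ.FN (AlgebraicClosure ℚ) N).relfinrank
        (JZ.FN (AlgebraicClosure ℚ) (N * 3)))
      rw [h4]
      have h5 : Nat.Coprime m 2 := (Nat.prime_two.coprime_iff_not_dvd.2 hm).symm
      exact h5.pow_right 2
  by_cases hl3 : ℓ = 3
  · subst hl3
    by_cases h2 : 2 ∣ N
    · obtain ⟨x, xb, B, hc⟩ := exists_goodCoord hA hπ hs hN (by norm_num) (fun _ => h2)
      exact eq_zero_of_goodCoord hN hA hπ hs dvd_rfl hN hc h m hm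
        (by rw [hself]; exact Nat.coprime_one_right m) z hmz hz
    · have hM : ¬ 3 ∣ N * 2 := by omega
      obtain ⟨x, xb, B, hc⟩ := exists_goodCoord (N := N * 2) hA hπ hs hM
        (by norm_num) (fun _ => dvd_mul_left 2 N)
      refine eq_zero_of_goodCoord hN hA hπ hs (dvd_mul_right N 2) hM hc h m hm ?_ z hmz hz
      have h4 := JZ.relfinrank_FN_prime S24Lib.modularFieldInputs_Qbar (M := N) (p := 2)
        Nat.prime_two
      rw [if_neg h2] at h4
      change Nat.Coprime m ((JZ.FN (AlgebraicClosure ℚ) N).relfinrank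
        (JZ.FN (AlgebraicClosure ℚ) (N * 2)))
      rw [h4]
      exact (Nat.prime_three.coprime_iff_not_dvd.2 hm).symm
  obtain ⟨x, xb, B, hc⟩ := exists_goodCoord hA hπ hs hN (fun h => absurd h hl2)
    (fun h => absurd h hl3)
  exact eq_zero_of_goodCoord hN hA hπ hs dvd_rfl hN hc h m hm
    (by rw [hself]; exact Nat.coprime_one_right m) z hmz hz

end Fermat.Agent.Red
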