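import Fermat.Agent.S24Lib.Inputs

/-!
# Ramification of `j` on `X₀(N)` in characteristic zero
-/

set_option autoImplicit false
set_option linter.unusedSectionVars false
set_option linter.style.haveILetI false

namespace Fermat.Agent.Red

open UpperHalfPlane hiding I
open HahnSeries ModularCurve WithZero AlgebraicCurve IntermediateField
open scoped MatrixGroups Pointwise Manifold
open Fermat.Agent.ModFn Fermat.Agent.FF Fermat.Agent.Gam0 Fermat.Agent.Comb Fermat.Agent.S24Lib

section Bound

variable {K L : Type*} [Field K] [Field L] [Algebra K L] [IsFnField K L] [CharZero K]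
variable {𝒢 : Type*} [Group 𝒢] (φ : 𝒢 →* (L ≃ₐ[K] L)) [Finite φ.range]

theorem ord_le_of_mem_zeros {F : Type*} [Field F] [Algebra K F] [Algebra F L] [IsFnField K F]
    [IsScalarTower K F L] [Algebra.IsIntegral F L] {x : F}
    (hx : Transcendental K (algebraMap F L x))
    (hfix : ∀ g, φ g (algebraMap F L x) = algebraMap F L x)
    (hL : ∀ y : L, (∀ g, φ g y = y) → y ∈ K⟮algebraMap F L x⟯) {n : ℕ}
    {w : Place K L} (hw0 : 0 < w.ord (algebraMap F L x)) (hw : w.ord (algebraMap F L x) ≤ n)
    (v : Place K F) : v.ord x ≤ n := by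
  rcases le_or_gt (v.ord x) 0 with hv | hv
  · exact hv.trans (Int.natCast_nonneg n)
  obtain ⟨w', hw'⟩ := exists_restrict_eq (F' := L) v
  have h0 : (0 : ℤ) < w'.ramificationIndex (F := F) := by
    exact_mod_cast w'.ramificationIndex_pos
  have h2 : w'.ord (algebraMap F L x) = w'.ramificationIndex (F := F) * v.ord x := by
    rw [Place.ord_restrict, hw']
  have h1 : 0 < w'.ord (algebraMap F L x) := by
    rw [h2]
    exact mul_pos h0 hv
  obtain ⟨g, hg⟩ := exists_smul_eq_of_zeros φ hx hfix hL h1 (w₂ := w) hw0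
  have h3 : w'.ord (algebraMap F L x) = w.ord (algebraMap F L x) := by
    rw [← hg]
    have := Place.ord_smul (φ g) w (algebraMap F L x)
    rwa [hfix g] at this
  rw [← h3, h2] at hw
  nlinarith

end Bound

section

variable (K : Type*) [Field K] [Algebra K ℂ] [IsAlgClosed K] (M : ℕ) [NeZero M]
variable (L : Type*) [Field L] [Algebra (modR K M) L] [IsFractionRing (modR K M) L]
  [Algebra K L] [IsScalarTower K (modR K M) L]
variable {N : ℕ} [NeZero N]
variable {F : Type*} [Field F] [Algebra K F]

include M L in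
theorem ord_j_sub_le_aux (hNM : N ∣ M) (ι : F →ₐ[K] L) (jF : F) (hj' : ι jF = jL K M L)
    (h1' : ∀ y ∈ IntermediateField.adjoin K (gensL K M L N), y ∈ Set.range ι) {a : K} {n : ℕ}
    (hn : 0 < n) {τ : ℍ} (hτ : ordAt (fun z => jH z - algebraMap K ℂ a) τ = (n : ℕ∞))
    (v : Place K F) : v.ord (jF - algebraMap K F a) ≤ n := by
  letI : Algebra F L := ι.toRingHom.toAlgebra
  haveI : IsScalarTower K F L := IsScalarTower.of_algebraMap_eq fun a => (ι.commutes a).symm
  have hj : algebraMap F L jF = jL K M L := hj'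
  have hF : ∀ y : L, (∀ g ∈ CongruenceSubgroup.Gamma0 N, phi K M L g y = y) →
      y ∈ Set.range (algebraMap F L) := by
    intro y hy
    exact h1' y (mem_adjoin_gensL K M L hNM hy)
  haveI : CharZero K := charZero_K K
  haveI : IsFnField K L := isFnField_L K M L
  haveI : Algebra.IsIntegral F L := isIntegral_of_invariants (phi K M L) _ hF
  have hjF : Transcendental K jF := by
    have h1 := transcendental_jL K M L
    rw [← hj] at h1
    exact (transcendental_algebraMap_iff (algebraMap F L).injective).mp h1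
  haveI : IsFnField K F := isFnField_of_isIntegral hjF (L := L)
  have hja : algebraMap F L (jF - algebraMap K F a) = jL K M L - algebraMap K L a := by
    rw [map_sub, hj, ← IsScalarTower.algebraMap_apply]
  obtain ⟨w, -, hw1, hw2⟩ := exists_place_pt K M L hn hτ
  rw [← hja] at hw1 hw2
  refine ord_le_of_mem_zeros (phi K M L) ?_ ?_ ?_ hw1 hw2 v
  · rw [hja]
    exact transcendental_sub (transcendental_jL K M L) a
  · intro g
    rw [hja, map_sub, phi_jL, AlgEquiv.commutes]
  · intro y hy
    rw [hja, adjoin_simple_sub]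
    exact mem_adjoin_jL K M L hy

end

section

variable (K : Type*) [Field K] [Algebra K ℂ] [IsAlgClosed K] [Algebra ℚ K]
variable (N : ℕ) [NeZero N]

theorem ord_j_sub_le' {a : K} {n : ℕ}
    (hn : 0 < n) {τ : ℍ} (hτ : ordAt (fun z => jH z - algebraMap K ℂ a) τ = (n : ℕ∞))
    (v : Place K (laurentBaseChange K (modularFunctionFieldFull N))) :
    v.ord ((⟨jqModC K, jqModC_mem_laurentBaseChange K N⟩ :
        laurentBaseChange K (modularFunctionFieldFull N)) - algebraMap K _ a) ≤ n := by
  obtain ⟨e, he⟩ := exists_embedding K N (FractionRing (modR K N)) N dvd_rfl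
  refine ord_j_sub_le_aux K N (FractionRing (modR K N)) (N := N) dvd_rfl
    ((IntermediateField.adjoin K (gensL K N (FractionRing (modR K N)) N)).val.comp
      e.toAlgHom) ⟨jqModC K, jqModC_mem_laurentBaseChange K N⟩ ?_ ?_ hn hτ v
  · apply (qexpL K N (FractionRing (modR K N))).toRingHom.injective
    exact (he _).trans (qexpL_jL K N _).symm
  · intro y hy
    exact ⟨e.symm ⟨y, hy⟩, congrArg Subtype.val (e.apply_symm_apply ⟨y, hy⟩)⟩

/-- `j` is unramified outside `0`, `1728`, `∞`. -/
theorem ord_j_sub_le_one {a : K} (ha : a ≠ 0) (ha' : a ≠ 1728)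
    (v : Place K (laurentBaseChange K (modularFunctionFieldFull N))) :
    v.ord ((⟨jqModC K, jqModC_mem_laurentBaseChange K N⟩ :
        laurentBaseChange K (modularFunctionFieldFull N)) - algebraMap K _ a) ≤ 1 := by
  obtain ⟨τ, -, hτ⟩ := exists_jH_eq (a := algebraMap K ℂ a) (by simpa using ha) (by
    intro h
    apply ha'
    apply (algebraMap K ℂ).injective
    rw [h]
    exact (map_ofNat (algebraMap K ℂ) 1728).symm)
  have := ord_j_sub_le' K N (a := a) one_pos (by rw [hτ]; rfl) v
  exact_mod_cast this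

theorem ord_j_le_three (v : Place K (laurentBaseChange K (modularFunctionFieldFull N))) :
    v.ord (⟨jqModC K, jqModC_mem_laurentBaseChange K N⟩ :
        laurentBaseChange K (modularFunctionFieldFull N)) ≤ 3 := by
  have h1 : ordAt (fun z => jH z - algebraMap K ℂ 0) rhoH = ((3 : ℕ) : ℕ∞) := by
    simp only [map_zero, sub_zero]
    rw [ordAt_jH_of_eq_zero jH_rhoH]
    rfl
  have := ord_j_sub_le' K N (a := 0) (by norm_num) h1 v
  rw [map_zero, sub_zero] at this
  exact_mod_cast this

theorem ord_j_sub_1728_le_two (v : Place K (laurentBaseChange K (modularFunctionFieldFull N))) :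
    v.ord ((⟨jqModC K, jqModC_mem_laurentBaseChange K N⟩ :
        laurentBaseChange K (modularFunctionFieldFull N)) - algebraMap K _ 1728) ≤ 2 := by
  have h1 : ordAt (fun z => jH z - algebraMap K ℂ 1728) UpperHalfPlane.I = ((2 : ℕ) : ℕ∞) := by
    have h2 : algebraMap K ℂ 1728 = 1728 := map_ofNat (algebraMap K ℂ) 1728
    rw [h2, ordAt_jH_sub_1728 jH_I]
    rfl
  have := ord_j_sub_le' K N (a := 1728) (by norm_num) h1 v
  exact_mod_cast this

end

end Fermat.Agent.Red
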