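import Fermat.Agent.Red.GaussRes
import Fermat.Agent.Red.JRam
import Fermat.Agent.RedQ.Field
import Fermat.Prelude.Def_ModularCurve_ReductionModL

/-!
# The reduction of `X₀(N)` modulo `ℓ ∤ N` as a constant reduction
-/

set_option autoImplicit false
set_option linter.unusedSectionVars false
set_option linter.style.haveILetI false
set_option linter.unusedVariables false

noncomputable section

open AlgebraicCurve IntermediateField ModularCurve Module

namespace Fermat.Agent.Red

/-- the function field of `X₀(N)` over an algebraic extension of `ℚ` carries a Gauss valuation. -/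
theorem gaussField_laurentBaseChange {L k : Type*} [Field L] [Algebra ℚ L]
    [Algebra.IsAlgebraic ℚ L] [Field k] {A : ValuationSubring L} (π : A →+* k) {ℓ : ℕ}
    (hℓ : ℓ.Prime) (hA : A.LiesOverPrime ℓ) (N : ℕ) :
    GaussField π (laurentBaseChange L (modularFunctionFieldFull N)) := by
  rw [S24Lib.laurentBaseChange_eq]
  apply gaussField_adjoin hℓ hA
  rintro g ⟨d, hd, hdN, rfl⟩
  exact ⟨qExpand ℤ d (jqModC ℤ), by rw [coeffMap_qExpand, coeffMap_jqModC]⟩

theorem jqModC_d_mem {L : Type*} [Field L] [Algebra ℚ L] {N d : ℕ} [NeZero d] (h : d ∣ N) :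
    qExpand L d (jqModC L) ∈ laurentBaseChange L (modularFunctionFieldFull N) := by
  rw [S24Lib.laurentBaseChange_eq]
  exact IntermediateField.subset_adjoin _ _ ⟨d, inferInstance, h, rfl⟩

theorem gRed_jqd {L k : Type*} [Field L] [Field k] {A : ValuationSubring L} (π : A →+* k)
    (d : ℕ) [NeZero d] : GRed π (qExpand L d (jqModC L)) (qExpand k d (jqModC k)) := by
  have h := gRed_iota π (qExpand A d (jqModC A))
  rwa [iotaA, rhoA, coeffMap_qExpand, coeffMap_qExpand, coeffMap_jqModC, coeffMap_jqModC] at h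

theorem gRed_jq {L k : Type*} [Field L] [Field k] {A : ValuationSubring L} (π : A →+* k) :
    GRed π (jqModC L) (jqModC k) := by
  have h := gRed_iota π (jqModC A)
  rwa [iotaA, rhoA, coeffMap_jqModC, coeffMap_jqModC] at h

theorem fullC_le_gaussRes {L k : Type*} [Field L] [Algebra ℚ L] [Field k]
    {A : ValuationSubring L} (π : A →+* k) (hs : Function.Surjective π) (N : ℕ) :
    modularFunctionFieldFullC k N ≤
      gaussRes π (laurentBaseChange L (modularFunctionFieldFull N)) hs := by
  rw [modularFunctionFieldFullC, IntermediateField.adjoin_le_iff]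
  rintro _ ⟨d, hd, hdN, rfl⟩
  exact ⟨_, jqModC_d_mem hdN, gRed_jqd π d⟩

theorem transcendental_jqModC (k : Type*) [Field k] : Transcendental k (jqModC k) := by
  rintro ⟨p, hp, h⟩
  have h1 := congrArg (fun f : LaurentSeries k => f.coeff (-(p.natDegree : ℤ))) h
  simp only [Polynomial.aeval_eq_sum_range, HahnSeries.coeff_sum, HahnSeries.coeff_zero] at h1
  rw [Finset.sum_range_succ, Finset.sum_eq_zero, zero_add] at h1
  · rw [Algebra.smul_def, algebraMap_eq_C, HahnSeries.C_mul_eq_smul, HahnSeries.coeff_smul,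
      coeff_jqModC_pow_self, smul_eq_mul, mul_one] at h1
    exact hp (Polynomial.leadingCoeff_eq_zero.1 h1)
  · intro i hi
    rw [Finset.mem_range] at hi
    rw [Algebra.smul_def, algebraMap_eq_C, HahnSeries.C_mul_eq_smul, HahnSeries.coeff_smul,
      coeff_jqModC_pow_of_lt _ (by omega), smul_zero]


section ResidueField

variable {L k : Type*} [Field L] [Field k] {A : ValuationSubring L} {π : A →+* k}

theorem isAlgClosed_of_surjective [IsAlgClosed L] (hs : Function.Surjective π) :
    IsAlgClosed k := by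
  apply IsAlgClosed.of_exists_root
  intro p hp hirr
  obtain ⟨q, hq, hqd, hqm⟩ := Polynomial.lifts_and_natDegree_eq_and_monic
    ((Polynomial.map_surjective π hs) p : p ∈ Polynomial.lifts π) hp
  have hd : (q.map A.subtype).degree ≠ 0 := by
    rw [Polynomial.degree_map_eq_of_injective Subtype.coe_injective,
      Polynomial.degree_eq_natDegree hqm.ne_zero, hqd]
    have := hirr.natDegree_pos
    simp only [ne_eq, Nat.cast_eq_zero]
    omega
  obtain ⟨a, ha⟩ := IsAlgClosed.exists_root _ hd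
  have haA : a ∈ A := by
    have h1 : IsIntegral A a := ⟨q, hqm, by
      have h2 : (q.map A.subtype).eval a = 0 := ha
      rwa [Polynomial.eval_map] at h2⟩
    obtain ⟨b, hb⟩ := (IsIntegrallyClosed.isIntegral_iff (R := A) (K := L)).1 h1
    rw [← hb]
    exact b.2
  refine ⟨π ⟨a, haA⟩, ?_⟩
  have h3 : q.eval (⟨a, haA⟩ : A) = 0 := by
    apply Subtype.ext
    have h2 : (q.map A.subtype).eval a = 0 := ha
    rw [Polynomial.eval_map] at h2
    have h4 := Polynomial.eval₂_at_apply (p := q) A.subtype (⟨a, haA⟩ : A)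
    exact h4.symm.trans h2
  rw [← hq, Polynomial.eval_map, Polynomial.eval₂_at_apply, h3, map_zero]

theorem charP_of_liesOverPrime {ℓ : ℕ} [hℓ : Fact ℓ.Prime] (hA : A.LiesOverPrime ℓ)
    (hπ : ∀ a : A, π a = 0 ↔ ¬ IsUnit a) : CharP k ℓ := by
  rw [CharP.charP_iff_prime_eq_zero hℓ.out]
  have h1 : π (ℓ : A) = 0 := by
    rw [hπ]
    intro hu
    have h2 : ((ℓ : A) : L) ∈ A.nonunits := by
      have : ((ℓ : A) : L) = (ℓ : L) := by simp
      rw [this]
      exact hA
    rw [ValuationSubring.coe_mem_nonunits_iff] at h2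
    exact (IsLocalRing.mem_maximalIdeal _).1 h2 hu
  rwa [map_natCast] at h1

end ResidueField

section XZero

variable {k : Type*} [Field k] {A : ValuationSubring (AlgebraicClosure ℚ)} {π : A →+* k}
  {ℓ : ℕ} [hℓ : Fact ℓ.Prime] (N : ℕ) [NeZero N]

theorem jqModC_mem_bar : jqModC (AlgebraicClosure ℚ) ∈ modularFunctionFieldBar N := by
  have := jqModC_d_mem (L := AlgebraicClosure ℚ) (one_dvd N)
  rwa [qExpand_one_apply] at this

/-- the function `j` on `X₀(N)` -/
def jB : modularFunctionFieldBar N := ⟨jqModC _, jqModC_mem_bar N⟩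

theorem coe_jB : (jB N : LaurentSeries (AlgebraicClosure ℚ)) = jqModC _ := rfl

theorem bar_eq : modularFunctionFieldBar N = modularFunctionFieldFullC (AlgebraicClosure ℚ) N :=
  S24Lib.laurentBaseChange_eq _ N

theorem finrank_jB : finrank (AlgebraicClosure ℚ)⟮jB N⟯ (modularFunctionFieldBar N) =
    dedekindPsi N := by
  rw [finrank_adjoin_sub, coe_jB, bar_eq, ← RedQ.finrank_charZero N (AlgebraicClosure ℚ),
    finrank_adjoin_sub]
  rfl

theorem dedekindPsi_pos : 0 < dedekindPsi N := by
  rw [← RedQ.card_Cos N]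
  exact Fintype.card_pos

theorem finiteDimensional_jB :
    FiniteDimensional (AlgebraicClosure ℚ)⟮jB N⟯ (modularFunctionFieldBar N) := by
  apply FiniteDimensional.of_finrank_pos
  rw [finrank_jB]
  exact dedekindPsi_pos N

theorem gRed_jB : GRed π (jB N : LaurentSeries (AlgebraicClosure ℚ)) (RedQ.xj k N) :=
  gRed_jq π

theorem gaussRes_bar (hA : A.LiesOverPrime ℓ) (hπ : ∀ a : A, π a = 0 ↔ ¬ IsUnit a)
    (hs : Function.Surjective π) (hN : ¬ ℓ ∣ N) :
    gaussRes π (modularFunctionFieldBar N) hs = modularFunctionFieldFullC k N := by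
  haveI := charP_of_liesOverPrime hA hπ
  haveI := finiteDimensional_jB N
  refine gaussRes_eq (gaussField_laurentBaseChange π hℓ.out hA N) hπ hs
    (fullC_le_gaussRes π hs N) (x := jB N) (xb := RedQ.xj k N) (gRed_jB N)
    (transcendental_jqModC k) ?_
  rw [finrank_jB, RedQ.finrank_charP N k ℓ hN]

/-- **The reduction of `X₀(N)` modulo `ℓ ∤ N`** as a constant reduction. -/
def redX (hA : A.LiesOverPrime ℓ) (hπ : ∀ a : A, π a = 0 ↔ ¬ IsUnit a)
    (hs : Function.Surjective π) (hN : ¬ ℓ ∣ N) :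
    ConstRed A π (modularFunctionFieldBar N) (modularFunctionFieldFullC k N) :=
  gaussConstRed (gaussField_laurentBaseChange π hℓ.out hA N) hπ _
    (fun f z hf h => by rw [← gaussRes_bar N hA hπ hs hN]; exact ⟨f, hf, h⟩)
    (fun z hz => fullC_le_gaussRes π hs N hz)

variable {N}

theorem isRed_redX {hA : A.LiesOverPrime ℓ} {hπ : ∀ a : A, π a = 0 ↔ ¬ IsUnit a}
    {hs : Function.Surjective π} {hN : ¬ ℓ ∣ N} {f : modularFunctionFieldBar N}
    {z : modularFunctionFieldFullC k N} :
    (redX N hA hπ hs hN).IsRed f z ↔ GRed π (f : LaurentSeries (AlgebraicClosure ℚ)) z :=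
  gaussConstRed_isRed

/-- integral series are reduced coefficientwise -/
theorem isRed_coeffMap {hA : A.LiesOverPrime ℓ} {hπ : ∀ a : A, π a = 0 ↔ ¬ IsUnit a}
    {hs : Function.Surjective π} {hN : ¬ ℓ ∣ N} (y : LaurentSeries A)
    (hy : coeffMap A.subtype y ∈ modularFunctionFieldBar N)
    (hyk : coeffMap π y ∈ modularFunctionFieldFullC k N) :
    (redX N hA hπ hs hN).IsRed ⟨coeffMap A.subtype y, hy⟩ ⟨coeffMap π y, hyk⟩ :=
  isRed_redX.2 (gRed_iota π y)

theorem isCoord_jB (hA : A.LiesOverPrime ℓ) (hπ : ∀ a : A, π a = 0 ↔ ¬ IsUnit a)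
    (hs : Function.Surjective π) (hN : ¬ ℓ ∣ N) :
    GoodRed.IsCoord (redX N hA hπ hs hN) (jB N) (RedQ.xj k N) := by
  haveI := charP_of_liesOverPrime hA hπ
  exact
  { isRed := isRed_redX.2 (gRed_jB N)
    trans := RedQ.transcendental_xj k N
    finite := finiteDimensional_jB N
    finite' := RedQ.finiteDimensional_charP N k ℓ hN
    finrank_eq := by rw [finrank_jB, RedQ.finrank_charP N k ℓ hN] }

/-- the coordinate `j` is good for `ℓ ≥ 5`. -/
theorem goodCoord_jB (hA : A.LiesOverPrime ℓ) (hπ : ∀ a : A, π a = 0 ↔ ¬ IsUnit a)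
    (hs : Function.Surjective π) (hN : ¬ ℓ ∣ N) (h2 : ℓ ≠ 2) (h3 : ℓ ≠ 3) :
    GoodRed.GoodCoord (redX N hA hπ hs hN) (jB N) (RedQ.xj k N) {(1728 : A)} := by
  haveI hch := charP_of_liesOverPrime hA hπ
  exact
  { toIsCoord := isCoord_jB hA hπ hs hN
    sep := RedQ.isSeparable_charP N k ℓ hN
    inj := by simp
    unit := by
      intro b hb
      rw [Finset.mem_singleton] at hb
      subst hb
      have h4 : π 1728 = ((1728 : ℕ) : k) := by
        rw [← map_natCast π]
        rfl
      rw [h4, Ne, CharP.cast_eq_zero_iff k ℓ]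
      intro h5
      have h6 : (1728 : ℕ) = 2 ^ 6 * 3 ^ 3 := by norm_num
      rw [h6, hℓ.out.dvd_mul] at h5
      rcases h5 with h5 | h5
      · exact h2 ((Nat.prime_dvd_prime_iff_eq hℓ.out Nat.prime_two).1 (hℓ.out.dvd_of_dvd_pow h5))
      · exact h3 ((Nat.prime_dvd_prime_iff_eq hℓ.out Nat.prime_three).1
          (hℓ.out.dvd_of_dvd_pow h5))
    unram := by
      intro P a ha hb
      letI : Algebra (AlgebraicClosure ℚ) ℂ :=
        (IsAlgClosed.lift (R := ℚ) (S := AlgebraicClosure ℚ) (M := ℂ)).toRingHom.toAlgebra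
      refine ord_j_sub_le_one (AlgebraicClosure ℚ) N ha ?_ P
      intro h
      apply hb 1728 (Finset.mem_singleton_self _)
      rw [h]
      rfl }

end XZero

end Fermat.Agent.Red
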