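import Fermat.Agent.Red.ChartDesc
import Fermat.Agent.Red.Level

/-!
# Charts of `X₀(N)` at every `ℓ ∤ N`
-/

set_option autoImplicit false
set_option linter.unusedSectionVars false
set_option linter.style.haveILetI false
set_option linter.unusedVariables false

noncomputable section

open AlgebraicCurve IntermediateField Module ModularCurve

namespace Fermat.Agent.Red

open Fermat.Agent.FF

section Along

variable {k Fk Fk' : Type*} [Field k] [Field Fk] [Algebra k Fk] [Field Fk'] [Algebra k Fk']

/-- separability of the top of a tower -/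
theorem isSeparable_along (φk : Fk →ₐ[k] Fk') (xb : Fk)
    (hsep : Algebra.IsSeparable k⟮φk xb⟯ Fk') :
    letI := algebraAlong φk; Algebra.IsSeparable Fk Fk' := by
  letI := algebraAlong φk
  haveI := isScalarTower_along φk
  have hle : ∀ c : k⟮φk xb⟯, (c : Fk') ∈ φk.fieldRange := by
    intro c
    have h1 : k⟮φk xb⟯ ≤ φk.fieldRange := by
      rw [IntermediateField.adjoin_simple_le_iff]
      exact ⟨xb, rfl⟩
    exact h1 c.2
  choose e he using hle
  let e' : k⟮φk xb⟯ →+* Fk :=
    { toFun := e
      map_one' := φk.injective (by rw [he]; simp)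
      map_mul' := fun a b => φk.injective (by rw [map_mul, he, he, he]; rfl)
      map_zero' := φk.injective (by rw [he]; simp)
      map_add' := fun a b => φk.injective (by rw [map_add, he, he, he]; rfl) }
  letI : Algebra k⟮φk xb⟯ Fk := e'.toAlgebra
  haveI : IsScalarTower k⟮φk xb⟯ Fk Fk' :=
    IsScalarTower.of_algebraMap_eq fun c => (he c).symm
  exact Algebra.isSeparable_tower_top_of_isSeparable k⟮φk xb⟯ Fk Fk'

variable {K : Type*} [Field K] {A : ValuationSubring K} {π : A →+* k}
  {F F' : Type*} [Field F] [Algebra K F] [Field F'] [Algebra K F']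
  {R : ConstRed A π F Fk} {R' : ConstRed A π F' Fk'}
  [IsAlgClosed K] [CharZero K] [IsFnField K F] [IsAlgClosed k] [IsFnField k Fk]
  [IsFnField K F'] [IsFnField k Fk']

theorem chart_of_along (φ : F →ₐ[K] F') (φk : Fk →ₐ[k] Fk')
    (hcomp : ∀ f z, R.IsRed f z → R'.IsRed (φ f) (φk z))
    (hdeg : finrankAlong K φ = finrankAlong k φk) (hπ : Function.Surjective π) {x : F} {xb : Fk}
    (hc : IsCoord R x xb) (hsepk : Algebra.IsSeparable k⟮xb⟯ Fk)
    (hC : Chart R' (φ x) (φk xb)) : Chart R x xb := by
  letI := algebraAlong φ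
  haveI := isScalarTower_along φ
  letI := algebraAlong φk
  haveI := isScalarTower_along φk
  haveI : Module.Finite F F' := JZ.finiteAlong φ
  haveI : Module.Finite Fk Fk' := JZ.finiteAlong φk
  haveI : CharZero F := charZero_of_injective_algebraMap (algebraMap K F).injective
  haveI : Algebra.IsSeparable F F' := inferInstance
  haveI : Algebra.IsSeparable Fk Fk' := isSeparable_along φk xb hC.sepk
  haveI := hc.finiteDimensional
  haveI : CharZero K⟮x⟯ := charZero_of_injective_algebraMap (algebraMap K K⟮x⟯).injective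
  have hcomp' : Compat R R' := hcomp
  exact hcomp'.chart hdeg hπ hc inferInstance hsepk hC

end Along

section Level

variable {N : ℕ} [NeZero N] {ℓ : ℕ} [hℓ : Fact ℓ.Prime]
  {A : ValuationSubring (AlgebraicClosure ℚ)} {k : Type*} [Field k] {π : A →+* k}

theorem relfinrank_bar {M : ℕ} [NeZero M] (hNM : N ∣ M) :
    dedekindPsi N * (modularFunctionFieldBar N).relfinrank (modularFunctionFieldBar M) =
      dedekindPsi M := by
  have hle : modularFunctionFieldBar N ≤ modularFunctionFieldBar M := JZ.FN_mono hNM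
  rw [← finrank_jB N, ← finrank_jB M, finrank_adjoin_sub, finrank_adjoin_sub, coe_jB, coe_jB]
  exact IntermediateField.relfinrank_mul_relfinrank
    (adjoin_simple_le_of_mem (jqModC_mem_bar N)) hle

theorem relfinrank_fullC {M : ℕ} [NeZero M] (hNM : N ∣ M) [CharP k ℓ] (hN : ¬ ℓ ∣ N)
    (hM : ¬ ℓ ∣ M) :
    dedekindPsi N *
      (modularFunctionFieldFullC k N).relfinrank (modularFunctionFieldFullC k M) =
      dedekindPsi M := by
  rw [← RedQ.finrank_charP N k ℓ hN, ← RedQ.finrank_charP M k ℓ hM, finrank_adjoin_sub,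
    finrank_adjoin_sub]
  exact IntermediateField.relfinrank_mul_relfinrank
    (adjoin_simple_le_of_mem (RedQ.xj k N).2) (full_degeneracyC_le _ hNM)

/-- the degree of `X₀(M) → X₀(N)` is the same in characteristic `ℓ`. -/
theorem finrankAlong_inclusion_eq {M : ℕ} [NeZero M] (hNM : N ∣ M) [CharP k ℓ] (hN : ¬ ℓ ∣ N)
    (hM : ¬ ℓ ∣ M) (hle : modularFunctionFieldBar N ≤ modularFunctionFieldBar M)
    (hlek : modularFunctionFieldFullC k N ≤ modularFunctionFieldFullC k M) :
    finrankAlong (AlgebraicClosure ℚ) (IntermediateField.inclusion hle) =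
      finrankAlong k (IntermediateField.inclusion hlek) := by
  rw [JZ.finrankAlong_inclusion, JZ.finrankAlong_inclusion]
  have h1 := relfinrank_bar (N := N) hNM
  have h2 := relfinrank_fullC (k := k) hNM hN hM
  exact Nat.eq_of_mul_eq_mul_left (dedekindPsi_pos N) (h1.trans h2.symm)

/-- an auxiliary level with a good coordinate -/
theorem exists_aux_level (hN : ¬ ℓ ∣ N) : ∃ (M : ℕ) (_ : NeZero M), N ∣ M ∧ ¬ ℓ ∣ M ∧
    (ℓ = 2 → 3 ∣ M) ∧ (ℓ = 3 → 2 ∣ M) := by
  by_cases hl2 : ℓ = 2
  · subst hl2
    exact ⟨N * 3, inferInstance, dvd_mul_right N 3, by omega, fun _ => dvd_mul_left 3 N,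
      by norm_num⟩
  by_cases hl3 : ℓ = 3
  · subst hl3
    exact ⟨N * 2, inferInstance, dvd_mul_right N 2, by omega, by norm_num,
      fun _ => dvd_mul_left 2 N⟩
  exact ⟨N, inferInstance, dvd_rfl, hN, fun h => absurd h hl2, fun h => absurd h hl3⟩

variable (hA : A.LiesOverPrime ℓ)
  (hπ : ∀ a : A, π a = 0 ↔ ¬ IsUnit a) (hs : Function.Surjective π) (hN : ¬ ℓ ∣ N)

include hA hπ hs hN in
theorem genus_of_goodLevel (h2 : ℓ = 2 → 3 ∣ N) (h3 : ℓ = 3 → 2 ∣ N) :
    genusFF (AlgebraicClosure ℚ) (modularFunctionFieldBar N) =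
      genusFF k (modularFunctionFieldFullC k N) := by
  haveI hch : CharP k ℓ := charP_of_liesOverPrime hA hπ
  haveI : IsAlgClosed k := isAlgClosed_of_surjective hs
  haveI := isFnField_bar N
  haveI := isFnField_fullC (k := k) N ℓ hN
  obtain ⟨x, xb, B, hc⟩ := exists_goodCoord hA hπ hs hN h2 h3
  exact genusFF_eq_of_goodCoord hc hs

theorem isRed_inclusion {M : ℕ} [NeZero M] (hM : ¬ ℓ ∣ M)
    (hle : modularFunctionFieldBar N ≤ modularFunctionFieldBar M)
    (hlek : modularFunctionFieldFullC k N ≤ modularFunctionFieldFullC k M)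
    {f : modularFunctionFieldBar N} {z : modularFunctionFieldFullC k N}
    (h : (redX N hA hπ hs hN).IsRed f z) :
    (redX M hA hπ hs hM).IsRed (IntermediateField.inclusion hle f)
      (IntermediateField.inclusion hlek z) := by
  have h' := isRed_redX.1 h
  rw [isRed_redX, IntermediateField.coe_inclusion, IntermediateField.coe_inclusion]
  exact h'

/-- **The chart of `j` on `X₀(N)`**, for every `ℓ ∤ N`. -/
theorem chart_jB [IsAlgClosed k] [IsFnField k (modularFunctionFieldFullC k N)]
    [IsFnField (AlgebraicClosure ℚ) (modularFunctionFieldBar N)] :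
    Chart (redX N hA hπ hs hN) (jB N) (RedQ.xj k N) := by
  haveI hch : CharP k ℓ := charP_of_liesOverPrime hA hπ
  obtain ⟨M, _, hNM, hM, h2, h3⟩ := exists_aux_level hN
  haveI := isFnField_bar M
  haveI := isFnField_fullC (k := k) M ℓ hM
  have hle : modularFunctionFieldBar N ≤ modularFunctionFieldBar M := JZ.FN_mono hNM
  have hlek : modularFunctionFieldFullC k N ≤ modularFunctionFieldFullC k M :=
    full_degeneracyC_le _ hNM
  have hC := chart_of_genus (isCoord_jB hA hπ hs hM) (RedQ.isSeparable_charP M k ℓ hM) hs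
    (genus_of_goodLevel hA hπ hs hM h2 h3)
  exact chart_of_along (IntermediateField.inclusion hle) (IntermediateField.inclusion hlek)
    (fun f z h => isRed_inclusion hA hπ hs hN hM hle hlek h)
    (finrankAlong_inclusion_eq hNM hN hM hle hlek) hs
    (isCoord_of_isCoord (isCoord_jB hA hπ hs hN)) (RedQ.isSeparable_charP N k ℓ hN) hC

/-- **The chart of `j⁻¹` on `X₀(N)`**, for every `ℓ ∤ N`. -/
theorem chart_jB_inv [IsAlgClosed k] [IsFnField k (modularFunctionFieldFullC k N)]
    [IsFnField (AlgebraicClosure ℚ) (modularFunctionFieldBar N)] :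
    Chart (redX N hA hπ hs hN) (jB N)⁻¹ (RedQ.xj k N)⁻¹ := by
  haveI hch : CharP k ℓ := charP_of_liesOverPrime hA hπ
  obtain ⟨M, _, hNM, hM, h2, h3⟩ := exists_aux_level hN
  haveI := isFnField_bar M
  haveI := isFnField_fullC (k := k) M ℓ hM
  have hle : modularFunctionFieldBar N ≤ modularFunctionFieldBar M := JZ.FN_mono hNM
  have hlek : modularFunctionFieldFullC k N ≤ modularFunctionFieldFullC k M :=
    full_degeneracyC_le _ hNM
  have hC := chart_inv_of_genus (isCoord_jB hA hπ hs hM) (RedQ.isSeparable_charP M k ℓ hM) hs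
    (genus_of_goodLevel hA hπ hs hM h2 h3)
  refine chart_of_along (IntermediateField.inclusion hle) (IntermediateField.inclusion hlek)
    (fun f z h => isRed_inclusion hA hπ hs hN hM hle hlek h)
    (finrankAlong_inclusion_eq hNM hN hM hle hlek) hs
    (isCoord_of_isCoord (isCoord_jB hA hπ hs hN)).inv ?_ ?_
  · rw [RR.adjoin_simple_inv' (K := k) (RedQ.xj k N)]
    exact RedQ.isSeparable_charP N k ℓ hN
  · rw [map_inv₀, map_inv₀]
    exact hC

/-- **The specialisation of the places of `X₀(N)` modulo `ℓ ∤ N`.** -/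
def specX [IsAlgClosed k] [IsFnField k (modularFunctionFieldFullC k N)]
    [IsFnField (AlgebraicClosure ℚ) (modularFunctionFieldBar N)] :
    Spec (redX N hA hπ hs hN) :=
  specOf (chart_jB hA hπ hs hN) (chart_jB_inv hA hπ hs hN) hs

end Level

end Fermat.Agent.Red
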