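import Fermat.Agent.Red.Lattice
import Mathlib.LinearAlgebra.Matrix.Charpoly.Basic
import Mathlib.RingTheory.Norm.Basic

/-!
# Compatible constant reductions of an extension of function fields
-/

set_option autoImplicit false
set_option linter.unusedSectionVars false
set_option linter.style.haveILetI false
set_option linter.unusedVariables false

open AlgebraicCurve

namespace Fermat.Agent.Red

variable {K k : Type*} [Field K] [Field k] {A : ValuationSubring K} {π : A →+* k}
  {F Fk F' Fk' : Type*} [Field F] [Algebra K F] [Field Fk] [Algebra k Fk]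
  [Field F'] [Algebra K F'] [Field Fk'] [Algebra k Fk']
  [Algebra F F'] [IsScalarTower K F F'] [Algebra Fk Fk'] [IsScalarTower k Fk Fk']
  {R : ConstRed A π F Fk} {R' : ConstRed A π F' Fk'}

/-- compatibility of constant reductions with extensions -/
def Compat (R : ConstRed A π F Fk) (R' : ConstRed A π F' Fk') : Prop :=
  ∀ (f : F) (z : Fk), R.IsRed f z → R'.IsRed (algebraMap F F' f) (algebraMap Fk Fk' z)

variable (h : Compat R R')

include h

theorem Compat.mem_iff {f : F} : algebraMap F F' f ∈ R'.O ↔ f ∈ R.O := by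
  constructor
  · intro hf
    by_contra hcon
    have hf0 : f ≠ 0 := by rintro rfl; exact hcon R.O.zero_mem
    have hinv : f⁻¹ ∈ R.O := (R.O.mem_or_inv_mem f).resolve_left hcon
    have h1 : R.red ⟨f⁻¹, hinv⟩ = 0 := by
      rw [R.red_eq_zero_iff]
      intro hu
      obtain ⟨b, hb⟩ := hu.exists_right_inv
      have hb' : f⁻¹ * (b : F) = 1 := congrArg Subtype.val hb
      have : (b : F) = f := by field_simp at hb'; exact hb'
      exact hcon (this ▸ b.2)
    have h2 : R.IsRed f⁻¹ 0 := ⟨hinv, h1⟩
    have h3 := h _ _ h2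
    rw [map_zero, map_inv₀] at h3
    have h4 : (algebraMap F F' f)⁻¹ ≠ 0 := inv_ne_zero (by simpa using hf0)
    have h5 := h3.inv_notMem h4
    rw [inv_inv] at h5
    exact h5 hf
  · intro hf
    obtain ⟨z, hz⟩ := R.exists_isRed_of_mem hf
    exact (h f z hz).mem

theorem Compat.isRed_iff {f : F} {z : Fk} :
    R'.IsRed (algebraMap F F' f) (algebraMap Fk Fk' z) ↔ R.IsRed f z := by
  constructor
  · intro hf
    obtain ⟨w, hw⟩ := R.exists_isRed_of_mem (h.mem_iff.1 hf.mem)
    have h1 := (h f w hw).unique hf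
    have h2 : w = z := (algebraMap Fk Fk').injective h1
    rwa [h2] at hw
  · exact h f z

/-- the constant reduction of `F' / F` -/
def relRed : ConstRed R.O R.red F' Fk' where
  O := R'.O
  algebraMap_mem_iff _ := h.mem_iff
  red := R'.red
  red_surjective := R'.red_surjective
  red_eq_zero_iff := R'.red_eq_zero_iff
  red_algebraMap a := by
    obtain ⟨h1, h2⟩ := h a (R.red a) ⟨a.2, rfl⟩
    exact h2
  exists_scale f hf := by
    obtain ⟨c, hc, h1, h2⟩ := R'.exists_scale f hf
    refine ⟨algebraMap K F c, by simpa using hc, ?_, ?_⟩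
    · rwa [← IsScalarTower.algebraMap_apply]
    · rwa [← IsScalarTower.algebraMap_apply]

theorem relRed_isRed {f : F'} {z : Fk'} : (relRed h).IsRed f z ↔ R'.IsRed f z := Iff.rfl

theorem Compat.exists_matrix [FiniteDimensional F F'] [FiniteDimensional Fk Fk']
    (hdeg : Module.finrank F F' = Module.finrank Fk Fk') :
    ∃ (n : ℕ) (w : Module.Basis (Fin n) F F') (wb : Module.Basis (Fin n) Fk Fk'),
      ∀ (f : F') (z : Fk'), R'.IsRed f z → ∃ M : Matrix (Fin n) (Fin n) R.O,
        Algebra.leftMulMatrix w f = M.map R.O.subtype ∧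
        Algebra.leftMulMatrix wb z = M.map R.red := by
  classical
  let wb := Module.finBasis Fk Fk'
  choose y hy using fun i => R'.exists_isRed (wb i)
  have horth : Orth (relRed h) y wb := ⟨hy, wb.linearIndependent⟩
  have hli := horth.linearIndependent
  let w : Module.Basis (Fin (Module.finrank Fk Fk')) F F' :=
    basisOfLinearIndependentOfCardEqFinrank' y hli (by simp [hdeg])
  have hwy : ∀ i, w i = y i := fun i => by simp [w]
  refine ⟨_, w, wb, fun f z hfz => ?_⟩
  have hsum : ∀ j, ∑ i, algebraMap F F' (Algebra.leftMulMatrix w f i j) * y i = f * y j := by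
    intro j
    have h1 := w.sum_repr (f * w j)
    rw [hwy] at h1
    rw [← h1]
    refine Finset.sum_congr rfl fun i _ => ?_
    rw [Algebra.leftMulMatrix_eq_repr_mul, Algebra.smul_def, hwy, hwy]
  have hmem : ∀ i j, Algebra.leftMulMatrix w f i j ∈ R.O := by
    intro i j
    refine horth.mem_of_sum_mem Finset.univ (fun i => Algebra.leftMulMatrix w f i j) ?_ i
      (Finset.mem_univ i)
    rw [hsum]
    exact (hfz.mul (hy j)).mem
  refine ⟨fun i j => ⟨_, hmem i j⟩, rfl, ?_⟩
  ext i j
  have h1 := horth.isRed_sum Finset.univ (fun i => (⟨_, hmem i j⟩ : R.O))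
  have h2 : ∑ i, algebraMap F F' ((⟨_, hmem i j⟩ : R.O) : F) * y i = f * y j :=
    hsum j
  rw [h2] at h1
  have h3 := ((relRed_isRed h).1 h1).unique (hfz.mul (hy j))
  have h4 : wb.repr (z * wb j) i = R.red ⟨_, hmem i j⟩ := by
    rw [← h3]
    have h5 : ∑ i, algebraMap Fk Fk' (R.red ⟨_, hmem i j⟩) * wb i =
        ∑ i, (R.red ⟨_, hmem i j⟩) • wb i :=
      Finset.sum_congr rfl fun i _ => (Algebra.smul_def _ _).symm
    rw [h5, wb.repr_sum_self]
  rw [Algebra.leftMulMatrix_eq_repr_mul, h4]
  rfl

/-- **the norm of an extension reduces to the norm.** -/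
theorem Compat.isRed_norm [FiniteDimensional F F'] [FiniteDimensional Fk Fk']
    (hdeg : Module.finrank F F' = Module.finrank Fk Fk') {f : F'} {z : Fk'}
    (hf : R'.IsRed f z) : R.IsRed (Algebra.norm F f) (Algebra.norm Fk z) := by
  classical
  obtain ⟨n, w, wb, hM⟩ := h.exists_matrix hdeg
  obtain ⟨M, hM1, hM2⟩ := hM f z hf
  rw [Algebra.norm_eq_matrix_det w, Algebra.norm_eq_matrix_det wb, hM1, hM2]
  have h1 : (M.map R.O.subtype).det = R.O.subtype M.det := (R.O.subtype.map_det M).symm
  have h2 : (M.map R.red).det = R.red M.det := (R.red.map_det M).symm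
  rw [h1, h2]
  exact ⟨M.det.2, rfl⟩

end Fermat.Agent.Red
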