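import Fermat.Agent.Red.Torsion
import Mathlib.Algebra.Polynomial.Basis

/-!
# Orthonormal families for constant reductions
-/

set_option autoImplicit false
set_option linter.unusedSectionVars false
set_option linter.style.haveILetI false

open AlgebraicCurve IntermediateField
open scoped IntermediateField.algebraAdjoinAdjoin

namespace Fermat.Agent.Red

open Fermat.Agent.FF

variable {K k : Type*} [Field K] [Field k] {A : ValuationSubring K} {π : A →+* k}
  {F Fk : Type*} [Field F] [Algebra K F] [Field Fk] [Algebra k Fk]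

/-- In a nonempty finite family of elements of `K`, not all zero, there is one dividing
all the others. -/
theorem exists_max (A : ValuationSubring K) {ι : Type*} (s : Finset ι) (c : ι → K)
    (h : ∃ i ∈ s, c i ≠ 0) : ∃ i ∈ s, c i ≠ 0 ∧ ∀ j ∈ s, c j / c i ∈ A := by
  classical
  induction s using Finset.induction_on with
  | empty => simp at h
  | insert a s ha ih =>
    by_cases hs : ∃ i ∈ s, c i ≠ 0
    · obtain ⟨i, his, hi0, hi⟩ := ih hs
      by_cases hai : c a / c i ∈ A
      · refine ⟨i, Finset.mem_insert_of_mem his, hi0, fun j hj => ?_⟩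
        rw [Finset.mem_insert] at hj
        rcases hj with rfl | hj
        · exact hai
        · exact hi j hj
      · have ha0 : c a ≠ 0 := by
          intro h0; rw [h0, zero_div] at hai; exact hai A.zero_mem
        have hai' : c i / c a ∈ A := by
          have := (A.mem_or_inv_mem (c a / c i)).resolve_left hai
          rwa [inv_div] at this
        refine ⟨a, Finset.mem_insert_self _ _, ha0, fun j hj => ?_⟩
        rw [Finset.mem_insert] at hj
        rcases hj with rfl | hj
        · rw [div_self ha0]; exact A.one_mem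
        · have h1 := mul_mem (hi j hj) hai'
          rwa [div_mul_div_cancel₀ hi0] at h1
    · push Not at hs
      obtain ⟨i, hi, hi0⟩ := h
      rw [Finset.mem_insert] at hi
      rcases hi with rfl | hi
      · refine ⟨i, Finset.mem_insert_self _ _, hi0, fun j hj => ?_⟩
        rw [Finset.mem_insert] at hj
        rcases hj with rfl | hj
        · rw [div_self hi0]; exact A.one_mem
        · rw [hs j hj, zero_div]; exact A.zero_mem
      · exact absurd (hs i hi) hi0

/-- A family of elements of `O` whose reductions are linearly independent. -/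
structure Orth (R : ConstRed A π F Fk) {ι : Type*} (y : ι → F) (z : ι → Fk) : Prop where
  isRed : ∀ i, R.IsRed (y i) (z i)
  indep : LinearIndependent k z

namespace Orth

variable {R : ConstRed A π F Fk} {ι : Type*} {y : ι → F} {z : ι → Fk} (h : Orth R y z)

include h

theorem isRed_sum (s : Finset ι) (c : ι → A) :
    R.IsRed (∑ i ∈ s, algebraMap K F (c i) * y i) (∑ i ∈ s, algebraMap k Fk (π (c i)) * z i) :=
  ConstRed.isRed_sum s fun i _ => (R.isRed_coe (c i)).mul (h.isRed i)

theorem mem_of_sum_mem (s : Finset ι) (c : ι → K)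
    (hc : ∑ i ∈ s, algebraMap K F (c i) * y i ∈ R.O) : ∀ i ∈ s, c i ∈ A := by
  classical
  by_contra hne
  push Not at hne
  obtain ⟨j, hjs, hj⟩ := hne
  have hj0 : c j ≠ 0 := by intro h0; rw [h0] at hj; exact hj A.zero_mem
  obtain ⟨i, his, hi0, hi⟩ := exists_max A s c ⟨j, hjs, hj0⟩
  -- divide by the maximal coefficient
  have h1 := h.isRed_sum s (fun l => if hl : l ∈ s then ⟨c l / c i, hi l hl⟩ else 0)
  have h2 : ∑ l ∈ s, algebraMap K F (((if hl : l ∈ s then ⟨c l / c i, hi l hl⟩ else 0 : A) : K))
      * y l = (algebraMap K F (c i))⁻¹ * ∑ l ∈ s, algebraMap K F (c l) * y l := by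
    rw [Finset.mul_sum]
    refine Finset.sum_congr rfl fun l hl => ?_
    rw [dif_pos hl]
    change algebraMap K F (c l / c i) * y l = _
    rw [map_div₀]
    ring
  rw [h2] at h1
  have h3 : ∑ l ∈ s, algebraMap k Fk
      (π (if hl : l ∈ s then ⟨c l / c i, hi l hl⟩ else 0)) * z l ≠ 0 := by
    intro h4
    have h5 : ∑ l ∈ s, (π (if hl : l ∈ s then ⟨c l / c i, hi l hl⟩ else 0)) • z l = 0 := by
      rw [← h4]
      exact Finset.sum_congr rfl fun l _ => Algebra.smul_def _ _
    have h6 := linearIndependent_iff'.mp h.indep s _ h5 i his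
    rw [dif_pos his] at h6
    have h7 : (⟨c i / c i, hi i his⟩ : A) = 1 := Subtype.ext (div_self hi0)
    rw [h7, map_one] at h6
    exact one_ne_zero h6
  have h4 := (h1.inv h3).mem
  rw [mul_inv, inv_inv] at h4
  have h5 := mul_mem h4 hc
  rw [mul_assoc, inv_mul_cancel₀ (by
    intro h0
    rw [h0, mul_zero] at h1
    exact h3 (h1.unique R.isRed_zero)), mul_one, R.algebraMap_mem_iff] at h5
  apply hj
  have h6 := mul_mem (hi j hjs) h5
  rwa [div_mul_cancel₀ _ hi0] at h6

theorem linearIndependent : LinearIndependent K y := by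
  classical
  rw [linearIndependent_iff']
  intro s c hc j hjs
  by_contra hj0
  obtain ⟨i, his, hi0, hi⟩ := exists_max A s c ⟨j, hjs, hj0⟩
  have h1 := h.isRed_sum s (fun l => if hl : l ∈ s then ⟨c l / c i, hi l hl⟩ else 0)
  have h2 : ∑ l ∈ s, algebraMap K F (((if hl : l ∈ s then ⟨c l / c i, hi l hl⟩ else 0 : A) : K))
      * y l = 0 := by
    have h3 : ∑ l ∈ s, algebraMap K F (((if hl : l ∈ s then ⟨c l / c i, hi l hl⟩ else 0 : A) : K))
      * y l = (algebraMap K F (c i))⁻¹ * ∑ l ∈ s, c l • y l := by
      rw [Finset.mul_sum]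
      refine Finset.sum_congr rfl fun l hl => ?_
      rw [dif_pos hl, Algebra.smul_def]
      change algebraMap K F (c l / c i) * y l = _
      rw [map_div₀]
      ring
    rw [h3, hc, mul_zero]
  rw [h2] at h1
  have h3 := h1.unique R.isRed_zero
  have h5 : ∑ l ∈ s, (π (if hl : l ∈ s then ⟨c l / c i, hi l hl⟩ else 0)) • z l = 0 := by
    rw [← h3]
    exact Finset.sum_congr rfl fun l _ => Algebra.smul_def _ _
  have h6 := linearIndependent_iff'.mp h.indep s _ h5 i his
  rw [dif_pos his] at h6
  have h7 : (⟨c i / c i, hi i his⟩ : A) = 1 := Subtype.ext (div_self hi0)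
  rw [h7, map_one] at h6
  exact one_ne_zero h6

theorem comp {κ : Type*} (g : κ → ι) (hg : Function.Injective g) :
    Orth R (y ∘ g) (z ∘ g) :=
  ⟨fun i => h.isRed (g i), h.indep.comp g hg⟩

end Orth

/-- Echelon form over a valuation ring: every subspace of `K^ι` has a basis of vectors with
coefficients in `A` whose reductions are linearly independent. -/
theorem exists_echelon (A : ValuationSubring K) (π : A →+* k) {ι : Type*} [Fintype ι]
    (V : Submodule K (ι → K)) :
    ∃ (r : ℕ) (v : Fin r → ι → A), LinearIndependent k (fun j i => π (v j i)) ∧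
      Submodule.span K (Set.range fun j i => (v j i : K)) = V := by
  classical
  generalize hn : Module.finrank K V = n
  induction n generalizing V with
  | zero =>
    refine ⟨0, Fin.elim0, linearIndependent_empty_type, ?_⟩
    rw [Set.range_eq_empty, Submodule.span_empty]
    exact (Submodule.finrank_eq_zero.mp hn).symm
  | succ n ih =>
    obtain ⟨f, hfV, hf0⟩ : ∃ f ∈ V, f ≠ 0 := by
      apply V.exists_mem_ne_zero_of_ne_bot
      rintro rfl
      simp at hn
    obtain ⟨i₁, hi₁⟩ := Function.ne_iff.mp hf0
    obtain ⟨i, -, hi0, hi⟩ := exists_max A Finset.univ f ⟨i₁, Finset.mem_univ _, hi₁⟩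
    -- the hyperplane
    set V' : Submodule K (ι → K) := V ⊓ LinearMap.ker (LinearMap.proj i : (ι → K) →ₗ[K] K)
      with hV'
    have hV'le : V' ≤ V := inf_le_left
    set g : ι → K := (f i)⁻¹ • f with hg
    have hgV : g ∈ V := V.smul_mem _ hfV
    have hgi : g i = 1 := by simp [hg, inv_mul_cancel₀ hi0]
    have hgA : ∀ j, g j ∈ A := by
      intro j
      have := hi j (Finset.mem_univ _)
      rw [div_eq_mul_inv, mul_comm] at this
      exact this
    have hsup : Submodule.span K {g} ⊔ V' = V := by
      apply le_antisymm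
      · apply sup_le _ hV'le
        rw [Submodule.span_le]
        rintro _ rfl
        exact hgV
      · intro u hu
        rw [Submodule.mem_sup]
        refine ⟨u i • g, Submodule.smul_mem _ _ (Submodule.mem_span_singleton_self g),
          u - u i • g, ⟨V.sub_mem hu (V.smul_mem _ hgV), ?_⟩, by abel⟩
        simp [hgi]
    have hdisj : Disjoint (Submodule.span K {g}) V' := by
      rw [Submodule.disjoint_def]
      intro u hu hu'
      obtain ⟨a, rfl⟩ := Submodule.mem_span_singleton.mp hu
      have h1 : (a • g) i = 0 := hu'.2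
      simp [hgi] at h1
      rw [h1, zero_smul]
    have hfr : Module.finrank K V' = n := by
      have h1 := Submodule.finrank_sup_add_finrank_inf_eq (Submodule.span K {g}) V'
      rw [hsup, hdisj.eq_bot, finrank_bot, add_zero, hn, finrank_span_singleton] at h1
      · omega
      · rintro h
        rw [h] at hgi
        simp at hgi
    obtain ⟨r, v, hv, hspan⟩ := ih V' hfr
    refine ⟨r + 1, Fin.cons (fun j => ⟨g j, hgA j⟩) v, ?_, ?_⟩
    · have h1 : (fun (j : Fin (r + 1)) (i : ι) =>
          π ((Fin.cons (fun j => ⟨g j, hgA j⟩) v : Fin (r + 1) → ι → A) j i)) =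
          Fin.cons (fun i => π ⟨g i, hgA i⟩) (fun j i => π (v j i)) := by
        funext j
        refine Fin.cases ?_ (fun j => ?_) j
        · rfl
        · rfl
      rw [h1, linearIndependent_finCons]
      refine ⟨hv, ?_⟩
      intro h2
      -- elements of the span vanish at `i`
      have h3 : ∀ u ∈ Submodule.span k (Set.range fun j i => π (v j i)), u i = 0 := by
        intro u hu
        induction hu using Submodule.span_induction with
        | mem x hx =>
          obtain ⟨j, rfl⟩ := hx
          have h4 : (fun i => (v j i : K)) ∈ V' := by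
            rw [← hspan]
            exact Submodule.subset_span ⟨j, rfl⟩
          have h5 : (v j i : K) = 0 := h4.2
          have h6 : v j i = 0 := Subtype.ext h5
          change π (v j i) = 0
          rw [h6, map_zero]
        | zero => rfl
        | add x y _ _ hx hy => simp [hx, hy]
        | smul a x _ hx => simp [hx]
      have h4 := h3 _ h2
      have h5 : (⟨g i, hgA i⟩ : A) = 1 := Subtype.ext hgi
      simp only [h5, map_one] at h4
      exact one_ne_zero h4
    · have h1 : (fun (j : Fin (r + 1)) (i : ι) =>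
          (((Fin.cons (fun j => ⟨g j, hgA j⟩) v : Fin (r + 1) → ι → A) j i : A) : K)) =
          Fin.cons g (fun j i => (v j i : K)) := by
        funext j
        refine Fin.cases ?_ (fun j => ?_) j
        · rfl
        · rfl
      rw [h1, Fin.range_cons, Submodule.span_insert, hspan, hsup]

/-- Subspaces of the span of a finite orthonormal family have orthonormal bases. -/
theorem Orth.exists_subspace {R : ConstRed A π F Fk} {ι : Type*} [Fintype ι] {y : ι → F}
    {z : ι → Fk} (h : Orth R y z) (V : Submodule K F) (hV : V ≤ Submodule.span K (Set.range y)) :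
    ∃ (r : ℕ) (v : Fin r → F) (u : Fin r → Fk), Orth R v u ∧
      Submodule.span K (Set.range v) = V ∧
      ∀ j, ∃ c : ι → A, v j = ∑ i, algebraMap K F (c i) * y i ∧
        u j = ∑ i, algebraMap k Fk (π (c i)) * z i := by
  classical
  set Φ : (ι → K) →ₗ[K] F := Fintype.linearCombination K y with hΦ
  set Φk : (ι → k) →ₗ[k] Fk := Fintype.linearCombination k z with hΦk
  obtain ⟨r, v, hv, hspan⟩ := exists_echelon A π (V.comap Φ)
  have hΦv : ∀ j, Φ (fun i => (v j i : K)) = ∑ i, algebraMap K F (v j i) * y i := by
    intro j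
    rw [hΦ, Fintype.linearCombination_apply]
    exact Finset.sum_congr rfl fun i _ => Algebra.smul_def _ _
  have hΦkv : ∀ j, Φk (fun i => π (v j i)) = ∑ i, algebraMap k Fk (π (v j i)) * z i := by
    intro j
    rw [hΦk, Fintype.linearCombination_apply]
    exact Finset.sum_congr rfl fun i _ => Algebra.smul_def _ _
  refine ⟨r, fun j => Φ (fun i => (v j i : K)), fun j => Φk (fun i => π (v j i)), ⟨?_, ?_⟩, ?_, ?_⟩
  · intro j
    rw [hΦv, hΦkv]
    exact h.isRed_sum _ _
  · exact hv.map' Φk (LinearMap.ker_eq_bot.mpr (by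
      rw [hΦk]
      exact linearIndependent_iff_injective_fintypeLinearCombination.mp h.indep))
  · have h1 : Set.range (fun j => Φ (fun i => (v j i : K))) =
        Φ '' (Set.range fun j i => (v j i : K)) := by
      rw [← Set.range_comp]; rfl
    rw [h1, Submodule.span_image, hspan, Submodule.map_comap_eq]
    rw [inf_eq_right]
    refine hV.trans ?_
    rw [hΦ, Fintype.range_linearCombination]
  · intro j
    exact ⟨v j, hΦv j, hΦkv j⟩

section Coord

variable {x : F} {xb : Fk}

/-- `x` is a coordinate of the constant reduction: the reduction has full degree. -/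
structure IsCoord (R : ConstRed A π F Fk) (x : F) (xb : Fk) : Prop where
  isRed : R.IsRed x xb
  transcendental : Transcendental k xb
  finiteDimensional : FiniteDimensional K⟮x⟯ F
  finiteDimensionalk : FiniteDimensional k⟮xb⟯ Fk
  finrank_eq : Module.finrank K⟮x⟯ F = Module.finrank k⟮xb⟯ Fk

variable {R : ConstRed A π F Fk}

/-- `x ^ j * w i` is orthonormal if the reductions of the `w i` are linearly independent
over `k(xb)`. -/
theorem orth_pow_mul (hx : R.IsRed x xb) (hxb : Transcendental k xb) {ι : Type*} {w : ι → F}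
    {wb : ι → Fk} (hw : ∀ i, R.IsRed (w i) (wb i)) (hwb : LinearIndependent k⟮xb⟯ wb) :
    Orth R (fun p : ℕ × ι => x ^ p.1 * w p.2) (fun p : ℕ × ι => xb ^ p.1 * wb p.2) := by
  refine ⟨fun p => (hx.pow p.1).mul (hw p.2), ?_⟩
  have h1 : LinearIndependent k (fun n : ℕ =>
      (⟨xb ^ n, pow_mem (mem_adjoin_simple_self k xb) n⟩ : k⟮xb⟯)) := by
    have h2 : LinearIndependent k (fun n : ℕ => xb ^ n) := by
      rw [transcendental_iff_injective] at hxb
      have h3 := (Polynomial.basisMonomials k).linearIndependent.map' (Polynomial.aeval xb).toLinearMap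
        (LinearMap.ker_eq_bot.mpr hxb)
      rw [Polynomial.coe_basisMonomials] at h3
      have h4 : (⇑(Polynomial.aeval xb).toLinearMap ∘ fun s : ℕ => Polynomial.monomial s (1 : k)) =
          fun n : ℕ => xb ^ n := by
        funext n
        simp [Polynomial.aeval_monomial]
      rw [h4] at h3
      exact h3
    exact LinearIndependent.of_comp (k⟮xb⟯.val.toLinearMap) h2
  have h2 := linearIndependent_smul h1 hwb
  exact h2

theorem Orth.mul_left {ι : Type*} {y : ι → F} {z : ι → Fk} (h : Orth R y z) {e : F} {ε : Fk}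
    (he : R.IsRed e ε) (hε : ε ≠ 0) : Orth R (fun i => e * y i) (fun i => ε * z i) := by
  refine ⟨fun i => he.mul (h.isRed i), ?_⟩
  have h1 := h.indep.map' (LinearMap.mulLeft k ε) (LinearMap.ker_eq_bot.mpr
    (mul_right_injective₀ hε))
  exact h1

/-- every element of `K[x]` is a polynomial in `x`. -/
theorem sum_coeff_mem_span {ι : Type*} (w : ι → F) (p : Polynomial K) (i : ι) {N : ℕ}
    (hN : p.natDegree < N) :
    Polynomial.aeval x p * w i =
      ∑ j ∈ Finset.range N, algebraMap K F (p.coeff j) * (x ^ j * w i) := by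
  rw [Polynomial.aeval_eq_sum_range' hN, Finset.sum_mul]
  refine Finset.sum_congr rfl fun j _ => ?_
  rw [Algebra.smul_def, mul_assoc]

theorem linearIndependent_of_isRed (hx : R.IsRed x xb) (hxb : Transcendental k xb) {ι : Type*}
    {w : ι → F} {wb : ι → Fk} (hw : ∀ i, R.IsRed (w i) (wb i))
    (hwb : LinearIndependent k⟮xb⟯ wb) : LinearIndependent K⟮x⟯ w := by
  rw [← LinearIndependent.iff_fractionRing (Algebra.adjoin K {x}) K⟮x⟯, linearIndependent_iff']
  intro s g hg i his
  have horth := (orth_pow_mul hx hxb hw hwb).linearIndependent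
  choose p hp using fun i => exists_poly x (g i)
  obtain ⟨N, hN⟩ : ∃ N, ∀ i ∈ s, (p i).natDegree < N := by
    refine ⟨(s.sup fun i => (p i).natDegree) + 1, fun i hi => ?_⟩
    exact Nat.lt_succ_of_le (Finset.le_sup (f := fun i => (p i).natDegree) hi)
  have h1 : ∑ q ∈ Finset.range N ×ˢ s, (p q.2).coeff q.1 • (x ^ q.1 * w q.2) = 0 := by
    rw [Finset.sum_product_right, ← hg]
    refine Finset.sum_congr rfl fun i hi => ?_
    rw [Algebra.smul_def]
    change _ = (g i : F) * w i
    rw [hp i, sum_coeff_mem_span w (p i) i (hN i hi)]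
    exact Finset.sum_congr rfl fun j _ => Algebra.smul_def _ _
  have h2 := linearIndependent_iff'.mp horth _ _ h1
  have h3 : p i = 0 := by
    ext j
    by_cases hj : j < N
    · exact h2 (j, i) (Finset.mem_product.mpr ⟨Finset.mem_range.mpr hj, his⟩)
    · rw [Polynomial.coeff_eq_zero_of_natDegree_lt, Polynomial.coeff_zero]
      exact (hN i his).trans_le (not_lt.mp hj)
  apply Subtype.ext
  rw [hp i, h3]
  simp

/-- Lifts of a basis of `Fk` over `k(xb)` form a basis of `F` over `K(x)`. -/
theorem IsCoord.exists_basis (hx : IsCoord R x xb) :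
    ∃ (w : Module.Basis (Fin (Module.finrank K⟮x⟯ F)) K⟮x⟯ F)
      (wb : Module.Basis (Fin (Module.finrank K⟮x⟯ F)) k⟮xb⟯ Fk), ∀ i, R.IsRed (w i) (wb i) := by
  haveI := hx.finiteDimensional
  haveI := hx.finiteDimensionalk
  set wb : Module.Basis (Fin (Module.finrank K⟮x⟯ F)) k⟮xb⟯ Fk :=
    Module.finBasisOfFinrankEq k⟮xb⟯ Fk hx.finrank_eq.symm with hwb
  choose w hw using fun i => R.exists_isRed (wb i)
  have hli : LinearIndependent K⟮x⟯ w :=
    linearIndependent_of_isRed hx.isRed hx.transcendental hw wb.linearIndependent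
  refine ⟨basisOfLinearIndependentOfCardEqFinrank' w hli (by simp), wb, fun i => ?_⟩
  simpa using hw i

theorem IsCoord.exists_orth_span (hx : IsCoord R x xb) (s : Finset F) :
    ∃ (ι : Type) (_ : Fintype ι) (y : ι → F) (z : ι → Fk), Orth R y z ∧
      ∀ f ∈ s, f ∈ Submodule.span K (Set.range y) := by
  classical
  obtain ⟨w, wb, hw⟩ := hx.exists_basis
  -- a common denominator
  obtain ⟨d, hd⟩ := IsLocalization.exist_integer_multiples_of_finset
    (nonZeroDivisors (Algebra.adjoin K {x}))
    ((s ×ˢ Finset.univ).image fun q : F × Fin (Module.finrank K⟮x⟯ F) => w.repr q.1 q.2)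
  have hd0 : ((d : Algebra.adjoin K {x}) : F) ≠ 0 := by
    have := nonZeroDivisors.ne_zero d.2
    simpa using this
  obtain ⟨c, hc0, ε, hε0, hε⟩ := R.exists_isRed_mul hd0
  have hcF : algebraMap K F c ≠ 0 := by simpa using hc0
  -- the coordinates, multiplied by the denominator, are polynomials
  have hpoly : ∀ f ∈ s, ∀ i, ∃ p : Polynomial K,
      Polynomial.aeval x p = ((d : Algebra.adjoin K {x}) : F) * ((w.repr f i : K⟮x⟯) : F) := by
    intro f hf i
    obtain ⟨a, ha⟩ := hd (w.repr f i) (Finset.mem_image.mpr ⟨(f, i),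
      Finset.mem_product.mpr ⟨hf, Finset.mem_univ _⟩, rfl⟩)
    obtain ⟨p, hp⟩ := exists_poly x a
    refine ⟨p, ?_⟩
    rw [← hp]
    have h1 := congrArg (fun u : K⟮x⟯ => (u : F)) ha
    simp only [Algebra.smul_def] at h1
    exact h1
  choose! p hp using hpoly
  obtain ⟨N, hN⟩ : ∃ N, ∀ f ∈ s, ∀ i, (p f i).natDegree < N := by
    refine ⟨(s.sup fun f => Finset.univ.sup fun i => (p f i).natDegree) + 1, fun f hf i => ?_⟩
    refine Nat.lt_succ_of_le (le_trans ?_ (Finset.le_sup
      (f := fun f => Finset.univ.sup fun i => (p f i).natDegree) hf))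
    exact Finset.le_sup (f := fun i => (p f i).natDegree) (Finset.mem_univ i)
  have horth := (orth_pow_mul hx.isRed hx.transcendental hw wb.linearIndependent)
  have horth' := (horth.mul_left (hε.inv hε0) (inv_ne_zero hε0)).comp
    (fun q : Fin N × Fin (Module.finrank K⟮x⟯ F) => ((q.1 : ℕ), q.2)) (by
      rintro ⟨a, b⟩ ⟨a', b'⟩ h
      simp only [Prod.mk.injEq] at h
      exact Prod.ext (Fin.ext h.1) h.2)
  refine ⟨Fin N × Fin (Module.finrank K⟮x⟯ F), inferInstance, _, _, horth', fun f hf => ?_⟩
  have h1 : f = ∑ q : Fin N × Fin (Module.finrank K⟮x⟯ F),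
      (c * (p f q.2).coeff q.1) • ((algebraMap K F c * ((d : Algebra.adjoin K {x}) : F))⁻¹ *
        (x ^ (q.1 : ℕ) * w q.2)) := by
    rw [Fintype.sum_prod_type_right]
    conv_lhs => rw [← w.sum_repr f]
    refine Finset.sum_congr rfl fun i _ => ?_
    rw [Algebra.smul_def]
    change ((w.repr f i : K⟮x⟯) : F) * w i = _
    have h2 : ((w.repr f i : K⟮x⟯) : F) * w i = ((d : Algebra.adjoin K {x}) : F)⁻¹ *
        (Polynomial.aeval x (p f i) * w i) := by
      rw [hp f hf i]
      field_simp
    rw [h2, sum_coeff_mem_span w (p f i) i (hN f hf i), Finset.mul_sum, ← Fin.sum_univ_eq_sum_range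
      (fun j => ((d : Algebra.adjoin K {x}) : F)⁻¹ *
        (algebraMap K F ((p f i).coeff j) * (x ^ j * w i))) N]
    refine Finset.sum_congr rfl fun j _ => ?_
    rw [Algebra.smul_def, map_mul]
    field_simp
  rw [h1]
  refine Submodule.sum_mem _ fun q _ => Submodule.smul_mem _ _ (Submodule.subset_span ⟨q, rfl⟩)

/-- Every finite dimensional subspace of `F` has an orthonormal basis. -/
theorem IsCoord.exists_orth (hx : IsCoord R x xb) (V : Submodule K F) (hV : V.FG) :
    ∃ (r : ℕ) (v : Fin r → F) (u : Fin r → Fk), Orth R v u ∧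
      Submodule.span K (Set.range v) = V := by
  obtain ⟨s, hs⟩ := hV
  obtain ⟨ι, _, y, z, hyz, hspan⟩ := hx.exists_orth_span s
  obtain ⟨r, v, u, h1, h2, -⟩ := hyz.exists_subspace V (by
    rw [← hs, Submodule.span_le]
    exact hspan)
  exact ⟨r, v, u, h1, h2⟩

/-- Elements outside of the constant field have a nonconstant reduction after an affine change. -/
theorem IsCoord.exists_nonconst (hx : IsCoord R x xb) (h : F) (hh : h ∉ (algebraMap K F).range) :
    ∃ (a c : K), c ≠ 0 ∧ ∃ z : Fk, z ∉ (algebraMap k Fk).range ∧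
      R.IsRed ((h - algebraMap K F a) / algebraMap K F c) z := by
  classical
  obtain ⟨r, v, u, hvu, hspan⟩ := hx.exists_orth (Submodule.span K {1, h})
    (Submodule.fg_span (Set.toFinite _))
  have hli : LinearIndependent K ![1, h] := by
    rw [LinearIndependent.pair_iff]
    intro s t hst
    by_cases ht : t = 0
    · subst ht
      simpa using hst
    · exfalso
      apply hh
      refine ⟨-s / t, ?_⟩
      rw [Algebra.smul_def, Algebra.smul_def, mul_one] at hst
      rw [map_div₀, map_neg]
      have ht' : algebraMap K F t ≠ 0 := by simpa using ht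
      field_simp
      linear_combination -hst
  have hr : r = 2 := by
    have h1 : Module.finrank K (Submodule.span K (Set.range v)) = r := by
      rw [finrank_span_eq_card hvu.linearIndependent, Fintype.card_fin]
    have h2 : Module.finrank K (Submodule.span K ({1, h} : Set F)) = 2 := by
      have := finrank_span_eq_card hli
      rwa [Matrix.range_cons, Matrix.range_cons, Matrix.range_empty, Set.union_empty,
        Set.singleton_union, Fintype.card_fin] at this
    rw [hspan, h2] at h1
    exact h1.symm
  subst hr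
  -- one of the two reductions is not constant
  obtain ⟨j, hj⟩ : ∃ j, u j ∉ (algebraMap k Fk).range := by
    by_contra hcon
    push Not at hcon
    obtain ⟨a, ha⟩ := hcon 0
    obtain ⟨b, hb⟩ := hcon 1
    have h1 := hvu.indep
    rw [Fintype.linearIndependent_iff] at h1
    have h2 := h1 ![b, -a] (by
      rw [Fin.sum_univ_two, ← ha, ← hb]
      simp only [Matrix.cons_val_zero, Matrix.cons_val_one, Algebra.smul_def,
        map_neg]
      ring)
    have h3 := h2 0
    have h4 : b = 0 := by simpa using h3
    have h5 := hvu.indep.ne_zero 1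
    rw [← hb, h4, map_zero] at h5
    exact h5 rfl
  have hvj : v j ∈ Submodule.span K ({1, h} : Set F) := by
    rw [← hspan]
    exact Submodule.subset_span ⟨j, rfl⟩
  rw [Submodule.mem_span_pair] at hvj
  obtain ⟨α, β, hαβ⟩ := hvj
  have hβ : β ≠ 0 := by
    rintro rfl
    apply hj
    rw [zero_smul, add_zero, Algebra.smul_def, mul_one] at hαβ
    have h1 := hvu.isRed j
    rw [← hαβ] at h1
    have h2 := (R.algebraMap_mem_iff _).1 h1.mem
    exact ⟨π ⟨α, h2⟩, (h1.unique (R.isRed_algebraMap h2)).symm⟩
  refine ⟨-α / β, β⁻¹, inv_ne_zero hβ, u j, hj, ?_⟩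
  have hβ' : algebraMap K F β ≠ 0 := by simpa using hβ
  have h1 : (h - algebraMap K F (-α / β)) / algebraMap K F β⁻¹ = v j := by
    rw [← hαβ, Algebra.smul_def, Algebra.smul_def, mul_one, map_div₀, map_neg, map_inv₀]
    field_simp
    ring
  rw [h1]
  exact hvu.isRed j

end Coord

end Fermat.Agent.Red
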