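import Fermat.Agent.Red.ChartN

/-!
# Equality of genera from the two charts
-/

set_option autoImplicit false
set_option linter.unusedSectionVars false
set_option linter.style.haveILetI false
set_option linter.unusedVariables false

open AlgebraicCurve IntermediateField IsDedekindDomain Module

namespace Fermat.Agent.Red

open Fermat.Agent.FF

variable {K k : Type*} [Field K] [Field k] {A : ValuationSubring K} {π : A →+* k}
  {F Fk : Type*} [Field F] [Algebra K F] [Field Fk] [Algebra k Fk]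
  {R : ConstRed A π F Fk} {x : F} {xb : Fk}

/-- lifts of linearly independent functions are linearly independent -/
theorem linearIndependent_of_isRed_const {ι : Type*} [Finite ι] {f : ι → F} {z : ι → Fk}
    (h : ∀ i, R.IsRed (f i) (z i)) (hz : LinearIndependent k z) : LinearIndependent K f := by
  classical
  haveI := Fintype.ofFinite ι
  rw [Fintype.linearIndependent_iff]
  intro c hc
  by_contra hcon
  push Not at hcon
  obtain ⟨i0, hi0⟩ := hcon
  obtain ⟨i, -, hi, hsc⟩ := GoodRed.exists_scale_finset (A := A) Finset.univ c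
    ⟨i0, Finset.mem_univ _, hi0⟩
  have h1 : R.IsRed (∑ j, algebraMap K F (⟨(c i)⁻¹ * c j, hsc j (Finset.mem_univ j)⟩ : A) * f j)
      (∑ j, algebraMap k Fk (π ⟨(c i)⁻¹ * c j, hsc j (Finset.mem_univ j)⟩) * z j) :=
    ConstRed.isRed_sum _ fun j _ => (R.isRed_coe _).mul (h j)
  have h2 : (∑ j, algebraMap K F (⟨(c i)⁻¹ * c j, hsc j (Finset.mem_univ j)⟩ : A) * f j) = 0 := by
    have h3 : ∀ j ∈ Finset.univ,
        algebraMap K F (⟨(c i)⁻¹ * c j, hsc j (Finset.mem_univ j)⟩ : A) * f j =
        algebraMap K F (c i)⁻¹ * (c j • f j) := by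
      intro j _
      rw [Algebra.smul_def, map_mul, mul_assoc]
    rw [Finset.sum_congr rfl h3, ← Finset.mul_sum, hc, mul_zero]
  rw [h2] at h1
  have h3 := h1.unique R.isRed_zero
  have h4 := Fintype.linearIndependent_iff.1 hz
    (fun j => π ⟨(c i)⁻¹ * c j, hsc j (Finset.mem_univ j)⟩) (by
      rw [← h3]
      exact Finset.sum_congr rfl fun j _ => Algebra.smul_def _ _) i
  have h5 : (⟨(c i)⁻¹ * c i, hsc i (Finset.mem_univ i)⟩ : A) = 1 :=
    Subtype.ext (inv_mul_cancel₀ hi)
  rw [h5, map_one] at h4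
  exact one_ne_zero h4

theorem finrank_le_of_lift (V : Submodule K F) [FiniteDimensional K V] (W : Submodule k Fk)
    [FiniteDimensional k W] (h : ∀ z ∈ W, ∃ f ∈ V, R.IsRed f z) : finrank k W ≤ finrank K V := by
  classical
  choose! f hf hfz using h
  set b := Module.finBasis k W with hb
  have h1 : LinearIndependent k (fun i => ((b i : W) : Fk)) :=
    b.linearIndependent.map' W.subtype (Submodule.ker_subtype W)
  have h2 : LinearIndependent K (fun i => f (b i : Fk)) :=
    linearIndependent_of_isRed_const (fun i => hfz _ (b i).2) h1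
  have h3 : LinearIndependent K (fun i => (⟨f (b i : Fk), hf _ (b i).2⟩ : V)) :=
    LinearIndependent.of_comp V.subtype h2
  simpa using h3.fintype_card_le_finrank

/-- the reductions of a space of functions -/
def redSpace (R : ConstRed A π F Fk) (hπ : Function.Surjective π) (V : Submodule K F) :
    Submodule k Fk where
  carrier := {z | ∃ f ∈ V, R.IsRed f z}
  add_mem' := by
    rintro a b ⟨f, hf, hfa⟩ ⟨g, hg, hgb⟩
    exact ⟨f + g, V.add_mem hf hg, hfa.add hgb⟩
  zero_mem' := ⟨0, V.zero_mem, R.isRed_zero⟩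
  smul_mem' := by
    rintro c z ⟨f, hf, hfz⟩
    obtain ⟨a, rfl⟩ := hπ c
    refine ⟨(a : K) • f, V.smul_mem _ hf, ?_⟩
    rw [Algebra.smul_def, Algebra.smul_def]
    exact (R.isRed_coe a).mul hfz

theorem mem_redSpace {hπ : Function.Surjective π} {V : Submodule K F} {z : Fk} :
    z ∈ redSpace R hπ V ↔ ∃ f ∈ V, R.IsRed f z := Iff.rfl

section Main

variable [IsAlgClosed K] [CharZero K] [IsAlgClosed k] [IsFnField K F] [IsFnField k Fk]

theorem pow_mul_mem_Lm (hx : Transcendental K x) {m j n : ℕ} {f : F} (hf : f ∈ GoodRed.Lm K x m)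
    (h : j + m ≤ n) : x ^ j * f ∈ GoodRed.Lm K x n :=
  (GoodRed.isFilt hx).pow_mul_mem f hf h

variable (hc : GoodRed.IsCoord R x xb)
  (hC : ∀ z, IsIntegral (Algebra.adjoin k {xb}) z →
    ∃ f : F, R.IsRed f z ∧ IsIntegral (Algebra.adjoin K {x}) f)
  (hC' : ∀ z, IsIntegral (Algebra.adjoin k {xb⁻¹}) z →
    ∃ f : F, R.IsRed f z ∧ IsIntegral (Algebra.adjoin K {x⁻¹}) f)
  (hπ : Function.Surjective π)

include hc hC hC' hπ

/-- with lifting in both charts, the functions with poles bounded by a large multiple of the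
polar divisor of `x` lift. -/
theorem exists_redSpace_Lm : ∃ m0, ∀ m, m0 ≤ m →
    GoodRed.Lm k xb m ≤ redSpace R hπ (GoodRed.Lm K x m) := by
  classical
  haveI := hc.finite'
  haveI := hc.finite
  obtain ⟨ι, _, ⟨B⟩⟩ := GoodRed.exists_redBasis (K := k) hc.trans
  choose f hf hfi using fun i => hC (B.w i) (B.isInt i)
  choose g hg hgi using fun i => hC' (xb⁻¹ ^ B.d i * B.w i) (B.isInt' i)
  choose a ha using fun i => GoodRed.exists_mem_Lm hc.transK (hfi i)
  choose b hb using fun i => GoodRed.exists_mem_Lm hc.inv.transK (hgi i)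
  set m1 := Finset.univ.sup (fun i => a i + b i + B.d i) with hm1
  have hle : ∀ i, a i + b i + B.d i ≤ m1 := fun i => Finset.le_sup (f := fun i => a i + b i + B.d i)
    (Finset.mem_univ i)
  have hx0 := hc.ne_zero
  have hxb0 := hc.ne_zero'
  -- the second family, multiplied by a power of `x`
  have hg' : ∀ i, x ^ b i * g i ∈ GoodRed.Lm K x (b i) := by
    intro i
    have h1 := hb i
    rw [GoodRed.mem_Lm, inv_inv] at h1
    rw [GoodRed.mem_Lm]
    refine ⟨h1.2, ?_⟩
    rw [inv_pow, inv_mul_cancel_left₀ (pow_ne_zero _ hx0)]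
    exact h1.1
  have hgr : ∀ i, R.IsRed (x ^ b i * g i) (xb ^ b i * (xb⁻¹ ^ B.d i * B.w i)) :=
    fun i => (hc.isRed.pow _).mul (hg i)
  refine ⟨m1 + m1, fun m hm z hz => ?_⟩
  obtain ⟨p, hp, rfl⟩ := (B.mem_iff m z).1 hz
  refine Submodule.sum_mem _ fun i _ => ?_
  have hpi := hp i
  rw [Polynomial.mem_degreeLT] at hpi
  rw [Polynomial.aeval_eq_sum_range, Finset.sum_mul]
  refine Submodule.sum_mem _ fun j hj => ?_
  rw [smul_mul_assoc]
  by_cases hpj : (p i).coeff j = 0
  · rw [hpj, zero_smul]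
    exact Submodule.zero_mem _
  refine Submodule.smul_mem _ _ ?_
  have hjm : j + B.d i ≤ m := by
    have h1 : j < m + 1 - B.d i := by
      by_contra hcon
      push Not at hcon
      apply hpj
      apply Polynomial.coeff_eq_zero_of_degree_lt
      exact hpi.trans_le (by exact_mod_cast hcon)
    omega
  rw [mem_redSpace]
  by_cases hj2 : j + m1 ≤ m
  · refine ⟨x ^ j * f i, pow_mul_mem_Lm hc.transK (ha i) ?_, (hc.isRed.pow j).mul (hf i)⟩
    have := hle i
    omega
  · push Not at hj2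
    have hi := hle i
    have hbj : b i ≤ j + B.d i := by omega
    refine ⟨x ^ (j + B.d i - b i) * (x ^ b i * g i), pow_mul_mem_Lm hc.transK (hg' i) ?_, ?_⟩
    · omega
    · have h1 := (hc.isRed.pow (j + B.d i - b i)).mul (hgr i)
      have h2 : xb ^ (j + B.d i - b i) * (xb ^ b i * (xb⁻¹ ^ B.d i * B.w i)) =
          xb ^ j * B.w i := by
        rw [← mul_assoc, ← pow_add, Nat.sub_add_cancel hbj, pow_add, inv_pow]
        field_simp
      rwa [h2] at h1

theorem genusFF_eq_of_lift [Algebra.IsSeparable k⟮xb⟯ Fk] : genusFF K F = genusFF k Fk := by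
  haveI := hc.finite
  haveI := hc.finite'
  haveI : CharZero K⟮x⟯ := charZero_of_injective_algebraMap (algebraMap K K⟮x⟯).injective
  haveI : Algebra.IsSeparable K⟮x⟯ F := inferInstance
  obtain ⟨m0, h0⟩ := exists_redSpace_Lm hc hC hC' hπ
  have hn : 0 < finrank K⟮x⟯ F := finrank_pos
  set m := max m0 (2 * genusFF K F + 2 * genusFF k Fk) with hm
  obtain ⟨ι, _, ⟨B⟩⟩ := GoodRed.exists_redBasis (K := K) hc.transK
  obtain ⟨ι', _, ⟨B'⟩⟩ := GoodRed.exists_redBasis (K := k) hc.trans
  have := B.finiteDimensional_Lm m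
  have := B'.finiteDimensional_Lm m
  have h1 : finrank k (GoodRed.Lm k xb m) ≤ finrank K (GoodRed.Lm K x m) :=
    finrank_le_of_lift _ _ fun z hz => h0 m (le_max_left _ _) hz
  have h2 := hc.finrank_Lm_le m
  have h3 : finrank K (GoodRed.Lm K x m) = finrank k (GoodRed.Lm k xb m) := le_antisymm h2 h1
  rw [Lm_eq_riemannRochSpace hc.ne_zero, Lm_eq_riemannRochSpace hc.ne_zero'] at h3
  have hmn : m ≤ m * finrank K⟮x⟯ F := Nat.le_mul_of_pos_right m hn
  have hmg : 2 * genusFF K F + 2 * genusFF k Fk ≤ m := le_max_right _ _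
  have hd1 : Divisor.degree (m • RR.poleDiv (K := K) x) = m * finrank K⟮x⟯ F := by
    rw [map_nsmul, RR.degree_poleDiv hc.transK, nsmul_eq_mul]
  have hd2 : Divisor.degree (m • RR.poleDiv (K := k) xb) = m * finrank K⟮x⟯ F := by
    rw [map_nsmul, RR.degree_poleDiv hc.trans, nsmul_eq_mul, hc.finrank_eq]
  have h4 := RR.ell_eq_of_lt_degree (D := m • RR.poleDiv (K := K) x) (by
    rw [hd1]
    have : ((m * finrank K⟮x⟯ F : ℕ) : ℤ) = (m : ℤ) * finrank K⟮x⟯ F := by push_cast; ring
    rw [← this]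
    omega)
  have h5 := RR.ell_eq_of_lt_degree (D := m • RR.poleDiv (K := k) xb) (by
    rw [hd2]
    have : ((m * finrank K⟮x⟯ F : ℕ) : ℤ) = (m : ℤ) * finrank K⟮x⟯ F := by push_cast; ring
    rw [← this]
    omega)
  rw [hd1] at h4
  rw [hd2] at h5
  have h6 : RR.ell (m • RR.poleDiv (K := K) x) = RR.ell (m • RR.poleDiv (K := k) xb) := h3
  rw [h6] at h4
  omega

end Main

section XZero

open ModularCurve

variable {N : ℕ} [NeZero N] {ℓ : ℕ} [hℓ : Fact ℓ.Prime]
  {A : ValuationSubring (AlgebraicClosure ℚ)} {k : Type*} [Field k] {π : A →+* k}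
  (hA : A.LiesOverPrime ℓ)
  (hπ : ∀ a : A, π a = 0 ↔ ¬ IsUnit a) (hs : Function.Surjective π) (hN : ¬ ℓ ∣ N)

include hA hπ hs hN

/-- **The genus of `X₀(N)` is preserved** by reduction modulo every `ℓ ∤ N`. -/
theorem genusFF_redX : genusFF (AlgebraicClosure ℚ) (modularFunctionFieldBar N) =
    genusFF k (modularFunctionFieldFullC k N) := by
  haveI hch : CharP k ℓ := charP_of_liesOverPrime hA hπ
  haveI : IsAlgClosed k := isAlgClosed_of_surjective hs
  haveI := isFnField_bar N
  haveI := isFnField_fullC (k := k) N ℓ hN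
  haveI := RedQ.isSeparable_charP N k ℓ hN
  exact genusFF_eq_of_lift (isCoord_jB hA hπ hs hN) (chart_jB hA hπ hs hN).lift
    (chart_jB_inv hA hπ hs hN).lift hs

end XZero

end Fermat.Agent.Red
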