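import Fermat.Agent.Red.Haupt
import Fermat.Agent.S24Lib.NormInputs

/-!
# Injectivity of the specialisation on prime-to-`ℓ` torsion: from auxiliary level to `X₀(N)`
-/

set_option autoImplicit false
set_option linter.unusedSectionVars false
set_option linter.style.haveILetI false
set_option linter.unusedVariables false

noncomputable section

open AlgebraicCurve IntermediateField ModularCurve Module Fermat.Agent.FF

namespace Fermat.Agent.Red

section Abstract

variable {K F : Type*} [Field K] [Field F] [Algebra K F] [IsAlgClosed K] [IsFnField K F]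

theorem degree_eq_zero_of_isPrincipal {D : Divisor K F} (h : D.IsPrincipal) :
    Divisor.degree D = 0 := by
  obtain ⟨f, hf, hD⟩ := h
  have : D = RR.divOf (K := K) f := by
    ext v
    rw [hD v, RR.divOf_apply]
  rw [this, RR.degree_divOf]

theorem degree_eq_zero_of_torsion {D : Divisor K F} {m : ℕ} (hm : m ≠ 0)
    (h : (m • D).IsPrincipal) : Divisor.degree D = 0 := by
  have h1 := degree_eq_zero_of_isPrincipal h
  rw [map_nsmul, nsmul_eq_mul] at h1
  rcases mul_eq_zero.1 h1 with h2 | h2
  · exact absurd (by exact_mod_cast h2) hm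
  · exact h2

theorem isPrincipal_of_coprime {D : Divisor K F} {m n : ℕ} (h : Nat.Coprime m n)
    (hm : (m • D).IsPrincipal) (hn : (n • D).IsPrincipal) : D.IsPrincipal := by
  rw [← Divisor.mem_principal] at hm hn ⊢
  have h1 := Nat.gcd_eq_gcd_ab m n
  rw [h, Nat.cast_one] at h1
  have h2 : D = (Nat.gcdA m n) • (m • D) + (Nat.gcdB m n) • (n • D) := by
    have h3 : (1 : ℤ) • D = ((m : ℤ) * Nat.gcdA m n + n * Nat.gcdB m n) • D := by rw [← h1]
    rw [one_smul, add_smul, mul_comm, mul_smul, mul_comm, mul_smul, natCast_zsmul,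
      natCast_zsmul] at h3
    exact h3
  rw [h2]
  exact add_mem (AddSubgroup.zsmul_mem _ hm _) (AddSubgroup.zsmul_mem _ hn _)

variable {F' : Type*} [Field F'] [Algebra K F'] [IsFnField K F']

/-- `φ_* φ^* D = [F' : F] D` -/
theorem pushforward_pullback [CharZero K] [HasPrincipalDivisors K F'] (φ : F →ₐ[K] F')
    (hφ : φ.toRingHom.IsIntegral) (hFI : FundamentalIdentityAlong K φ hφ) (D : Divisor K F) :
    Divisor.pushforwardAlong φ hφ (Divisor.pullbackAlong φ hφ D) = finrankAlong K φ • D := by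
  letI := algebraAlong φ
  haveI := isScalarTower_along φ
  haveI := isIntegral_along φ hφ
  haveI : FundamentalIdentity K F F' := hFI
  change Divisor.pushforward F (Divisor.pullback F' D) = Module.finrank F F' • D
  induction D using Finsupp.induction_linear with
  | zero => simp
  | add f g hf hg => rw [map_add, map_add, hf, hg, smul_add]
  | single v n =>
    rw [Divisor.pullback_single, map_sum]
    have h1 : ∀ w ∈ v.fiber F', Divisor.pushforward F
        (Finsupp.single w (n * (w.ramificationIndex F : ℤ))) =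
        Finsupp.single v (n * ((w.ramificationIndex F : ℤ) * (w.deg : ℤ))) := by
      intro w hw
      rw [Divisor.pushforward_single, Place.mem_fiber.1 hw]
      have h2 := w.deg_restrict_mul_inertiaDeg (F := F)
      rw [deg_eq_one, deg_eq_one, one_mul] at h2
      rw [h2, deg_eq_one]
      simp
    have h3 : ∑ w ∈ v.fiber F', (Finsupp.single v
        (n * ((w.ramificationIndex F : ℤ) * (w.deg : ℤ))) : Divisor K F) =
        Finsupp.single v (∑ w ∈ v.fiber F', n * ((w.ramificationIndex F : ℤ) * (w.deg : ℤ))) :=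
      (map_sum (Finsupp.singleAddHom v) _ _).symm
    rw [Finset.sum_congr rfl h1, h3, ← Finset.mul_sum,
      FundamentalIdentity.sum_ramificationIndex_mul_deg (K := K) (F := F) (F' := F') v,
      deg_eq_one v, Finsupp.smul_single]
    simp [mul_comm]

end Abstract

section Main

variable {K k : Type*} [Field K] [Field k] {A : ValuationSubring K} {π : A →+* k}
  {F Fk F' Fk' : Type*} [Field F] [Algebra K F] [Field Fk] [Algebra k Fk]
  [Field F'] [Algebra K F'] [Field Fk'] [Algebra k Fk']
  [IsAlgClosed K] [CharZero K] [IsAlgClosed k]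
  [IsFnField K F] [IsFnField k Fk] [IsFnField K F'] [IsFnField k Fk']

theorem isPrincipal_pullback_of_torsion {R' : ConstRed A π F' Fk'} {x : F'} {xb : Fk'}
    {B : Finset A} (hc : GoodRed.GoodCoord R' x xb B) (hπ : Function.Surjective π)
    [HasPrincipalDivisors K F'] [HasPrincipalDivisors k Fk']
    (φ : F →ₐ[K] F') (φk : Fk →ₐ[k] Fk')
    (hφ : φ.toRingHom.IsIntegral) (hφk : φk.toRingHom.IsIntegral)
    (r1 : Place K F → Place k Fk) (I : F → Fk → Prop)
    (hI : ∀ f z, I f z → R'.IsRed (φ f) (φk z))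
    (hI' : ∀ f z, I f z → z ≠ 0 → ∀ D : Divisor K F, (∀ P, D P = P.ord f) →
      ∀ Q, Finsupp.mapDomain r1 D Q = Q.ord z)
    (hgen : ∀ D : Divisor K F, D.IsPrincipal →
      D ∈ AddSubgroup.closure {D | ∃ f z, I f z ∧ z ≠ 0 ∧ ∀ P, D P = P.ord f})
    {m : ℕ} (hm : (m : k) ≠ 0) {D : Divisor K F} (hmD : (m • D).IsPrincipal)
    (hrD : Divisor.IsPrincipal (Finsupp.mapDomain r1 D)) : (Divisor.pullbackAlong φ hφ D).IsPrincipal := by
  classical
  set S := specGood hc hπ with hS
  set δ : Divisor K F →+ Divisor k Fk' :=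
    (Finsupp.mapDomain.addMonoidHom S.r).comp (Divisor.pullbackAlong φ hφ) -
      (Divisor.pullbackAlong φk hφk).comp (Finsupp.mapDomain.addMonoidHom r1) with hδ
  have hδapp : ∀ E, δ E = Finsupp.mapDomain S.r (Divisor.pullbackAlong φ hφ E) -
      Divisor.pullbackAlong φk hφk (Finsupp.mapDomain r1 E) := fun E => rfl
  have hm0 : m ≠ 0 := by rintro rfl; simp at hm
  have hδp : ∀ E : Divisor K F, E.IsPrincipal → δ E = 0 := by
    intro E hE
    have h1 := hgen E hE
    clear hE
    induction h1 using AddSubgroup.closure_induction with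
    | mem E hE =>
      obtain ⟨f, z, hfz, hz, hEf⟩ := hE
      rw [hδapp, sub_eq_zero]
      have hz' : φk z ≠ 0 := by simpa using hz
      ext Q
      rw [S.ord_eq (φ f) (φk z) (hI f z hfz) hz' (Divisor.pullbackAlong φ hφ E) ?_ Q,
        Divisor.pullbackAlong_apply, hI' f z hfz hz E hEf, ← Place.ord_restrictAlong]
      intro P
      rw [Divisor.pullbackAlong_apply, hEf, ← Place.ord_restrictAlong]
    | zero => exact map_zero δ
    | add E E' _ _ hE hE' => rw [map_add, hE, hE', add_zero]
    | neg E _ hE => rw [map_neg, hE, neg_zero]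
  have hδD : δ D = 0 := by
    have h1 := hδp _ hmD
    rw [map_nsmul] at h1
    exact (smul_eq_zero.1 h1).resolve_left hm0
  rw [hδapp, sub_eq_zero] at hδD
  have hmD' : (m • Divisor.pullbackAlong φ hφ D).IsPrincipal := by
    rw [← map_nsmul]
    exact Divisor.isPrincipal_pullbackAlong φ hφ hmD
  refine isPrincipal_of_torsion hc hπ S m hm _ (degree_eq_zero_of_torsion hm0 hmD') hmD' ?_
  rw [hδD]
  exact Divisor.isPrincipal_pullbackAlong φk hφk hrD

theorem isPrincipal_of_pullback_torsion {R' : ConstRed A π F' Fk'} {x : F'} {xb : Fk'}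
    {B : Finset A} (hc : GoodRed.GoodCoord R' x xb B) (hπ : Function.Surjective π)
    (φ : F →ₐ[K] F') (φk : Fk →ₐ[k] Fk')
    (r1 : Place K F → Place k Fk) (I : F → Fk → Prop)
    (hI : ∀ f z, I f z → R'.IsRed (φ f) (φk z))
    (hI' : ∀ f z, I f z → z ≠ 0 → ∀ D : Divisor K F, (∀ P, D P = P.ord f) →
      ∀ Q, Finsupp.mapDomain r1 D Q = Q.ord z)
    (hgen : ∀ D : Divisor K F, D.IsPrincipal →
      D ∈ AddSubgroup.closure {D | ∃ f z, I f z ∧ z ≠ 0 ∧ ∀ P, D P = P.ord f})
    {m : ℕ} (hm : (m : k) ≠ 0) (hcop : Nat.Coprime m (finrankAlong K φ))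
    {D : Divisor K F} (hmD : (m • D).IsPrincipal)
    (hrD : Divisor.IsPrincipal (Finsupp.mapDomain r1 D)) : D.IsPrincipal := by
  haveI : HasPrincipalDivisors K F' := RR.hasPrincipalDivisors K F'
  haveI : HasPrincipalDivisors k Fk' := RR.hasPrincipalDivisors k Fk'
  have hfin : FiniteAlong K φ := JZ.finiteAlong φ
  have hφ := JZ.isIntegral_of_finiteAlong φ hfin
  have hφk : φk.toRingHom.IsIntegral := JZ.isIntegralAlong φk
  have h1 := isPrincipal_pullback_of_torsion hc hπ φ φk hφ hφk r1 I hI hI' hgen hm hmD hrD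
  have hsep : letI := algebraAlong φ; Algebra.IsSeparable F F' := by
    letI := algebraAlong φ
    haveI : Module.Finite F F' := hfin
    haveI : CharZero F := charZero_of_injective_algebraMap (algebraMap K F).injective
    infer_instance
  have h2 := Divisor.isPrincipal_pushforwardAlong φ hφ hfin (normFormulaAlong φ hfin hsep) h1
  rw [pushforward_pullback φ hφ (fundamentalIdentityAlong φ hfin hsep hφ)] at h2
  exact isPrincipal_of_coprime hcop hmD h2

end Main


theorem pic0_mk_eq_zero {K F : Type*} [Field K] [Field F] [Algebra K F]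
    (D : Divisor.degZero (K := K) (F := F)) :
    Pic0.mk D = 0 ↔ Divisor.IsPrincipal (D : Divisor K F) := by
  rw [← Divisor.mem_principal]
  change (QuotientAddGroup.mk D : Pic0 K F) = 0 ↔ _
  rw [QuotientAddGroup.eq_zero_iff, AddSubgroup.mem_addSubgroupOf]

section XZero

variable {N : ℕ} [NeZero N] {ℓ : ℕ} [hℓ : Fact ℓ.Prime]
  {A : ValuationSubring (AlgebraicClosure ℚ)} {k : Type*} [Field k] {π : A →+* k}

theorem eq_zero_of_goodCoord (hN : ¬ ℓ ∣ N) (hA : A.LiesOverPrime ℓ)
    (hπ : ∀ a : A, π a = 0 ↔ ¬ IsUnit a) (hs : Function.Surjective π) {M : ℕ} [NeZero M]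
    (hNM : N ∣ M) (hM : ¬ ℓ ∣ M)
    {x : modularFunctionFieldBar M} {xb : modularFunctionFieldFullC k M}
    {B : Finset A} (hc : GoodRed.GoodCoord (redX M hA hπ hs hM) x xb B)
    (h : ReductionInputsAlong A π N) (m : ℕ) (hm : ¬ ℓ ∣ m)
    (hcop : Nat.Coprime m ((modularFunctionFieldBar N).relfinrank (modularFunctionFieldBar M)))
    (z : JZero N) (hmz : m • z = 0) (hz : reductionAlong A π N z = 0) : z = 0 := by
  haveI hch : CharP k ℓ := charP_of_liesOverPrime hA hπ
  haveI : IsAlgClosed k := isAlgClosed_of_surjective hs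
  haveI := isFnField_bar N
  haveI := isFnField_bar M
  haveI := isFnField_fullC (k := k) N ℓ hN
  haveI := isFnField_fullC (k := k) M ℓ hM
  obtain ⟨D, rfl⟩ := Pic0.mk_surjective z
  have hle : modularFunctionFieldBar N ≤ modularFunctionFieldBar M := JZ.FN_mono hNM
  have hlek := full_degeneracyC_le (K := k) hNM
  have hm' : (m : k) ≠ 0 := by
    rw [Ne, CharP.cast_eq_zero_iff k ℓ]
    exact hm
  have hD : Divisor.IsPrincipal (D : Divisor (AlgebraicClosure ℚ) (modularFunctionFieldBar N)) := by
    refine isPrincipal_of_pullback_torsion hc hs (IntermediateField.inclusion hle)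
      (IntermediateField.inclusion hlek) h.choose
      (fun f z => ∃ (y : LaurentSeries A) (hy : coeffMap A.subtype y ∈ modularFunctionFieldBar N)
        (hyk : coeffMap π y ∈ modularFunctionFieldFullC k N),
        f = ⟨coeffMap A.subtype y, hy⟩ ∧ z = ⟨coeffMap π y, hyk⟩)
      ?_ ?_ ?_ hm' ?_ ?_ ?_
    · rintro _ _ ⟨y, hy, hyk, rfl, rfl⟩
      exact isRed_redX.2 (gRed_iota _ y)
    · rintro _ _ ⟨y, hy, hyk, rfl, rfl⟩ hz D hD Q
      exact h.choose_spec.1.2 y hy hyk (fun h0 => hz (Subtype.ext h0)) D hD Q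
    · intro E hE
      refine AddSubgroup.closure_mono ?_ (h.choose_spec.2 hE)
      rintro E' ⟨y, hy, hyk, hne, hE'⟩
      exact ⟨_, _, ⟨y, hy, hyk, rfl, rfl⟩, fun h0 => hne (congrArg Subtype.val h0), hE'⟩
    · rw [JZ.finrankAlong_inclusion]
      exact hcop
    · have h1 : Pic0.mk (m • D) = 0 := hmz
      rw [pic0_mk_eq_zero] at h1
      exact h1
    · rw [reductionAlong_mk h, pic0_mk_eq_zero] at hz
      exact hz
  rw [pic0_mk_eq_zero]
  exact hD

end XZero

end Fermat.Agent.Red
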