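import Fermat.Agent.Red.XZero

/-!
# Hauptmodul coordinates
-/

set_option autoImplicit false
set_option linter.unusedSectionVars false
set_option linter.style.haveILetI false
set_option linter.unusedVariables false

noncomputable section

open AlgebraicCurve IntermediateField ModularCurve Module Fermat.Agent.FF

namespace Fermat.Agent.Red

section FF

variable {K F : Type*} [Field K] [Field F] [Algebra K F]

theorem ord_add_const_of_pos (v : Place K F) {t : F} {c : K} (hc : c ≠ 0) (h : 0 < v.ord t) :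
    v.ord (t + algebraMap K F c) = 0 := by
  have hc' : algebraMap K F c ≠ 0 := by simpa using hc
  rw [add_comm, FF.ord_add_eq_of_lt v hc' (Or.inr (by rw [FF.ord_algebraMap]; exact h)),
    FF.ord_algebraMap]

theorem ord_add_const_of_neg (v : Place K F) {t : F} (c : K) (h : v.ord t < 0) :
    v.ord (t + algebraMap K F c) = v.ord t := by
  have ht : t ≠ 0 := by rintro rfl; simp at h
  exact FF.ord_add_eq_of_lt v ht (Or.inr (by rw [FF.ord_algebraMap]; exact h))

theorem ord_add_const_nonneg (v : Place K F) {t : F} (c : K) (h : 0 ≤ v.ord t) :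
    0 ≤ v.ord (t + algebraMap K F c) := by
  by_cases h0 : t + algebraMap K F c = 0
  · rw [h0]; simp
  · have := FF.min_le_ord_add v h0
    rw [FF.ord_algebraMap] at this
    exact (le_min h le_rfl).trans this

theorem ord_prod' (v : Place K F) {ι : Type*} (s : Finset ι) (f : ι → F)
    (hf : ∀ i ∈ s, f i ≠ 0) : v.ord (∏ i ∈ s, f i) = ∑ i ∈ s, v.ord (f i) := by
  classical
  induction s using Finset.induction_on with
  | empty => simp
  | insert a s ha ih =>
    rw [Finset.prod_insert ha, Finset.sum_insert ha, v.ord_mul, ih]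
    · exact fun i hi => hf i (Finset.mem_insert_of_mem hi)
    · exact hf a (Finset.mem_insert_self a s)
    · exact Finset.prod_ne_zero_iff.2 fun i hi => hf i (Finset.mem_insert_of_mem hi)

theorem transcendental_of_rel {j t : F} (hj : Transcendental K j) {e : ℕ}
    (c : Fin (e + 1) → K) (hc : ∀ i, c i ≠ 0)
    (hrel : j * t ^ e = ∏ i, (t + algebraMap K F (c i))) : Transcendental K t := by
  intro ht
  apply hj
  have ht0 : t ^ e ≠ 0 := by
    intro h0
    rw [h0, mul_zero] at hrel
    have hz : t = 0 := eq_zero_of_pow_eq_zero h0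
    rw [hz] at hrel
    have h2 : ∏ i, ((0 : F) + algebraMap K F (c i)) ≠ 0 := by
      rw [Finset.prod_ne_zero_iff]
      intro i _
      rw [zero_add]
      simpa using hc i
    exact h2 hrel.symm
  have h1 : j = (∏ i, (t + algebraMap K F (c i))) / t ^ e := by
    rw [← hrel]; field_simp
  rw [h1, div_eq_mul_inv]
  have h3 : IsAlgebraic K (∏ i, (t + algebraMap K F (c i))) := by
    rw [← mem_algebraicClosure_iff]
    refine prod_mem fun i _ => ?_
    rw [mem_algebraicClosure_iff]
    exact ht.add (isAlgebraic_algebraMap _)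
  exact h3.mul (ht.pow e).inv

theorem isSeparable_of_mem_adjoin {x t : F} (hmem : x ∈ K⟮t⟯)
    (h : Algebra.IsSeparable K⟮x⟯ F) : Algebra.IsSeparable K⟮t⟯ F := by
  have hle : K⟮x⟯ ≤ K⟮t⟯ := adjoin_simple_le_of_mem hmem
  letI : Algebra K⟮x⟯ K⟮t⟯ := (IntermediateField.inclusion hle).toRingHom.toAlgebra
  haveI : IsScalarTower K⟮x⟯ K⟮t⟯ F := IsScalarTower.of_algebraMap_eq fun _ => rfl
  exact Algebra.isSeparable_tower_top_of_isSeparable K⟮x⟯ K⟮t⟯ F

theorem mem_adjoin_of_rel {j t : F} (ht : Transcendental K t) {e : ℕ}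
    (c : Fin (e + 1) → K) (hrel : j * t ^ e = ∏ i, (t + algebraMap K F (c i))) :
    j ∈ K⟮t⟯ := by
  have ht0 : t ^ e ≠ 0 := pow_ne_zero _ (FF.transcendental_ne_zero ht)
  have h1 : j = (∏ i, (t + algebraMap K F (c i))) / t ^ e := by
    rw [← hrel]; field_simp
  rw [h1]
  exact div_mem (prod_mem fun i _ => add_mem (mem_adjoin_simple_self K t)
    (IntermediateField.algebraMap_mem _ _)) (pow_mem (mem_adjoin_simple_self K t) e)

variable [IsAlgClosed K] [IsFnField K F]

theorem finrank_of_rel {j t : F} (hj : Transcendental K j) {e : ℕ}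
    (c : Fin (e + 1) → K) (hc : ∀ i, c i ≠ 0)
    (hrel : j * t ^ e = ∏ i, (t + algebraMap K F (c i))) :
    finrank K⟮j⟯ F = (e + 1) * finrank K⟮t⟯ F := by
  have ht := transcendental_of_rel hj c hc hrel
  have ht0 : t ≠ 0 := FF.transcendental_ne_zero ht
  have hj0 : j ≠ 0 := FF.transcendental_ne_zero hj
  have hne : ∀ i, t + algebraMap K F (c i) ≠ 0 := by
    intro i h
    apply ht
    have h1 : t = algebraMap K F (-c i) := by rw [map_neg]; exact eq_neg_of_add_eq_zero_left h
    rw [h1]
    exact isAlgebraic_algebraMap _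
  have hord : ∀ v : Place K F, v.ord j + e * v.ord t = ∑ i, v.ord (t + algebraMap K F (c i)) := by
    intro v
    rw [← ord_prod' v _ _ (fun i _ => hne i), ← hrel, v.ord_mul hj0 (pow_ne_zero _ ht0),
      FF.ord_pow]
  have hdiv : RR.poleDiv (K := K) j = e • RR.poleDiv (K := K) t⁻¹ + RR.poleDiv (K := K) t := by
    ext v
    rw [Finsupp.add_apply, Finsupp.smul_apply, RR.poleDiv_apply, RR.poleDiv_apply,
      RR.poleDiv_apply, v.ord_inv, neg_neg, nsmul_eq_mul]
    have h1 := hord v
    rcases lt_trichotomy (v.ord t) 0 with h | h | h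
    · rw [Finset.sum_congr rfl fun i _ => ord_add_const_of_neg v (c i) h] at h1
      simp only [Finset.sum_const, Finset.card_univ, Fintype.card_fin, nsmul_eq_mul] at h1
      push_cast at h1
      have h2 : v.ord j = v.ord t := by linarith
      rw [h2, max_eq_left h.le, mul_zero, zero_add]
    · have h2 : 0 ≤ v.ord j := by
        rw [h, mul_zero, add_zero] at h1
        rw [h1]
        exact Finset.sum_nonneg fun i _ => ord_add_const_nonneg v (c i) h.ge
      rw [h]
      simp only [max_self, mul_zero, neg_zero, add_zero]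
      exact max_eq_left (by linarith)
    · rw [Finset.sum_congr rfl fun i _ => ord_add_const_of_pos v (hc i) h] at h1
      simp only [Finset.sum_const_zero] at h1
      have h2 : v.ord j = -(e * v.ord t) := by linarith
      rw [h2, neg_neg, max_eq_right h.le, max_eq_right (by positivity),
        max_eq_left (by linarith), add_zero]
  have h1 := congrArg Divisor.degree hdiv
  rw [map_add, map_nsmul, RR.degree_poleDiv hj, RR.degree_poleDiv ht,
    RR.degree_poleDiv (RR.transcendental_inv' ht), RR.adjoin_simple_inv', nsmul_eq_mul] at h1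
  have h2 : (finrank K⟮j⟯ F : ℤ) = ((e + 1) * finrank K⟮t⟯ F : ℕ) := by
    rw [h1]; push_cast; ring
  exact_mod_cast h2

/-- unramifiedness from a factorisation -/
theorem ord_sub_le_one_of_rel (v : Place K F) {j t : F} (hj : Transcendental K j) {a c : K}
    (ha : a ≠ 0) {e m : ℕ} (hm : v.ord (j - algebraMap K F c) ≤ m) (hm0 : 0 < m)
    {g : Polynomial K} (ht : Transcendental K t)
    (hrel : t ^ e * (j - algebraMap K F c) = (t - algebraMap K F a) ^ m * Polynomial.aeval t g) :
    v.ord (t - algebraMap K F a) ≤ 1 := by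
  by_contra hcon
  push Not at hcon
  have ht0 : t ≠ 0 := FF.transcendental_ne_zero ht
  have hjc : j - algebraMap K F c ≠ 0 := by
    intro h
    apply hj
    rw [sub_eq_zero.1 h]
    exact isAlgebraic_algebraMap _
  have h1 : v.ord t = 0 := by
    have h2 : t = (t - algebraMap K F a) + algebraMap K F a := by ring
    rw [h2]
    exact ord_add_const_of_pos v ha (by omega)
  have hl : (t - algebraMap K F a) ^ m * Polynomial.aeval t g ≠ 0 := by
    rw [← hrel]
    exact mul_ne_zero (pow_ne_zero _ ht0) hjc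
  have h3 : 0 ≤ v.ord (Polynomial.aeval t g) := by
    apply FF.ord_nonneg_of_mem
    rw [Polynomial.aeval_eq_sum_range]
    refine sum_mem fun i _ => ?_
    rw [Algebra.smul_def]
    exact mul_mem (v.algebraMap_mem' _) (pow_mem (FF.mem_of_ord_nonneg v h1.ge) i)
  have h4 := congrArg v.ord hrel
  rw [v.ord_mul (pow_ne_zero _ ht0) hjc, v.ord_mul (left_ne_zero_of_mul hl)
    (right_ne_zero_of_mul hl), FF.ord_pow, FF.ord_pow, h1] at h4
  have h5 : (m : ℤ) * v.ord (t - algebraMap K F a) ≤ m := by linarith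
  have h6 : (0 : ℤ) < m := by exact_mod_cast hm0
  nlinarith

end FF


section Instances

variable (N : ℕ) [NeZero N]

theorem isFnField_bar : IsFnField (AlgebraicClosure ℚ) (modularFunctionFieldBar N) := by
  haveI := finiteDimensional_jB N
  refine IsFnField.of_finiteDimensional (x := jB N) ?_
  intro h
  exact transcendental_jqModC _ (h.algebraMap (A := LaurentSeries (AlgebraicClosure ℚ)))

theorem transcendental_jB : Transcendental (AlgebraicClosure ℚ) (jB N) := by
  intro h
  exact transcendental_jqModC _ (h.algebraMap (A := LaurentSeries (AlgebraicClosure ℚ)))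

theorem isFnField_fullC {k : Type*} [Field k] (ℓ : ℕ) [Fact ℓ.Prime] [CharP k ℓ] (hN : ¬ ℓ ∣ N) :
    IsFnField k (modularFunctionFieldFullC k N) := by
  haveI := RedQ.finiteDimensional_charP N k ℓ hN
  exact IsFnField.of_finiteDimensional (RedQ.transcendental_xj k N)

end Instances

theorem coeffMap_int_comp {R S : Type*} [CommRing R] [CommRing S] (f : R →+* S)
    (T : LaurentSeries ℤ) :
    coeffMap f (coeffMap (Int.castRingHom R) T) = coeffMap (Int.castRingHom S) T := by
  ext n
  simp only [coeffMap_coeff]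
  simp

theorem gRed_int {L k : Type*} [Field L] [Field k] {A : ValuationSubring L} (π : A →+* k)
    (T : LaurentSeries ℤ) :
    GRed π (coeffMap (Int.castRingHom L) T) (coeffMap (Int.castRingHom k) T) := by
  have h := gRed_iota π (coeffMap (Int.castRingHom A) T)
  rwa [iotaA, rhoA, coeffMap_int_comp, coeffMap_int_comp] at h

section Haupt

variable {k : Type*} [Field k] {A : ValuationSubring (AlgebraicClosure ℚ)} {π : A →+* k}
  {ℓ : ℕ} [hℓ : Fact ℓ.Prime] {N : ℕ} [NeZero N]

theorem int_mem_fullC (hA : A.LiesOverPrime ℓ) (hπ : ∀ a : A, π a = 0 ↔ ¬ IsUnit a)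
    (hs : Function.Surjective π) (hN : ¬ ℓ ∣ N) {T : LaurentSeries ℤ}
    (hT : coeffMap (Int.castRingHom (AlgebraicClosure ℚ)) T ∈ modularFunctionFieldBar N) :
    coeffMap (Int.castRingHom k) T ∈ modularFunctionFieldFullC k N := by
  rw [← gaussRes_bar N hA hπ hs hN]
  exact ⟨_, hT, gRed_int π T⟩

theorem goodCoord_of_rel [IsAlgClosed k]
    (hA : A.LiesOverPrime ℓ) (hπ : ∀ a : A, π a = 0 ↔ ¬ IsUnit a)
    (hs : Function.Surjective π) (hN : ¬ ℓ ∣ N) {T : LaurentSeries ℤ}
    (hT : coeffMap (Int.castRingHom (AlgebraicClosure ℚ)) T ∈ modularFunctionFieldBar N)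
    {e : ℕ} (c : Fin (e + 1) → ℤ) (hc : ∀ i, ¬ (ℓ : ℤ) ∣ c i)
    (hrel : jqModC ℤ * T ^ e = ∏ i, (T + HahnSeries.C (c i))) {b : ℤ} (hb : ¬ (ℓ : ℤ) ∣ b)
    (hunr : ∀ (P : Place (AlgebraicClosure ℚ) (modularFunctionFieldBar N))
      (a : AlgebraicClosure ℚ), a ≠ 0 → (b : AlgebraicClosure ℚ) ≠ a →
      P.ord ((⟨_, hT⟩ : modularFunctionFieldBar N) - algebraMap _ _ a) ≤ 1) :
    GoodRed.GoodCoord (redX N hA hπ hs hN) ⟨_, hT⟩
      ⟨_, int_mem_fullC hA hπ hs hN hT⟩ {(b : A)} := by
  haveI hch := charP_of_liesOverPrime hA hπ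
  haveI := isFnField_bar N
  haveI := isFnField_fullC (k := k) N ℓ hN
  set t : modularFunctionFieldBar N := ⟨_, hT⟩ with ht
  set tb : modularFunctionFieldFullC k N := ⟨_, int_mem_fullC hA hπ hs hN hT⟩ with htb
  have hrel1 : jB N * t ^ e = ∏ i, (t + algebraMap _ _ ((c i : ℤ) : AlgebraicClosure ℚ)) := by
    apply Subtype.ext
    have h1 := congrArg (coeffMap (Int.castRingHom (AlgebraicClosure ℚ))) hrel
    rw [map_mul, map_pow, map_prod, coeffMap_jqModC] at h1
    push_cast
    refine h1.trans (Finset.prod_congr rfl fun i _ => ?_)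
    rw [map_add, coeffMap_single_zero, eq_intCast]
    congr 1
    exact (algebraMap_eq_C _).symm
  have hrel2 : RedQ.xj k N * tb ^ e = ∏ i, (tb + algebraMap _ _ ((c i : ℤ) : k)) := by
    apply Subtype.ext
    have h1 := congrArg (coeffMap (Int.castRingHom k)) hrel
    rw [map_mul, map_pow, map_prod, coeffMap_jqModC] at h1
    push_cast
    refine h1.trans (Finset.prod_congr rfl fun i _ => ?_)
    rw [map_add, coeffMap_single_zero, eq_intCast]
    congr 1
    exact (algebraMap_eq_C _).symm
  have hc1 : ∀ i, ((c i : ℤ) : AlgebraicClosure ℚ) ≠ 0 := by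
    intro i h
    rw [Int.cast_eq_zero] at h
    exact hc i (by rw [h]; exact dvd_zero _)
  have hc2 : ∀ i, ((c i : ℤ) : k) ≠ 0 := by
    intro i h
    exact hc i ((CharP.intCast_eq_zero_iff k ℓ (c i)).1 h)
  have htr1 := transcendental_of_rel (transcendental_jB N) _ hc1 hrel1
  have htr2 := transcendental_of_rel (RedQ.transcendental_xj k N) _ hc2 hrel2
  have hd1 := finrank_of_rel (transcendental_jB N) _ hc1 hrel1
  have hd2 := finrank_of_rel (RedQ.transcendental_xj k N) _ hc2 hrel2
  exact
  { isRed := isRed_redX.2 (gRed_int π T)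
    trans := htr2
    finite := IsFnField.finiteDimensional htr1
    finite' := IsFnField.finiteDimensional htr2
    finrank_eq := by
      rw [finrank_jB] at hd1
      rw [RedQ.finrank_charP N k ℓ hN, hd1] at hd2
      exact Nat.eq_of_mul_eq_mul_left (Nat.succ_pos e) hd2
    sep := by
      exact isSeparable_of_mem_adjoin (mem_adjoin_of_rel htr2 _ hrel2)
        (RedQ.isSeparable_charP N k ℓ hN)
    inj := by simp
    unit := by
      intro b' hb'
      rw [Finset.mem_singleton] at hb'
      subst hb'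
      rw [map_intCast]
      intro h
      exact hb ((CharP.intCast_eq_zero_iff k ℓ b).1 h)
    unram := by
      intro P a ha hb'
      apply hunr P a ha
      have := hb' _ (Finset.mem_singleton_self _)
      simpa using this }

end Haupt


section Unram

variable {K F : Type*} [Field K] [Field F] [Algebra K F] [IsAlgClosed K] [IsFnField K F]
  [CharZero K]

theorem ord_sub_le_one_generic (P : Place K F) {j t : F} (hj : Transcendental K j)
    (ht : Transcendental K t) {e : ℕ} (Q : Polynomial K) (hrel : j * t ^ e = Polynomial.aeval t Q)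
    (h1 : ∀ c : K, c ≠ 0 → c ≠ 1728 → P.ord (j - algebraMap K F c) ≤ 1) {a : K} (ha : a ≠ 0)
    (hQ0 : Q.eval a ≠ 0) (hQ : Q.eval a ≠ 1728 * a ^ e) : P.ord (t - algebraMap K F a) ≤ 1 := by
  set c := Q.eval a / a ^ e with hc
  have hae : a ^ e ≠ 0 := pow_ne_zero _ ha
  have hroot : (Q - Polynomial.C c * Polynomial.X ^ e).IsRoot a := by
    rw [Polynomial.IsRoot, Polynomial.eval_sub, Polynomial.eval_mul, Polynomial.eval_C,
      Polynomial.eval_pow, Polynomial.eval_X, hc, div_mul_cancel₀ _ hae, sub_self]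
  obtain ⟨g, hg⟩ := Polynomial.dvd_iff_isRoot.2 hroot
  have hc1728 : c ≠ 1728 := by
    intro h
    apply hQ
    rw [hc, div_eq_iff hae] at h
    exact h
  refine ord_sub_le_one_of_rel P (m := 1) hj ha
    (by exact_mod_cast h1 c (div_ne_zero hQ0 hae) hc1728) one_pos (g := g) ht (e := e) ?_
  · have h2 := congrArg (Polynomial.aeval t) hg
    simp only [map_sub, map_mul, map_pow, Polynomial.aeval_X, Polynomial.aeval_C] at h2
    rw [pow_one, ← h2, ← hrel]
    ring

theorem unram_T (P : Place K F) {j t : F} (hj : Transcendental K j)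
    (ht : Transcendental K t) (hrel : j * t ^ 3 = (t + 27) * (t + 243) ^ 3)
    (h1 : ∀ c : K, c ≠ 0 → c ≠ 1728 → P.ord (j - algebraMap K F c) ≤ 1)
    (h2 : P.ord j ≤ 3) (h3 : P.ord (j - algebraMap K F 1728) ≤ 2) {a : K} (ha : a ≠ 0)
    (hb : a ≠ -27) : P.ord (t - algebraMap K F a) ≤ 1 := by
  by_cases hA : a = -243
  · refine ord_sub_le_one_of_rel P (m := 3) (c := 0) (e := 3) (g := Polynomial.X + 27) hj ha
      (by rw [map_zero, sub_zero]; exact_mod_cast h2) (by norm_num) ht ?_
    rw [hA]
    simp only [map_zero, sub_zero, map_neg, map_ofNat, sub_neg_eq_add, map_add,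
      Polynomial.aeval_X]
    rw [mul_comm, hrel]
    ring
  by_cases hB : (a + 27) * (a + 243) ^ 3 = 1728 * a ^ 3
  · have h4 : (a ^ 2 - 486 * a - 19683) ^ 2 = 0 := by linear_combination hB
    have h5 : a ^ 2 - 486 * a - 19683 = 0 := eq_zero_of_pow_eq_zero h4
    refine ord_sub_le_one_of_rel P (m := 2) (c := 1728) (e := 3)
      (g := (Polynomial.X + Polynomial.C (a - 486)) ^ 2) hj ha (by exact_mod_cast h3)
      (by norm_num) ht ?_
    have h6 := congrArg (algebraMap K F) h5
    simp only [map_sub, map_mul, map_pow, map_ofNat, map_zero, map_add, Polynomial.aeval_X,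
      Polynomial.aeval_C] at h6 ⊢
    have h7 : (t - algebraMap K F a) * (t + (algebraMap K F a - 486)) = t ^ 2 - 486 * t - 19683 := by
      linear_combination -h6
    rw [← mul_pow, h7]
    linear_combination hrel
  · refine ord_sub_le_one_generic P hj ht (e := 3)
      ((Polynomial.X + 27) * (Polynomial.X + 243) ^ 3) ?_ h1 ha ?_ ?_
    · rw [hrel]
      simp only [map_mul, map_add, map_pow, map_ofNat, Polynomial.aeval_X]
    · simp only [Polynomial.eval_mul, Polynomial.eval_add, Polynomial.eval_X,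
        Polynomial.eval_ofNat, Polynomial.eval_pow]
      refine mul_ne_zero ?_ (pow_ne_zero _ ?_)
      · intro h; exact hb (eq_neg_of_add_eq_zero_left h)
      · intro h; exact hA (eq_neg_of_add_eq_zero_left h)
    · simpa using hB

theorem unram_H (P : Place K F) {j t : F} (hj : Transcendental K j)
    (ht : Transcendental K t) (hrel : j * t ^ 2 = (t + 256) ^ 3)
    (h1 : ∀ c : K, c ≠ 0 → c ≠ 1728 → P.ord (j - algebraMap K F c) ≤ 1)
    (h2 : P.ord j ≤ 3) (h3 : P.ord (j - algebraMap K F 1728) ≤ 2) {a : K} (ha : a ≠ 0)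
    (hb : a ≠ -64) : P.ord (t - algebraMap K F a) ≤ 1 := by
  by_cases hA : a = -256
  · refine ord_sub_le_one_of_rel P (m := 3) (c := 0) (e := 2) (g := 1) hj ha
      (by rw [map_zero, sub_zero]; exact_mod_cast h2) (by norm_num) ht ?_
    rw [hA]
    simp only [map_zero, sub_zero, map_neg, map_ofNat, sub_neg_eq_add, map_one, mul_one]
    rw [mul_comm, hrel]
  by_cases hB : (a + 256) ^ 3 = 1728 * a ^ 2
  · have h4 : (a + 64) * (a - 512) ^ 2 = 0 := by linear_combination hB
    have h5 : a = 512 := by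
      rcases mul_eq_zero.1 h4 with h | h
      · exact absurd (eq_neg_of_add_eq_zero_left h) hb
      · exact sub_eq_zero.1 (eq_zero_of_pow_eq_zero h)
    refine ord_sub_le_one_of_rel P (m := 2) (c := 1728) (e := 2)
      (g := (Polynomial.X + 64)) hj ha (by exact_mod_cast h3)
      (by norm_num) ht ?_
    rw [h5]
    simp only [map_add, map_ofNat, Polynomial.aeval_X]
    linear_combination hrel
  · refine ord_sub_le_one_generic P hj ht (e := 2)
      ((Polynomial.X + 256) ^ 3) ?_ h1 ha ?_ ?_
    · rw [hrel]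
      simp only [map_mul, map_add, map_pow, map_ofNat, Polynomial.aeval_X]
    · simp only [Polynomial.eval_add, Polynomial.eval_X,
        Polynomial.eval_ofNat, Polynomial.eval_pow]
      exact pow_ne_zero _ fun h => hA (eq_neg_of_add_eq_zero_left h)
    · simpa using hB

end Unram


section Final

variable {k : Type*} [Field k] [IsAlgClosed k] {A : ValuationSubring (AlgebraicClosure ℚ)}
  {π : A →+* k} {N : ℕ} [NeZero N]

theorem ramification_jB (P : Place (AlgebraicClosure ℚ) (modularFunctionFieldBar N)) :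
    (∀ c : AlgebraicClosure ℚ, c ≠ 0 → c ≠ 1728 → P.ord (jB N - algebraMap _ _ c) ≤ 1) ∧
      P.ord (jB N) ≤ 3 ∧ P.ord (jB N - algebraMap (AlgebraicClosure ℚ) _ 1728) ≤ 2 := by
  letI : Algebra (AlgebraicClosure ℚ) ℂ :=
    (IsAlgClosed.lift (R := ℚ) (S := AlgebraicClosure ℚ) (M := ℂ)).toRingHom.toAlgebra
  exact ⟨fun c h0 h1 => ord_j_sub_le_one (AlgebraicClosure ℚ) N h0 h1 P,
    ord_j_le_three (AlgebraicClosure ℚ) N P, ord_j_sub_1728_le_two (AlgebraicClosure ℚ) N P⟩

/-- the Hauptmodul of level `3` is a good coordinate at `ℓ = 2`. -/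
theorem goodCoord_T (hA : A.LiesOverPrime 2) (hπ : ∀ a : A, π a = 0 ↔ ¬ IsUnit a)
    (hs : Function.Surjective π) (hN : ¬ 2 ∣ N) {T : LaurentSeries ℤ}
    (hT : coeffMap (Int.castRingHom (AlgebraicClosure ℚ)) T ∈ modularFunctionFieldBar N)
    (hrel : jqModC ℤ * T ^ 3 = (T + 27) * (T + 243) ^ 3) :
    haveI : Fact (Nat.Prime 2) := ⟨Nat.prime_two⟩
    GoodRed.GoodCoord (redX N hA hπ hs hN) ⟨_, hT⟩
      ⟨_, int_mem_fullC hA hπ hs hN hT⟩ {((-27 : ℤ) : A)} := by
  haveI : Fact (Nat.Prime 2) := ⟨Nat.prime_two⟩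
  haveI := isFnField_bar N
  have hrel' : jqModC ℤ * T ^ 3 = ∏ i, (T + HahnSeries.C ((![27, 243, 243, 243] : Fin 4 → ℤ) i)) := by
    rw [hrel]
    simp only [Fin.prod_univ_four, Matrix.cons_val_zero, Matrix.cons_val_one, Matrix.cons_val]
    have h1 : (HahnSeries.C (27 : ℤ) : LaurentSeries ℤ) = 27 := map_ofNat _ 27
    have h2 : (HahnSeries.C (243 : ℤ) : LaurentSeries ℤ) = 243 := map_ofNat _ 243
    rw [h1, h2]
    ring
  have hrel1 : jB N * (⟨_, hT⟩ : modularFunctionFieldBar N) ^ 3 =
      ((⟨_, hT⟩ : modularFunctionFieldBar N) + 27) *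
        ((⟨_, hT⟩ : modularFunctionFieldBar N) + 243) ^ 3 := by
    apply Subtype.ext
    have h1 := congrArg (coeffMap (Int.castRingHom (AlgebraicClosure ℚ))) hrel
    simp only [map_mul, map_pow, coeffMap_jqModC, map_add, map_ofNat] at h1
    exact h1
  refine goodCoord_of_rel hA hπ hs hN hT (e := 3) ![27, 243, 243, 243] ?_ hrel' (b := -27) ?_ ?_
  · intro i
    fin_cases i <;> norm_num
  · norm_num
  · intro P a ha hb
    obtain ⟨h1, h2, h3⟩ := ramification_jB P
    refine unram_T P (transcendental_jB N) ?_ hrel1 h1 h2 h3 ha ?_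
    · refine transcendental_of_rel (transcendental_jB N) (e := 3)
        ![27, 243, 243, 243] ?_ ?_
      · intro i
        fin_cases i <;> norm_num
      · rw [hrel1]
        refine Eq.trans ?_ (Fin.prod_univ_four _).symm
        simp only [Matrix.cons_val_zero, Matrix.cons_val_one, Matrix.cons_val, map_ofNat]
        ring
    · intro h
      apply hb
      rw [h]
      norm_num

/-- the Hauptmodul of level `2` is a good coordinate at `ℓ = 3`. -/
theorem goodCoord_H (hA : A.LiesOverPrime 3) (hπ : ∀ a : A, π a = 0 ↔ ¬ IsUnit a)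
    (hs : Function.Surjective π) (hN : ¬ 3 ∣ N) {T : LaurentSeries ℤ}
    (hT : coeffMap (Int.castRingHom (AlgebraicClosure ℚ)) T ∈ modularFunctionFieldBar N)
    (hrel : jqModC ℤ * T ^ 2 = (T + 256) ^ 3) :
    haveI : Fact (Nat.Prime 3) := ⟨Nat.prime_three⟩
    GoodRed.GoodCoord (redX N hA hπ hs hN) ⟨_, hT⟩
      ⟨_, int_mem_fullC hA hπ hs hN hT⟩ {((-64 : ℤ) : A)} := by
  haveI : Fact (Nat.Prime 3) := ⟨Nat.prime_three⟩
  haveI := isFnField_bar N
  have hrel' : jqModC ℤ * T ^ 2 = ∏ i, (T + HahnSeries.C ((![256, 256, 256] : Fin 3 → ℤ) i)) := by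
    rw [hrel]
    simp only [Fin.prod_univ_three, Matrix.cons_val_zero, Matrix.cons_val_one, Matrix.cons_val]
    have h1 : (HahnSeries.C (256 : ℤ) : LaurentSeries ℤ) = 256 := map_ofNat _ 256
    rw [h1]
    ring
  have hrel1 : jB N * (⟨_, hT⟩ : modularFunctionFieldBar N) ^ 2 =
        ((⟨_, hT⟩ : modularFunctionFieldBar N) + 256) ^ 3 := by
    apply Subtype.ext
    have h1 := congrArg (coeffMap (Int.castRingHom (AlgebraicClosure ℚ))) hrel
    simp only [map_mul, map_pow, coeffMap_jqModC, map_add, map_ofNat] at h1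
    exact h1
  refine goodCoord_of_rel hA hπ hs hN hT (e := 2) ![256, 256, 256] ?_ hrel' (b := -64) ?_ ?_
  · intro i
    fin_cases i <;> norm_num
  · norm_num
  · intro P a ha hb
    obtain ⟨h1, h2, h3⟩ := ramification_jB P
    refine unram_H P (transcendental_jB N) ?_ hrel1 h1 h2 h3 ha ?_
    · refine transcendental_of_rel (transcendental_jB N) (e := 2)
        ![256, 256, 256] ?_ ?_
      · intro i
        fin_cases i <;> norm_num
      · rw [hrel1]
        refine Eq.trans ?_ (Fin.prod_univ_three _).symm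
        simp only [Matrix.cons_val_zero, Matrix.cons_val_one, Matrix.cons_val, map_ofNat]
        ring
    · intro h
      apply hb
      rw [h]
      norm_num

end Final

end Fermat.Agent.Red
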