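import Fermat.Agent.RR.Riemann
import Fermat.Agent.Zeta.Frob
import Fermat.Agent.RRC.Bridge
import Fermat.Agent.FF.Fiber

/-!
# The fundamental identity for arbitrary (possibly inseparable) finite extensions
-/

set_option autoImplicit false
set_option linter.unusedSectionVars false
set_option linter.style.haveILetI false
set_option linter.unusedVariables false

open AlgebraicCurve IntermediateField Module

namespace Fermat.Agent.Red

open Fermat.Agent.FF

variable {K F F' : Type*} [Field K] [Field F] [Field F'] [Algebra K F] [Algebra K F']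
  [Algebra F F'] [IsScalarTower K F F']

theorem finrank_adjoin_algebraMap (z : F) :
    finrank K⟮algebraMap F F' z⟯ F' = finrank K⟮z⟯ F * finrank F F' := by
  have h1 : finrank K⟮z⟯ F * finrank F F' = finrank K⟮z⟯ F' := finrank_mul_finrank _ _ _
  rw [h1]
  have h2 : (K⟮z⟯).map (IsScalarTower.toAlgHom K F F') = K⟮algebraMap F F' z⟯ := by
    rw [IntermediateField.adjoin_map, Set.image_singleton]
    rfl
  let e : K⟮z⟯ ≃ₐ[K] K⟮algebraMap F F' z⟯ :=
    ((K⟮z⟯).equivMap (IsScalarTower.toAlgHom K F F')).trans (IntermediateField.equivOfEq h2)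
  symm
  refine Algebra.finrank_eq_of_equiv_equiv e.toRingEquiv (RingEquiv.refl F') ?_
  ext x
  rfl

variable [IsAlgClosed K] [IsFnField K F] [IsFnField K F'] [Module.Finite F F']
  [HasPrincipalDivisors K F']

/-- **The fundamental identity** `∑ e = n`. -/
theorem sum_ramificationIndex_fn (v : Place K F) :
    ∑ w ∈ v.fiber F', (w.ramificationIndex F : ℤ) = finrank F F' := by
  classical
  haveI := RRC.ff_of_isFnField K F
  obtain ⟨z, -, hz⟩ := Zeta.exists_only_pole v
  have hzv : v.ord z < 0 := (hz v).1
  have hz' : ∀ w : Place K F, w.ord z < 0 → w = v := fun w => (hz w).2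
  have hzt : Transcendental K z := transcendental_of_ord_ne_zero v hzv.ne
  have hzt' : Transcendental K (algebraMap F F' z) := by
    intro h
    exact hzt ((isAlgebraic_algebraMap_iff (algebraMap F F').injective).1 h)
  have h1 := RR.degree_poleDiv hzt
  have h2 : RR.poleDiv (K := K) z = Finsupp.single v (-v.ord z) := by
    ext w
    rw [RR.poleDiv_apply, Finsupp.single_apply]
    split_ifs with h
    · rw [← h]
      exact max_eq_right (by omega)
    · have h3 : ¬ w.ord z < 0 := fun h4 => h (hz' w h4).symm
      exact max_eq_left (by omega)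
  rw [h2, RR.degree_single'] at h1
  have h3 := RR.degree_poleDiv hzt'
  have h4 : RR.poleDiv (K := K) (algebraMap F F' z) =
      ∑ w ∈ v.fiber F', Finsupp.single w ((w.ramificationIndex F : ℤ) * (-v.ord z)) := by
    ext w
    rw [RR.poleDiv_apply, Place.ord_restrict, Finsupp.finsetSum_apply]
    by_cases hw : w ∈ v.fiber F'
    · rw [Finset.sum_eq_single w, Finsupp.single_eq_same]
      · rw [Place.mem_fiber.1 hw]
        have h5 : (0 : ℤ) ≤ w.ramificationIndex F := by positivity
        rw [max_eq_right]
        · ring
        · nlinarith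
      · intro w' _ hne
        rw [Finsupp.single_apply, if_neg hne]
      · intro h; exact absurd hw h
    · rw [Finset.sum_eq_zero]
      · have h5 : ¬ (w.restrict F).ord z < 0 := fun h6 => hw (Place.mem_fiber.2 (hz' _ h6))
        have h6 : (0 : ℤ) ≤ w.ramificationIndex F := by positivity
        exact max_eq_left (by nlinarith)
      · intro w' hw' 
        rw [Finsupp.single_apply, if_neg]
        rintro rfl
        exact hw hw'
  rw [h4, map_sum, finrank_adjoin_algebraMap] at h3
  simp only [RR.degree_single'] at h3
  rw [← Finset.sum_mul] at h3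
  push_cast at h3
  rw [← h1, mul_comm (-v.ord z)] at h3
  exact mul_right_cancel₀ (by omega) h3

theorem fundamentalIdentity_fn : FundamentalIdentity K F F' where
  sum_ramificationIndex_mul_deg v := by
    rw [RR.deg_eq_one, ← sum_ramificationIndex_fn (F' := F') v, Nat.cast_one, mul_one]
    exact Finset.sum_congr rfl fun w _ => by rw [RR.deg_eq_one, Nat.cast_one, mul_one]

end Fermat.Agent.Red
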