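import Fermat.Agent.Red.JFixed
import Fermat.Agent.Red.FundId

/-!
# Compatibility of the reduction of `J₀(N)` with correspondences and Hecke operators
-/

set_option autoImplicit false
set_option linter.unusedSectionVars false
set_option linter.style.haveILetI false
set_option linter.unusedVariables false

noncomputable section

open AlgebraicCurve IntermediateField Module ModularCurve

namespace Fermat.Agent.Red

open Fermat.Agent.FF

theorem single_le_one {X : Type*} (a : X) (Y : X) : |(Finsupp.single a (1 : ℤ)) Y| ≤ 1 := by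
  classical
  rw [Finsupp.single_apply]
  split_ifs <;> norm_num

section Along

variable {K F F' : Type*} [Field K] [Field F] [Field F'] [Algebra K F] [Algebra K F']
  [IsAlgClosed K] [IsFnField K F] [IsFnField K F']

theorem fundamentalIdentityAlong_fn [HasPrincipalDivisors K F'] (φ : F →ₐ[K] F')
    (hφ : φ.toRingHom.IsIntegral) : FundamentalIdentityAlong K φ hφ := by
  letI := algebraAlong φ
  haveI := isScalarTower_along φ
  haveI := isIntegral_along φ hφ
  haveI : Module.Finite F F' := JZ.finiteAlong φ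
  exact fundamentalIdentity_fn

theorem pullbackAlong_single_bound [HasPrincipalDivisors K F'] (φ : F →ₐ[K] F')
    (hφ : φ.toRingHom.IsIntegral) (P : Place K F) (Y : Place K F') :
    |Divisor.pullbackAlong φ hφ (Finsupp.single P 1) Y| ≤ finrankAlong K φ := by
  have h0 : 0 ≤ Divisor.pullbackAlong φ hφ (Finsupp.single P 1) := by
    refine ESh.pullbackAlong_nonneg _ hφ ?_
    intro v
    classical
    rw [Finsupp.coe_zero, Pi.zero_apply, Finsupp.single_apply]
    split_ifs <;> norm_num
  have h1 := ESh.abs_le_of_nonneg (Finsupp.applyAddHom (M := ℤ) Y) 1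
    (fun P => single_le_one P Y) _ h0
  rw [Divisor.degree_pullbackAlong _ _ (fundamentalIdentityAlong_fn φ hφ), RR.degree_single',
    mul_one, one_mul] at h1
  exact h1

theorem pushforwardAlong_single_bound (φ : F →ₐ[K] F')
    (hφ : φ.toRingHom.IsIntegral) (P : Place K F') (Y : Place K F) :
    |Divisor.pushforwardAlong φ hφ (Finsupp.single P 1) Y| ≤ 1 := by
  have h0 : 0 ≤ Divisor.pushforwardAlong φ hφ (Finsupp.single P 1) := by
    refine ESh.pushforwardAlong_nonneg _ hφ ?_
    intro v
    classical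
    rw [Finsupp.coe_zero, Pi.zero_apply, Finsupp.single_apply]
    split_ifs <;> norm_num
  have h1 := ESh.abs_le_of_nonneg (Finsupp.applyAddHom (M := ℤ) Y) 1
    (fun P => single_le_one P Y) _ h0
  rw [Divisor.degree_pushforwardAlong, RR.degree_single', one_mul] at h1
  exact h1

end Along

section Comm

variable {K k : Type*} [Field K] [Field k] {A : ValuationSubring K} {π : A →+* k}
  {F Fk F' Fk' : Type*} [Field F] [Algebra K F] [Field Fk] [Algebra k Fk]
  [Field F'] [Algebra K F'] [Field Fk'] [Algebra k Fk']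
  {R : ConstRed A π F Fk} {R' : ConstRed A π F' Fk'}
  [IsAlgClosed K] [IsFnField K F] [IsAlgClosed k] [IsFnField k Fk]
  [IsFnField K F'] [IsFnField k Fk']

/-- specialisation commutes with pullback -/
theorem Spec.pullbackAlong_comm [HasPrincipalDivisors K F'] [HasPrincipalDivisors k Fk']
    (S : Spec R) (S' : Spec R') (φ : F →ₐ[K] F') (φk : Fk →ₐ[k] Fk')
    (hcomp : ∀ f z, R.IsRed f z → R'.IsRed (φ f) (φk z)) (hφ : φ.toRingHom.IsIntegral)
    (hφk : φk.toRingHom.IsIntegral) (D : Divisor K F) (hD : Divisor.degree D = 0) :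
    Finsupp.mapDomain S'.r (Divisor.pullbackAlong φ hφ D) =
      Divisor.pullbackAlong φk hφk (Finsupp.mapDomain S.r D) := by
  set δ : Divisor K F →+ Divisor k Fk' :=
    (Finsupp.mapDomain.addMonoidHom S'.r).comp (Divisor.pullbackAlong φ hφ) -
      (Divisor.pullbackAlong φk hφk).comp (Finsupp.mapDomain.addMonoidHom S.r) with hδ
  have hδapp : ∀ E, δ E = Finsupp.mapDomain S'.r (Divisor.pullbackAlong φ hφ E) -
      Divisor.pullbackAlong φk hφk (Finsupp.mapDomain S.r E) := fun E => rfl
  have h0 : δ D = 0 := by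
    refine rigid R δ (finrankAlong K φ + finrankAlong k φk) ?_ ?_ D hD
    · intro P Y
      rw [hδapp, Finsupp.sub_apply, Finsupp.mapDomain_single]
      refine (abs_sub _ _).trans (add_le_add ?_ (pullbackAlong_single_bound φk hφk _ Y))
      have h0 : 0 ≤ Divisor.pullbackAlong φ hφ (Finsupp.single P 1) := by
        refine ESh.pullbackAlong_nonneg _ hφ ?_
        intro v
        classical
        rw [Finsupp.coe_zero, Pi.zero_apply, Finsupp.single_apply]
        split_ifs <;> norm_num
      have h1 := ESh.abs_le_of_nonneg ((Finsupp.applyAddHom (M := ℤ) Y).comp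
        (Finsupp.mapDomain.addMonoidHom S'.r)) 1
        (fun P' => by
          change |Finsupp.mapDomain S'.r (Finsupp.single P' (1 : ℤ)) Y| ≤ 1
          rw [Finsupp.mapDomain_single]
          exact single_le_one _ _) _ h0
      rw [Divisor.degree_pullbackAlong _ _ (fundamentalIdentityAlong_fn φ hφ),
        RR.degree_single', mul_one, one_mul] at h1
      exact h1
    · intro f z hf hz E hE
      rw [hδapp, sub_eq_zero]
      have hz' : φk z ≠ 0 := by simpa using hz
      ext Q
      rw [S'.ord_eq (φ f) (φk z) (hcomp f z hf) hz' (Divisor.pullbackAlong φ hφ E) ?_ Q,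
        Divisor.pullbackAlong_apply, S.ord_eq f z hf hz E hE, ← Place.ord_restrictAlong]
      intro P
      rw [Divisor.pullbackAlong_apply, hE, ← Place.ord_restrictAlong]
  rw [hδapp, sub_eq_zero] at h0
  exact h0

/-- specialisation commutes with push-forward -/
theorem Spec.pushforwardAlong_comm
    (S : Spec R) (S' : Spec R') (φ : F →ₐ[K] F') (φk : Fk →ₐ[k] Fk')
    (hcomp : ∀ f z, R.IsRed f z → R'.IsRed (φ f) (φk z)) (hφ : φ.toRingHom.IsIntegral)
    (hφk : φk.toRingHom.IsIntegral) (hdeg : finrankAlong K φ = finrankAlong k φk)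
    (hfin : FiniteAlong K φ) (hN : NormFormulaAlong K φ hfin)
    (hfink : FiniteAlong k φk) (hNk : NormFormulaAlong k φk hfink)
    (D : Divisor K F') (hD : Divisor.degree D = 0) :
    Finsupp.mapDomain S.r (Divisor.pushforwardAlong φ hφ D) =
      Divisor.pushforwardAlong φk hφk (Finsupp.mapDomain S'.r D) := by
  set δ : Divisor K F' →+ Divisor k Fk :=
    (Finsupp.mapDomain.addMonoidHom S.r).comp (Divisor.pushforwardAlong φ hφ) -
      (Divisor.pushforwardAlong φk hφk).comp (Finsupp.mapDomain.addMonoidHom S'.r) with hδ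
  have hδapp : ∀ E, δ E = Finsupp.mapDomain S.r (Divisor.pushforwardAlong φ hφ E) -
      Divisor.pushforwardAlong φk hφk (Finsupp.mapDomain S'.r E) := fun E => rfl
  have h0 : δ D = 0 := by
    refine rigid R' δ (1 + 1) ?_ ?_ D hD
    · intro P Y
      rw [hδapp, Finsupp.sub_apply, Finsupp.mapDomain_single]
      refine (abs_sub _ _).trans (add_le_add ?_ (pushforwardAlong_single_bound φk hφk _ Y))
      have h0 : 0 ≤ Divisor.pushforwardAlong φ hφ (Finsupp.single P 1) := by
        refine ESh.pushforwardAlong_nonneg _ hφ ?_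
        intro v
        classical
        rw [Finsupp.coe_zero, Pi.zero_apply, Finsupp.single_apply]
        split_ifs <;> norm_num
      have h1 := ESh.abs_le_of_nonneg ((Finsupp.applyAddHom (M := ℤ) Y).comp
        (Finsupp.mapDomain.addMonoidHom S.r)) 1
        (fun P' => by
          change |Finsupp.mapDomain S.r (Finsupp.single P' (1 : ℤ)) Y| ≤ 1
          rw [Finsupp.mapDomain_single]
          exact single_le_one _ _) _ h0
      rw [Divisor.degree_pushforwardAlong, RR.degree_single', one_mul] at h1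
      exact h1
    · intro f z hf hz E hE
      rw [hδapp, sub_eq_zero]
      have hf0 : f ≠ 0 := hf.ne_zero hz
      have hnorm : R.IsRed (JZ.normAlong φ f) (JZ.normAlong φk z) := by
        letI := algebraAlong φ
        haveI := isScalarTower_along φ
        letI := algebraAlong φk
        haveI := isScalarTower_along φk
        haveI : Module.Finite F F' := hfin
        haveI : Module.Finite Fk Fk' := hfink
        have hcomp' : Compat R R' := hcomp
        exact hcomp'.isRed_norm hdeg hf
      ext Q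
      rw [S.ord_eq _ _ hnorm (JZ.normAlong_ne_zero φk hfink hz)
        (Divisor.pushforwardAlong φ hφ E)
        (fun P => JZ.pushforwardAlong_apply_of_ord φ hφ hfin hN hf0 hE P) Q]
      exact (JZ.pushforwardAlong_apply_of_ord φk hφk hfink hNk hz
        (fun Q' => S'.ord_eq f z hf hz E hE Q') Q).symm
  rw [hδapp, sub_eq_zero] at h0
  exact h0

end Comm

section HeckeC

variable (k : Type*) [Field k] (N q : ℕ) [NeZero N] [NeZero q]

/-- the first degeneracy map in characteristic `ℓ` -/
def alphaC : modularFunctionFieldFullC k N →ₐ[k] modularFunctionFieldFullC k (N * q) :=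
  IntermediateField.inclusion (full_degeneracyC_le k (dvd_mul_right N q))

theorem coe_alphaC (x : modularFunctionFieldFullC k N) :
    (alphaC k N q x : LaurentSeries k) = x := IntermediateField.coe_inclusion _ x

/-- the second degeneracy map in characteristic `ℓ` -/
def betaC : modularFunctionFieldFullC k N →ₐ[k] modularFunctionFieldFullC k (N * q) :=
  ((qExpandAlgHomC k q).comp (modularFunctionFieldFullC k N).val).codRestrict
    (modularFunctionFieldFullC k (N * q)).toSubalgebra
    (fun x => full_degeneracyC_map_le k N q ⟨(x : LaurentSeries k), x.2, rfl⟩)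

theorem coe_betaC (x : modularFunctionFieldFullC k N) :
    (betaC k N q x : LaurentSeries k) = qExpand k q (x : LaurentSeries k) := rfl

variable {ℓ : ℕ} [hℓ : Fact ℓ.Prime] [CharP k ℓ] (hNq : ¬ ℓ ∣ N * q) [IsAlgClosed k]
  [IsFnField k (modularFunctionFieldFullC k N)] [IsFnField k (modularFunctionFieldFullC k (N * q))]

include hNq in
theorem isSeparable_alphaC : letI := algebraAlong (alphaC k N q)
    Algebra.IsSeparable (modularFunctionFieldFullC k N)
      (modularFunctionFieldFullC k (N * q)) := by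
  refine isSeparable_along (alphaC k N q) (RedQ.xj k N) ?_
  have h1 : alphaC k N q (RedQ.xj k N) = RedQ.xj k (N * q) := Subtype.ext (coe_alphaC _ _ _ _)
  rw [h1]
  exact RedQ.isSeparable_charP (N * q) k ℓ hNq

/-- the Hecke operator on `J₀(N)` in characteristic `ℓ` -/
def heckeC : JZeroC k N →+ JZeroC k N :=
  haveI : HasPrincipalDivisors k (modularFunctionFieldFullC k (N * q)) :=
    RR.hasPrincipalDivisors k _
  Pic0.correspondence (betaC k N q) (alphaC k N q) (JZ.isIntegralAlong _) (JZ.isIntegralAlong _)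
    (fundamentalIdentityAlong_fn _ _) (JZ.finiteAlong _)
    (normFormulaAlong (alphaC k N q) (JZ.finiteAlong _) (isSeparable_alphaC k N q hNq))

end HeckeC

section XZero

variable {N : ℕ} [NeZero N] {ℓ : ℕ} [hℓ : Fact ℓ.Prime]
  {A : ValuationSubring (AlgebraicClosure ℚ)} {k : Type*} [Field k] {π : A →+* k}
  (hA : A.LiesOverPrime ℓ)
  (hπ : ∀ a : A, π a = 0 ↔ ¬ IsUnit a) (hs : Function.Surjective π) (hN : ¬ ℓ ∣ N)

theorem gRed_qExpand {f : LaurentSeries (AlgebraicClosure ℚ)} {z : LaurentSeries k} (q : ℕ)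
    [NeZero q] (h : GRed π f z) : GRed π (qExpand _ q f) (qExpand k q z) := by
  obtain ⟨a, b, hb, h1, h2⟩ := h
  have hi : ∀ y : LaurentSeries A, iotaA A (qExpand A q y) = qExpand _ q (iotaA A y) := by
    intro y
    rw [iotaA, ModFn.coeffMap_qExpand]
  have hr : ∀ y : LaurentSeries A, rhoA π (qExpand A q y) = qExpand k q (rhoA π y) := by
    intro y
    rw [rhoA, ModFn.coeffMap_qExpand]
  refine ⟨qExpand A q a, qExpand A q b, ?_, ?_, ?_⟩
  · rw [hr]
    intro h0
    exact hb ((map_eq_zero_iff _ (qExpand k q).injective).1 h0)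
  · rw [hi, hi, ← map_mul, h1]
  · rw [hr, hr, ← map_mul, h2]

theorem isRed_alpha (q : ℕ) [NeZero q] (hNq : ¬ ℓ ∣ N * q) {f : modularFunctionFieldBar N}
    {z : modularFunctionFieldFullC k N} (h : (redX N hA hπ hs hN).IsRed f z) :
    (redX (N * q) hA hπ hs hNq).IsRed (heckeAlphaBar (AlgebraicClosure ℚ) N q f)
      (alphaC k N q z) := by
  have h' := isRed_redX.1 h
  rw [isRed_redX, coe_heckeAlphaBar, coe_alphaC]
  exact h'

theorem isRed_beta (q : ℕ) [NeZero q] (hNq : ¬ ℓ ∣ N * q) {f : modularFunctionFieldBar N}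
    {z : modularFunctionFieldFullC k N} (h : (redX N hA hπ hs hN).IsRed f z) :
    (redX (N * q) hA hπ hs hNq).IsRed (heckeBetaBar (AlgebraicClosure ℚ) N q f)
      (betaC k N q z) := by
  have h' := gRed_qExpand q (isRed_redX.1 h)
  rw [isRed_redX, coe_betaC]
  exact h'

theorem finrankAlong_alpha_eq [CharP k ℓ] (q : ℕ) [NeZero q] (hNq : ¬ ℓ ∣ N * q)
    (hN : ¬ ℓ ∣ N) :
    finrankAlong (AlgebraicClosure ℚ) (heckeAlphaBar (AlgebraicClosure ℚ) N q) =
      finrankAlong k (alphaC k N q) := by
  have hle : modularFunctionFieldBar N ≤ modularFunctionFieldBar (N * q) :=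
    JZ.FN_mono (dvd_mul_right N q)
  rw [heckeAlphaBar_eq_inclusion N q hle]
  exact finrankAlong_inclusion_eq (dvd_mul_right N q) hN hNq hle
    (full_degeneracyC_le k (dvd_mul_right N q))

/-- the reduction of divisors commutes with the Hecke correspondences -/
theorem mapDomain_correspondence (q : ℕ) [NeZero q] (hNq : ¬ ℓ ∣ N * q) [CharP k ℓ] [IsAlgClosed k]
    [IsFnField k (modularFunctionFieldFullC k N)]
    [IsFnField k (modularFunctionFieldFullC k (N * q))]
    [IsFnField (AlgebraicClosure ℚ) (modularFunctionFieldBar N)]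
    [IsFnField (AlgebraicClosure ℚ) (modularFunctionFieldBar (N * q))]
    [HasPrincipalDivisors (AlgebraicClosure ℚ) (modularFunctionFieldBar (N * q))]
    [HasPrincipalDivisors k (modularFunctionFieldFullC k (N * q))]
    (hα : (heckeAlphaBar (AlgebraicClosure ℚ) N q).toRingHom.IsIntegral)
    (hβ : (heckeBetaBar (AlgebraicClosure ℚ) N q).toRingHom.IsIntegral)
    (hfin : FiniteAlong (AlgebraicClosure ℚ) (heckeAlphaBar (AlgebraicClosure ℚ) N q))
    (hNf : NormFormulaAlong (AlgebraicClosure ℚ) (heckeAlphaBar (AlgebraicClosure ℚ) N q) hfin)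
    (hαk : (alphaC k N q).toRingHom.IsIntegral) (hβk : (betaC k N q).toRingHom.IsIntegral)
    (D : Divisor (AlgebraicClosure ℚ) (modularFunctionFieldBar N)) (hD : Divisor.degree D = 0) :
    Finsupp.mapDomain (rX hA hπ hs hN) (Divisor.correspondence
      (heckeBetaBar (AlgebraicClosure ℚ) N q) (heckeAlphaBar (AlgebraicClosure ℚ) N q) hβ hα D) =
    Divisor.correspondence (betaC k N q) (alphaC k N q) hβk hαk
      (Finsupp.mapDomain (rX hA hπ hs hN) D) := by
  rw [Divisor.correspondence_apply, Divisor.correspondence_apply]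
  have h1 := (specX hA hπ hs hN).pushforwardAlong_comm (specX hA hπ hs hNq)
    (heckeAlphaBar (AlgebraicClosure ℚ) N q) (alphaC k N q)
    (fun f z h => isRed_alpha hA hπ hs hN q hNq h) hα hαk
    (finrankAlong_alpha_eq q hNq hN) hfin hNf (JZ.finiteAlong _)
    (normFormulaAlong (alphaC k N q) (JZ.finiteAlong _) (isSeparable_alphaC k N q hNq))
    (Divisor.pullbackAlong (heckeBetaBar (AlgebraicClosure ℚ) N q) hβ D) (by
      rw [Divisor.degree_pullbackAlong _ _ (fundamentalIdentityAlong_fn _ _), hD, mul_zero])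
  have h2 := (specX hA hπ hs hN).pullbackAlong_comm (specX hA hπ hs hNq)
    (heckeBetaBar (AlgebraicClosure ℚ) N q) (betaC k N q)
    (fun f z h => isRed_beta hA hπ hs hN q hNq h) hβ hβk D hD
  rw [h2] at h1
  exact h1

/-- **(R4)**: the reduction map commutes with the Hecke operators `T_q`, `q ≠ ℓ`. -/
theorem redJ_hecke (q : ℕ) [NeZero q] (hNq : ¬ ℓ ∣ N * q) [CharP k ℓ] [IsAlgClosed k]
    [IsFnField k (modularFunctionFieldFullC k N)]
    [IsFnField k (modularFunctionFieldFullC k (N * q))] (x : JZero N) :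
    redJ hA hπ hs hN (heckeOperatorAlong (AlgebraicClosure ℚ) N q x) =
      heckeC k N q hNq (redJ hA hπ hs hN x) := by
  haveI := isFnField_bar N
  haveI := isFnField_bar (N * q)
  haveI : HasPrincipalDivisors k (modularFunctionFieldFullC k (N * q)) :=
    RR.hasPrincipalDivisors k _
  obtain ⟨hα, hβ, hP, hfin, hFI, hNf⟩ :=
    JZ.heckeInputsAlong JZ.modularFieldInputsBar (FF.normInputs _) N q
  obtain ⟨D, rfl⟩ := Pic0.mk_surjective x
  have h1 : heckeOperatorAlong (AlgebraicClosure ℚ) N q (Pic0.mk D) =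
      Pic0.mk (Pic0.degZeroCorrespondence (heckeBetaBar (AlgebraicClosure ℚ) N q)
        (heckeAlphaBar (AlgebraicClosure ℚ) N q) hβ hα hFI D) := by
    rw [heckeOperatorAlong_eq hα hβ hFI hfin hNf]
    exact Pic0.correspondence_mk _ _ hβ hα hFI hfin hNf D
  rw [h1, redJ_mk, redJ_mk, heckeC, Pic0.correspondence_mk]
  refine congrArg Pic0.mk (Subtype.ext ?_)
  exact mapDomain_correspondence hA hπ hs hN q hNq hα hβ hfin hNf
    (JZ.isIntegralAlong (alphaC k N q)) (JZ.isIntegralAlong (betaC k N q)) D D.2

/-- **(R4)**: the kernel of reduction is stable under the Hecke operators `T_q`, `q ≠ ℓ`. -/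
theorem redJ_hecke_eq_zero (q : ℕ) [NeZero q] (hNq : ¬ ℓ ∣ N * q) (x : JZero N)
    (hx : redJ hA hπ hs hN x = 0) :
    redJ hA hπ hs hN (heckeOperatorAlong (AlgebraicClosure ℚ) N q x) = 0 := by
  haveI := charP_of_liesOverPrime (k := k) hA hπ
  haveI : IsAlgClosed k := isAlgClosed_of_surjective hs
  haveI := isFnField_fullC (k := k) N ℓ hN
  haveI := isFnField_fullC (k := k) (N * q) ℓ hNq
  rw [redJ_hecke hA hπ hs hN q hNq, hx, map_zero]

/-- the kernel of reduction is stable under `T_ℓ` -/
theorem redJ_hecke_self_eq_zero (x : JZero N) (hx : redJ hA hπ hs hN x = 0) :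
    haveI : NeZero ℓ := ⟨hℓ.out.ne_zero⟩
    redJ hA hπ hs hN (heckeOperatorAlong (AlgebraicClosure ℚ) N ℓ x) = 0 := by
  haveI := charP_of_liesOverPrime (k := k) hA hπ
  haveI : IsAlgClosed k := isAlgClosed_of_surjective hs
  haveI : PerfectRing k ℓ := PerfectField.toPerfectRing ℓ
  letI : Algebra (AlgebraicClosure ℚ) ℂ :=
    (IsAlgClosed.lift (R := ℚ) (S := AlgebraicClosure ℚ) (M := ℂ)).toRingHom.toAlgebra
  haveI : NeZero ℓ := ⟨hℓ.out.ne_zero⟩
  have h1 := (divX hA hπ hs hN).pic_hecke (ℓ := ℓ) JZ.modularFieldInputsBar (FF.normInputs _) hN x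
  have h2 : (divX hA hπ hs hN).pic x = 0 := hx
  rw [h2] at h1
  have h3 : ∀ g : SemilinearAut k (modularFunctionFieldFullC k N),
      g • (0 : Pic0 k (modularFunctionFieldFullC k N)) = 0 := fun g =>
    smul_zero (A := Pic0 k (modularFunctionFieldFullC k N)) g
  rw [h3, h3, smul_zero, add_zero] at h1
  exact h1

end XZero

end Fermat.Agent.Red
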