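import Fermat.Agent.Red.JRed
import Fermat.Agent.Spc.Frob
import Fermat.Agent.Zeta.ZetaFn
import Fermat.Agent.RRC.Bridge
import Fermat.Agent.Cusp.Place

/-!
# Finiteness of the reductions of rational classes
-/

set_option autoImplicit false
set_option linter.unusedSectionVars false
set_option linter.style.haveILetI false
set_option linter.unusedVariables false

noncomputable section

open AlgebraicCurve IntermediateField Module ModularCurve

namespace Fermat.Agent.Red

open Fermat.Agent.FF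

section Res

variable {ℓ : ℕ} [hℓ : Fact ℓ.Prime]
  {A : ValuationSubring (AlgebraicClosure ℚ)} {k : Type*} [Field k] {π : A →+* k}

/-- the residue field of a place of `ℚ̄` above `ℓ` is algebraic over `𝔽_ℓ`. -/
theorem isAlgebraic_residue [CharP k ℓ] [Algebra (ZMod ℓ) k] (hA : A.LiesOverPrime ℓ)
    (hπ : ∀ a : A, π a = 0 ↔ ¬ IsUnit a) (hs : Function.Surjective π) :
    Algebra.IsAlgebraic (ZMod ℓ) k := by
  haveI : IsScalarTower ℤ (ZMod ℓ) k := IsScalarTower.of_algebraMap_eq' (RingHom.ext_int _ _)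
  have hint : ∀ a : A, IsIntegral ℤ (a : AlgebraicClosure ℚ) → IsAlgebraic (ZMod ℓ) (π a) := by
    intro a ha
    have h1 : IsIntegral ℤ a := by
      obtain ⟨p, hp, hpa⟩ := ha
      refine ⟨p, hp, Subtype.ext ?_⟩
      have h2 := Polynomial.hom_eval₂ p (algebraMap ℤ A) A.subtype a
      have h3 : A.subtype.comp (algebraMap ℤ A) = algebraMap ℤ (AlgebraicClosure ℚ) :=
        RingHom.ext_int _ _
      rw [h3] at h2
      exact h2.trans hpa
    have h2 : IsIntegral ℤ (π a) := map_isIntegral_int π h1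
    exact (h2.tower_top (A := ZMod ℓ)).isAlgebraic
  refine ⟨fun y => ?_⟩
  obtain ⟨a, rfl⟩ := hs y
  obtain ⟨s, b, hsi, hbi, hsn, hsb⟩ := Frob.exists_mul_eq A hℓ.out hA a.2
  have hsA : s ∈ A := Frob.mem_of_isIntegral A hsi
  have hbA : b ∈ A := Frob.mem_of_isIntegral A hbi
  have h1 : π ⟨s, hsA⟩ * π a = π ⟨b, hbA⟩ := by
    rw [← map_mul]
    congr 1
    exact Subtype.ext hsb
  have h2 : π ⟨s, hsA⟩ ≠ 0 := by
    intro h0
    rw [hπ] at h0
    apply hsn
    exact ValuationSubring.mem_nonunits_iff_exists_mem_maximalIdeal.2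
      ⟨hsA, (IsLocalRing.mem_maximalIdeal _).2 h0⟩
  have h3 : π a = (π ⟨s, hsA⟩)⁻¹ * π ⟨b, hbA⟩ := by
    rw [← h1, inv_mul_cancel_left₀ h2]
  rw [h3]
  exact (hint _ hsi).inv.mul (hint _ hbi)

theorem mem_perSub_of_residue [CharP k ℓ] (hA : A.LiesOverPrime ℓ)
    (hπ : ∀ a : A, π a = 0 ↔ ¬ IsUnit a) (hs : Function.Surjective π) (a : k) :
    a ∈ Spc.perSub (frobenius k ℓ) := by
  letI : Algebra (ZMod ℓ) k := ZMod.algebra k ℓ
  haveI := isAlgebraic_residue hA hπ hs
  exact Spc.mem_perSub_frobenius ℓ k a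

end Res

section Full

variable {k : Type*} [Field k] {ℓ : ℕ} [hℓ : Fact ℓ.Prime] [CharP k ℓ] {M : ℕ}

theorem coeffMap_iterate_algebraMap (τ : k →+* k) (a : k) (n : ℕ) :
    (coeffMap τ)^[n] (algebraMap k (LaurentSeries k) a) =
      algebraMap k (LaurentSeries k) (τ^[n] a) := by
  induction n generalizing a with
  | zero => rfl
  | succ n ih => rw [Function.iterate_succ_apply, Function.iterate_succ_apply,
      coeffMap_algebraMap, ih]

/-- functions are defined over finite fields -/
theorem mem_perSub_full (hk : ∀ a : k, a ∈ Spc.perSub (frobenius k ℓ)) {x : LaurentSeries k}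
    (hx : x ∈ modularFunctionFieldFullC k M) : x ∈ Spc.perSub (coeffMap (frobenius k ℓ)) := by
  have h1 : x ∈ Subfield.closure (Set.range (algebraMap k (LaurentSeries k)) ∪
      divisorExpansionsC k M) := hx
  clear hx
  induction h1 using Subfield.closure_induction with
  | mem y hy =>
    rcases hy with ⟨a, rfl⟩ | ⟨d, hd, hdM, rfl⟩
    · obtain ⟨n, hn, ha⟩ := hk a
      refine ⟨n, hn, ?_⟩
      unfold Function.IsPeriodicPt Function.IsFixedPt at *
      rw [coeffMap_iterate_algebraMap, ha]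
    · refine ⟨1, one_pos, ?_⟩
      unfold Function.IsPeriodicPt Function.IsFixedPt
      rw [Function.iterate_one, ModFn.coeffMap_qExpand, ModFn.coeffMap_jqModC]
  | one => exact one_mem _
  | add x y _ _ hx hy => exact add_mem hx hy
  | neg x _ hx => exact neg_mem hx
  | inv x _ hx => exact Spc.inv_mem_perSub hx
  | mul x y _ _ hx hy => exact mul_mem hx hy

variable [PerfectRing k ℓ]

theorem coe_coeffSemi_pow_smul (n : ℕ) (x : modularFunctionFieldFullC k M) :
    (((ESh.coeffSemi M (frobeniusEquiv k ℓ)) ^ n • x : modularFunctionFieldFullC k M) :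
      LaurentSeries k) = (coeffMap (frobenius k ℓ))^[n] (x : LaurentSeries k) := by
  induction n generalizing x with
  | zero => rw [pow_zero, one_smul]; rfl
  | succ n ih => rw [pow_succ, mul_smul, ih, Function.iterate_succ_apply, ESh.coe_frob_smul]

/-- coefficientwise Frobenius is a Frobenius automorphism -/
theorem frob_coeffSemi (hk : ∀ a : k, a ∈ Spc.perSub (frobenius k ℓ)) :
    Zeta.Frob ℓ (ESh.coeffSemi M (frobeniusEquiv k ℓ)) ℓ where
  two_le := hℓ.out.two_le
  dvd := dvd_rfl
  base a := rfl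
  per f := by
    obtain ⟨n, hn, h⟩ := mem_perSub_full hk f.2
    refine ⟨n, hn.ne', Subtype.ext ?_⟩
    rw [coe_coeffSemi_pow_smul]
    exact h

theorem order_coeffMap (τ : k ≃+* k) (x : LaurentSeries k) :
    (coeffMap (τ : k →+* k) x).order = x.order := by
  by_cases hx : x = 0
  · rw [hx, map_zero]
  have hx' : coeffMap (τ : k →+* k) x ≠ 0 := by
    intro h
    apply hx
    exact (map_eq_zero_iff _ (coeffMap (τ : k →+* k)).injective).1 h
  apply le_antisymm
  · apply HahnSeries.order_le_of_coeff_ne_zero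
    rw [coeffMap_coeff]
    intro h
    exact hx (HahnSeries.coeff_order_eq_zero.1
      ((map_eq_zero_iff _ (τ : k →+* k).injective).1 h))
  · apply HahnSeries.order_le_of_coeff_ne_zero
    intro h
    apply hx'
    rw [← HahnSeries.coeff_order_eq_zero, coeffMap_coeff, h, map_zero]

theorem exists_order_neg_one_full (k : Type*) [Field k] (M : ℕ) [NeZero M] :
    ∃ x : modularFunctionFieldFullC k M, (x : LaurentSeries k).order = -1 :=
  ⟨RedQ.xj k M, ModFn.order_jqModC⟩

/-- the place `∞` is fixed by coefficientwise automorphisms -/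
theorem coeffSemi_smul_placeInf [NeZero M] (τ : k ≃+* k) :
    ESh.coeffSemi M τ • Cusp.placeInf _ (exists_order_neg_one_full k M) =
      Cusp.placeInf _ (exists_order_neg_one_full k M) := by
  set v := Cusp.placeInf _ (exists_order_neg_one_full k M) with hv
  have h1 : ∀ f, (ESh.coeffSemi M τ • v).ord f = v.ord f := by
    intro f
    have h2 := SemilinearAut.ord_smul (ESh.coeffSemi M τ) v ((ESh.coeffSemi M τ)⁻¹ • f)
    rw [smul_inv_smul] at h2
    rw [h2, hv, Cusp.ord_placeInf, Cusp.ord_placeInf]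
    have h3 : (f : LaurentSeries k) = coeffMap (τ : k →+* k)
        (((ESh.coeffSemi M τ)⁻¹ • f : modularFunctionFieldFullC k M) : LaurentSeries k) := by
      rw [← ESh.coe_coeffSemi_smul, smul_inv_smul]
    conv_rhs => rw [h3, order_coeffMap]
  have h2 : (ESh.coeffSemi M τ • v).toValuationSubring = v.toValuationSubring := by
    ext f
    constructor
    · intro hf
      exact FF.mem_of_ord_nonneg v (by rw [← h1]; exact FF.ord_nonneg_of_mem _ hf)
    · intro hf
      exact FF.mem_of_ord_nonneg _ (by rw [h1]; exact FF.ord_nonneg_of_mem _ hf)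
  exact Place.ext h2

end Full

section XZero

variable {N : ℕ} [NeZero N] {ℓ : ℕ} [hℓ : Fact ℓ.Prime]
  {A : ValuationSubring (AlgebraicClosure ℚ)} {k : Type*} [Field k] {π : A →+* k}
  (hA : A.LiesOverPrime ℓ)
  (hπ : ∀ a : A, π a = 0 ↔ ¬ IsUnit a) (hs : Function.Surjective π) (hN : ¬ ℓ ∣ N)

/-- reduction transforms Frobenius elements into the Frobenius of `k` -/
theorem redJ_frob_smul [CharP k ℓ] [PerfectRing k ℓ]
    {σ : AlgebraicClosure ℚ ≃ₐ[ℚ] AlgebraicClosure ℚ}
    (hσ : A.IsFrobeniusAt σ ℓ) (x : JZero N) :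
    redJ hA hπ hs hN (σ • x) =
      ESh.coeffSemi N (frobeniusEquiv k ℓ) • redJ hA hπ hs hN x := by
  obtain ⟨hσD, hσF⟩ := (Frob.isFrobeniusAt_iff A σ ℓ).1 hσ
  let sA : A →+* A := ((σ : AlgebraicClosure ℚ →+* AlgebraicClosure ℚ).comp A.subtype).codRestrict
    A.toSubring (fun a => (Frob.apply_mem_iff hσD).2 a.2)
  have hsA : ∀ a : A, ((sA a : A) : AlgebraicClosure ℚ) = σ a := fun a => rfl
  have hsk : ∀ a : A, π (sA a) = frobeniusEquiv k ℓ (π a) := by
    intro a
    rw [frobeniusEquiv_apply, frobenius_def, ← map_pow, ← sub_eq_zero, ← map_sub, hπ]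
    have h1 := hσF a a.2
    rw [ValuationSubring.mem_nonunits_iff_exists_mem_maximalIdeal] at h1
    obtain ⟨h2, h3⟩ := h1
    exact (IsLocalRing.mem_maximalIdeal _).1 h3
  exact redJ_smul hA hπ hs hN sA hsA (frobeniusEquiv k ℓ) hsk x

/-- (R6) **Finiteness of the reductions of rational classes.** -/
theorem finite_redJ_fixed : {y : JZeroC k N | ∃ x : JZero N,
    (∀ σ : AlgebraicClosure ℚ ≃ₐ[ℚ] AlgebraicClosure ℚ, σ • x = x) ∧
      redJ hA hπ hs hN x = y}.Finite := by
  haveI hch := charP_of_liesOverPrime (k := k) hA hπ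
  haveI : IsAlgClosed k := isAlgClosed_of_surjective hs
  haveI : PerfectRing k ℓ := PerfectField.toPerfectRing ℓ
  haveI := isFnField_fullC (k := k) N ℓ hN
  haveI := RRC.ff_of_isFnField k (modularFunctionFieldFullC k N)
  have hk := mem_perSub_of_residue (ℓ := ℓ) hA hπ hs
  obtain ⟨σ, hσ⟩ := Frob.exists_isFrobeniusAt A hℓ.out hA
  have hfin := Zeta.finite_fixedPic (frob_coeffSemi (M := N) hk)
    (coeffSemi_smul_placeInf (M := N) (frobeniusEquiv k ℓ))
  refine Set.Finite.subset (Set.toFinite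
    (Zeta.fixedPic (ESh.coeffSemi N (frobeniusEquiv k ℓ)) :
      Set (Pic0 k (modularFunctionFieldFullC k N)))) ?_
  rintro y ⟨x, hx, rfl⟩
  change redJ hA hπ hs hN x ∈ Zeta.fixedPic _
  rw [Zeta.mem_fixedPic, ← redJ_frob_smul hA hπ hs hN hσ, hx]

end XZero

end Fermat.Agent.Red
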