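import Fermat.Agent.Red.Genus

/-!
# Charts from equality of genera
-/

set_option autoImplicit false
set_option linter.unusedSectionVars false
set_option linter.style.haveILetI false
set_option linter.unusedVariables false

open AlgebraicCurve IntermediateField IsDedekindDomain Module
open scoped IntermediateField.algebraAdjoinAdjoin

namespace Fermat.Agent.Red

open Fermat.Agent.FF

variable {K k : Type*} [Field K] [Field k] {A : ValuationSubring K} {π : A →+* k}
  {F Fk : Type*} [Field F] [Algebra K F] [Field Fk] [Algebra k Fk]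
  {R : ConstRed A π F Fk} {x : F} {xb : Fk}
  [IsAlgClosed K] [CharZero K] [IsAlgClosed k] [IsFnField K F] [IsFnField k Fk]

theorem isCoord_of_isCoord (hc : GoodRed.IsCoord R x xb) : IsCoord R x xb where
  isRed := hc.isRed
  transcendental := hc.trans
  finiteDimensional := hc.finite
  finiteDimensionalk := hc.finite'
  finrank_eq := hc.finrank_eq

/-- For a coordinate of a reduction preserving the genus, all integral functions lift. -/
theorem exists_lift_of_genus (hc : GoodRed.IsCoord R x xb) (hsep : Algebra.IsSeparable k⟮xb⟯ Fk)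
    (hπ : Function.Surjective π) (hg : genusFF K F = genusFF k Fk) {z : Fk}
    (hz : IsIntegral (Algebra.adjoin k {xb}) z) :
    ∃ f : F, R.IsRed f z ∧ IsIntegral (Algebra.adjoin K {x}) f := by
  have := hc.finite
  have := hc.finite'
  haveI : CharZero K⟮x⟯ := charZero_of_injective_algebraMap (algebraMap K K⟮x⟯).injective
  haveI : Algebra.IsSeparable K⟮x⟯ F := inferInstance
  obtain ⟨m1, h1⟩ := GoodRed.exists_mem_Lm hc.trans hz
  set m := max m1 (2 * genusFF K F + 2 * genusFF k Fk) with hm
  have hz' := (GoodRed.isFilt hc.trans).mono' (le_max_left _ _ : m1 ≤ m) h1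
  obtain ⟨ι, _, ⟨B⟩⟩ := GoodRed.exists_redBasis (K := K) hc.transK
  obtain ⟨ι', _, ⟨B'⟩⟩ := GoodRed.exists_redBasis (K := k) hc.trans
  have := B.finiteDimensional_Lm m
  have := B'.finiteDimensional_Lm m
  have hn : 0 < finrank K⟮x⟯ F := finrank_pos
  have hmn : m ≤ m * finrank K⟮x⟯ F := Nat.le_mul_of_pos_right m hn
  have hmg : 2 * genusFF K F + 2 * genusFF k Fk ≤ m := le_max_right _ _
  have hd1 : Divisor.degree (m • RR.poleDiv (K := K) x) = m * finrank K⟮x⟯ F := by
    rw [map_nsmul, RR.degree_poleDiv hc.transK, nsmul_eq_mul]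
  have hd2 : Divisor.degree (m • RR.poleDiv (K := k) xb) = m * finrank K⟮x⟯ F := by
    rw [map_nsmul, RR.degree_poleDiv hc.trans, nsmul_eq_mul, hc.finrank_eq]
  have h4 := RR.ell_eq_of_lt_degree (D := m • RR.poleDiv (K := K) x) (by
    rw [hd1]
    have : ((m * finrank K⟮x⟯ F : ℕ) : ℤ) = (m : ℤ) * finrank K⟮x⟯ F := by push_cast; ring
    rw [← this]
    omega)
  have h5 := RR.ell_eq_of_lt_degree (D := m • RR.poleDiv (K := k) xb) (by
    rw [hd2]
    have : ((m * finrank K⟮x⟯ F : ℕ) : ℤ) = (m : ℤ) * finrank K⟮x⟯ F := by push_cast; ring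
    rw [← this]
    omega)
  rw [hd1] at h4
  rw [hd2] at h5
  have h3 : finrank k (GoodRed.Lm k xb m) = finrank K (GoodRed.Lm K x m) := by
    rw [Lm_eq_riemannRochSpace hc.ne_zero, Lm_eq_riemannRochSpace hc.ne_zero']
    change RR.ell (m • RR.poleDiv (K := k) xb) = RR.ell (m • RR.poleDiv (K := K) x)
    omega
  obtain ⟨f, hf, hfz⟩ := hc.exists_lift hπ (GoodRed.Lm K x m) (GoodRed.Lm k xb m)
    (fun f hf fb hfb => hc.mem_Lm hf hfb) h3.le hz'
  exact ⟨f, hfz, hf.1⟩

theorem chart_of_genus (hc : GoodRed.IsCoord R x xb) (hsep : Algebra.IsSeparable k⟮xb⟯ Fk)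
    (hπ : Function.Surjective π) (hg : genusFF K F = genusFF k Fk) : Chart R x xb where
  isCoord := isCoord_of_isCoord hc
  sep := by
    haveI := hc.finite
    haveI : CharZero K⟮x⟯ := charZero_of_injective_algebraMap (algebraMap K K⟮x⟯).injective
    infer_instance
  sepk := hsep
  lift _ hz := exists_lift_of_genus hc hsep hπ hg hz

theorem chart_inv_of_genus (hc : GoodRed.IsCoord R x xb) (hsep : Algebra.IsSeparable k⟮xb⟯ Fk)
    (hπ : Function.Surjective π) (hg : genusFF K F = genusFF k Fk) : Chart R x⁻¹ xb⁻¹ :=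
  chart_of_genus hc.inv (by rw [RR.adjoin_simple_inv' (K := k) xb]; exact hsep) hπ hg

end Fermat.Agent.Red
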