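import Fermat.Agent.Red.JCusp
import Fermat.Agent.Red.JHecke

/-!
# The reduction package for `J₀(p)` at a prime `ℓ ≠ p`
-/

set_option autoImplicit false
set_option linter.unusedSectionVars false
set_option linter.style.haveILetI false
set_option linter.unusedVariables false

noncomputable section

open AlgebraicCurve IntermediateField Module ModularCurve Fermat.Agent.Cusp Fermat.Agent.JZ

namespace Fermat.Agent.Red

open Fermat.Agent.FF

local notation "Qb" => AlgebraicClosure ℚ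

/-- The properties (R1)-(R6) of a reduction map of `J₀(p)` at a place `A` above `ℓ ≠ p`. -/
structure IsReduction (p : ℕ) [hp : Fact p.Prime] (ℓ : Nat.Primes) (A : ValuationSubring Qb)
    {J : Type} [AddCommGroup J] (red : JZero p →+ J) : Prop where
  /-- (R1) -/
  inertia : ∀ σ ∈ A.inertiaSubgroupIn ℚ, ∀ x : JZero p, red (σ • x) = red x
  /-- (R2) -/
  frobenius : ∀ σ : Qb ≃ₐ[ℚ] Qb, A.IsFrobeniusAt σ ℓ → ∀ x : JZero p,
    red (σ • σ • x - heckeOperatorBar p ℓ (σ • x) + (ℓ : ℕ) • x) = 0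
  /-- (R3) -/
  injective : ∀ m : ℕ, ¬ (ℓ : ℕ) ∣ m → ∀ x : JZero p, m • x = 0 → red x = 0 → x = 0
  /-- (R4) -/
  hecke : ∀ (q : Nat.Primes) (x : JZero p), red x = 0 → red (heckeOperatorBar p q x) = 0
  /-- (R4) -/
  decomposition : ∀ σ ∈ A.decompositionSubgroup ℚ, ∀ x : JZero p, red x = 0 → red (σ • x) = 0
  /-- (R5) -/
  cuspInf : ∀ (P : Place Qb (FN Qb p)) (a b : Qb), HasVal P (jE Qb p) a → HasVal P (jEN Qb p) b →
    a ∉ A → b * a⁻¹ ∉ A → ∀ D : Divisor.degZero (K := Qb) (F := FN Qb p),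
    (D : Divisor Qb (FN Qb p)) = Finsupp.single P 1 - Finsupp.single (cuspInf p) 1 →
    red (Pic0.mk D) = 0
  /-- (R5) -/
  cuspZero : ∀ (P : Place Qb (FN Qb p)) (a b : Qb), HasVal P (jE Qb p) a → HasVal P (jEN Qb p) b →
    a ∉ A → b * a⁻¹ ∈ A → ∀ D : Divisor.degZero (K := Qb) (F := FN Qb p),
    (D : Divisor Qb (FN Qb p)) = Finsupp.single P 1 - Finsupp.single (cuspZero p) 1 →
    red (Pic0.mk D) = 0
  /-- (R6) -/
  finite : {y : J | ∃ x : JZero p, (∀ σ : Qb ≃ₐ[ℚ] Qb, σ • x = x) ∧ red x = y}.Finite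

theorem isReduction_redJ (p : ℕ) [hp : Fact p.Prime] {ℓ : ℕ} [hℓ : Fact ℓ.Prime]
    {A : ValuationSubring Qb} {k : Type} [Field k] {π : A →+* k} (hA : A.LiesOverPrime ℓ)
    (hπ : ∀ a : A, π a = 0 ↔ ¬ IsUnit a) (hs : Function.Surjective π) (hN : ¬ ℓ ∣ p) :
    IsReduction p ⟨ℓ, hℓ.out⟩ A (redJ hA hπ hs hN) where
  inertia σ hσ x := redJ_inertia hA hπ hs hN σ hσ x
  frobenius σ hσ x := redJ_frobenius hA hπ hs hN σ hσ x
  injective m hm x hx h := redJ_injective hA hπ hs hN hm x hx h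
  hecke q x hx := by
    haveI : Fact (q : ℕ).Prime := ⟨q.2⟩
    haveI : NeZero (q : ℕ) := ⟨q.2.ne_zero⟩
    by_cases h : (q : ℕ) = ℓ
    · subst h
      exact redJ_hecke_self_eq_zero hA hπ hs hN x hx
    · rw [heckeOperatorBar_apply]
      refine redJ_hecke_eq_zero hA hπ hs hN (q : ℕ) ?_ x hx
      intro h1
      rcases hℓ.out.dvd_mul.1 h1 with h2 | h2
      · exact hN h2
      · exact h ((Nat.prime_dvd_prime_iff_eq hℓ.out q.2).1 h2).symm
  decomposition σ hσ x hx := redJ_smul_eq_zero hA hπ hs hN hσ x hx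
  cuspInf P a b ha hb haA hab D hD :=
    redJ_mk_eq_zero p hA hπ hs hN (rX_eq_cuspInf p hA hπ hs hN ha hb haA hab) D hD
  cuspZero P a b ha hb haA hab D hD :=
    redJ_mk_eq_zero p hA hπ hs hN (rX_eq_cuspZero p hA hπ hs hN ha hb haA hab) D hD
  finite := finite_redJ_fixed hA hπ hs hN

/-- **The reduction package** for `J₀(p)` at a place above `ℓ ≠ p`. -/
theorem exists_isReduction (p : ℕ) [hp : Fact p.Prime] (ℓ : Nat.Primes) (hne : (ℓ : ℕ) ≠ p)
    (A : ValuationSubring Qb) (hA : A.LiesOverPrime ℓ) :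
    ∃ (J : Type) (_ : AddCommGroup J) (red : JZero p →+ J), IsReduction p ℓ A red := by
  haveI : Fact (ℓ : ℕ).Prime := ⟨ℓ.2⟩
  have hN : ¬ (ℓ : ℕ) ∣ p := fun h => hne ((Nat.prime_dvd_prime_iff_eq ℓ.2 hp.out).1 h)
  exact ⟨_, _, _, isReduction_redJ p hA (ESh.residue_eq_zero_iff' A)
    IsLocalRing.residue_surjective hN⟩

end Fermat.Agent.Red
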