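import Mathlib.RingTheory.Ideal.Norm.RelNorm
import Mathlib.RingTheory.RamificationInertia.Basic
import Mathlib.RingTheory.DedekindDomain.Factorization

/-!
# Relative norms of primes of residue degree one
-/

set_option autoImplicit false
set_option linter.unusedSectionVars false
set_option linter.style.haveILetI false
set_option linter.unusedVariables false

open Ideal IsDedekindDomain

namespace Fermat.Agent.Red

variable {A B : Type*} [CommRing A] [IsDedekindDomain A] [CommRing B] [IsDedekindDomain B]
  [Algebra A B] [Module.Finite A B] [Module.IsTorsionFree A B]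

/-- an ideal whose norm is contained in `p` is contained in some prime over `p`. -/
theorem exists_le_of_relNorm_le {p : Ideal A} [hpp : p.IsPrime] (hp : p ≠ ⊥) {I : Ideal B}
    (hI : I ≠ ⊥) (h : relNorm A I ≤ p) : ∃ P : Ideal B, P.IsPrime ∧ P.LiesOver p ∧ I ≤ P := by
  classical
  have h1 := UniqueFactorizationMonoid.prod_normalizedFactors_eq hI
  rw [normalize_eq] at h1
  rw [← h1, map_multiset_prod, hpp.multiset_prod_map_le] at h
  obtain ⟨P, hP, hle⟩ := h
  have hprime := UniqueFactorizationMonoid.prime_of_normalized_factor P hP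
  haveI : P.IsPrime := isPrime_of_prime hprime
  have hPbot : P ≠ ⊥ := hprime.ne_zero
  obtain ⟨s, hs⟩ := exists_relNorm_eq_pow_of_isPrime P (P.under A)
  rw [hs] at hle
  have hle' : P.under A ≤ p := hpp.le_of_pow_le hle
  have hne : P.under A ≠ ⊥ := by
    intro h0
    haveI : P.LiesOver (⊥ : Ideal A) := ⟨h0.symm⟩
    exact hPbot (eq_bot_of_liesOver_bot A P)
  have hmax : (P.under A).IsMaximal := (inferInstance : (P.under A).IsPrime).isMaximal hne
  have heq : P.under A = p := hmax.eq_of_le hpp.ne_top hle'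
  exact ⟨P, inferInstance, ⟨heq.symm⟩,
    Ideal.le_of_dvd (UniqueFactorizationMonoid.dvd_of_mem_normalizedFactors hP)⟩

theorem relNorm_le_of_liesOver (P : Ideal B) (p : Ideal A) [h : P.LiesOver p] :
    relNorm A P ≤ p := by
  refine (relNorm_le_comap (R := A) P).trans ?_
  rw [h.over]

/-- The relative norm of a prime of residue degree one. -/
theorem relNorm_eq_of_inertiaDeg {p : Ideal A} [hpm : p.IsMaximal] (hp : p ≠ ⊥)
    (h1 : ∀ P : Ideal B, P.IsPrime → P.LiesOver p → P.inertiaDeg A = 1) (P : Ideal B)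
    [hP : P.IsPrime] [hPo : P.LiesOver p] : relNorm A P = p := by
  classical
  choose! s hs using fun (Q : Ideal B) (_ : Q.IsPrime) (hQ' : Q.LiesOver p) =>
    exists_relNorm_eq_pow_of_isPrime (R := A) Q p
  have hinj : Function.Injective (fun n : ℕ => p ^ n) :=
    (IsLeftCancelMulZero.mul_left_cancel_of_ne_zero hp).pow_injective (by
      rw [one_eq_top]; exact hpm.ne_top)
  have h2 := (congr_arg (relNorm A ·) (map_algebraMap_eq_finsetProd_pow (R := B) hp)).symm.trans
    (relNorm_algebraMap B p)
  simp only [map_prod, map_pow] at h2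
  have h3 : ∏ Q ∈ (p.primesOver B).toFinset, relNorm A Q ^ Q.ramificationIdx A =
      p ^ (∑ Q ∈ (p.primesOver B).toFinset, s Q * Q.ramificationIdx A) := by
    rw [← Finset.prod_pow_eq_pow_sum]
    refine Finset.prod_congr rfl fun Q hQ => ?_
    rw [Set.mem_toFinset] at hQ
    rw [hs Q hQ.1 hQ.2, pow_mul]
  rw [h3] at h2
  have h4 : ∑ Q ∈ (p.primesOver B).toFinset, s Q * Q.ramificationIdx A = Module.finrank A B :=
    hinj h2
  have h5 := sum_ramification_inertia_eq_finrank p B
  have h6 : ∑ q : p.primesOver B, q.1.ramificationIdx A * q.1.inertiaDeg A =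
      ∑ Q ∈ (p.primesOver B).toFinset, Q.ramificationIdx A := by
    rw [Finset.sum_set_coe (s := p.primesOver B)
      (f := fun Q : Ideal B => Q.ramificationIdx A * Q.inertiaDeg A)]
    refine Finset.sum_congr rfl fun Q hQ => ?_
    rw [Set.mem_toFinset] at hQ
    rw [h1 Q hQ.1 hQ.2, mul_one]
  rw [h6, ← h4] at h5
  -- all `s Q` are at least one
  have hs1 : ∀ Q ∈ (p.primesOver B).toFinset, 1 ≤ s Q := by
    intro Q hQ
    rw [Set.mem_toFinset] at hQ
    haveI := hQ.1
    haveI := hQ.2
    by_contra h0
    have h0' : s Q = 0 := by omega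
    have h7 := hs Q hQ.1 hQ.2
    rw [h0', pow_zero, one_eq_top] at h7
    have h8 := relNorm_le_of_liesOver (A := A) Q p
    rw [h7, top_le_iff] at h8
    exact hpm.ne_top h8
  have h7 : ∀ Q ∈ (p.primesOver B).toFinset, Q.ramificationIdx A = s Q * Q.ramificationIdx A := by
    rw [← Finset.sum_eq_sum_iff_of_le]
    · exact h5
    · intro Q hQ
      calc Q.ramificationIdx A = 1 * Q.ramificationIdx A := (one_mul _).symm
        _ ≤ _ := Nat.mul_le_mul_right _ (hs1 Q hQ)
  have hPm : P ∈ (p.primesOver B).toFinset := by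
    rw [Set.mem_toFinset]
    exact ⟨hP, hPo⟩
  have h8 := h7 P hPm
  have h9 := Ideal.ramificationIdx_pos P A
  have h10 : s P = 1 := by
    have : 1 * P.ramificationIdx A = s P * P.ramificationIdx A := by rw [one_mul]; exact h8
    exact (Nat.eq_of_mul_eq_mul_right h9 this).symm
  rw [hs P hP hPo, h10, pow_one]

end Fermat.Agent.Red
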