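import Fermat.Agent.Red.Eval
import Fermat.Agent.Red.RelNorm

/-!
# Zeros of integral functions and zeros of their norm to `K(x)`
-/

set_option autoImplicit false
set_option linter.unusedSectionVars false
set_option linter.style.haveILetI false
set_option linter.unusedVariables false

open AlgebraicCurve IntermediateField IsDedekindDomain
open scoped IntermediateField.algebraAdjoinAdjoin

namespace Fermat.Agent.Red

open Fermat.Agent.FF

variable {K F : Type*} [Field K] [Field F] [Algebra K F]

section Pt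

variable (x : F)

/-- the element `x - a` of `K[x]` -/
def genSub (a : K) : Algebra.adjoin K {x} := gen x - algebraMap K _ a

@[simp] theorem algebraMap_genSub (a : K) :
    algebraMap (Algebra.adjoin K {x}) F (genSub x a) = x - algebraMap K F a := rfl

@[simp] theorem coe_genSub (a : K) :
    ((genSub x a : Algebra.adjoin K {x}) : F) = x - algebraMap K F a := rfl

theorem exists_sub_mem_pt (a : K) (y : Algebra.adjoin K {x}) :
    ∃ c : K, y - algebraMap K _ c ∈ Ideal.span {genSub x a} := by
  obtain ⟨p, hp⟩ := exists_poly x y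
  refine ⟨p.eval a, ?_⟩
  rw [Ideal.mem_span_singleton]
  obtain ⟨q, hq⟩ : (Polynomial.X - Polynomial.C a) ∣ p - Polynomial.C (p.eval a) := by
    rw [Polynomial.dvd_iff_isRoot]
    simp
  refine ⟨⟨Polynomial.aeval x q, Polynomial.aeval_mem_adjoin_singleton K x⟩, ?_⟩
  apply Subtype.ext
  change (y : F) - algebraMap K F (p.eval a) = (x - algebraMap K F a) * Polynomial.aeval x q
  rw [hp]
  have h2 := congrArg (Polynomial.aeval x) hq
  simp only [map_sub, map_mul, Polynomial.aeval_X, Polynomial.aeval_C] at h2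
  exact h2

theorem algebraMap_quotient_pt_surjective (a : K) :
    Function.Surjective (algebraMap K
      (Algebra.adjoin K {x} ⧸ Ideal.span {genSub x a})) := by
  intro y
  obtain ⟨y, rfl⟩ := Ideal.Quotient.mk_surjective y
  obtain ⟨c, hc⟩ := exists_sub_mem_pt x a y
  refine ⟨c, ?_⟩
  change Ideal.Quotient.mk _ (algebraMap K _ c) = Ideal.Quotient.mk _ y
  rw [eq_comm, Ideal.Quotient.mk_eq_mk_iff_sub_mem]
  exact hc

variable {x} (hx : Transcendental K x)

include hx

theorem genSub_ne_zero (a : K) : (genSub x a : Algebra.adjoin K {x}) ≠ 0 := by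
  intro h
  have h1 : x - algebraMap K F a = 0 := congrArg Subtype.val h
  exact transcendental_ne hx a (sub_eq_zero.mp h1)

theorem span_genSub_ne_bot (a : K) :
    Ideal.span {(genSub x a : Algebra.adjoin K {x})} ≠ ⊥ := by
  rw [ne_eq, Ideal.span_singleton_eq_bot]
  exact genSub_ne_zero hx a

/-- divisibility in `K[x]` is divisibility of polynomials -/
theorem dvd_iff_poly (p q : Polynomial K) {y z : Algebra.adjoin K {x}}
    (hy : (y : F) = Polynomial.aeval x p) (hz : (z : F) = Polynomial.aeval x q) :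
    y ∣ z ↔ p ∣ q := by
  constructor
  · rintro ⟨c, hc⟩
    obtain ⟨r, hr⟩ := exists_poly x c
    refine ⟨r, ?_⟩
    have h1 : Polynomial.aeval x (q - p * r) = 0 := by
      rw [map_sub, map_mul, ← hz, ← hy, ← hr, hc]
      simp
    by_contra h2
    exact hx ⟨_, sub_ne_zero.mpr h2, h1⟩
  · rintro ⟨r, hr⟩
    refine ⟨⟨Polynomial.aeval x r, Polynomial.aeval_mem_adjoin_singleton K x⟩, ?_⟩
    apply Subtype.ext
    change (z : F) = (y : F) * Polynomial.aeval x r
    rw [hz, hy, hr, map_mul]

theorem span_genSub_ne_top (a : K) :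
    Ideal.span {(genSub x a : Algebra.adjoin K {x})} ≠ ⊤ := by
  intro h
  rw [Ideal.eq_top_iff_one, Ideal.mem_span_singleton,
    dvd_iff_poly hx (Polynomial.X - Polynomial.C a) 1 (by simp) (by simp)] at h
  exact (Polynomial.not_isUnit_X_sub_C a) (isUnit_of_dvd_one h)

theorem isMaximal_span_genSub (a : K) :
    (Ideal.span {(genSub x a : Algebra.adjoin K {x})}).IsMaximal := by
  rw [Ideal.isMaximal_def]
  refine ⟨span_genSub_ne_top hx a, fun J hJ => ?_⟩
  obtain ⟨y, hyJ, hy⟩ := Set.exists_of_ssubset hJ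
  obtain ⟨c, hc⟩ := exists_sub_mem_pt x a y
  have hc0 : c ≠ 0 := by
    rintro rfl
    apply hy
    simpa using hc
  have h1 : algebraMap K (Algebra.adjoin K {x}) c ∈ J := by
    have h2 := J.sub_mem hyJ (hJ.le hc)
    simpa using h2
  apply Ideal.eq_top_of_isUnit_mem _ h1
  exact (IsUnit.mk0 c hc0).map (algebraMap K _)

end Pt

section Main

variable [IsAlgClosed K] [IsFnField K F] {x : F} (hx : Transcendental K x)
  [FiniteDimensional K⟮x⟯ F] [Algebra.IsSeparable K⟮x⟯ F]

/-- the integral closure of `K[x]` -/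
abbrev IntCl (K : Type*) {F : Type*} [Field K] [Field F] [Algebra K F] (x : F) :=
  integralClosure (Algebra.adjoin K {x}) F

include hx

/-- The height one prime attached to a place where `x` has a finite value. -/
theorem exists_prime_of_hasVal {P : Place K F} {a : K} (ha : HasVal P x a) :
    ∃ w : HeightOneSpectrum (IntCl K x), Place.ofHeightOneSpectrum w = P ∧
      w.asIdeal.LiesOver (Ideal.span {(genSub x a : Algebra.adjoin K {x})}) ∧
      ∀ b : IntCl K x, b ∈ w.asIdeal ↔ HasVal P (b : F) 0 := by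
  have hmax := isMaximal_span_genSub hx a
  have hmem : ∀ b : IntCl K x, algebraMap _ F b ∈ P.toValuationSubring :=
    fun b => mem_of_isIntegral P ha.nonneg b.2
  obtain ⟨w, hw, hwc⟩ := exists_heightOneSpectrum P hmem
  have hiff : ∀ b : IntCl K x, b ∈ w.asIdeal ↔ HasVal P (b : F) 0 := by
    intro b
    rw [hwc, mem_centre_iff, hasVal_zero_iff]
    constructor
    · rintro (h | h)
      · left; rw [h]; rfl
      · right; exact h
    · rintro (h | h)
      · left; exact Subtype.ext h
      · right; exact h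
  refine ⟨w, hw, ⟨?_⟩, hiff⟩
  refine hmax.eq_of_le (Ideal.IsPrime.ne_top (Ideal.IsPrime.under _ w.asIdeal)) ?_
  rw [Ideal.span_singleton_le_iff_mem, Ideal.under, Ideal.mem_comap, hiff]
  have := ha.sub (hasVal_algebraMap P a)
  rw [sub_self] at this
  exact this

theorem exists_place_of_prime {a : K} (I : Ideal (IntCl K x)) [hI : I.IsPrime]
    [hIo : I.LiesOver (Ideal.span {(genSub x a : Algebra.adjoin K {x})})] :
    ∃ (w : HeightOneSpectrum (IntCl K x)) (P : Place K F), w.asIdeal = I ∧
      Place.ofHeightOneSpectrum w = P ∧ HasVal P x a ∧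
      ∀ b : IntCl K x, b ∈ I ↔ HasVal P (b : F) 0 := by
  have hne : I ≠ ⊥ := Ideal.ne_bot_of_liesOver_of_ne_bot (span_genSub_ne_bot hx a) I
  set w : HeightOneSpectrum (IntCl K x) := ⟨I, hI, hne⟩ with hw
  set P : Place K F := Place.ofHeightOneSpectrum w with hP
  have hxP : 0 ≤ P.ord x := by
    apply ord_nonneg_of_mem
    exact algebraMap_mem_ofHeightOneSpectrum (K := K) (F := F) w
      (algebraMap (Algebra.adjoin K {x}) _ (gen x))
  have hiff : ∀ b : IntCl K x, b ∈ I ↔ HasVal P (b : F) 0 := by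
    intro b
    obtain ⟨w', hw', hwc⟩ := exists_heightOneSpectrum P
      (fun b : IntCl K x => mem_of_isIntegral P hxP (f := algebraMap _ F b) b.2)
    have : w' = w := ofHeightOneSpectrum_injective (K := K) (F := F) (hw'.trans hP)
    rw [this] at hwc
    change b ∈ w.asIdeal ↔ _
    rw [hwc, mem_centre_iff, hasVal_zero_iff]
    constructor
    · rintro (h | h)
      · left; rw [h]; rfl
      · right; exact h
    · rintro (h | h)
      · left; exact Subtype.ext h
      · right; exact h
  refine ⟨w, P, rfl, rfl, ?_, hiff⟩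
  have h1 : algebraMap (Algebra.adjoin K {x}) (IntCl K x) (genSub x a) ∈ I := by
    have h2 : (genSub x a : Algebra.adjoin K {x}) ∈
        Ideal.under (Algebra.adjoin K {x}) I := by
      rw [← hIo.over]
      exact Ideal.mem_span_singleton_self _
    exact h2
  rw [hiff] at h1
  have h2 := h1.add (hasVal_algebraMap P a)
  rw [zero_add] at h2
  have h3 : ((algebraMap (Algebra.adjoin K {x}) (IntCl K x) (genSub x a) : IntCl K x) : F) +
      algebraMap K F a = x := by
    change x - algebraMap K F a + algebraMap K F a = x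
    ring
  rwa [h3] at h2

theorem relNorm_prime_eq {a : K} (I : Ideal (IntCl K x)) [hI : I.IsPrime]
    [hIo : I.LiesOver (Ideal.span {(genSub x a : Algebra.adjoin K {x})})] :
    Ideal.relNorm (Algebra.adjoin K {x}) I = Ideal.span {(genSub x a : Algebra.adjoin K {x})} := by
  haveI := isMaximal_span_genSub hx a
  apply relNorm_eq_of_inertiaDeg (span_genSub_ne_bot hx a)
  intro J hJ hJo
  rw [← deg_overPlace (K := K) (F := F) (algebraMap_quotient_pt_surjective x a)
    (span_genSub_ne_bot hx a) ⟨J, hJ, hJo⟩, RR.deg_eq_one]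

theorem algebraMap_intNorm_eq (b : IntCl K x) :
    algebraMap (Algebra.adjoin K {x}) K⟮x⟯ (Algebra.intNorm (Algebra.adjoin K {x}) (IntCl K x) b) =
      Algebra.norm K⟮x⟯ (b : F) :=
  Algebra.algebraMap_intNorm (A := Algebra.adjoin K {x}) (K := K⟮x⟯) (L := F) (B := IntCl K x) b

variable {b : IntCl K x} {p : Polynomial K}
  (hp : Polynomial.aeval x p = ((Algebra.norm K⟮x⟯ (b : F) : K⟮x⟯) : F))

include hp

theorem coe_intNorm : ((Algebra.intNorm (Algebra.adjoin K {x}) (IntCl K x) b :
    Algebra.adjoin K {x}) : F) = Polynomial.aeval x p := by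
  rw [hp, ← algebraMap_intNorm_eq hx b]
  rfl

/-- zeros of the norm come from zeros -/
theorem exists_zero_of_norm (hb : b ≠ 0) {a : K} (ha : p.IsRoot a) :
    ∃ P : Place K F, HasVal P x a ∧ HasVal P (b : F) 0 := by
  haveI := isMaximal_span_genSub hx a
  have h1 : genSub x a ∣ Algebra.intNorm (Algebra.adjoin K {x}) (IntCl K x) b := by
    rw [dvd_iff_poly hx (Polynomial.X - Polynomial.C a) p (by simp) (coe_intNorm hx hp)]
    exact Polynomial.dvd_iff_isRoot.mpr ha
  have h2 : Ideal.relNorm (Algebra.adjoin K {x}) (Ideal.span {b}) ≤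
      Ideal.span {(genSub x a : Algebra.adjoin K {x})} := by
    rw [Ideal.relNorm_singleton, Ideal.span_singleton_le_span_singleton]
    exact h1
  obtain ⟨I, hI, hIo, hle⟩ := exists_le_of_relNorm_le (span_genSub_ne_bot hx a)
    (by simpa using hb) h2
  obtain ⟨w, P, hw, hwP, hPx, hmem⟩ := exists_place_of_prime (a := a) hx I
  refine ⟨P, hPx, ?_⟩
  rw [← hmem]
  exact hle (Ideal.mem_span_singleton_self b)

theorem isRoot_norm_of_zero {a : K} {P : Place K F} (ha : HasVal P x a)
    (hb : HasVal P (b : F) 0) : p.IsRoot a := by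
  haveI := isMaximal_span_genSub hx a
  obtain ⟨w, hw, hwo, hmem⟩ := exists_prime_of_hasVal hx ha
  rw [← Polynomial.dvd_iff_isRoot, ← dvd_iff_poly hx _ p (y := genSub x a)
    (by simp) (coe_intNorm hx hp)]
  rw [← Ideal.span_singleton_le_span_singleton, ← Ideal.relNorm_singleton]
  refine (Ideal.relNorm_mono _ ?_).trans (relNorm_le_of_liesOver w.asIdeal _)
  rw [Ideal.span_singleton_le_iff_mem, hmem]
  exact hb

/-- two different zeros -/
theorem mul_dvd_norm_of_ne {a₁ a₂ : K} {P₁ P₂ : Place K F} (hne : P₁ ≠ P₂)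
    (ha₁ : HasVal P₁ x a₁) (ha₂ : HasVal P₂ x a₂) (hb₁ : HasVal P₁ (b : F) 0)
    (hb₂ : HasVal P₂ (b : F) 0) :
    (Polynomial.X - Polynomial.C a₁) * (Polynomial.X - Polynomial.C a₂) ∣ p := by
  obtain ⟨w₁, hw₁, hwo₁, hmem₁⟩ := exists_prime_of_hasVal hx ha₁
  obtain ⟨w₂, hw₂, hwo₂, hmem₂⟩ := exists_prime_of_hasVal hx ha₂
  have hwne : w₁.asIdeal ≠ w₂.asIdeal := by
    intro h
    apply hne
    have : w₁ = w₂ := HeightOneSpectrum.ext h
    rw [← hw₁, ← hw₂, this]
  have hcop : IsCoprime w₁.asIdeal w₂.asIdeal := by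
    rw [Ideal.isCoprime_iff_sup_eq]
    exact Ideal.IsMaximal.coprime_of_ne w₁.isMaximal w₂.isMaximal hwne
  have hle : Ideal.span {b} ≤ w₁.asIdeal * w₂.asIdeal := by
    rw [Ideal.mul_eq_inf_of_isCoprime hcop]
    refine le_inf ?_ ?_
    · rw [Ideal.span_singleton_le_iff_mem, hmem₁]; exact hb₁
    · rw [Ideal.span_singleton_le_iff_mem, hmem₂]; exact hb₂
  rw [← dvd_iff_poly hx _ p (y := genSub x a₁ * genSub x a₂)
    (by simp) (coe_intNorm hx hp), ← Ideal.span_singleton_le_span_singleton,
    ← Ideal.relNorm_singleton, ← Ideal.span_singleton_mul_span_singleton]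
  refine (Ideal.relNorm_mono _ hle).trans ?_
  rw [map_mul]
  exact Ideal.mul_mono (relNorm_le_of_liesOver w₁.asIdeal _) (relNorm_le_of_liesOver w₂.asIdeal _)

omit hp in
theorem mem_sq_iff {P : Place K F} {w : HeightOneSpectrum (IntCl K x)}
    (hw : Place.ofHeightOneSpectrum w = P) (hb0 : b ≠ 0) (n : ℕ) :
    b ∈ w.asIdeal ^ n ↔ (n : ℤ) ≤ P.ord (b : F) := by
  have hb0' : (b : F) ≠ 0 := by
    intro h; exact hb0 (Subtype.ext h)
  rw [← hw, ord_ofHeightOneSpectrum, ← HeightOneSpectrum.intValuation_le_pow_iff_mem]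
  have h1 : w.valuation F (b : F) = w.intValuation b := w.valuation_of_algebraMap b
  rw [h1]
  have h2 : w.intValuation b ≠ 0 := HeightOneSpectrum.intValuation_ne_zero w b hb0
  constructor
  · intro h
    have h3 : WithZero.log (w.intValuation b) ≤ -(n : ℤ) := (WithZero.log_le_iff_le_exp h2).mpr h
    linarith
  · intro h
    exact (WithZero.log_le_iff_le_exp h2).mp (by linarith)

/-- a double zero -/
theorem sq_dvd_norm {a : K} {P : Place K F} (hb0 : b ≠ 0)
    (ha : HasVal P x a) (hb : 2 ≤ P.ord (b : F)) :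
    (Polynomial.X - Polynomial.C a) * (Polynomial.X - Polynomial.C a) ∣ p := by
  obtain ⟨w, hw, hwo, hmem⟩ := exists_prime_of_hasVal hx ha
  have hle : Ideal.span {b} ≤ w.asIdeal * w.asIdeal := by
    rw [Ideal.span_singleton_le_iff_mem, ← sq, mem_sq_iff hx hw hb0]
    exact_mod_cast hb
  rw [← dvd_iff_poly hx _ p (y := genSub x a * genSub x a)
    (by simp) (coe_intNorm hx hp), ← Ideal.span_singleton_le_span_singleton,
    ← Ideal.relNorm_singleton, ← Ideal.span_singleton_mul_span_singleton]
  refine (Ideal.relNorm_mono _ hle).trans ?_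
  rw [map_mul]
  exact Ideal.mul_mono (relNorm_le_of_liesOver w.asIdeal _) (relNorm_le_of_liesOver w.asIdeal _)

/-- a simple zero which is the only zero in the fibre of `x` is a simple zero of the norm. -/
theorem not_sq_dvd_norm {a : K} {P : Place K F} (hb0 : b ≠ 0) (ha : HasVal P x a)
    (hb : P.ord (b : F) = 1)
    (hb' : ∀ P' : Place K F, HasVal P' x a → HasVal P' (b : F) 0 → P' = P) :
    ¬ (Polynomial.X - Polynomial.C a) * (Polynomial.X - Polynomial.C a) ∣ p := by
  intro hdvd
  haveI := isMaximal_span_genSub hx a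
  obtain ⟨w, hw, hwo, hmem⟩ := exists_prime_of_hasVal hx ha
  have h1 : b ∈ w.asIdeal := by
    rw [hmem, hasVal_zero_iff]
    right
    rw [hb]; norm_num
  obtain ⟨I, hI⟩ : w.asIdeal ∣ Ideal.span {b} := by
    rw [Ideal.dvd_span_singleton]
    exact h1
  have hI0 : I ≠ ⊥ := by
    rintro rfl
    rw [Ideal.mul_bot, Ideal.span_singleton_eq_bot] at hI
    exact hb0 hI
  rw [← dvd_iff_poly hx _ p (y := genSub x a * genSub x a)
    (by simp) (coe_intNorm hx hp), ← Ideal.span_singleton_le_span_singleton,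
    ← Ideal.relNorm_singleton, ← Ideal.span_singleton_mul_span_singleton, hI, map_mul,
    relNorm_prime_eq (a := a) hx w.asIdeal, ← Ideal.dvd_iff_le,
    mul_dvd_mul_iff_left (show Ideal.span {(genSub x a : Algebra.adjoin K {x})} ≠ 0 from
      span_genSub_ne_bot hx a), Ideal.dvd_iff_le] at hdvd
  obtain ⟨J, hJ, hJo, hle⟩ := exists_le_of_relNorm_le (span_genSub_ne_bot hx a) hI0 hdvd
  obtain ⟨w', P', hw', hwP', hPx', hmem'⟩ := exists_place_of_prime (a := a) hx J
  have hbJ : b ∈ w.asIdeal * J := by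
    have h2 : b ∈ w.asIdeal * I := by
      rw [← hI]; exact Ideal.mem_span_singleton_self b
    exact Ideal.mul_mono le_rfl hle h2
  have hPP : P' = P := by
    apply hb' P' hPx'
    rw [← hmem']
    exact Ideal.mul_le_right hbJ
  have hww : w' = w := by
    apply ofHeightOneSpectrum_injective (K := K) (F := F)
    rw [hwP', hw, hPP]
  rw [← hw', hww, ← sq, mem_sq_iff hx hw hb0, hb] at hbJ
  norm_num at hbJ

end Main

end Fermat.Agent.Red
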