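import Fermat.Agent.Red.Charpoly
import Fermat.Agent.Red.Norm

/-!
# Specialisation of places in an affine chart
-/

set_option autoImplicit false
set_option linter.unusedSectionVars false
set_option linter.style.haveILetI false
set_option linter.unusedVariables false

open AlgebraicCurve IntermediateField IsDedekindDomain
open scoped IntermediateField.algebraAdjoinAdjoin

namespace Fermat.Agent.Red

open Fermat.Agent.FF

section Root

variable {K k : Type*} [Field K] [Field k] {A : ValuationSubring K} {π : A →+* k}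

theorem exists_prod_eq (s : Multiset K) (hs : ∀ a ∈ s, a ≠ 0 ∧ a⁻¹ ∈ A) :
    ∃ g : Polynomial A, (s.map fun a => Polynomial.X - Polynomial.C a).prod =
      Polynomial.C ((s.map fun a => -a).prod) * g.map A.subtype ∧ g.coeff 0 = 1 := by
  induction s using Multiset.induction_on with
  | empty => exact ⟨1, by simp, by simp⟩
  | cons a s ih =>
    obtain ⟨g, hg, hg0⟩ := ih fun b hb => hs b (Multiset.mem_cons_of_mem hb)
    obtain ⟨ha0, ha⟩ := hs a (Multiset.mem_cons_self a s)
    refine ⟨(1 - Polynomial.C ⟨a⁻¹, ha⟩ * Polynomial.X) * g, ?_, ?_⟩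
    · rw [Multiset.map_cons, Multiset.prod_cons, Multiset.map_cons, Multiset.prod_cons, hg]
      simp only [Polynomial.map_mul, Polynomial.map_sub, Polynomial.map_one, Polynomial.map_C,
        Polynomial.map_X, map_mul, map_neg]
      have h1 : A.subtype ⟨a⁻¹, ha⟩ = a⁻¹ := rfl
      rw [h1]
      have h2 : (Polynomial.X - Polynomial.C a : Polynomial K) =
          -Polynomial.C a * (1 - Polynomial.C a⁻¹ * Polynomial.X) := by
        have h3 : Polynomial.C a * Polynomial.C a⁻¹ = (1 : Polynomial K) := by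
          rw [← Polynomial.C_mul, mul_inv_cancel₀ ha0, Polynomial.C_1]
        linear_combination (-Polynomial.X) * h3
      rw [h2]
      ring
    · rw [Polynomial.mul_coeff_zero, hg0]
      simp

theorem exists_root_zero [IsAlgClosed K] (hA : ∀ a : A, π a = 0 ↔ ¬ IsUnit a) (q : Polynomial A)
    (hq : q.map π ≠ 0) (h0 : π (q.coeff 0) = 0) : ∃ a : A, q.eval a = 0 ∧ π a = 0 := by
  by_contra hcon
  push Not at hcon
  have hroots : ∀ a ∈ (q.map A.subtype).roots, a ≠ 0 ∧ a⁻¹ ∈ A := by
    intro a ha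
    have ha' : (q.map A.subtype).eval a = 0 := (Polynomial.mem_roots'.mp ha).2
    by_cases haA : a ∈ A
    · have h1 : q.eval ⟨a, haA⟩ = 0 := by
        apply Subtype.ext
        have h2 : (q.map A.subtype).eval a = (q.eval ⟨a, haA⟩ : A) := by
          rw [Polynomial.eval_map]
          exact Polynomial.eval₂_at_apply A.subtype ⟨a, haA⟩
        rw [← h2, ha']
        rfl
      have h2 : π ⟨a, haA⟩ ≠ 0 := hcon _ h1
      have h3 : IsUnit (⟨a, haA⟩ : A) := by
        by_contra h4
        exact h2 ((hA _).2 h4)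
      obtain ⟨b, hb⟩ := h3.exists_right_inv
      have hb' : a * (b : K) = 1 := congrArg Subtype.val hb
      have ha0 : a ≠ 0 := by
        rintro rfl
        simp at hb'
      refine ⟨ha0, ?_⟩
      rw [← eq_inv_of_mul_eq_one_right hb']
      exact b.2
    · refine ⟨?_, (A.mem_or_inv_mem a).resolve_left haA⟩
      rintro rfl
      exact haA A.zero_mem
  obtain ⟨g, hg, hg0⟩ := exists_prod_eq _ hroots
  have h1 := (IsAlgClosed.splits (q.map A.subtype)).eq_prod_roots
  rw [hg, ← mul_assoc, ← Polynomial.C_mul] at h1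
  have h2 := congrArg (fun p => Polynomial.coeff p 0) h1
  simp only [Polynomial.coeff_C_mul, Polynomial.coeff_map, hg0, map_one, mul_one] at h2
  rw [← h2, ← Polynomial.map_C, ← Polynomial.map_mul] at h1
  have h3 : q = Polynomial.C (q.coeff 0) * g :=
    Polynomial.map_injective A.subtype Subtype.coe_injective h1
  apply hq
  rw [h3, Polynomial.map_mul, Polynomial.map_C, h0, Polynomial.C_0, zero_mul]

theorem exists_root [IsAlgClosed K] (hA : ∀ a : A, π a = 0 ↔ ¬ IsUnit a)
    (hπ : Function.Surjective π) (q : Polynomial A)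
    (hq : q.map π ≠ 0) {ā : k} (h0 : (q.map π).IsRoot ā) : ∃ a : A, q.eval a = 0 ∧ π a = ā := by
  obtain ⟨a₀, rfl⟩ := hπ ā
  obtain ⟨a, ha, ha'⟩ := exists_root_zero hA (q.comp (Polynomial.X + Polynomial.C a₀)) (by
    rw [Polynomial.map_comp]
    simp only [Polynomial.map_add, Polynomial.map_X, Polynomial.map_C]
    intro h
    apply hq
    have h1 := congrArg (fun p => p.comp (Polynomial.X - Polynomial.C (π a₀))) h
    simp only [Polynomial.comp_assoc] at h1
    simpa using h1) (by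
    rw [Polynomial.coeff_zero_eq_eval_zero, Polynomial.eval_comp]
    simp only [Polynomial.eval_add, Polynomial.eval_X, Polynomial.eval_C, zero_add]
    rw [Polynomial.IsRoot.def, Polynomial.eval_map, Polynomial.eval₂_at_apply] at h0
    exact h0)
  refine ⟨a + a₀, ?_, by rw [map_add, ha', zero_add]⟩
  rw [Polynomial.eval_comp] at ha
  simpa using ha

end Root

variable {K k : Type*} [Field K] [Field k] {A : ValuationSubring K} {π : A →+* k}
  {F Fk : Type*} [Field F] [Algebra K F] [Field Fk] [Algebra k Fk]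
  {R : ConstRed A π F Fk} {x : F} {xb : Fk}

/-- An affine chart of a good reduction. -/
structure Chart (R : ConstRed A π F Fk) (x : F) (xb : Fk) : Prop where
  isCoord : IsCoord R x xb
  sep : Algebra.IsSeparable K⟮x⟯ F
  sepk : Algebra.IsSeparable k⟮xb⟯ Fk
  lift : ∀ z : Fk, IsIntegral (Algebra.adjoin k {xb}) z →
    ∃ f : F, R.IsRed f z ∧ IsIntegral (Algebra.adjoin K {x}) f

theorem transcendental_of_isRed (hx : R.IsRed x xb) (hxb : Transcendental k xb) :
    Transcendental K x := by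
  rintro ⟨p, hp, h0⟩
  obtain ⟨α, q, hα, rfl, hq⟩ := exists_primitive A π p hp
  rw [map_mul, Polynomial.aeval_C, ← theta_apply] at h0
  rcases mul_eq_zero.mp h0 with h | h
  · exact hα ((map_eq_zero _).mp h)
  · exact ((hx.theta q).ne_zero (thetak_ne_zero hxb hq)) h

/-- `Sp R x xb P Q`: the place `P` specialises to `Q` in the chart of `x`. -/
def Sp (R : ConstRed A π F Fk) (x : F) (xb : Fk) [IsAlgClosed K] [IsFnField K F] [IsAlgClosed k]
    [IsFnField k Fk] (P : Place K F) (Q : Place k Fk) : Prop :=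
  (∃ a : A, HasVal P x a) ∧ 0 ≤ Q.ord xb ∧ ∀ (f : F) (z : Fk) (c : K), R.IsRed f z →
    IsIntegral (Algebra.adjoin K {x}) f → HasVal P f c → ∃ h : c ∈ A, HasVal Q z (π ⟨c, h⟩)

section Spec

variable [IsAlgClosed K] [IsFnField K F] [IsAlgClosed k] [IsFnField k Fk]

theorem isIntegral_self {K F : Type*} [Field K] [Field F] [Algebra K F] (x : F) :
    IsIntegral (Algebra.adjoin K {x}) x := by
  have : x = algebraMap (Algebra.adjoin K {x}) F (gen x) := rfl
  rw [this]
  exact isIntegral_algebraMap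

theorem isIntegral_const {K F : Type*} [Field K] [Field F] [Algebra K F] (x : F) (a : K) :
    IsIntegral (Algebra.adjoin K {x}) (algebraMap K F a) := by
  have : algebraMap K F a = algebraMap (Algebra.adjoin K {x}) F (algebraMap K _ a) := rfl
  rw [this]
  exact isIntegral_algebraMap

/-- the relation "`z` has a lift with value reducing to `v`" -/
def Rel (R : ConstRed A π F Fk) (x : F) (P : Place K F) (z : Fk) (v : k) : Prop :=
  ∃ (f : F) (c : A), R.IsRed f z ∧ IsIntegral (Algebra.adjoin K {x}) f ∧ HasVal P f c ∧ π c = v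

theorem Rel.add {P : Place K F} {z z' : Fk} {v v' : k} (h : Rel R x P z v)
    (h' : Rel R x P z' v') : Rel R x P (z + z') (v + v') := by
  obtain ⟨f, c, h1, h2, h3, rfl⟩ := h
  obtain ⟨f', c', h1', h2', h3', rfl⟩ := h'
  exact ⟨f + f', c + c', h1.add h1', h2.add h2', h3.add h3', map_add _ _ _⟩

theorem Rel.sub {P : Place K F} {z z' : Fk} {v v' : k} (h : Rel R x P z v)
    (h' : Rel R x P z' v') : Rel R x P (z - z') (v - v') := by
  obtain ⟨f, c, h1, h2, h3, rfl⟩ := h
  obtain ⟨f', c', h1', h2', h3', rfl⟩ := h'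
  exact ⟨f - f', c - c', h1.sub h1', h2.sub h2', h3.sub h3', map_sub _ _ _⟩

theorem Rel.mul {P : Place K F} {z z' : Fk} {v v' : k} (h : Rel R x P z v)
    (h' : Rel R x P z' v') : Rel R x P (z * z') (v * v') := by
  obtain ⟨f, c, h1, h2, h3, rfl⟩ := h
  obtain ⟨f', c', h1', h2', h3', rfl⟩ := h'
  exact ⟨f * f', c * c', h1.mul h1', h2.mul h2', h3.mul h3', map_mul _ _ _⟩

theorem rel_const (P : Place K F) (a : A) : Rel R x P (algebraMap k Fk (π a)) (π a) :=
  ⟨algebraMap K F a, a, R.isRed_coe a, isIntegral_const x _, hasVal_algebraMap P _, rfl⟩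

variable (hC : Chart R x xb)

include hC

theorem Chart.transcendental : Transcendental K x :=
  transcendental_of_isRed hC.isCoord.isRed hC.isCoord.transcendental

theorem Chart.rel_unique {P : Place K F} {a : A} (ha : HasVal P x a) {z : Fk} {v v' : k}
    (h : Rel R x P z v) (h' : Rel R x P z v') : v = v' := by
  have h1 := h.sub h'
  rw [sub_self] at h1
  obtain ⟨f, c, hf, hfi, hfv, hc⟩ := h1
  obtain ⟨h2, h3⟩ := hC.isCoord.val_red_zero hf hfi ha hfv
  have h4 : (⟨(c : K), h2⟩ : A) = c := rfl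
  rw [h4, hc] at h3
  exact sub_eq_zero.mp h3

theorem Chart.exists_rel {P : Place K F} {a : A} (ha : HasVal P x a) {z : Fk}
    (hz : IsIntegral (Algebra.adjoin k {xb}) z) : ∃ v, Rel R x P z v := by
  obtain ⟨f, hf, hfi⟩ := hC.lift z hz
  obtain ⟨c, hc⟩ := exists_hasVal (ord_nonneg_of_mem P (mem_of_isIntegral P ha.nonneg hfi))
  have h1 := hC.isCoord.val_mem hf.mem hfi ha hc
  exact ⟨π ⟨c, h1⟩, f, ⟨c, h1⟩, hf, hfi, hc, rfl⟩

/-- existence of the specialisation -/
theorem Chart.exists_sp {P : Place K F} {a : A} (ha : HasVal P x a) :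
    ∃ Q : Place k Fk, Sp R x xb P Q := by
  haveI := hC.sep
  haveI := hC.sepk
  haveI := hC.isCoord.finiteDimensionalk
  choose v hv using fun z : IntCl k xb => hC.exists_rel ha z.2
  let φ : IntCl k xb →+* k :=
    { toFun := v
      map_one' := by
        have h1 : Rel R x P (1 : Fk) 1 := by
          simpa using rel_const (R := R) (x := x) P (1 : A)
        exact hC.rel_unique ha (hv 1) h1
      map_mul' := fun z z' => hC.rel_unique ha (hv (z * z')) ((hv z).mul (hv z'))
      map_zero' := by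
        have h1 : Rel R x P (0 : Fk) 0 := by
          simpa using rel_const (R := R) (x := x) P (0 : A)
        exact hC.rel_unique ha (hv 0) h1
      map_add' := fun z z' => hC.rel_unique ha (hv (z + z')) ((hv z).add (hv z')) }
  have hφ : ∀ (z : IntCl k xb) (w : k), Rel R x P (z : Fk) w → φ z = w :=
    fun z w h => hC.rel_unique ha (hv z) h
  set I := RingHom.ker φ with hI
  haveI hIp : I.IsPrime := RingHom.ker_isPrime φ
  have hmax := isMaximal_span_genSub hC.isCoord.transcendental (π a)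
  haveI hIo : I.LiesOver (Ideal.span {(genSub xb (π a) : Algebra.adjoin k {xb})}) := by
    constructor
    refine hmax.eq_of_le (Ideal.IsPrime.ne_top (Ideal.IsPrime.under _ I)) ?_
    rw [Ideal.span_singleton_le_iff_mem, Ideal.under, Ideal.mem_comap, hI, RingHom.mem_ker]
    apply hφ
    have h1 : Rel R x P (xb - algebraMap k Fk (π a)) (π a - π a) :=
      Rel.sub ⟨x, a, hC.isCoord.isRed, isIntegral_self x, ha, rfl⟩ (rel_const P a)
    rwa [sub_self] at h1
  obtain ⟨w, Q, hw, hwQ, hQx, hmem⟩ := exists_place_of_prime (a := π a)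
    hC.isCoord.transcendental I
  refine ⟨Q, ⟨a, ha⟩, hQx.nonneg, fun f z c hf hfi hc => ?_⟩
  have h1 := hC.isCoord.val_mem hf.mem hfi ha hc
  refine ⟨h1, ?_⟩
  have h2 : IsIntegral (Algebra.adjoin k {xb}) (z - algebraMap k Fk (π ⟨c, h1⟩)) :=
    (hC.isCoord.isIntegral_red hf hfi).sub (isIntegral_const xb _)
  have h3 : (⟨z - algebraMap k Fk (π ⟨c, h1⟩), h2⟩ : IntCl k xb) ∈ I := by
    rw [hI, RingHom.mem_ker]
    apply hφ
    have h1 : Rel R x P (z - algebraMap k Fk (π ⟨c, h1⟩)) (π ⟨c, h1⟩ - π ⟨c, h1⟩) :=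
      Rel.sub ⟨f, ⟨c, h1⟩, hf, hfi, hc, rfl⟩ (rel_const P ⟨c, h1⟩)
    rwa [sub_self] at h1
  rw [hmem] at h3
  have h4 := h3.add (hasVal_algebraMap Q (π ⟨c, h1⟩))
  rw [zero_add] at h4
  simpa using h4

theorem Chart.sp_val_x {P : Place K F} {Q : Place k Fk} (h : Sp R x xb P Q) {a : A}
    (ha : HasVal P x a) : HasVal Q xb (π a) := by
  obtain ⟨h1, h2⟩ := h.2.2 x xb a hC.isCoord.isRed (isIntegral_self x) ha
  exact h2

/-- uniqueness of the specialisation -/
theorem Chart.sp_unique {P : Place K F} {Q Q' : Place k Fk} (h : Sp R x xb P Q)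
    (h' : Sp R x xb P Q') : Q = Q' := by
  haveI := hC.sep
  haveI := hC.sepk
  haveI := hC.isCoord.finiteDimensionalk
  obtain ⟨a, ha⟩ := h.1
  obtain ⟨w, hw, -, hmem⟩ := exists_prime_of_hasVal hC.isCoord.transcendental
    (hC.sp_val_x h ha)
  obtain ⟨w', hw', -, hmem'⟩ := exists_prime_of_hasVal hC.isCoord.transcendental
    (hC.sp_val_x h' ha)
  have hww : w = w' := by
    apply HeightOneSpectrum.ext
    ext b
    rw [hmem, hmem']
    obtain ⟨f, hf, hfi⟩ := hC.lift b b.2
    obtain ⟨c, hc⟩ := exists_hasVal (ord_nonneg_of_mem P (mem_of_isIntegral P ha.nonneg hfi))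
    obtain ⟨h1, h2⟩ := h.2.2 f b c hf hfi hc
    obtain ⟨h1', h2'⟩ := h'.2.2 f b c hf hfi hc
    constructor
    · intro h3
      rw [h3.unique h2]
      exact h2'
    · intro h3
      rw [h3.unique h2']
      exact h2
  rw [← hw, ← hw', hww]

omit hC in
/-- separation of two different finite places by an integral function -/
theorem exists_separate {k Fk : Type*} [Field k] [Field Fk] [Algebra k Fk] [IsAlgClosed k]
    [IsFnField k Fk] {xb : Fk} (hxb : Transcendental k xb) [FiniteDimensional k⟮xb⟯ Fk]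
    [Algebra.IsSeparable k⟮xb⟯ Fk] {Q Q' : Place k Fk} (hne : Q' ≠ Q)
    (hQ : 0 ≤ Q.ord xb) (hQ' : 0 ≤ Q'.ord xb) :
    ∃ z : Fk, IsIntegral (Algebra.adjoin k {xb}) z ∧ HasVal Q' z 0 ∧ z ≠ 0 ∧ Q.ord z = 0 := by
  obtain ⟨a, ha⟩ := exists_hasVal hQ
  obtain ⟨a', ha'⟩ := exists_hasVal hQ'
  obtain ⟨w, hw, -, hmem⟩ := exists_prime_of_hasVal hxb ha
  obtain ⟨w', hw', -, hmem'⟩ := exists_prime_of_hasVal hxb ha'
  have hnot : ¬ w'.asIdeal ≤ w.asIdeal := by
    intro hle
    have h1 : w'.asIdeal = w.asIdeal := w'.isMaximal.eq_of_le w.isMaximal.ne_top hle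
    apply hne
    rw [← hw, ← hw', HeightOneSpectrum.ext h1]
  obtain ⟨z, hz', hz⟩ := Set.not_subset.mp hnot
  have hz0 : (z : Fk) ≠ 0 := by
    intro h
    apply hz
    have : z = 0 := Subtype.ext h
    rw [this]
    exact w.asIdeal.zero_mem
  refine ⟨z, z.2, (hmem' z).1 hz', hz0, ?_⟩
  have h1 : ¬ HasVal Q (z : Fk) 0 := fun h => hz ((hmem z).2 h)
  have h2 : 0 ≤ Q.ord (z : Fk) := ord_nonneg_of_mem Q (mem_of_isIntegral Q hQ z.2)
  by_contra h3
  exact h1 (hasVal_zero_iff.2 (Or.inr (lt_of_le_of_ne h2 (Ne.symm h3))))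

omit hC in
/-- an integral function with a simple zero at `Q` and no other zero in the fibre of `xb` -/
theorem exists_unif_isolated {k Fk : Type*} [Field k] [Field Fk] [Algebra k Fk] [IsAlgClosed k]
    [IsFnField k Fk] {xb : Fk} (hxb : Transcendental k xb) [FiniteDimensional k⟮xb⟯ Fk]
    [Algebra.IsSeparable k⟮xb⟯ Fk] {Q : Place k Fk} {ā : k} (ha : HasVal Q xb ā) :
    ∃ τ : Fk, IsIntegral (Algebra.adjoin k {xb}) τ ∧ Q.ord τ = 1 ∧
      ∀ Q' : Place k Fk, HasVal Q' xb ā → HasVal Q' τ 0 → Q' = Q := by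
  classical
  haveI := isMaximal_span_genSub hxb ā
  obtain ⟨w, hw, hwo, hmem⟩ := exists_prime_of_hasVal hxb ha
  -- a uniformizer of `w`
  obtain ⟨u, huw, huw2⟩ : ∃ u ∈ w.asIdeal, u ∉ w.asIdeal ^ 2 := by
    have h1 : w.asIdeal ^ 2 < w.asIdeal ^ 1 := Ideal.pow_right_strictAnti w.asIdeal w.ne_bot
      w.isPrime.ne_top (by norm_num)
    rw [pow_one] at h1
    obtain ⟨u, h2, h3⟩ := Set.exists_of_ssubset h1
    exact ⟨u, h2, h3⟩
  have hfin : ((Ideal.span {(genSub xb ā : Algebra.adjoin k {xb})}).primesOver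
      (IntCl k xb)).Finite := IsDedekindDomain.primesOver_finite _ _
  set s := hfin.toFinset with hs
  have hsP : ∀ J ∈ s, Prime (J : Ideal (IntCl k xb)) := by
    intro J hJ
    rw [hs, Set.Finite.mem_toFinset] at hJ
    haveI := hJ.1
    haveI := hJ.2
    have hne : J ≠ ⊥ := Ideal.ne_bot_of_liesOver_of_ne_bot (span_genSub_ne_bot hxb ā) J
    exact Ideal.prime_of_isPrime hne hJ.1
  obtain ⟨τ, hτ⟩ := IsDedekindDomain.exists_forall_sub_mem_ideal (s := s) (fun J => J)
    (fun J => if J = w.asIdeal then 2 else 1) hsP (fun i _ j _ hij => hij)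
    (fun J => if (J : Ideal (IntCl k xb)) = w.asIdeal then u else 1)
  have hws : w.asIdeal ∈ s := by
    rw [hs, Set.Finite.mem_toFinset]
    exact ⟨w.isPrime, hwo⟩
  have h1 := hτ _ hws
  simp only [if_true] at h1
  have hτw : τ ∈ w.asIdeal := by
    have h2 := w.asIdeal.add_mem (Ideal.pow_le_self (by norm_num) h1) huw
    simpa using h2
  have hτw2 : τ ∉ w.asIdeal ^ 2 := by
    intro h2
    apply huw2
    have := (w.asIdeal ^ 2).sub_mem h2 h1
    simpa using this
  have hτ0 : τ ≠ 0 := by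
    rintro rfl
    exact hτw2 (Ideal.zero_mem _)
  refine ⟨τ, τ.2, ?_, fun Q' hQ' hτQ' => ?_⟩
  · have h2 : (1 : ℤ) ≤ Q.ord (τ : Fk) := by
      have := (mem_sq_iff hxb hw hτ0 1).1 (by rwa [pow_one])
      simpa using this
    have h3 : ¬ (2 : ℤ) ≤ Q.ord (τ : Fk) := by
      intro h
      exact hτw2 ((mem_sq_iff hxb hw hτ0 2).2 (by exact_mod_cast h))
    omega
  · by_contra hne
    obtain ⟨w', hw', hwo', hmem'⟩ := exists_prime_of_hasVal hxb hQ'
    have hww : w'.asIdeal ≠ w.asIdeal := by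
      intro h
      apply hne
      rw [← hw, ← hw', HeightOneSpectrum.ext h]
    have hws' : w'.asIdeal ∈ s := by
      rw [hs, Set.Finite.mem_toFinset]
      exact ⟨w'.isPrime, hwo'⟩
    have h2 := hτ _ hws'
    simp only [if_neg hww, pow_one] at h2
    have h3 : τ ∈ w'.asIdeal := (hmem' τ).2 hτQ'
    have h4 := w'.asIdeal.sub_mem h3 h2
    rw [sub_sub_cancel] at h4
    exact w'.isPrime.ne_top (Ideal.eq_top_of_isUnit_mem _ h4 isUnit_one)

end Spec

end Fermat.Agent.Red
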