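import Fermat.Agent.Red.Chart
import Fermat.Agent.RR.Degree

/-!
# Residue discs and the divisor of the reduction
-/

set_option autoImplicit false
set_option linter.unusedSectionVars false
set_option linter.style.haveILetI false
set_option linter.unusedVariables false

open AlgebraicCurve IntermediateField IsDedekindDomain
open scoped IntermediateField.algebraAdjoinAdjoin

namespace Fermat.Agent.Red

open Fermat.Agent.FF

variable {K k : Type*} [Field K] [Field k] {A : ValuationSubring K} {π : A →+* k}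
  {F Fk : Type*} [Field F] [Algebra K F] [Field Fk] [Algebra k Fk]
  {R : ConstRed A π F Fk} {x : F} {xb : Fk}
  [IsAlgClosed K] [IsFnField K F] [IsAlgClosed k] [IsFnField k Fk]

/-- a local parameter of the residue disc of `Q` -/
structure IsParam (R : ConstRed A π F Fk) (x : F) (xb : Fk) (Q : Place k Fk) (t : F) (τ : Fk) :
    Prop where
  isRed : R.IsRed t τ
  integral : IsIntegral (Algebra.adjoin K {x}) t
  ord_eq : Q.ord τ = 1
  exists_place : ∀ α : A, π α = 0 → ∃ P : Place K F, Sp R x xb P Q ∧ HasVal P t α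
  unique : ∀ (α : A), π α = 0 → ∀ P₁ P₂ : Place K F, Sp R x xb P₁ Q → Sp R x xb P₂ Q →
    HasVal P₁ t α → HasVal P₂ t α → P₁ = P₂
  simple : ∀ (α : A), π α = 0 → ∀ P : Place K F, Sp R x xb P Q → HasVal P t α →
    P.ord (t - algebraMap K F α) = 1

variable (hC : Chart R x xb) (hπ : Function.Surjective π)

include hC hπ

/-- any integral lift of a function `τ` with a simple zero at `Q` and no other zero in the fibre of
`xb` through `Q` is a parameter of the residue disc. -/
theorem Chart.isParam_of_lift {Q : Place k Fk} {ā : k} (hā : HasVal Q xb ā) {t : F} {τ : Fk}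
    (ht : R.IsRed t τ) (hti : IsIntegral (Algebra.adjoin K {x}) t) (hτ1 : Q.ord τ = 1)
    (hτiso : ∀ Q' : Place k Fk, HasVal Q' xb ā → HasVal Q' τ 0 → Q' = Q) :
    IsParam R x xb Q t τ := by
  haveI := hC.sep
  haveI := hC.sepk
  haveI := hC.isCoord.finiteDimensionalk
  haveI := hC.isCoord.finiteDimensional
  have hxb := hC.isCoord.transcendental
  have hx := hC.transcendental
  have hτi := hC.isCoord.isIntegral_red ht hti
  have hτ0 : τ ≠ 0 := by rintro rfl; simp at hτ1
  have hτQ : HasVal Q τ 0 := hasVal_zero_iff.2 (Or.inr (by rw [hτ1]; norm_num))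
  -- the main construction, for a given `α`
  have key : ∀ α : A, π α = 0 → ∃ (b : IntCl K x) (q : Polynomial A), (b : F) = t - algebraMap K F α ∧
      b ≠ 0 ∧ Polynomial.aeval x (q.map A.subtype) = ((Algebra.norm K⟮x⟯ (b : F) : K⟮x⟯) : F) ∧
      q.map π ≠ 0 ∧ (q.map π).IsRoot ā ∧
      ¬ (Polynomial.X - Polynomial.C ā) * (Polynomial.X - Polynomial.C ā) ∣ q.map π := by
    intro α hα
    have hb : R.IsRed (t - algebraMap K F α) τ := by
      have := ht.sub (R.isRed_coe α)
      rwa [hα, map_zero, sub_zero] at this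
    have hbi : IsIntegral (Algebra.adjoin K {x}) (t - algebraMap K F α) :=
      hti.sub (isIntegral_const x _)
    set b : IntCl K x := ⟨t - algebraMap K F α, hbi⟩ with hbdef
    have hb0 : b ≠ 0 := by
      intro h
      have h1 : t - algebraMap K F α = 0 := congrArg Subtype.val h
      exact hb.ne_zero hτ0 h1
    have hnorm := hC.isCoord.isRed_norm hb
    obtain ⟨p, hp⟩ := exists_poly x
      (Algebra.intNorm (Algebra.adjoin K {x}) (IntCl K x) b)
    have hp' : Polynomial.aeval x p = ((Algebra.norm K⟮x⟯ (b : F) : K⟮x⟯) : F) := by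
      rw [← hp, ← algebraMap_intNorm_eq hx b]
      rfl
    have h2 : Polynomial.aeval x p ∈ R.O := by
      rw [hp']
      exact hnorm.mem
    obtain ⟨q, rfl⟩ := exists_poly_of_isRed hC.isCoord.isRed hxb h2
    have h3 : Polynomial.aeval xb (q.map π) = ((Algebra.norm k⟮xb⟯ τ : k⟮xb⟯) : Fk) := by
      rw [← thetak_apply]
      rw [← theta_apply] at hp'
      have h4 := hC.isCoord.isRed.theta q
      rw [hp'] at h4
      exact h4.unique hnorm
    have hτb0 : (⟨τ, hτi⟩ : IntCl k xb) ≠ 0 := by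
      intro h
      exact hτ0 (congrArg Subtype.val h)
    refine ⟨b, q, rfl, hb0, hp', ?_, ?_, ?_⟩
    · intro h
      rw [h, map_zero] at h3
      have h4 : Algebra.norm k⟮xb⟯ τ = 0 := by
        apply Subtype.ext
        exact h3.symm
      rw [Algebra.norm_eq_zero_iff] at h4
      exact hτ0 h4
    · exact isRoot_norm_of_zero hxb (b := ⟨τ, hτi⟩) h3 hā hτQ
    · exact not_sq_dvd_norm hxb (b := ⟨τ, hτi⟩) h3 hτb0 hā hτ1 hτiso
  refine ⟨ht, hti, hτ1, ?_, ?_, ?_⟩
  · intro α hα
    obtain ⟨b, q, hb, hb0, hqn, hq0, hqr, hq2⟩ := key α hα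
    obtain ⟨a, ha, haā⟩ := exists_root (R.pi_eq_zero_iff) hπ q hq0 hqr
    have hroot : (q.map A.subtype).IsRoot (a : K) := by
      rw [Polynomial.IsRoot.def, Polynomial.eval_map]
      have h1 := Polynomial.eval₂_at_apply (p := q) A.subtype a
      rw [ha, map_zero] at h1
      exact h1
    obtain ⟨P, hPx, hPb⟩ := exists_zero_of_norm hx hqn hb0 hroot
    obtain ⟨Q', hQ'⟩ := hC.exists_sp hPx
    have hPt : HasVal P t α := by
      have h1 := hPb.add (hasVal_algebraMap P (α : K))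
      rwa [zero_add, hb, sub_add_cancel] at h1
    have h2 : HasVal Q' xb ā := by
      rw [← haā]
      exact hC.sp_val_x hQ' hPx
    have h3 : HasVal Q' τ 0 := by
      obtain ⟨h4, h5⟩ := hQ'.2.2 t τ α ht hti hPt
      have h6 : (⟨(α : K), h4⟩ : A) = α := rfl
      rwa [h6, hα] at h5
    have h4 := hτiso Q' h2 h3
    subst h4
    exact ⟨P, hQ', hPt⟩
  · intro α hα P₁ P₂ hP₁ hP₂ hv₁ hv₂
    obtain ⟨b, q, hb, hb0, hqn, hq0, hqr, hq2⟩ := key α hα
    by_contra hne
    obtain ⟨a₁, ha₁⟩ := hP₁.1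
    obtain ⟨a₂, ha₂⟩ := hP₂.1
    have hz : ∀ P : Place K F, HasVal P t α → HasVal P (b : F) 0 := by
      intro P hP
      rw [hb]
      have := hP.sub (hasVal_algebraMap P (α : K))
      rwa [sub_self] at this
    have h1 := mul_dvd_norm_of_ne hx hqn hne ha₁ ha₂ (hz _ hv₁) (hz _ hv₂)
    have hā₁ : π a₁ = ā := (hC.sp_val_x hP₁ ha₁).unique hā
    have hā₂ : π a₂ = ā := (hC.sp_val_x hP₂ ha₂).unique hā
    apply hq2
    have h2 : ((Polynomial.X - Polynomial.C a₁) * (Polynomial.X - Polynomial.C a₂) :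
        Polynomial A) ∣ q := by
      rw [← Polynomial.map_dvd_map A.subtype Subtype.coe_injective
        ((Polynomial.monic_X_sub_C a₁).mul (Polynomial.monic_X_sub_C a₂))]
      simpa using h1
    have h3 := Polynomial.map_dvd π h2
    simpa [hā₁, hā₂] using h3
  · intro α hα P hP hv
    obtain ⟨b, q, hb, hb0, hqn, hq0, hqr, hq2⟩ := key α hα
    obtain ⟨a, ha⟩ := hP.1
    have hz : HasVal P (b : F) 0 := by
      rw [hb]
      have := hv.sub (hasVal_algebraMap P (α : K))
      rwa [sub_self] at this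
    rw [← hb]
    have hbF : (b : F) ≠ 0 := fun h => hb0 (Subtype.ext h)
    have h1 : 0 < P.ord (b : F) := (hasVal_zero_iff.1 hz).resolve_left hbF
    by_contra h2
    have h3 := sq_dvd_norm hx hqn hb0 ha (by omega)
    have hā' : π a = ā := (hC.sp_val_x hP ha).unique hā
    apply hq2
    have h2 : ((Polynomial.X - Polynomial.C a) * (Polynomial.X - Polynomial.C a) :
        Polynomial A) ∣ q := by
      rw [← Polynomial.map_dvd_map A.subtype Subtype.coe_injective
        ((Polynomial.monic_X_sub_C a).mul (Polynomial.monic_X_sub_C a))]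
      simpa using h3
    have h3 := Polynomial.map_dvd π h2
    simpa [hā'] using h3

theorem Chart.exists_param {Q : Place k Fk} (hQ : 0 ≤ Q.ord xb) :
    ∃ (t : F) (τ : Fk), IsParam R x xb Q t τ := by
  haveI := hC.sep
  haveI := hC.sepk
  haveI := hC.isCoord.finiteDimensionalk
  haveI := hC.isCoord.finiteDimensional
  have hxb := hC.isCoord.transcendental
  obtain ⟨ā, hā⟩ := exists_hasVal hQ
  obtain ⟨τ, hτi, hτ1, hτiso⟩ := exists_unif_isolated hxb hā
  obtain ⟨t, ht, hti⟩ := hC.lift τ hτi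
  exact ⟨t, τ, hC.isParam_of_lift hπ hā ht hti hτ1 hτiso⟩

omit hC hπ in
theorem IsParam.val {Q : Place k Fk} {t : F} {τ : Fk} (ht : IsParam R x xb Q t τ)
    {P : Place K F} (hP : Sp R x xb P Q) : ∃ α : A, π α = 0 ∧ HasVal P t α := by
  obtain ⟨a, ha⟩ := hP.1
  obtain ⟨c, hc⟩ := exists_hasVal (ord_nonneg_of_mem P
    (mem_of_isIntegral P ha.nonneg ht.integral))
  obtain ⟨h1, h2⟩ := hP.2.2 t τ c ht.isRed ht.integral hc
  refine ⟨⟨c, h1⟩, ?_, hc⟩
  have h3 : HasVal Q τ 0 := hasVal_zero_iff.2 (Or.inr (by rw [ht.ord_eq]; norm_num))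
  exact h2.unique h3

theorem Chart.exists_sp_place {Q : Place k Fk} (hQ : 0 ≤ Q.ord xb) :
    ∃ P : Place K F, Sp R x xb P Q := by
  obtain ⟨t, τ, ht⟩ := hC.exists_param hπ hQ
  obtain ⟨P, hP, -⟩ := ht.exists_place 0 (map_zero π)
  exact ⟨P, hP⟩

omit hπ in
/-- (iii) functions regular on the residue disc have a regular reduction. -/
theorem Chart.ord_nonneg_of_regular {Q : Place k Fk} (hQ : 0 ≤ Q.ord xb) {g : F} {γ : Fk}
    (hg : R.IsRed g γ) (hfin : {P : Place K F | P.ord g < 0}.Finite)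
    (hreg : ∀ P : Place K F, Sp R x xb P Q → 0 ≤ P.ord g) : 0 ≤ Q.ord γ := by
  classical
  haveI := hC.sep
  haveI := hC.sepk
  haveI := hC.isCoord.finiteDimensionalk
  haveI := hC.isCoord.finiteDimensional
  have hxb := hC.isCoord.transcendental
  have hx := hC.transcendental
  rcases eq_or_ne γ 0 with rfl | hγ0
  · simp
  have hg0 : g ≠ 0 := hg.ne_zero hγ0
  -- a function vanishing at a pole
  have key : ∀ P : Place K F, P.ord g < 0 → 0 ≤ P.ord x → ∃ (v : F) (ν : Fk),
      IsIntegral (Algebra.adjoin K {x}) v ∧ R.IsRed v ν ∧ ν ≠ 0 ∧ Q.ord ν = 0 ∧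
      0 < P.ord v := by
    intro P hPg hPx
    obtain ⟨a, ha⟩ := exists_hasVal hPx
    by_cases haA : a ∈ A
    · obtain ⟨Q', hQ'⟩ := hC.exists_sp (a := ⟨a, haA⟩) ha
      have hne : Q' ≠ Q := by
        rintro rfl
        exact absurd (hreg P hQ') (not_le.mpr hPg)
      obtain ⟨z, hzi, hz', hz0, hz⟩ := exists_separate hxb hne hQ hQ'.2.1
      obtain ⟨f, hf, hfi⟩ := hC.lift z hzi
      obtain ⟨c, hc⟩ := exists_hasVal (ord_nonneg_of_mem P (mem_of_isIntegral P hPx hfi))
      obtain ⟨h1, h2⟩ := hQ'.2.2 f z c hf hfi hc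
      have h3 : π ⟨c, h1⟩ = 0 := h2.unique hz'
      have h4 : R.IsRed (f - algebraMap K F c) z := by
        have := hf.sub (R.isRed_algebraMap h1)
        rwa [h3, map_zero, sub_zero] at this
      refine ⟨f - algebraMap K F c, z, hfi.sub (isIntegral_const x c), h4, hz0, hz, ?_⟩
      have h5 := hc.sub (hasVal_algebraMap P c)
      rw [sub_self] at h5
      exact (hasVal_zero_iff.1 h5).resolve_left (h4.ne_zero hz0)
    · have ha0 : a ≠ 0 := by rintro rfl; exact haA A.zero_mem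
      have hainv : a⁻¹ ∈ A := (A.mem_or_inv_mem a).resolve_left haA
      have hπa : π ⟨a⁻¹, hainv⟩ = 0 := by
        rw [R.pi_eq_zero_iff]
        intro hu
        obtain ⟨b, hb⟩ := hu.exists_right_inv
        have hb' : a⁻¹ * (b : K) = 1 := congrArg Subtype.val hb
        have : (b : K) = a := by field_simp at hb'; exact hb'
        exact haA (this ▸ b.2)
      have h1 : R.IsRed (1 - algebraMap K F a⁻¹ * x) 1 := by
        have := R.isRed_one.sub ((R.isRed_algebraMap hainv).mul hC.isCoord.isRed)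
        rwa [hπa, map_zero, zero_mul, sub_zero] at this
      refine ⟨1 - algebraMap K F a⁻¹ * x, 1, isIntegral_one.sub
        ((isIntegral_const x _).mul (isIntegral_self x)), h1, one_ne_zero, by simp, ?_⟩
      have h5 := (hasVal_one P).sub ((hasVal_algebraMap P a⁻¹).mul ha)
      rw [inv_mul_cancel₀ ha0, sub_self] at h5
      exact (hasVal_zero_iff.1 h5).resolve_left (h1.ne_zero one_ne_zero)
  choose! v ν hvi hvr hν0 hνQ hvP using key
  set s := hfin.toFinset.filter (fun P => 0 ≤ P.ord x) with hs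
  have hsmem : ∀ P, P ∈ s ↔ P.ord g < 0 ∧ 0 ≤ P.ord x := by
    intro P
    rw [hs, Finset.mem_filter, Set.Finite.mem_toFinset]
    rfl
  set V : F := ∏ P ∈ s, v P ^ (P.ord g).natAbs with hV
  set N : Fk := ∏ P ∈ s, ν P ^ (P.ord g).natAbs with hN
  have hVN : R.IsRed V N := ConstRed.isRed_prod s fun P hP => by
    rw [hsmem] at hP
    exact (hvr P hP.1 hP.2).pow _
  have hN0 : N ≠ 0 := Finset.prod_ne_zero_iff.mpr fun P hP => by
    rw [hsmem] at hP
    exact pow_ne_zero _ (hν0 P hP.1 hP.2)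
  have hNQ : Q.ord N = 0 := by
    rw [hN, ord_prod Q s _ fun P hP => by
      rw [hsmem] at hP
      exact pow_ne_zero _ (hν0 P hP.1 hP.2)]
    refine Finset.sum_eq_zero fun P hP => ?_
    rw [hsmem] at hP
    rw [ord_pow, hνQ P hP.1 hP.2, mul_zero]
  have hVi : IsIntegral (Algebra.adjoin K {x}) (V * g) := by
    apply isIntegral_of_forall
    intro P hPx
    have hV0 : V ≠ 0 := hVN.ne_zero hN0
    rw [P.ord_mul hV0 hg0]
    have hVnn : ∀ P', P' ∈ s → 0 ≤ P.ord (v P' ^ (P'.ord g).natAbs) := by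
      intro P' hP'
      rw [hsmem] at hP'
      rw [ord_pow]
      have := ord_nonneg_of_mem P (mem_of_isIntegral P hPx (hvi P' hP'.1 hP'.2))
      positivity
    rw [hV, ord_prod P s _ fun P' hP' => by
      rw [hsmem] at hP'
      exact pow_ne_zero _ ((hvr P' hP'.1 hP'.2).ne_zero (hν0 P' hP'.1 hP'.2))]
    by_cases hPg : P.ord g < 0
    · have hPs : P ∈ s := (hsmem P).2 ⟨hPg, hPx⟩
      have h1 := Finset.single_le_sum hVnn hPs
      have h2 : (P.ord g).natAbs ≤ P.ord (v P ^ (P.ord g).natAbs) := by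
        rw [ord_pow]
        have := hvP P hPg hPx
        nlinarith [this]
      have h3 : ((P.ord g).natAbs : ℤ) = - P.ord g := by omega
      linarith
    · have h1 := Finset.sum_nonneg hVnn
      linarith
  have h1 := hC.isCoord.isIntegral_red (hVN.mul hg) hVi
  have h2 := ord_nonneg_of_mem Q (mem_of_isIntegral Q hQ h1)
  rw [Q.ord_mul hN0 hγ0, hNQ, zero_add] at h2
  exact h2

/-- (iv) the divisor of the reduction, on the chart -/
theorem Chart.ord_eq {Q : Place k Fk} (hQ : 0 ≤ Q.ord xb) {f : F} {z : Fk}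
    (hf : R.IsRed f z) (hz : z ≠ 0) (D : Divisor K F) (hD : ∀ P, D P = P.ord f)
    (s : Finset (Place K F)) (hs : ∀ P, P ∈ s ↔ P ∈ D.support ∧ Sp R x xb P Q) :
    ∑ P ∈ s, P.ord f = Q.ord z := by
  classical
  obtain ⟨t, τ, ht⟩ := hC.exists_param hπ hQ
  have hf0 : f ≠ 0 := hf.ne_zero hz
  have hτ0 : τ ≠ 0 := by
    rintro rfl
    have := ht.ord_eq
    simp at this
  choose! α hα hαv using fun (P : Place K F) (hP : Sp R x xb P Q) => ht.val hP
  have hred : ∀ P, Sp R x xb P Q → R.IsRed (t - algebraMap K F (α P)) τ := by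
    intro P hP
    have := ht.isRed.sub (R.isRed_coe (α P))
    rwa [hα P hP, map_zero, sub_zero] at this
  have hne0 : ∀ P, Sp R x xb P Q → t - algebraMap K F (α P) ≠ 0 :=
    fun P hP => (hred P hP).ne_zero hτ0
  -- the orders of `t - α P`
  have hord1 : ∀ P, Sp R x xb P Q → P.ord (t - algebraMap K F (α P)) = 1 :=
    fun P hP => ht.simple (α P) (hα P hP) P hP (hαv P hP)
  have hord0 : ∀ P P', Sp R x xb P Q → Sp R x xb P' Q → P ≠ P' →
      P.ord (t - algebraMap K F (α P')) = 0 := by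
    intro P P' hP hP' hne
    have h1 := (hαv P hP).sub (hasVal_algebraMap P (α P' : K))
    apply h1.ord_eq_zero
    intro h2
    apply hne
    have h3 : (α P : K) = (α P' : K) := sub_eq_zero.mp h2
    have h4 := hαv P hP
    rw [h3] at h4
    exact ht.unique (α P') (hα P' hP') P P' hP hP' h4 (hαv P' hP')
  -- splitting into positive and negative parts
  set U₁ : F := ∏ P ∈ s, (t - algebraMap K F (α P)) ^ (P.ord f).toNat with hU₁
  set U₂ : F := ∏ P ∈ s, (t - algebraMap K F (α P)) ^ (-P.ord f).toNat with hU₂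
  have hSp : ∀ P ∈ s, Sp R x xb P Q := fun P hP => ((hs P).1 hP).2
  have hU₁r : R.IsRed U₁ (∏ P ∈ s, τ ^ (P.ord f).toNat) :=
    ConstRed.isRed_prod s fun P hP => (hred P (hSp P hP)).pow _
  have hU₂r : R.IsRed U₂ (∏ P ∈ s, τ ^ (-P.ord f).toNat) :=
    ConstRed.isRed_prod s fun P hP => (hred P (hSp P hP)).pow _
  have hT₁ : (∏ P ∈ s, τ ^ (P.ord f).toNat) ≠ 0 :=
    Finset.prod_ne_zero_iff.mpr fun P _ => pow_ne_zero _ hτ0
  have hT₂ : (∏ P ∈ s, τ ^ (-P.ord f).toNat) ≠ 0 :=
    Finset.prod_ne_zero_iff.mpr fun P _ => pow_ne_zero _ hτ0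
  have hU₁0 := hU₁r.ne_zero hT₁
  have hU₂0 := hU₂r.ne_zero hT₂
  have hordU : ∀ (e : Place K F → ℕ) (P : Place K F), Sp R x xb P Q →
      P.ord (∏ P' ∈ s, (t - algebraMap K F (α P')) ^ e P') = if P ∈ s then (e P : ℤ) else 0 := by
    intro e P hP
    rw [ord_prod P s _ fun P' hP' => pow_ne_zero _ (hne0 P' (hSp P' hP'))]
    have h1 : ∀ P' ∈ s, P.ord ((t - algebraMap K F (α P')) ^ e P') =
        if P = P' then (e P : ℤ) else 0 := by
      intro P' hP'
      rw [ord_pow]
      split_ifs with h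
      · subst h
        rw [hord1 P hP, mul_one]
      · rw [hord0 P P' hP (hSp P' hP') h, mul_zero]
    rw [Finset.sum_congr rfl h1, Finset.sum_ite_eq]
  set g : F := f * U₂ / U₁ with hg
  set γ : Fk := z * (∏ P ∈ s, τ ^ (-P.ord f).toNat) / (∏ P ∈ s, τ ^ (P.ord f).toNat) with hγ
  have hgr : R.IsRed g γ := (hf.mul hU₂r).div hU₁r hT₁
  have hγ0 : γ ≠ 0 := div_ne_zero (mul_ne_zero hz hT₂) hT₁
  have hg0 := hgr.ne_zero hγ0
  have hgord : ∀ P, Sp R x xb P Q → P.ord g = 0 := by
    intro P hP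
    rw [hg, div_eq_mul_inv, P.ord_mul (mul_ne_zero hf0 hU₂0) (inv_ne_zero hU₁0), P.ord_inv,
      P.ord_mul hf0 hU₂0, hU₁, hU₂, hordU _ P hP, hordU _ P hP]
    split_ifs with h
    · omega
    · have h1 : P ∉ D.support := fun h2 => h ((hs P).2 ⟨h2, hP⟩)
      rw [Finsupp.mem_support_iff, not_not, hD] at h1
      rw [h1]
      simp
  have hfin : ∀ g : F, {P : Place K F | P.ord g < 0}.Finite := by
    intro g
    refine (RR.finite_support_ord (K := K) g).subset fun P hP => ?_
    exact ne_of_lt hP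
  have h1 : 0 ≤ Q.ord γ := hC.ord_nonneg_of_regular hQ hgr (hfin g) fun P hP =>
    (hgord P hP).ge
  have h2 : 0 ≤ Q.ord γ⁻¹ := hC.ord_nonneg_of_regular hQ (hgr.inv hγ0) (hfin _) fun P hP => by
    rw [P.ord_inv, hgord P hP, neg_zero]
  rw [Q.ord_inv] at h2
  have h3 : Q.ord γ = 0 := by omega
  rw [hγ, div_eq_mul_inv, Q.ord_mul (mul_ne_zero hz hT₂) (inv_ne_zero hT₁), Q.ord_inv,
    Q.ord_mul hz hT₂, ord_prod Q s _ fun P _ => pow_ne_zero _ hτ0,
    ord_prod Q s _ fun P _ => pow_ne_zero _ hτ0] at h3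
  simp only [ord_pow, ht.ord_eq, mul_one] at h3
  have h4 : ∑ P ∈ s, P.ord f = ∑ P ∈ s, ((P.ord f).toNat : ℤ) - ∑ P ∈ s, ((-P.ord f).toNat : ℤ) := by
    rw [← Finset.sum_sub_distrib]
    refine Finset.sum_congr rfl fun P _ => ?_
    omega
  rw [h4]
  linarith

end Fermat.Agent.Red
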