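import Fermat.Agent.Red.GenusEq
import Fermat.Agent.Red.Regular
import Fermat.Agent.ESh.Final

/-!
# The reduction of `J₀(N)` modulo `ℓ ∤ N`
-/

set_option autoImplicit false
set_option linter.unusedSectionVars false
set_option linter.style.haveILetI false
set_option linter.unusedVariables false

noncomputable section

open AlgebraicCurve IntermediateField IsDedekindDomain Module ModularCurve

namespace Fermat.Agent.Red

open Fermat.Agent.FF

section General

variable {K k : Type*} [Field K] [Field k] {A : ValuationSubring K} {π : A →+* k}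
  {F Fk : Type*} [Field F] [Algebra K F] [Field Fk] [Algebra k Fk]
  {R : ConstRed A π F Fk} {x : F} {xb : Fk}
  [IsAlgClosed K] [IsFnField K F] [IsAlgClosed k] [IsFnField k Fk]

/-- **Values of functions regular on a residue disc**, for the specialisation map. -/
theorem spec_val (hC : Chart R x xb) (hC' : Chart R x⁻¹ xb⁻¹) {Q : Place k Fk} {g : F} {γ : Fk}
    (hg : R.IsRed g γ) (hreg : ∀ P : Place K F, spec hC hC' P = Q → 0 ≤ P.ord g) {P : Place K F}
    (hP : spec hC hC' P = Q) {c : K} (hc : HasVal P g c) :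
    ∃ h : c ∈ A, HasVal Q γ (π ⟨c, h⟩) := by
  by_cases hQ : 0 ≤ Q.ord xb
  · rw [spec_eq_iff hC hC' hQ] at hP
    exact hC.val_of_regular hg (fun P' hP' => hreg P' ((spec_eq_iff hC hC' hQ).2 hP')) hP hc
  · push Not at hQ
    rw [spec_eq_iff' hC hC' hQ] at hP
    exact hC'.val_of_regular hg (fun P' hP' => hreg P' ((spec_eq_iff' hC hC' hQ).2 hP')) hP hc

/-- **Injectivity of the specialisation map on torsion of order prime to the residue
characteristic**, from the equality of the genera. -/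
theorem isPrincipal_of_torsion_of_genus [CharZero K] (hc : IsCoord R x xb)
    (hgen : genusFF K F = genusFF k Fk) (hπ : Function.Surjective π)
    (S : Spec R) (m : ℕ) (hm : (m : k) ≠ 0) (D : Divisor K F) (hD : Divisor.degree D = 0)
    (hmD : Divisor.IsPrincipal (m • D))
    (hrD : Divisor.IsPrincipal (Finsupp.mapDomain S.r D)) : Divisor.IsPrincipal D := by
  classical
  obtain ⟨Bbar, hB0, hBd, hBl⟩ := exists_effective_ell_one (K := k) (F := Fk) (genusFF k Fk) le_rfl
  have hB1 : ∀ z : Fk, z ≠ 0 → (∀ Q, 0 ≤ Bbar Q + Q.ord z) → z ∈ (algebraMap k Fk).range := by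
    intro z hz h
    have h1 : z ∈ riemannRochSpace Bbar := by
      rw [mem_riemannRochSpace_iff]
      intro v
      right
      have := h v
      omega
    have h2 : (1 : Fk) ∈ riemannRochSpace Bbar := by
      rw [mem_riemannRochSpace_iff]
      intro v
      right
      have := hB0 v
      simp only [Finsupp.coe_zero, Pi.zero_apply] at this
      rw [Place.ord_one]
      omega
    have h3 := (finrank_eq_one_iff_of_nonzero' (⟨1, h2⟩ : riemannRochSpace Bbar) (by
      intro h
      exact one_ne_zero (congrArg Subtype.val h))).mp hBl ⟨z, h1⟩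
    obtain ⟨c, hc⟩ := h3
    refine ⟨c, ?_⟩
    have h4 : c • (1 : Fk) = z := congrArg Subtype.val hc
    rw [← h4, Algebra.smul_def, mul_one]
  have hRR : ∀ D : Divisor K F, Divisor.degree D = Divisor.degree Bbar →
      ∃ f : F, f ≠ 0 ∧ ∀ P, 0 ≤ D P + P.ord f := by
    intro D hD
    have h1 := RR.riemann_ineq D
    rw [hD, hBd, hgen] at h1
    obtain ⟨f, hf, hf0⟩ := RR.exists_mem_ne_zero_of_ell_pos (D := D) (by omega)
    refine ⟨f, hf0, fun P => ?_⟩
    have h2 := ((mem_riemannRochSpace_iff.1 hf) P).resolve_left hf0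
    omega
  exact S.isPrincipal_of_torsion m hm hπ
    (fun h hh => hc.exists_nonconst h hh) Bbar (fun Q => hB0 Q) hB1 hRR D
    hD hmD hrD

end General

section XZero

variable {N : ℕ} [NeZero N] {ℓ : ℕ} [hℓ : Fact ℓ.Prime]
  {A : ValuationSubring (AlgebraicClosure ℚ)} {k : Type*} [Field k] {π : A →+* k}
  (hA : A.LiesOverPrime ℓ)
  (hπ : ∀ a : A, π a = 0 ↔ ¬ IsUnit a) (hs : Function.Surjective π) (hN : ¬ ℓ ∣ N)

/-- the specialisation of the places of `X₀(N)` modulo `ℓ` -/
def rX : Place (AlgebraicClosure ℚ) (modularFunctionFieldBar N) →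
    Place k (modularFunctionFieldFullC k N) :=
  haveI := charP_of_liesOverPrime hA hπ
  haveI : IsAlgClosed k := isAlgClosed_of_surjective hs
  haveI := isFnField_bar N
  haveI := isFnField_fullC (k := k) N ℓ hN
  spec (chart_jB hA hπ hs hN) (chart_jB_inv hA hπ hs hN)

/-- the specialisation of the divisors of `X₀(N)` modulo `ℓ` -/
def divX : ESh.DivSpec A π N N :=
  haveI := charP_of_liesOverPrime hA hπ
  haveI : IsAlgClosed k := isAlgClosed_of_surjective hs
  haveI := isFnField_bar N
  haveI := isFnField_fullC (k := k) N ℓ hN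
  ESh.divSpecOf (specX hA hπ hs hN)

theorem divX_toHom (D : Divisor (AlgebraicClosure ℚ) (modularFunctionFieldBar N)) :
    (divX hA hπ hs hN).toHom D = Finsupp.mapDomain (rX hA hπ hs hN) D := rfl

theorem divX_injTors : (divX hA hπ hs hN).InjTors := by
  haveI := charP_of_liesOverPrime hA hπ
  haveI : IsAlgClosed k := isAlgClosed_of_surjective hs
  haveI := isFnField_bar N
  haveI := isFnField_fullC (k := k) N ℓ hN
  intro m hm D hD hmD hrD
  exact isPrincipal_of_torsion_of_genus (isCoord_of_isCoord (isCoord_jB hA hπ hs hN))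
    (genusFF_redX hA hπ hs hN) hs (specX hA hπ hs hN) m hm D hD hmD hrD

/-- **The reduction map** `J₀(N)(ℚ̄) → J₀(N)(k)`. -/
def redJ : JZero N →+ JZeroC k N := (divX hA hπ hs hN).pic

theorem redJ_mk (D : Divisor.degZero (K := AlgebraicClosure ℚ) (F := modularFunctionFieldBar N)) :
    redJ hA hπ hs hN (Pic0.mk D) = Pic0.mk ((divX hA hπ hs hN).degZeroHom D) := rfl

theorem coe_degZeroHom
    (D : Divisor.degZero (K := AlgebraicClosure ℚ) (F := modularFunctionFieldBar N)) :
    ((divX hA hπ hs hN).degZeroHom D : Divisor k (modularFunctionFieldFullC k N)) =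
      Finsupp.mapDomain (rX hA hπ hs hN) D := rfl

/-- (R3) injectivity on prime-to-`ℓ` torsion -/
theorem redJ_injective {m : ℕ} (hm : ¬ ℓ ∣ m) (x : JZero N) (hx : m • x = 0)
    (h : redJ hA hπ hs hN x = 0) : x = 0 := by
  haveI := charP_of_liesOverPrime (k := k) hA hπ
  refine ESh.DivSpec.pic_injective (divX_injTors hA hπ hs hN) (m := m) ?_ x hx h
  rwa [Ne, CharP.cast_eq_zero_iff k ℓ]

/-- (R1) invariance under inertia -/
theorem redJ_inertia (σ : AlgebraicClosure ℚ ≃ₐ[ℚ] AlgebraicClosure ℚ)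
    (hσ : σ ∈ A.inertiaSubgroupIn ℚ) (x : JZero N) :
    redJ hA hπ hs hN (σ • x) = redJ hA hπ hs hN x := by
  letI : Algebra (AlgebraicClosure ℚ) ℂ :=
    (IsAlgClosed.lift (R := ℚ) (S := AlgebraicClosure ℚ) (M := ℂ)).toRingHom.toAlgebra
  exact (divX hA hπ hs hN).pic_inertia JZ.modularFieldInputsBar hπ σ hσ x

/-- (R2) the Eichler-Shimura relation -/
theorem redJ_frobenius (σ : AlgebraicClosure ℚ ≃ₐ[ℚ] AlgebraicClosure ℚ)
    (hσ : A.IsFrobeniusAt σ ℓ) (x : JZero N) :
    redJ hA hπ hs hN (σ • σ • x - heckeOperatorBar N ⟨ℓ, hℓ.out⟩ (σ • x) + ℓ • x) = 0 := by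
  haveI := charP_of_liesOverPrime (k := k) hA hπ
  haveI : IsAlgClosed k := isAlgClosed_of_surjective hs
  haveI : PerfectRing k ℓ := PerfectField.toPerfectRing ℓ
  letI : Algebra (AlgebraicClosure ℚ) ℂ :=
    (IsAlgClosed.lift (R := ℚ) (S := AlgebraicClosure ℚ) (M := ℂ)).toRingHom.toAlgebra
  haveI : NeZero ℓ := ⟨hℓ.out.ne_zero⟩
  exact (divX hA hπ hs hN).pic_frobenius JZ.modularFieldInputsBar (FF.normInputs _) hπ hN σ hσ x

include hπ hs in
/-- the automorphism of `k` induced by an element of the decomposition group -/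
theorem exists_residue_aut {σ : AlgebraicClosure ℚ ≃ₐ[ℚ] AlgebraicClosure ℚ}
    (hσ : σ ∈ A.decompositionSubgroup ℚ) : ∃ (sA : A →+* A) (sk : k ≃+* k),
      (∀ a : A, ((sA a : A) : AlgebraicClosure ℚ) = σ a) ∧ ∀ a : A, π (sA a) = sk (π a) := by
  let sA : A →+* A := ((σ : AlgebraicClosure ℚ →+* AlgebraicClosure ℚ).comp A.subtype).codRestrict
    A.toSubring (fun a => (Frob.apply_mem_iff hσ).2 a.2)
  have hsA : ∀ a : A, ((sA a : A) : AlgebraicClosure ℚ) = σ a := fun a => rfl
  have hnon : ∀ a : A, π a = 0 ↔ (a : AlgebraicClosure ℚ) ∈ A.nonunits := by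
    intro a
    rw [hπ, ValuationSubring.coe_mem_nonunits_iff, IsLocalRing.mem_maximalIdeal]
    rfl
  have hker : ∀ a : A, π (sA a) = 0 ↔ π a = 0 := by
    intro a
    rw [hnon, hnon, hsA, Frob.apply_mem_nonunits_iff hσ]
  choose s hsπ using hs
  have hdif : ∀ a b : A, π a = π b → π (sA a) = π (sA b) := by
    intro a b h
    rw [← sub_eq_zero, ← map_sub, ← map_sub, hker, map_sub, h, sub_self]
  let f : k →+* k :=
    { toFun := fun x => π (sA (s x))
      map_one' := by
        rw [← map_one π, ← map_one sA]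
        exact hdif _ _ (by rw [hsπ, map_one])
      map_mul' := fun x y => by
        rw [← map_mul, ← map_mul]
        exact hdif _ _ (by rw [hsπ, map_mul, hsπ, hsπ])
      map_zero' := by
        rw [← map_zero π, ← map_zero sA]
        exact hdif _ _ (by rw [hsπ, map_zero])
      map_add' := fun x y => by
        rw [← map_add, ← map_add]
        exact hdif _ _ (by rw [hsπ, map_add, hsπ, hsπ]) }
  have hf : ∀ a, π (sA a) = f (π a) := fun a => hdif _ _ (hsπ _).symm
  have hsurj : Function.Surjective f := by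
    intro y
    have hmem : σ⁻¹ (s y : AlgebraicClosure ℚ) ∈ A :=
      (Frob.apply_mem_iff (inv_mem hσ)).2 (s y).2
    refine ⟨π ⟨_, hmem⟩, ?_⟩
    rw [← hf]
    have : sA ⟨_, hmem⟩ = s y := Subtype.ext (by
      rw [hsA]
      exact AlgEquiv.apply_symm_apply σ _)
    rw [this, hsπ]
  exact ⟨sA, RingEquiv.ofBijective f ⟨f.injective, hsurj⟩, hsA, hf⟩

/-- equivariance for the decomposition group -/
theorem redJ_smul {σ : AlgebraicClosure ℚ ≃ₐ[ℚ] AlgebraicClosure ℚ}
    (sA : A →+* A) (hsA : ∀ a : A, ((sA a : A) : AlgebraicClosure ℚ) = σ a) (sk : k ≃+* k)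
    (hsk : ∀ a : A, π (sA a) = sk (π a)) (x : JZero N) :
    redJ hA hπ hs hN (σ • x) = ESh.coeffSemi N sk • redJ hA hπ hs hN x := by
  haveI := isFnField_bar N
  exact (divX hA hπ hs hN).pic_smul σ sA hsA sk hsk x

/-- (R4) the kernel of reduction is stable under the decomposition group. -/
theorem redJ_smul_eq_zero {σ : AlgebraicClosure ℚ ≃ₐ[ℚ] AlgebraicClosure ℚ}
    (hσ : σ ∈ A.decompositionSubgroup ℚ) (x : JZero N) (hx : redJ hA hπ hs hN x = 0) :
    redJ hA hπ hs hN (σ • x) = 0 := by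
  obtain ⟨sA, sk, h1, h2⟩ := exists_residue_aut hπ hs hσ
  rw [redJ_smul hA hπ hs hN sA h1 sk h2, hx]
  exact smul_zero (A := Pic0 k (modularFunctionFieldFullC k N)) (ESh.coeffSemi N sk)

end XZero

end Fermat.Agent.Red
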