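import Fermat.Agent.FF.Basic

/-!
# Constant reductions of function fields

`ConstRed A π F Fk` is a valuation ring `O` of `F` lying over the valuation ring `A` of the field
of constants `K`, together with a surjective residue map `red : O → Fk` compatible with
`π : A → k`, such that every nonzero element of `F` is a constant times a unit of `O`.
-/

set_option autoImplicit false
set_option linter.unusedSectionVars false

open AlgebraicCurve

namespace Fermat.Agent.Red

/-- A constant reduction of `F / K` along `π : A → k`. -/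
structure ConstRed {K k : Type*} [Field K] [Field k] (A : ValuationSubring K) (π : A →+* k)
    (F Fk : Type*) [Field F] [Algebra K F] [Field Fk] [Algebra k Fk] where
  /-- the valuation ring of the reduction -/
  O : ValuationSubring F
  algebraMap_mem_iff : ∀ a : K, algebraMap K F a ∈ O ↔ a ∈ A
  /-- the residue map -/
  red : O →+* Fk
  red_surjective : Function.Surjective red
  red_eq_zero_iff : ∀ y : O, red y = 0 ↔ ¬ IsUnit y
  red_algebraMap : ∀ a : A,
    red ⟨algebraMap K F a, (algebraMap_mem_iff a).2 a.2⟩ = algebraMap k Fk (π a)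
  exists_scale : ∀ f : F, f ≠ 0 → ∃ c : K, c ≠ 0 ∧ algebraMap K F c * f ∈ O ∧
    (algebraMap K F c * f)⁻¹ ∈ O

namespace ConstRed

variable {K k : Type*} [Field K] [Field k] {A : ValuationSubring K} {π : A →+* k}
  {F Fk : Type*} [Field F] [Algebra K F] [Field Fk] [Algebra k Fk]
  (R : ConstRed A π F Fk)

/-- `R.IsRed y z`: the element `y` is integral for the constant reduction and reduces to `z`. -/
def IsRed (y : F) (z : Fk) : Prop := ∃ h : y ∈ R.O, R.red ⟨y, h⟩ = z

variable {R}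

theorem IsRed.mem {y : F} {z : Fk} (h : R.IsRed y z) : y ∈ R.O := h.1

theorem IsRed.unique {y : F} {z z' : Fk} (h : R.IsRed y z) (h' : R.IsRed y z') : z = z' := by
  obtain ⟨h1, h2⟩ := h
  obtain ⟨h1', h2'⟩ := h'
  rw [← h2, ← h2']

theorem IsRed.add {y y' : F} {z z' : Fk} (h : R.IsRed y z) (h' : R.IsRed y' z') :
    R.IsRed (y + y') (z + z') := by
  obtain ⟨h1, rfl⟩ := h
  obtain ⟨h1', rfl⟩ := h'
  exact ⟨add_mem h1 h1', by rw [← map_add]; rfl⟩

theorem IsRed.mul {y y' : F} {z z' : Fk} (h : R.IsRed y z) (h' : R.IsRed y' z') :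
    R.IsRed (y * y') (z * z') := by
  obtain ⟨h1, rfl⟩ := h
  obtain ⟨h1', rfl⟩ := h'
  exact ⟨mul_mem h1 h1', by rw [← map_mul]; rfl⟩

theorem IsRed.neg {y : F} {z : Fk} (h : R.IsRed y z) : R.IsRed (-y) (-z) := by
  obtain ⟨h1, rfl⟩ := h
  exact ⟨neg_mem h1, by rw [← map_neg]; rfl⟩

theorem IsRed.sub {y y' : F} {z z' : Fk} (h : R.IsRed y z) (h' : R.IsRed y' z') :
    R.IsRed (y - y') (z - z') := by
  rw [sub_eq_add_neg, sub_eq_add_neg]
  exact h.add h'.neg

variable (R) in
theorem isRed_zero : R.IsRed 0 0 := ⟨zero_mem _, map_zero R.red⟩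

variable (R) in
theorem isRed_one : R.IsRed 1 1 := ⟨one_mem _, map_one R.red⟩

theorem IsRed.pow {y : F} {z : Fk} (h : R.IsRed y z) (n : ℕ) : R.IsRed (y ^ n) (z ^ n) := by
  obtain ⟨h1, rfl⟩ := h
  exact ⟨pow_mem h1 n, by rw [← map_pow]; rfl⟩

variable (R) in
theorem isRed_algebraMap {a : K} (ha : a ∈ A) :
    R.IsRed (algebraMap K F a) (algebraMap k Fk (π ⟨a, ha⟩)) :=
  ⟨(R.algebraMap_mem_iff a).2 ha, R.red_algebraMap ⟨a, ha⟩⟩

variable (R) in
theorem isRed_coe (a : A) : R.IsRed (algebraMap K F a) (algebraMap k Fk (π a)) :=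
  R.isRed_algebraMap a.2

variable (R) in
theorem exists_isRed_of_mem {y : F} (h : y ∈ R.O) : ∃ z, R.IsRed y z := ⟨_, h, rfl⟩

variable (R) in
theorem exists_isRed (z : Fk) : ∃ y, R.IsRed y z := by
  obtain ⟨⟨y, hy⟩, h⟩ := R.red_surjective z
  exact ⟨y, hy, h⟩

theorem IsRed.inv {y : F} {z : Fk} (h : R.IsRed y z) (hz : z ≠ 0) : R.IsRed y⁻¹ z⁻¹ := by
  obtain ⟨h1, h2⟩ := h
  have hu : IsUnit (⟨y, h1⟩ : R.O) := by
    by_contra hu
    exact hz (h2 ▸ (R.red_eq_zero_iff _).2 hu)
  obtain ⟨u, hu⟩ := hu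
  have hy : y * ((u⁻¹ : R.Oˣ) : R.O) = 1 := by
    have := congrArg (Subtype.val) (u.mul_inv)
    rw [hu] at this
    simpa using this
  have hy' : y⁻¹ = ((u⁻¹ : R.Oˣ) : R.O) := by
    have hy0 : y ≠ 0 := by rintro rfl; simp at hy
    field_simp
    exact hy.symm
  rw [hy']
  refine ⟨Subtype.property _, ?_⟩
  have h3 : R.red ⟨y, h1⟩ * R.red ((u⁻¹ : R.Oˣ) : R.O) = 1 := by
    rw [← hu, ← map_mul, ← Units.val_mul, mul_inv_cancel]
    simp
  rw [h2] at h3
  exact (eq_inv_of_mul_eq_one_right h3)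

theorem IsRed.div {y y' : F} {z z' : Fk} (h : R.IsRed y z) (h' : R.IsRed y' z') (hz' : z' ≠ 0) :
    R.IsRed (y / y') (z / z') := by
  rw [div_eq_mul_inv, div_eq_mul_inv]
  exact h.mul (h'.inv hz')

theorem IsRed.ne_zero {y : F} {z : Fk} (h : R.IsRed y z) (hz : z ≠ 0) : y ≠ 0 := by
  rintro rfl
  exact hz (h.unique R.isRed_zero)

/-- if `y` reduces to `0`, then it is not a unit -/
theorem IsRed.inv_notMem {y : F} (h : R.IsRed y 0) (hy : y ≠ 0) : y⁻¹ ∉ R.O := by
  intro h'
  obtain ⟨h1, h2⟩ := h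
  rw [R.red_eq_zero_iff] at h2
  apply h2
  exact IsUnit.of_mul_eq_one ⟨y⁻¹, h'⟩ (Subtype.ext (mul_inv_cancel₀ hy))

variable (R) in
/-- scaling to a unit -/
theorem exists_isRed_mul {f : F} (hf : f ≠ 0) : ∃ c : K, c ≠ 0 ∧ ∃ z : Fk, z ≠ 0 ∧
    R.IsRed (algebraMap K F c * f) z := by
  obtain ⟨c, hc, h1, h2⟩ := R.exists_scale f hf
  obtain ⟨z, hz⟩ := R.exists_isRed_of_mem h1
  refine ⟨c, hc, z, ?_, hz⟩
  rintro rfl
  exact hz.inv_notMem (mul_ne_zero (by simpa using hc) hf) h2

theorem isRed_sum {ι : Type*} (s : Finset ι) {y : ι → F} {z : ι → Fk}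
    (h : ∀ i ∈ s, R.IsRed (y i) (z i)) : R.IsRed (∑ i ∈ s, y i) (∑ i ∈ s, z i) := by
  classical
  induction s using Finset.induction_on with
  | empty => simpa using R.isRed_zero
  | insert i s his ih =>
    rw [Finset.sum_insert his, Finset.sum_insert his]
    exact (h i (Finset.mem_insert_self i s)).add
      (ih fun j hj => h j (Finset.mem_insert_of_mem hj))

theorem isRed_prod {ι : Type*} (s : Finset ι) {y : ι → F} {z : ι → Fk}
    (h : ∀ i ∈ s, R.IsRed (y i) (z i)) : R.IsRed (∏ i ∈ s, y i) (∏ i ∈ s, z i) := by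
  classical
  induction s using Finset.induction_on with
  | empty => simpa using R.isRed_one
  | insert i s his ih =>
    rw [Finset.prod_insert his, Finset.prod_insert his]
    exact (h i (Finset.mem_insert_self i s)).mul
      (ih fun j hj => h j (Finset.mem_insert_of_mem hj))

/-- evaluation of polynomials over `A`. -/
theorem IsRed.aeval {t : F} {τ : Fk} (h : R.IsRed t τ) (p : Polynomial A) :
    R.IsRed (Polynomial.eval₂ ((algebraMap K F).comp A.subtype) t p)
      (Polynomial.eval₂ ((algebraMap k Fk).comp π) τ p) := by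
  rw [Polynomial.eval₂_eq_sum_range, Polynomial.eval₂_eq_sum_range]
  refine isRed_sum _ fun i _ => ?_
  exact (R.isRed_coe (p.coeff i)).mul (h.pow i)

variable (R) in
include R in
/-- an element of `A` is reduced to zero iff it is not a unit. -/
theorem pi_eq_zero_iff (a : A) : π a = 0 ↔ ¬ IsUnit a := by
  constructor
  · intro h hu
    exact (hu.map π).ne_zero h
  · intro hu
    by_contra h
    have h0 : algebraMap k Fk (π a) ≠ 0 := by simpa using h
    have h1 := (R.isRed_coe a).inv h0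
    have h2 := h1.mem
    rw [← map_inv₀, R.algebraMap_mem_iff] at h2
    apply hu
    have ha : (a : K) ≠ 0 := by
      intro ha
      apply h
      have : a = 0 := Subtype.ext ha
      rw [this, map_zero]
    exact IsUnit.of_mul_eq_one ⟨_, h2⟩ (Subtype.ext (mul_inv_cancel₀ ha))

open Classical in
variable (R) in
/-- total version of the residue map: `rd f = red f` on `O` and `0` outside of `O`. -/
noncomputable def rd (f : F) : Fk := if h : f ∈ R.O then R.red ⟨f, h⟩ else 0

variable (R) in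
theorem isRed_rd {f : F} (h : f ∈ R.O) : R.IsRed f (R.rd f) := ⟨h, by rw [rd, dif_pos h]⟩

theorem IsRed.rd_eq {f : F} {z : Fk} (h : R.IsRed f z) : R.rd f = z :=
  (R.isRed_rd h.mem).unique h

theorem isRed_iff {f : F} {z : Fk} : R.IsRed f z ↔ f ∈ R.O ∧ R.rd f = z :=
  ⟨fun h => ⟨h.mem, h.rd_eq⟩, fun h => h.2 ▸ R.isRed_rd h.1⟩

theorem rd_of_notMem {f : F} (h : f ∉ R.O) : R.rd f = 0 := by rw [rd, dif_neg h]

end ConstRed

end Fermat.Agent.Red
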