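import Fermat.Agent.Red.Extend
import Mathlib.LinearAlgebra.Matrix.Charpoly.Basic
import Mathlib.RingTheory.Valuation.LocalSubring

/-!
# Norms and integral equations reduce well
-/

set_option autoImplicit false
set_option linter.unusedSectionVars false
set_option linter.style.haveILetI false
set_option linter.unusedVariables false

open AlgebraicCurve IntermediateField
open scoped IntermediateField.algebraAdjoinAdjoin

namespace Fermat.Agent.Red

open Fermat.Agent.FF

variable {K k : Type*} [Field K] [Field k] {A : ValuationSubring K} {π : A →+* k}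
  {F Fk : Type*} [Field F] [Algebra K F] [Field Fk] [Algebra k Fk]
  {R : ConstRed A π F Fk} {x : F} {xb : Fk}

theorem IsCoord.exists_matrix (hx : IsCoord R x xb) :
    ∃ (n : ℕ) (w : Module.Basis (Fin n) K⟮x⟯ F) (wb : Module.Basis (Fin n) k⟮xb⟯ Fk),
      ∀ (f : F) (z : Fk), R.IsRed f z → ∃ M : Matrix (Fin n) (Fin n) (gaussRing R x),
        Algebra.leftMulMatrix w f = M.map (gaussRing R x).subtype ∧
        Algebra.leftMulMatrix wb z = M.map (gaussRed hx.isRed hx.transcendental) := by
  classical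
  obtain ⟨w, wb, hw⟩ := hx.exists_basis
  refine ⟨_, w, wb, fun f z hfz => ?_⟩
  have horth := coe_orth hx.isRed hx.transcendental hw wb.linearIndependent
  have hsum : ∀ j, ∑ i, algebraMap K⟮x⟯ F (Algebra.leftMulMatrix w f i j) * w i = f * w j := by
    intro j
    have h1 := w.sum_repr (f * w j)
    rw [← h1]
    refine Finset.sum_congr rfl fun i _ => ?_
    rw [Algebra.leftMulMatrix_eq_repr_mul, Algebra.smul_def]
  have hmem : ∀ i j, Algebra.leftMulMatrix w f i j ∈ gaussRing R x := by
    intro i j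
    refine horth.mem_of_sum_mem Finset.univ (fun i => Algebra.leftMulMatrix w f i j) ?_ i
      (Finset.mem_univ i)
    rw [hsum]
    exact (hfz.mul (hw j)).mem
  refine ⟨fun i j => ⟨_, hmem i j⟩, rfl, ?_⟩
  ext i j
  have h1 := horth.isRed_sum Finset.univ (fun i => (⟨_, hmem i j⟩ : gaussRing R x))
  have h2 : ∑ i, algebraMap K⟮x⟯ F ((⟨_, hmem i j⟩ : gaussRing R x) : K⟮x⟯) * w i = f * w j :=
    hsum j
  rw [h2] at h1
  have h3 := ((ext_isRed hx.isRed hx.transcendental).1 h1).unique (hfz.mul (hw j))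
  have h4 : wb.repr (z * wb j) i = gaussRed hx.isRed hx.transcendental ⟨_, hmem i j⟩ := by
    rw [← h3]
    have h5 : ∑ i, algebraMap k⟮xb⟯ Fk (gaussRed hx.isRed hx.transcendental ⟨_, hmem i j⟩) *
        wb i = ∑ i, (gaussRed hx.isRed hx.transcendental ⟨_, hmem i j⟩) • wb i :=
      Finset.sum_congr rfl fun i _ => (Algebra.smul_def _ _).symm
    rw [h5, wb.repr_sum_self]
  rw [Algebra.leftMulMatrix_eq_repr_mul, h4]
  rfl

/-- the norm reduces to the norm. -/
theorem IsCoord.isRed_norm (hx : IsCoord R x xb) {f : F} {z : Fk} (h : R.IsRed f z) :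
    R.IsRed ((Algebra.norm K⟮x⟯ f : K⟮x⟯) : F) ((Algebra.norm k⟮xb⟯ z : k⟮xb⟯) : Fk) := by
  classical
  obtain ⟨n, w, wb, hM⟩ := hx.exists_matrix
  obtain ⟨M, hM1, hM2⟩ := hM f z h
  rw [Algebra.norm_eq_matrix_det w, Algebra.norm_eq_matrix_det wb, hM1, hM2]
  have h1 : (M.map (gaussRing R x).subtype).det = (gaussRing R x).subtype M.det :=
    ((gaussRing R x).subtype.map_det M).symm
  have h2 : (M.map (gaussRed hx.isRed hx.transcendental)).det =
      gaussRed hx.isRed hx.transcendental M.det :=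
    ((gaussRed hx.isRed hx.transcendental).map_det M).symm
  rw [h1, h2]
  exact ⟨M.det.2, rfl⟩

/-- elements of `O` are integral over the Gauss valuation ring. -/
theorem IsCoord.isIntegral_gaussRing (hx : IsCoord R x xb) {f : F} (h : f ∈ R.O) :
    IsIntegral (gaussRing R x) f := by
  classical
  obtain ⟨z, hz⟩ := R.exists_isRed_of_mem h
  obtain ⟨n, w, wb, hM⟩ := hx.exists_matrix
  obtain ⟨M, hM1, hM2⟩ := hM f z hz
  refine ⟨M.charpoly, M.charpoly_monic, ?_⟩
  have h1 : (Algebra.leftMulMatrix w f).charpoly = M.charpoly.map (gaussRing R x).subtype := by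
    rw [hM1, Matrix.charpoly_map]
  have h2 : Polynomial.aeval f (Algebra.leftMulMatrix w f).charpoly = 0 := by
    apply Algebra.leftMulMatrix_injective w
    rw [map_zero, ← Polynomial.aeval_algHom_apply]
    exact Matrix.aeval_self_charpoly _
  rw [h1, Polynomial.aeval_def, Polynomial.eval₂_map] at h2
  exact h2

/-- Integral functions in `O` satisfy a monic equation over `A[x]`. -/
theorem IsCoord.exists_monic (hx : IsCoord R x xb) {f : F} (h : f ∈ R.O)
    (hf : IsIntegral (Algebra.adjoin K {x}) f) :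
    ∃ g : Polynomial (Polynomial A), g.Monic ∧ Polynomial.eval₂ (theta A x) f g = 0 := by
  haveI := hx.finiteDimensional
  have e1 : minpoly K⟮x⟯ f = (minpoly (Algebra.adjoin K {x}) f).map (algebraMap _ K⟮x⟯) :=
    minpoly.isIntegrallyClosed_eq_field_fractions' K⟮x⟯ hf
  have e2 : minpoly K⟮x⟯ f = (minpoly (gaussRing R x) f).map (algebraMap _ K⟮x⟯) :=
    minpoly.isIntegrallyClosed_eq_field_fractions' K⟮x⟯ (hx.isIntegral_gaussRing h)
  have hlift : (minpoly K⟮x⟯ f).map (algebraMap _ F) ∈ Polynomial.lifts (theta A x) := by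
    rw [Polynomial.lifts_iff_coeff_lifts]
    intro i
    obtain ⟨p, hp⟩ := exists_poly x ((minpoly (Algebra.adjoin K {x}) f).coeff i)
    have h1 : ((minpoly K⟮x⟯ f).map (algebraMap _ F)).coeff i = Polynomial.aeval x p := by
      rw [← hp, e1, Polynomial.coeff_map, Polynomial.coeff_map]
      rfl
    have h2 : Polynomial.aeval x p ∈ R.O := by
      rw [← h1, e2, Polynomial.coeff_map, Polynomial.coeff_map]
      exact ((minpoly (gaussRing R x) f).coeff i).2
    obtain ⟨q, hq⟩ := exists_poly_of_isRed hx.isRed hx.transcendental h2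
    exact ⟨q, by rw [theta_apply, hq, h1]⟩
  have hmonic : ((minpoly K⟮x⟯ f).map (algebraMap _ F)).Monic :=
    (minpoly.monic (hf.tower_top)).map _
  obtain ⟨r, hr1, -, hr2⟩ := Polynomial.lifts_and_natDegree_eq_and_monic hlift hmonic
  refine ⟨r, hr2, ?_⟩
  rw [← Polynomial.eval_map, hr1, Polynomial.eval_map]
  exact minpoly.aeval K⟮x⟯ f

theorem isRed_eval₂ (hx : R.IsRed x xb) {f : F} {z : Fk} (h : R.IsRed f z)
    (g : Polynomial (Polynomial A)) :
    R.IsRed (Polynomial.eval₂ (theta A x) f g) (Polynomial.eval₂ (thetak π xb) z g) := by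
  rw [Polynomial.eval₂_eq_sum_range, Polynomial.eval₂_eq_sum_range]
  exact ConstRed.isRed_sum _ fun i _ => (hx.theta _).mul (h.pow i)

/-- (E1) reductions of integral functions are integral. -/
theorem IsCoord.isIntegral_red (hx : IsCoord R x xb) {f : F} {z : Fk} (h : R.IsRed f z)
    (hf : IsIntegral (Algebra.adjoin K {x}) f) : IsIntegral (Algebra.adjoin k {xb}) z := by
  obtain ⟨g, hg, h0⟩ := hx.exists_monic h.mem hf
  have h1 := isRed_eval₂ hx.isRed h g
  rw [h0] at h1
  have h2 : Polynomial.eval₂ (thetak π xb) z g = 0 := h1.unique R.isRed_zero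
  set φ : Polynomial A →+* Algebra.adjoin k {xb} := (thetak π xb).codRestrict
    (Algebra.adjoin k {xb}) (fun q => by
      rw [thetak_apply]
      exact Polynomial.aeval_mem_adjoin_singleton k xb) with hφ
  refine ⟨g.map φ, hg.map φ, ?_⟩
  rw [Polynomial.eval₂_map]
  exact h2

section Value

variable [IsAlgClosed K] [IsFnField K F] {P : Place K F}

theorem hasVal_theta {a : A} (ha : HasVal P x a) (q : Polynomial A) :
    HasVal P (theta A x q) (q.eval a : A) := by
  have := ha.aeval (q.map A.subtype)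
  rw [theta_apply]
  have h2 : (q.map A.subtype).eval (a : K) = (q.eval a : A) := by
    rw [Polynomial.eval_map]
    exact Polynomial.eval₂_at_apply A.subtype a
  rwa [h2] at this

/-- (E2) values of integral functions are integral. -/
theorem IsCoord.val_mem (hx : IsCoord R x xb) {f : F} (h : f ∈ R.O)
    (hf : IsIntegral (Algebra.adjoin K {x}) f) {a : A} (ha : HasVal P x a) {c : K}
    (hc : HasVal P f c) : c ∈ A := by
  obtain ⟨g, hg, h0⟩ := hx.exists_monic h hf
  have h1 : HasVal P (Polynomial.eval₂ (theta A x) f g)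
      (Polynomial.eval₂ (A.subtype.comp (Polynomial.evalRingHom a)) c g) := by
    rw [Polynomial.eval₂_eq_sum_range, Polynomial.eval₂_eq_sum_range]
    refine hasVal_sum _ fun i _ => (hasVal_theta ha _).mul (hc.pow i)
  rw [h0] at h1
  have h2 := (h1.unique (hasVal_zero P))
  have h3 : IsIntegral A c := by
    refine ⟨g.map (Polynomial.evalRingHom a), hg.map _, ?_⟩
    rw [Polynomial.eval₂_map]
    exact h2
  obtain ⟨y, hy⟩ := IsIntegrallyClosed.isIntegral_iff.mp h3
  rw [← hy]
  exact y.2

theorem isIntegral_const_mul {f : F} (hf : IsIntegral (Algebra.adjoin K {x}) f) (e : K) :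
    IsIntegral (Algebra.adjoin K {x}) (algebraMap K F e * f) := by
  refine IsIntegral.mul ?_ hf
  have : algebraMap K F e = algebraMap (Algebra.adjoin K {x}) F (algebraMap K _ e) := rfl
  rw [this]
  exact isIntegral_algebraMap

/-- (E3) values of functions reducing to zero reduce to zero -/
theorem IsCoord.val_red_zero (hx : IsCoord R x xb) {f : F} (h : R.IsRed f 0)
    (hf : IsIntegral (Algebra.adjoin K {x}) f) {a : A} (ha : HasVal P x a) {c : K}
    (hc : HasVal P f c) : ∃ h : c ∈ A, π ⟨c, h⟩ = 0 := by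
  rcases eq_or_ne f 0 with rfl | hf0
  · have : c = 0 := hc.unique (hasVal_zero P)
    subst this
    exact ⟨A.zero_mem, map_zero π⟩
  obtain ⟨e, he, ζ, hζ, hred⟩ := R.exists_isRed_mul hf0
  have he' : algebraMap K F e ≠ 0 := by simpa using he
  have h1 := h.div hred hζ
  rw [zero_div] at h1
  have h2 : f / (algebraMap K F e * f) = algebraMap K F e⁻¹ := by
    rw [map_inv₀]; field_simp
  rw [h2] at h1
  have h3 := (R.algebraMap_mem_iff _).1 h1.mem
  have h4 : π ⟨e⁻¹, h3⟩ = 0 := by
    have := h1.unique (R.isRed_algebraMap h3)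
    exact (map_eq_zero _).mp this.symm
  have h5 := hx.val_mem hred.mem (isIntegral_const_mul hf e) ha
    ((hasVal_algebraMap P e).mul hc)
  have h6 : c = e⁻¹ * (e * c) := by field_simp
  have h7 : c ∈ A := by rw [h6]; exact mul_mem h3 h5
  refine ⟨h7, ?_⟩
  have h8 : (⟨c, h7⟩ : A) = ⟨e⁻¹, h3⟩ * ⟨e * c, h5⟩ := Subtype.ext h6
  rw [h8, map_mul, h4, zero_mul]

end Value

end Fermat.Agent.Red
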