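import Mathlib.RingTheory.SimpleModule.Basic
import Mathlib.RingTheory.DedekindDomain.Ideal.Lemmas
import Mathlib.RingTheory.Finiteness.Basic

/-!
# A conductor argument

A subring `C` of a Dedekind domain `B` (finite over `C`) which separates points and tangent vectors
is everything.
-/

set_option autoImplicit false
set_option linter.style.haveILetI false

namespace Fermat.Agent.Red

theorem eq_top_of_separates {B : Type*} [CommRing B] [IsDedekindDomain B]
    (C : Subring B) [Module.Finite C B]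
    (ha : ∀ Q Q' : Ideal B, Q.IsMaximal → Q'.IsMaximal → Q ≠ Q' → ∃ c ∈ C, c ∈ Q ∧ c ∉ Q')
    (hb : ∀ Q : Ideal B, Q.IsMaximal → ∃ c ∈ C, c ∈ Q ∧ c ∉ Q ^ 2)
    (hc : ∀ Q : Ideal B, Q.IsMaximal → ∀ b : B, ∃ c ∈ C, b - c ∈ Q) : C = ⊤ := by
  by_contra hne
  obtain ⟨b₀, hb₀⟩ : ∃ b : B, b ∉ C := by
    by_contra hcon
    push Not at hcon
    exact hne (eq_top_iff.2 fun b _ => hcon b)
  set C1 : Submodule C B := LinearMap.range (Algebra.linearMap C B) with hC1
  have hmemC1 : ∀ c ∈ C, c ∈ C1 := fun c hc => ⟨⟨c, hc⟩, rfl⟩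
  have hC1' : C1 ≠ ⊤ := by
    intro h
    have h1 : b₀ ∈ C1 := h ▸ Submodule.mem_top
    obtain ⟨c, hc⟩ := h1
    exact hb₀ (hc ▸ c.2)
  obtain ⟨N, hN, hCN⟩ := (eq_top_or_exists_le_coatom C1).resolve_left hC1'
  haveI : IsSimpleModule C (B ⧸ N) := isSimpleModule_iff_isCoatom.2 hN
  set m := Module.annihilator C (B ⧸ N) with hm
  have hmax : m.IsMaximal := IsSimpleModule.annihilator_isMaximal
  have hmN : ∀ c ∈ m, ∀ b : B, (c : B) * b ∈ N := by
    intro c hc b
    rw [hm, Module.mem_annihilator] at hc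
    have h1 := hc (Submodule.Quotient.mk b)
    rw [← Submodule.Quotient.mk_smul, Submodule.Quotient.mk_eq_zero] at h1
    exact h1
  set I : Ideal B := m.map (algebraMap C B) with hI
  have hIN : ∀ b ∈ I, b ∈ N := by
    let J : Ideal B :=
      { carrier := {b | ∀ b', b * b' ∈ N}
        add_mem' := fun {a b} ha hb b' => by
          rw [add_mul]; exact N.add_mem (ha b') (hb b')
        zero_mem' := fun b' => by rw [zero_mul]; exact N.zero_mem
        smul_mem' := fun c b hb b' => by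
          rw [smul_eq_mul, mul_comm c, mul_assoc]; exact hb _ }
    have h1 : I ≤ J := by
      rw [hI, Ideal.map_le_iff_le_comap]
      exact fun c hc b' => hmN c hc b'
    intro b hb
    have := h1 hb 1
    rwa [mul_one] at this
  have hItop : I ≠ ⊤ := by
    intro h
    apply hN.1
    rw [eq_top_iff]
    intro b _
    exact hIN b (h ▸ Submodule.mem_top)
  obtain ⟨Q, hQ, hIQ⟩ := Ideal.exists_le_maximal I hItop
  -- elements of `C` in `Q` are in `m`
  have hmQ : ∀ c ∈ C, c ∈ Q → c ∈ I := by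
    have h1 : m = Q.comap (algebraMap C B) := by
      refine hmax.eq_of_le ?_ ?_
      · exact (Ideal.IsPrime.comap (algebraMap C B)).ne_top
      · rwa [← Ideal.map_le_iff_le_comap]
    intro c hc hcQ
    have h2 : (⟨c, hc⟩ : C) ∈ m := by
      rw [h1, Ideal.mem_comap]
      exact hcQ
    exact Ideal.mem_map_of_mem (algebraMap C B) h2
  have hIeq : I = Q := by
    obtain ⟨J, hJ⟩ := Ideal.dvd_iff_le.2 hIQ
    by_cases hJt : J = ⊤
    · rw [hJ, hJt, Ideal.mul_top]
    · exfalso
      obtain ⟨Q', hQ', hJQ'⟩ := Ideal.exists_le_maximal J hJt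
      have hIQ' : I ≤ Q' := by
        rw [hJ]
        exact Ideal.mul_le_right.trans hJQ'
      by_cases hQQ : Q = Q'
      · subst hQQ
        obtain ⟨c, hcC, hcQ, hcQ2⟩ := hb Q hQ
        apply hcQ2
        have h1 : I ≤ Q ^ 2 := by
          rw [hJ, pow_two]
          exact Ideal.mul_mono_right hJQ'
        exact h1 (hmQ c hcC hcQ)
      · obtain ⟨c, hcC, hcQ, hcQ'⟩ := ha Q Q' hQ hQ' hQQ
        exact hcQ' (hIQ' (hmQ c hcC hcQ))
  apply hN.1
  rw [eq_top_iff]
  intro b _
  obtain ⟨c, hcC, hcb⟩ := hc Q hQ b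
  have h1 := N.add_mem (hIN _ (hIeq ▸ hcb)) (hCN (hmemC1 c hcC))
  rwa [sub_add_cancel] at h1

end Fermat.Agent.Red
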