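import Fermat.Agent.Red.PSpec
import Fermat.Agent.Red.Conductor

/-!
# Descent of charts along a finite separable extension
-/

set_option autoImplicit false
set_option linter.unusedSectionVars false
set_option linter.style.haveILetI false
set_option linter.unusedVariables false

open AlgebraicCurve IntermediateField Module IsDedekindDomain
open scoped IntermediateField.algebraAdjoinAdjoin

namespace Fermat.Agent.Red

open Fermat.Agent.FF

section Integral

variable {K F F' : Type*} [Field K] [Field F] [Field F'] [Algebra K F] [Algebra K F']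
  [Algebra F F'] [IsScalarTower K F F']

/-- the map `K[x] → K[x']` -/
def adjMap (x : F) : Algebra.adjoin K {x} →+* Algebra.adjoin K {algebraMap F F' x} :=
  ((algebraMap F F').comp (Algebra.adjoin K {x}).val.toRingHom).codRestrict
    (Algebra.adjoin K {algebraMap F F' x}) (by
      rintro ⟨y, hy⟩
      change algebraMap F F' y ∈ _
      have h1 : algebraMap F F' y = IsScalarTower.toAlgHom K F F' y := rfl
      have h2 : (Algebra.adjoin K {x}).map (IsScalarTower.toAlgHom K F F') =
          Algebra.adjoin K {algebraMap F F' x} := by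
        rw [AlgHom.map_adjoin, Set.image_singleton]
        rfl
      rw [h1, ← h2]
      exact ⟨y, hy, rfl⟩)

theorem adjMap_surjective (x : F) : Function.Surjective (adjMap (K := K) (F' := F') x) := by
  rintro ⟨y, hy⟩
  have h2 : (Algebra.adjoin K {x}).map (IsScalarTower.toAlgHom K F F') =
      Algebra.adjoin K {algebraMap F F' x} := by
    rw [AlgHom.map_adjoin, Set.image_singleton]
    rfl
  rw [← h2] at hy
  obtain ⟨z, hz, rfl⟩ := hy
  exact ⟨⟨z, hz⟩, rfl⟩

theorem isIntegral_adj_iff {x : F} {g : F'} :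
    IsIntegral (Algebra.adjoin K {algebraMap F F' x}) g ↔ IsIntegral (Algebra.adjoin K {x}) g := by
  letI : Algebra (Algebra.adjoin K {x}) (Algebra.adjoin K {algebraMap F F' x}) :=
    (adjMap x).toAlgebra
  haveI : IsScalarTower (Algebra.adjoin K {x}) (Algebra.adjoin K {algebraMap F F' x}) F' :=
    IsScalarTower.of_algebraMap_eq fun _ => rfl
  haveI : Algebra.IsIntegral (Algebra.adjoin K {x}) (Algebra.adjoin K {algebraMap F F' x}) :=
    ⟨fun y => by
      obtain ⟨z, rfl⟩ := adjMap_surjective (K := K) (F' := F') x y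
      exact isIntegral_algebraMap⟩
  exact ⟨fun h => isIntegral_trans g h, fun h => h.tower_top⟩

theorem isIntegral_algebraMap_iff' {x f : F} :
    IsIntegral (Algebra.adjoin K {algebraMap F F' x}) (algebraMap F F' f) ↔
      IsIntegral (Algebra.adjoin K {x}) f := by
  rw [isIntegral_adj_iff, isIntegral_algebraMap_iff (algebraMap F F').injective]

end Integral

section Ideals

variable {K F : Type*} [Field K] [Field F] [Algebra K F] [IsAlgClosed K] [IsFnField K F] {x : F}
  (hx : Transcendental K x) [FiniteDimensional K⟮x⟯ F] [Algebra.IsSeparable K⟮x⟯ F]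

include hx

theorem exists_place_of_heightOne (w : HeightOneSpectrum (IntCl K x)) :
    ∃ P : Place K F, Place.ofHeightOneSpectrum w = P ∧ 0 ≤ P.ord x ∧
      ∀ b : IntCl K x, b ∈ w.asIdeal ↔ HasVal P (b : F) 0 := by
  set P : Place K F := Place.ofHeightOneSpectrum w with hP
  have hxP : 0 ≤ P.ord x := by
    apply ord_nonneg_of_mem
    exact algebraMap_mem_ofHeightOneSpectrum (K := K) (F := F) w
      (algebraMap (Algebra.adjoin K {x}) _ (gen x))
  refine ⟨P, rfl, hxP, fun b => ?_⟩
  obtain ⟨w', hw', hwc⟩ := exists_heightOneSpectrum P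
    (fun b : IntCl K x => mem_of_isIntegral P hxP (f := algebraMap _ F b) b.2)
  have : w' = w := ofHeightOneSpectrum_injective (K := K) (F := F) (hw'.trans hP)
  rw [this] at hwc
  rw [hwc, mem_centre_iff, hasVal_zero_iff]
  constructor
  · rintro (h | h)
    · left; rw [h]; rfl
    · right; exact h
  · rintro (h | h)
    · left; exact Subtype.ext h
    · right; exact h

omit [IsAlgClosed K] [IsFnField K F] [FiniteDimensional K⟮x⟯ F]
  [Algebra.IsSeparable K⟮x⟯ F] in
theorem ne_bot_of_isMaximal {Q : Ideal (IntCl K x)} (hQ : Q.IsMaximal) : Q ≠ ⊥ := by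
  rintro rfl
  haveI h1 := isMaximal_span_genSub hx (0 : K)
  haveI : FaithfulSMul (Algebra.adjoin K {x}) (IntCl K x) :=
    (faithfulSMul_iff_algebraMap_injective _ _).2 fun a b h =>
      Subtype.ext (congrArg (fun z : IntCl K x => (z : F)) h)
  obtain ⟨Q', hQ', hlo⟩ := Ideal.exists_maximal_ideal_liesOver_of_isIntegral
    (S := IntCl K x) (Ideal.span {(genSub x (0 : K) : Algebra.adjoin K {x})})
  have h2 : ⊥ = Q' := hQ.eq_of_le hQ'.ne_top bot_le
  exact Ideal.ne_bot_of_liesOver_of_ne_bot (span_genSub_ne_bot hx (0 : K)) Q' h2.symm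

end Ideals

section Descend

variable {K k : Type*} [Field K] [Field k] {A : ValuationSubring K} {π : A →+* k}
  {F Fk F' Fk' : Type*} [Field F] [Algebra K F] [Field Fk] [Algebra k Fk]
  [Field F'] [Algebra K F'] [Field Fk'] [Algebra k Fk']
  [Algebra F F'] [IsScalarTower K F F'] [Algebra Fk Fk'] [IsScalarTower k Fk Fk']
  {R : ConstRed A π F Fk} {R' : ConstRed A π F' Fk'}
  [IsAlgClosed K] [IsFnField K F] [IsAlgClosed k] [IsFnField k Fk]
  [IsFnField K F'] [IsFnField k Fk']
  [Module.Finite F F'] [Algebra.IsSeparable F F'] [Module.Finite Fk Fk']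
  [Algebra.IsSeparable Fk Fk']

/-- the ring of reductions of integral functions -/
def redRing (R : ConstRed A π F Fk) (x : F) (xb : Fk) : Subring (IntCl k xb) where
  carrier := {z | ∃ f : F, R.IsRed f (z : Fk) ∧ IsIntegral (Algebra.adjoin K {x}) f}
  mul_mem' := by
    rintro a b ⟨f, hf, hfi⟩ ⟨g, hg, hgi⟩
    exact ⟨f * g, hf.mul hg, hfi.mul hgi⟩
  one_mem' := ⟨1, by simpa using R.isRed_coe (1 : A), isIntegral_one⟩
  add_mem' := by
    rintro a b ⟨f, hf, hfi⟩ ⟨g, hg, hgi⟩
    exact ⟨f + g, hf.add hg, hfi.add hgi⟩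
  zero_mem' := ⟨0, by simpa using R.isRed_coe (0 : A), isIntegral_zero⟩
  neg_mem' := by
    rintro a ⟨f, hf, hfi⟩
    exact ⟨-f, hf.neg, hfi.neg⟩

theorem mem_redRing {x : F} {xb : Fk} {z : IntCl k xb} : z ∈ redRing R x xb ↔
    ∃ f : F, R.IsRed f (z : Fk) ∧ IsIntegral (Algebra.adjoin K {x}) f := Iff.rfl

theorem algebraMap_mem_redRing {x : F} {xb : Fk} (hπ : Function.Surjective π)
    (hx : R.IsRed x xb) (y : Algebra.adjoin k {xb}) :
    algebraMap _ (IntCl k xb) y ∈ redRing R x xb := by
  rw [mem_redRing]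
  obtain ⟨p, hp⟩ := exists_poly xb y
  obtain ⟨q, rfl⟩ := Polynomial.map_surjective π hπ p
  refine ⟨Polynomial.aeval x (q.map A.subtype), ?_, ?_⟩
  · have h1 := hx.theta q
    rw [thetak_apply] at h1
    have h2 : ((algebraMap _ (IntCl k xb) y : IntCl k xb) : Fk) = (y : Fk) := rfl
    rw [h2, hp, ← theta_apply]
    exact h1
  · have : Polynomial.aeval x (q.map A.subtype) = algebraMap (Algebra.adjoin K {x}) F
      ⟨_, Polynomial.aeval_mem_adjoin_singleton K x⟩ := rfl
    rw [this]
    exact isIntegral_algebraMap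

theorem finite_redRing {x : F} {xb : Fk} (hπ : Function.Surjective π)
    (hx : R.IsRed x xb) (hxb : Transcendental k xb) [FiniteDimensional k⟮xb⟯ Fk]
    [Algebra.IsSeparable k⟮xb⟯ Fk] : Module.Finite (redRing R x xb) (IntCl k xb) := by
  have hfin : Module.Finite (Algebra.adjoin k {xb}) (IntCl k xb) := by
    infer_instance
  obtain ⟨s, hs⟩ := hfin
  refine ⟨s, ?_⟩
  rw [eq_top_iff]
  intro b _
  have hb : b ∈ Submodule.span (Algebra.adjoin k {xb}) (s : Set (IntCl k xb)) :=
    hs ▸ Submodule.mem_top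
  induction hb using Submodule.span_induction with
  | mem y hy => exact Submodule.subset_span hy
  | zero => exact Submodule.zero_mem _
  | add y z _ _ h1 h2 => exact Submodule.add_mem _ (h1 trivial) (h2 trivial)
  | smul a y _ h1 =>
    have h2 : a • y = (⟨_, algebraMap_mem_redRing hπ hx a⟩ : redRing R x xb) • y := by
      rw [Algebra.smul_def]
      rfl
    rw [h2]
    exact Submodule.smul_mem _ _ (h1 trivial)

/-- the norm of an integral function of the top reduction is in the ring of reductions -/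
theorem Compat.norm_mem (h : Compat R R') (hdeg : finrank F F' = finrank Fk Fk')
    {x : F} {xb : Fk} (hC : Chart R' (algebraMap F F' x) (algebraMap Fk Fk' xb)) {w : Fk'}
    (hw : IsIntegral (Algebra.adjoin k {algebraMap Fk Fk' xb}) w) :
    ∃ f : F, R.IsRed f (Algebra.norm Fk w) ∧ IsIntegral (Algebra.adjoin K {x}) f := by
  obtain ⟨g, hg, hgi⟩ := hC.lift w hw
  rw [isIntegral_adj_iff] at hgi
  exact ⟨_, h.isRed_norm hdeg hg, Algebra.isIntegral_norm F hgi⟩

/-- **Charts descend** along finite separable extensions. -/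
theorem Compat.chart (h : Compat R R') (hdeg : finrank F F' = finrank Fk Fk')
    (hπ : Function.Surjective π) {x : F} {xb : Fk} (hc : IsCoord R x xb)
    (hsep : Algebra.IsSeparable K⟮x⟯ F) (hsepk : Algebra.IsSeparable k⟮xb⟯ Fk)
    (hC : Chart R' (algebraMap F F' x) (algebraMap Fk Fk' xb)) : Chart R x xb := by
  haveI := hc.finiteDimensionalk
  haveI := hc.finiteDimensional
  have hxb := hc.transcendental
  haveI hC'sepk := hC.sepk
  haveI := hC.isCoord.finiteDimensionalk
  haveI := finite_redRing hπ hc.isRed hxb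
  have hn0 : finrank Fk Fk' ≠ 0 := finrank_pos.ne'
  have hmax : ∀ Q : Ideal (IntCl k xb), Q.IsMaximal → ∃ P : Place k Fk, ∃ ā : k,
      HasVal P xb ā ∧ (∃ w : HeightOneSpectrum (IntCl k xb), w.asIdeal = Q ∧
        Place.ofHeightOneSpectrum w = P) ∧ ∀ b : IntCl k xb, b ∈ Q ↔ HasVal P (b : Fk) 0 := by
    intro Q hQ
    obtain ⟨P, hP1, hP2, hP3⟩ := exists_place_of_heightOne hxb
      (⟨Q, hQ.isPrime, ne_bot_of_isMaximal hxb hQ⟩ : HeightOneSpectrum (IntCl k xb))
    obtain ⟨ā, hā⟩ := exists_hasVal hP2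
    exact ⟨P, ā, hā, ⟨_, rfl, hP1⟩, hP3⟩
  have htop : redRing R x xb = ⊤ := by
    apply eq_top_of_separates
    · intro Q Q' hQ hQ' hne
      have hnot : ¬ Q ≤ Q' := fun hle => hne (hQ.eq_of_le hQ'.ne_top hle)
      obtain ⟨z, hz, hz'⟩ := Set.not_subset.mp hnot
      obtain ⟨f, hf, hfi⟩ := h.norm_mem hdeg hC
        (isIntegral_algebraMap_iff' (F' := Fk').2 z.2)
      rw [Algebra.norm_algebraMap] at hf
      refine ⟨z ^ finrank Fk Fk', ?_, Q.pow_mem_of_mem hz _ (Nat.pos_of_ne_zero hn0), ?_⟩
      · rw [mem_redRing]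
        exact ⟨f, by rwa [SubmonoidClass.coe_pow], hfi⟩
      · intro h1
        exact hz' (hQ'.isPrime.mem_of_pow_mem _ h1)
    · intro Q hQ
      obtain ⟨P, ā, hā, ⟨w, hwQ, hwP⟩, hmem⟩ := hmax Q hQ
      obtain ⟨P', hP'⟩ := exists_restrict_eq' (F' := Fk') P
      have hā' : HasVal P' (algebraMap Fk Fk' xb) ā := by
        rw [hasVal_restrict, hP']
        exact hā
      obtain ⟨τ, hτi, hτ1, hτ⟩ := exists_unif_isolated
        (hC.isCoord.transcendental) hā'
      obtain ⟨f, hf, hfi⟩ := h.norm_mem hdeg hC hτi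
      have hτ0 : τ ≠ 0 := by rintro rfl; simp at hτ1
      have hNi : IsIntegral (Algebra.adjoin k {xb}) (Algebra.norm Fk τ) :=
        hc.isIntegral_red hf hfi
      haveI : HasPrincipalDivisors k Fk' := RR.hasPrincipalDivisors k Fk'
      have hord : P.ord (Algebra.norm Fk τ) = 1 := by
        rw [← sum_ord_fiber P hτ0, Finset.sum_eq_single P', hτ1]
        · intro P'' hP'' hne
          have h1 : HasVal P'' (algebraMap Fk Fk' xb) ā := by
            rw [hasVal_restrict, Place.mem_fiber.1 hP'']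
            exact hā
          have h2 : 0 ≤ P''.ord τ := ord_nonneg_of_mem P'' (mem_of_isIntegral P'' h1.nonneg hτi)
          by_contra h3
          exact hne (hτ P'' h1 (hasVal_zero_iff.2 (Or.inr (lt_of_le_of_ne h2 (Ne.symm h3)))))
        · intro h1
          exact absurd (Place.mem_fiber.2 hP') h1
      have hN0 : (⟨Algebra.norm Fk τ, hNi⟩ : IntCl k xb) ≠ 0 := by
        intro h1
        have h2 : Algebra.norm Fk τ = 0 := congrArg Subtype.val h1
        rw [h2] at hord
        simp at hord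
      refine ⟨⟨Algebra.norm Fk τ, hNi⟩, ⟨f, hf, hfi⟩, ?_, ?_⟩
      · rw [hmem]
        exact hasVal_zero_iff.2 (Or.inr (by rw [hord]; norm_num))
      · rw [← hwQ, mem_sq_iff hxb hwP hN0, hord]
        norm_num
    · intro Q hQ b
      obtain ⟨P, ā, hā, -, hmem⟩ := hmax Q hQ
      obtain ⟨c, hcb⟩ := exists_hasVal (ord_nonneg_of_mem P (mem_of_isIntegral P hā.nonneg b.2))
      refine ⟨algebraMap k _ c, ?_, ?_⟩
      · exact algebraMap_mem_redRing hπ hc.isRed (algebraMap k _ c)
      · rw [hmem]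
        have h1 := hcb.sub (hasVal_algebraMap P c)
        rw [sub_self] at h1
        exact h1
  refine ⟨hc, hsep, hsepk, fun z hz => ?_⟩
  have h1 : (⟨z, hz⟩ : IntCl k xb) ∈ redRing R x xb := htop ▸ Subring.mem_top _
  exact h1

end Descend

end Fermat.Agent.Red
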