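import Fermat.Agent.Frob.Basic
import Mathlib.NumberTheory.NumberField.Basic

/-!
# Contents of families of elements of number fields
-/

set_option autoImplicit false
set_option linter.unusedSectionVars false
set_option linter.style.haveILetI false
set_option linter.unusedVariables false

open NumberField

namespace Fermat.Agent.Red

/-- Valuation rings of number fields above a prime are noetherian. -/
theorem isNoetherianRing_valuationSubring {K : Type*} [Field K] [NumberField K]
    (A : ValuationSubring K) {ℓ : ℕ} (hℓ : ℓ.Prime) (hA : A.LiesOverPrime ℓ) :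
    IsNoetherianRing A := by
  classical
  rw [isNoetherianRing_iff_ideal_fg]
  intro I
  let φ : 𝓞 K →+* A := (algebraMap (𝓞 K) K).codRestrict A.toSubring fun x =>
    Frob.mem_of_isIntegral A x.isIntegral_coe
  have h1 : I = (I.comap φ).map φ := by
    apply le_antisymm
    · intro x hx
      obtain ⟨s, b, hs, hb, hsA, hsb⟩ := Frob.exists_mul_eq A hℓ hA x.2
      have hsA' : s ∈ A := Frob.mem_of_isIntegral A hs
      have hunit : IsUnit (⟨s, hsA'⟩ : A) := by
        by_contra h
        apply hsA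
        have : (⟨s, hsA'⟩ : A) ∈ IsLocalRing.maximalIdeal A := h
        exact A.coe_mem_nonunits_iff.2 this
      obtain ⟨u, hu⟩ := hunit
      obtain ⟨b', hb'⟩ : ∃ b' : 𝓞 K, algebraMap (𝓞 K) K b' = b := ⟨⟨b, hb⟩, rfl⟩
      have h2 : φ b' = ⟨s, hsA'⟩ * x := Subtype.ext (hb'.trans hsb.symm)
      have h3 : b' ∈ I.comap φ := by
        rw [Ideal.mem_comap, h2]
        exact I.mul_mem_left _ hx
      have h4 : x = ((u⁻¹ : Aˣ) : A) * φ b' := by
        rw [h2, ← hu, Units.inv_mul_cancel_left]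
      rw [h4]
      exact Ideal.mul_mem_left _ _ (Ideal.mem_map_of_mem φ h3)
    · exact Ideal.map_comap_le
  rw [h1]
  exact Ideal.FG.map (IsNoetherian.noetherian _) φ

theorem numberField_of_finite {L : Type*} [Field L] [Algebra ℚ L] (K₀ : IntermediateField ℚ L)
    [h : FiniteDimensional ℚ K₀] : NumberField K₀ := by
  haveI : CharZero L := algebraRat.charZero L
  refine { to_charZero := inferInstance, to_finiteDimensional := ?_ }
  convert h
  exact Subsingleton.elim _ _

/-- A nonzero family of elements of a number field, integral at `A`, has an element dividing all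
the others. -/
theorem exists_content {L : Type*} [Field L] [Algebra ℚ L] (A : ValuationSubring L) {ℓ : ℕ}
    (hℓ : ℓ.Prime) (hA : A.LiesOverPrime ℓ) (K₀ : IntermediateField ℚ L)
    [FiniteDimensional ℚ K₀] (T : Set L) (hTA : ∀ t ∈ T, t ∈ A) (hTK : ∀ t ∈ T, t ∈ K₀)
    (hne : ∃ t ∈ T, t ≠ 0) : ∃ t ∈ T, t ≠ 0 ∧ ∀ s ∈ T, s / t ∈ A := by
  classical
  haveI : CharZero L := algebraRat.charZero L
  haveI : NumberField K₀ := numberField_of_finite K₀
  set A₀ : ValuationSubring K₀ := A.comap (algebraMap K₀ L) with hA₀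
  have hA₀ℓ : A₀.LiesOverPrime ℓ := by
    change ((ℓ : ℕ) : K₀) ∈ A₀.nonunits
    rw [Frob.mem_nonunits_iff_inv]
    have h := (Frob.mem_nonunits_iff_inv A).1 hA
    rcases h with h | h
    · left
      exact_mod_cast h
    · right
      intro h2
      apply h
      have : algebraMap K₀ L ((ℓ : K₀)⁻¹) ∈ A := h2
      simpa using this
  haveI := isNoetherianRing_valuationSubring A₀ hℓ hA₀ℓ
  let S : Set (Ideal A₀) := {I | ∃ (t : L) (ht : t ∈ T),
    I = Ideal.span {(⟨⟨t, hTK t ht⟩, hTA t ht⟩ : A₀)}}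
  obtain ⟨t₀, ht₀, ht₀0⟩ := hne
  obtain ⟨M, ⟨t, ht, rfl⟩, hmax⟩ := set_has_maximal_iff_noetherian.mpr
    (inferInstance : IsNoetherian A₀ A₀) S ⟨_, t₀, ht₀, rfl⟩
  have key : ∀ s (hs : s ∈ T), (⟨⟨t, hTK t ht⟩, hTA t ht⟩ : A₀) ∣ ⟨⟨s, hTK s hs⟩, hTA s hs⟩ := by
    intro s hs
    rcases ValuationRing.dvd_total (⟨⟨t, hTK t ht⟩, hTA t ht⟩ : A₀) ⟨⟨s, hTK s hs⟩, hTA s hs⟩
      with h | h
    · exact h
    · have h1 := hmax _ ⟨s, hs, rfl⟩
      rw [← Ideal.span_singleton_le_span_singleton] at h ⊢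
      by_contra h2
      exact h1 (lt_of_le_not_ge h h2)
  refine ⟨t, ht, ?_, fun s hs => ?_⟩
  · rintro rfl
    obtain ⟨c, hc⟩ := key t₀ ht₀
    have h1 := congrArg (fun y : A₀ => ((y : K₀) : L)) hc
    simp only [MulMemClass.coe_mul, IntermediateField.coe_mul] at h1
    apply ht₀0
    rw [h1, zero_mul]
  · obtain ⟨c, hc⟩ := key s hs
    have h1 : s = t * ((c : K₀) : L) := congrArg (fun y : A₀ => ((y : K₀) : L)) hc
    rcases eq_or_ne t 0 with h0 | h0
    · rw [h0, div_zero]; exact A.zero_mem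
    · rw [h1, mul_div_cancel_left₀ _ h0]
      exact c.2

end Fermat.Agent.Red
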