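import Fermat.Agent.Red.Lattice
import Fermat.Agent.Red.Eval

/-!
# Extension of constants from `K` to `K(x)`; integral equations
-/

set_option autoImplicit false
set_option linter.unusedSectionVars false
set_option linter.style.haveILetI false
set_option linter.unusedVariables false

open AlgebraicCurve IntermediateField
open scoped IntermediateField.algebraAdjoinAdjoin

namespace Fermat.Agent.Red

open Fermat.Agent.FF

variable {K k : Type*} [Field K] [Field k] {A : ValuationSubring K} {π : A →+* k}
  {F Fk : Type*} [Field F] [Algebra K F] [Field Fk] [Algebra k Fk]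

/-- Gauss: every polynomial is a constant times a polynomial over `A` with nonzero reduction -/
theorem exists_primitive (A : ValuationSubring K) (π : A →+* k) (p : Polynomial K) (hp : p ≠ 0) :
    ∃ (α : K) (q : Polynomial A), α ≠ 0 ∧ p = Polynomial.C α * q.map A.subtype ∧
      q.map π ≠ 0 := by
  classical
  obtain ⟨i₀, hi₀⟩ : ∃ i, p.coeff i ≠ 0 := by
    by_contra h
    push Not at h
    exact hp (Polynomial.ext fun i => by simpa using h i)
  obtain ⟨i, hi, hi0, hmax⟩ := exists_max A p.support p.coeff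
    ⟨i₀, Polynomial.mem_support_iff.mpr hi₀, hi₀⟩
  have hmax' : ∀ j, p.coeff j / p.coeff i ∈ A := by
    intro j
    by_cases hj : p.coeff j = 0
    · rw [hj, zero_div]; exact A.zero_mem
    · exact hmax j (Polynomial.mem_support_iff.mpr hj)
  refine ⟨p.coeff i, ∑ j ∈ p.support, Polynomial.monomial j ⟨p.coeff j / p.coeff i, hmax' j⟩,
    hi0, ?_, ?_⟩
  · ext j
    rw [Polynomial.coeff_C_mul, Polynomial.coeff_map, Polynomial.finsetSum_coeff]
    simp only [Polynomial.coeff_monomial, Finset.sum_ite_eq']
    split_ifs with h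
    · change _ = p.coeff i * (p.coeff j / p.coeff i)
      field_simp
    · rw [map_zero, mul_zero]
      simpa using h
  · intro h
    have h1 := congrArg (fun q => Polynomial.coeff q i) h
    simp only [Polynomial.coeff_map, Polynomial.finsetSum_coeff, Polynomial.coeff_monomial,
      Finset.sum_ite_eq', Polynomial.coeff_zero] at h1
    rw [if_pos hi] at h1
    have h2 : (⟨p.coeff i / p.coeff i, hmax' i⟩ : A) = 1 := Subtype.ext (div_self hi0)
    rw [h2, map_one] at h1
    exact one_ne_zero h1

variable (A) in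
/-- the ring homomorphism `A[X] → F`, `X ↦ x`. -/
noncomputable def theta (x : F) : Polynomial A →+* F :=
  Polynomial.eval₂RingHom ((algebraMap K F).comp A.subtype) x

variable (π) in
/-- the ring homomorphism `A[X] → Fk`, `X ↦ xb`. -/
noncomputable def thetak (xb : Fk) : Polynomial A →+* Fk :=
  Polynomial.eval₂RingHom ((algebraMap k Fk).comp π) xb

theorem theta_apply (x : F) (q : Polynomial A) :
    theta A x q = Polynomial.aeval x (q.map A.subtype) := by
  rw [theta, Polynomial.coe_eval₂RingHom, Polynomial.aeval_def, Polynomial.eval₂_map]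

theorem thetak_apply (xb : Fk) (q : Polynomial A) :
    thetak π xb q = Polynomial.aeval xb (q.map π) := by
  rw [thetak, Polynomial.coe_eval₂RingHom, Polynomial.aeval_def, Polynomial.eval₂_map]

variable {R : ConstRed A π F Fk} {x : F} {xb : Fk}

theorem ConstRed.IsRed.theta (hx : R.IsRed x xb) (q : Polynomial A) :
    R.IsRed (theta A x q) (thetak π xb q) := hx.aeval q

theorem thetak_ne_zero (hxb : Transcendental k xb) {q : Polynomial A} (hq : q.map π ≠ 0) :
    thetak π xb q ≠ 0 := by
  rw [thetak_apply]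
  intro h
  exact hxb ⟨_, hq, h⟩

/-- A polynomial in `x` which is integral for the reduction has integral coefficients. -/
theorem exists_poly_of_isRed (hx : R.IsRed x xb) (hxb : Transcendental k xb) {p : Polynomial K}
    (h : Polynomial.aeval x p ∈ R.O) : ∃ q : Polynomial A, q.map A.subtype = p := by
  rcases eq_or_ne p 0 with rfl | hp
  · exact ⟨0, by simp⟩
  obtain ⟨α, q, hα, rfl, hq⟩ := exists_primitive A π p hp
  rw [map_mul, Polynomial.aeval_C, ← theta_apply] at h
  have h1 := (hx.theta q).inv (thetak_ne_zero hxb hq)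
  have h2 := mul_mem h h1.mem
  rw [mul_assoc, mul_inv_cancel₀ ((hx.theta q).ne_zero (thetak_ne_zero hxb hq)), mul_one,
    R.algebraMap_mem_iff] at h2
  refine ⟨Polynomial.C ⟨α, h2⟩ * q, ?_⟩
  rw [Polynomial.map_mul, Polynomial.map_C]
  rfl

/-- the reduction of an element of `K(x)` is in `k(xb)`. -/
theorem mem_adjoin_of_isRed (hx : R.IsRed x xb) (hxb : Transcendental k xb) (c : K⟮x⟯) {ζ : Fk}
    (h : R.IsRed (c : F) ζ) : ζ ∈ k⟮xb⟯ := by
  obtain ⟨c, hc⟩ := c
  have hc' := hc
  rw [IntermediateField.mem_adjoin_simple_iff] at hc'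
  obtain ⟨r, s, hrs⟩ := hc'
  change R.IsRed c ζ at h
  by_cases hr : r = 0
  · subst hr
    rw [map_zero, zero_div] at hrs
    rw [hrs] at h
    rw [h.unique R.isRed_zero]
    exact zero_mem _
  by_cases hs : s = 0
  · subst hs
    rw [map_zero, div_zero] at hrs
    rw [hrs] at h
    rw [h.unique R.isRed_zero]
    exact zero_mem _
  obtain ⟨α, q, hα, rfl, hq⟩ := exists_primitive A π r hr
  obtain ⟨β, q', hβ, rfl, hq'⟩ := exists_primitive A π s hs
  rw [map_mul, map_mul, Polynomial.aeval_C, Polynomial.aeval_C, ← theta_apply, ← theta_apply,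
    mul_div_mul_comm, ← map_div₀] at hrs
  have h1 := (hx.theta q).div (hx.theta q') (thetak_ne_zero hxb hq')
  have hne : thetak π xb q / thetak π xb q' ≠ 0 :=
    div_ne_zero (thetak_ne_zero hxb hq) (thetak_ne_zero hxb hq')
  have hne' := h1.ne_zero hne
  have h2 := h.div h1 hne
  have h3 : c / (theta A x q / theta A x q') = algebraMap K F (α / β) := by
    rw [hrs, mul_div_assoc, div_self hne', mul_one]
  rw [h3] at h2
  have h4 := (R.algebraMap_mem_iff _).1 h2.mem
  have h5 := h2.unique (R.isRed_algebraMap h4)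
  have h6 : ζ = algebraMap k Fk (π ⟨α / β, h4⟩) * (thetak π xb q / thetak π xb q') := by
    rw [← h5, div_mul_cancel₀ _ hne]
  rw [h6]
  refine mul_mem (IntermediateField.algebraMap_mem _ _) (div_mem ?_ ?_)
  · rw [thetak_apply]
    exact IntermediateField.algebra_adjoin_le_adjoin _ _ (Polynomial.aeval_mem_adjoin_singleton k xb)
  · rw [thetak_apply]
    exact IntermediateField.algebra_adjoin_le_adjoin _ _ (Polynomial.aeval_mem_adjoin_singleton k xb)

variable (hx : R.IsRed x xb) (hxb : Transcendental k xb)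

/-- the Gauss valuation ring of `K(x)` -/
def gaussRing (R : ConstRed A π F Fk) (x : F) : ValuationSubring K⟮x⟯ :=
  R.O.comap (algebraMap K⟮x⟯ F)

theorem mem_gaussRing {c : K⟮x⟯} : c ∈ gaussRing R x ↔ (c : F) ∈ R.O := Iff.rfl

/-- the residue map of the Gauss valuation ring -/
def gaussRed : gaussRing R x →+* k⟮xb⟯ :=
  (R.red.comp (((algebraMap K⟮x⟯ F).comp (gaussRing R x).subtype).codRestrict R.O.toSubring
    fun c => c.2)).codRestrict k⟮xb⟯.toSubfield.toSubring fun c =>
      mem_adjoin_of_isRed hx hxb (c : K⟮x⟯) ⟨c.2, rfl⟩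

theorem coe_gaussRed (c : gaussRing R x) :
    ((gaussRed hx hxb c : k⟮xb⟯) : Fk) = R.red ⟨((c : K⟮x⟯) : F), c.2⟩ := rfl

/-- extension of constants -/
def ConstRed.ext : ConstRed (gaussRing R x) (gaussRed hx hxb) F Fk where
  O := R.O
  algebraMap_mem_iff _ := Iff.rfl
  red := R.red
  red_surjective := R.red_surjective
  red_eq_zero_iff := R.red_eq_zero_iff
  red_algebraMap _ := rfl
  exists_scale f hf := by
    obtain ⟨c, hc, h1, h2⟩ := R.exists_scale f hf
    exact ⟨algebraMap K K⟮x⟯ c, by simpa using hc, h1, h2⟩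

theorem ext_isRed {f : F} {z : Fk} : (ConstRed.ext hx hxb).IsRed f z ↔ R.IsRed f z := Iff.rfl

theorem coe_orth {ι : Type*} {w : ι → F} {wb : ι → Fk} (hw : ∀ i, R.IsRed (w i) (wb i))
    (hwb : LinearIndependent k⟮xb⟯ wb) : Orth (ConstRed.ext hx hxb) w wb := ⟨hw, hwb⟩

end Fermat.Agent.Red
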