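import Fermat.Agent.Red.Basic
import Fermat.Prelude.Def_ModularCurve_LaurentCoeff

/-!
# Gauss valuations on subfields of `L((q))`
-/

set_option autoImplicit false
set_option linter.unusedSectionVars false
set_option linter.style.haveILetI false
set_option linter.unusedVariables false

noncomputable section

open AlgebraicCurve IntermediateField ModularCurve

namespace Fermat.Agent.Red

variable {L k : Type*} [Field L] [Field k] {A : ValuationSubring L} {π : A →+* k}

theorem coeffMap_injective' {R S : Type*} [CommRing R] [CommRing S] (f : R →+* S)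
    (hf : Function.Injective f) : Function.Injective (coeffMap f) := by
  intro x y h
  ext n
  apply hf
  rw [← coeffMap_coeff, ← coeffMap_coeff, h]

theorem coeffMap_single_zero {R S : Type*} [CommRing R] [CommRing S] (f : R →+* S) (r : R) :
    coeffMap f (HahnSeries.C r) = HahnSeries.C (f r) := by
  change coeffMap f (HahnSeries.single 0 r) = HahnSeries.single 0 (f r)
  rw [coeffMap_single]

theorem algebraMap_eq_C (c : L) : algebraMap L (LaurentSeries L) c = HahnSeries.C c :=
  algebraMap_laurentSeries_eq_single L c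

variable (A) in
/-- the inclusion `A((q)) → L((q))` -/
abbrev iotaA : LaurentSeries A →+* LaurentSeries L := coeffMap A.subtype

variable (π) in
/-- the reduction `A((q)) → k((q))` -/
abbrev rhoA : LaurentSeries A →+* LaurentSeries k := coeffMap π

theorem iotaA_injective : Function.Injective (iotaA A) :=
  coeffMap_injective' _ Subtype.coe_injective

variable (π) in
/-- `GRed π f z`: the series `f = a / b` with `a b ∈ A((q))`, `b` with nonzero reduction, and
`z` is the quotient of the reductions. -/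
def GRed (f : LaurentSeries L) (z : LaurentSeries k) : Prop :=
  ∃ a b : LaurentSeries A, rhoA π b ≠ 0 ∧ f * iotaA A b = iotaA A a ∧ z * rhoA π b = rhoA π a

theorem GRed.unique {f : LaurentSeries L} {z z' : LaurentSeries k} (h : GRed π f z)
    (h' : GRed π f z') : z = z' := by
  obtain ⟨a, b, hb, h1, h2⟩ := h
  obtain ⟨a', b', hb', h1', h2'⟩ := h'
  have h3 : a * b' = a' * b := by
    apply iotaA_injective (A := A)
    rw [map_mul, map_mul, ← h1, ← h1']
    ring
  have h4 := congrArg (rhoA π) h3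
  rw [map_mul, map_mul, ← h2, ← h2'] at h4
  apply mul_right_cancel₀ hb
  apply mul_right_cancel₀ hb'
  rw [h4]
  ring

theorem GRed.add {f f' : LaurentSeries L} {z z' : LaurentSeries k} (h : GRed π f z)
    (h' : GRed π f' z') : GRed π (f + f') (z + z') := by
  obtain ⟨a, b, hb, h1, h2⟩ := h
  obtain ⟨a', b', hb', h1', h2'⟩ := h'
  refine ⟨a * b' + a' * b, b * b', ?_, ?_, ?_⟩
  · rw [map_mul]; exact mul_ne_zero hb hb'
  · rw [map_mul, map_add, map_mul, map_mul, ← h1, ← h1']; ring
  · rw [map_mul, map_add, map_mul, map_mul, ← h2, ← h2']; ring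

theorem GRed.mul {f f' : LaurentSeries L} {z z' : LaurentSeries k} (h : GRed π f z)
    (h' : GRed π f' z') : GRed π (f * f') (z * z') := by
  obtain ⟨a, b, hb, h1, h2⟩ := h
  obtain ⟨a', b', hb', h1', h2'⟩ := h'
  refine ⟨a * a', b * b', ?_, ?_, ?_⟩
  · rw [map_mul]; exact mul_ne_zero hb hb'
  · rw [map_mul, map_mul, ← h1, ← h1']; ring
  · rw [map_mul, map_mul, ← h2, ← h2']; ring

theorem GRed.neg {f : LaurentSeries L} {z : LaurentSeries k} (h : GRed π f z) :
    GRed π (-f) (-z) := by
  obtain ⟨a, b, hb, h1, h2⟩ := h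
  exact ⟨-a, b, hb, by rw [map_neg, ← h1]; ring, by rw [map_neg, ← h2]; ring⟩

variable (π) in
theorem gRed_iota (a : LaurentSeries A) : GRed π (iotaA A a) (rhoA π a) :=
  ⟨a, 1, by rw [map_one]; exact one_ne_zero, by rw [map_one, mul_one], by rw [map_one, mul_one]⟩

variable (π) in
theorem gRed_zero : GRed π (0 : LaurentSeries L) 0 := by
  have := gRed_iota π 0
  rwa [map_zero, map_zero] at this

variable (π) in
theorem gRed_one : GRed π (1 : LaurentSeries L) 1 := by
  have := gRed_iota π 1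
  rwa [map_one, map_one] at this

variable (π) in
theorem gRed_C (a : A) : GRed π (HahnSeries.C (a : L)) (HahnSeries.C (π a)) := by
  have := gRed_iota π (HahnSeries.C a)
  rw [iotaA, rhoA, coeffMap_single_zero, coeffMap_single_zero] at this
  exact this

variable (π) in
theorem gRed_algebraMap (a : A) : GRed π (algebraMap L (LaurentSeries L) a)
    (algebraMap k (LaurentSeries k) (π a)) := by
  rw [algebraMap_eq_C, algebraMap_eq_C]
  exact gRed_C π a

theorem GRed.inv {f : LaurentSeries L} {z : LaurentSeries k} (h : GRed π f z) (hz : z ≠ 0) :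
    GRed π f⁻¹ z⁻¹ := by
  obtain ⟨a, b, hb, h1, h2⟩ := h
  have ha : rhoA π a ≠ 0 := by rw [← h2]; exact mul_ne_zero hz hb
  have hf : f ≠ 0 := by
    rintro rfl
    rw [zero_mul] at h1
    have h3 : a = 0 := by
      apply iotaA_injective (A := A)
      rw [← h1, map_zero]
    rw [h3, map_zero] at ha
    exact ha rfl
  refine ⟨b, a, ha, ?_, ?_⟩
  · rw [← h1]; field_simp
  · rw [← h2]; field_simp

theorem GRed.ne_zero {f : LaurentSeries L} {z : LaurentSeries k} (h : GRed π f z) (hz : z ≠ 0) :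
    f ≠ 0 := by
  rintro rfl
  exact hz (h.unique (gRed_zero π))

/-- Constants integral for the Gauss valuation are in `A`. -/
theorem mem_of_gRed_C (hπ : ∀ a : A, π a = 0 ↔ ¬ IsUnit a) {c : L} {z : LaurentSeries k}
    (h : GRed π (HahnSeries.C c) z) : c ∈ A := by
  by_contra hc
  have hc0 : c ≠ 0 := by rintro rfl; exact hc A.zero_mem
  have hinv : c⁻¹ ∈ A := (A.mem_or_inv_mem c).resolve_left hc
  have h1 : π ⟨c⁻¹, hinv⟩ = 0 := by
    rw [hπ]
    intro hu
    obtain ⟨b, hb⟩ := hu.exists_right_inv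
    have hb' : c⁻¹ * (b : L) = 1 := congrArg Subtype.val hb
    have : (b : L) = c := by field_simp at hb'; exact hb'
    exact hc (this ▸ b.2)
  have h2 := (gRed_C π ⟨c⁻¹, hinv⟩).mul h
  rw [h1, map_zero, zero_mul] at h2
  have h3 : (HahnSeries.C c⁻¹ : LaurentSeries L) * HahnSeries.C c = 1 := by
    rw [← map_mul, inv_mul_cancel₀ hc0, map_one]
  change GRed π (HahnSeries.C c⁻¹ * HahnSeries.C c) 0 at h2
  rw [h3] at h2
  exact one_ne_zero ((gRed_one π).unique h2)

variable (π) in
/-- A subfield of `L((q))` to which the Gauss valuation extends well. -/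
structure GaussField (E : IntermediateField L (LaurentSeries L)) : Prop where
  exists_frac : ∀ f ∈ E, f ≠ 0 → ∃ (c : L) (a b : LaurentSeries A), c ≠ 0 ∧ rhoA π a ≠ 0 ∧
    rhoA π b ≠ 0 ∧ iotaA A a ∈ E ∧ iotaA A b ∈ E ∧
    f * iotaA A b = algebraMap L (LaurentSeries L) c * iotaA A a

variable {E : IntermediateField L (LaurentSeries L)}

theorem GaussField.exists_scale (hE : GaussField π E) {f : LaurentSeries L} (hf : f ∈ E)
    (hf0 : f ≠ 0) : ∃ (c : L) (z : LaurentSeries k), c ≠ 0 ∧ z ≠ 0 ∧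
      GRed π (algebraMap L (LaurentSeries L) c * f) z := by
  obtain ⟨c, a, b, hc, ha, hb, -, -, h⟩ := hE.exists_frac f hf hf0
  refine ⟨c⁻¹, rhoA π a / rhoA π b, inv_ne_zero hc, div_ne_zero ha hb, a, b, hb, ?_, ?_⟩
  · rw [mul_assoc, h, ← mul_assoc, ← map_mul, inv_mul_cancel₀ hc, map_one, one_mul]
  · field_simp

/-- The valuation ring of the Gauss valuation. -/
def gaussO (hE : GaussField π E) (hπ : ∀ a : A, π a = 0 ↔ ¬ IsUnit a) : ValuationSubring E where
  carrier := {f | ∃ z, GRed π (f : LaurentSeries L) z}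
  mul_mem' := by
    rintro f g ⟨z, hz⟩ ⟨w, hw⟩
    exact ⟨z * w, hz.mul hw⟩
  one_mem' := ⟨1, gRed_one π⟩
  add_mem' := by
    rintro f g ⟨z, hz⟩ ⟨w, hw⟩
    exact ⟨z + w, hz.add hw⟩
  zero_mem' := ⟨0, gRed_zero π⟩
  neg_mem' := by
    rintro f ⟨z, hz⟩
    exact ⟨-z, hz.neg⟩
  mem_or_inv_mem' := by
    intro f
    by_cases hf : (f : LaurentSeries L) = 0
    · left
      exact ⟨0, by rw [hf]; exact gRed_zero π⟩
    obtain ⟨c, z, hc, hz, hcf⟩ := hE.exists_scale f.2 hf
    have hc' : algebraMap L (LaurentSeries L) c ≠ 0 := by simpa using hc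
    rcases A.mem_or_inv_mem c with h | h
    · right
      have h1 := (gRed_algebraMap π ⟨c, h⟩).mul (hcf.inv hz)
      have h2 : algebraMap L (LaurentSeries L) c * (algebraMap L (LaurentSeries L) c * f)⁻¹ =
          ((f⁻¹ : E) : LaurentSeries L) := by
        rw [mul_inv, ← mul_assoc, mul_inv_cancel₀ hc', one_mul]
        rfl
      rw [h2] at h1
      exact ⟨_, h1⟩
    · left
      have h1 := (gRed_algebraMap π ⟨c⁻¹, h⟩).mul hcf
      have h2 : algebraMap L (LaurentSeries L) c⁻¹ * (algebraMap L (LaurentSeries L) c * f) =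
          (f : LaurentSeries L) := by
        rw [← mul_assoc, ← map_mul, inv_mul_cancel₀ hc, map_one, one_mul]
      rw [h2] at h1
      exact ⟨_, h1⟩

theorem mem_gaussO {hE : GaussField π E} {hπ : ∀ a : A, π a = 0 ↔ ¬ IsUnit a} {f : E} :
    f ∈ gaussO hE hπ ↔ ∃ z, GRed π (f : LaurentSeries L) z := Iff.rfl

/-- The Gauss reduction as a constant reduction. -/
def gaussConstRed (hE : GaussField π E) (hπ : ∀ a : A, π a = 0 ↔ ¬ IsUnit a)
    (Ek : IntermediateField k (LaurentSeries k))
    (h1 : ∀ (f : LaurentSeries L) (z : LaurentSeries k), f ∈ E → GRed π f z → z ∈ Ek)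
    (h2 : ∀ z ∈ Ek, ∃ f ∈ E, GRed π f z) : ConstRed A π E Ek where
  O := gaussO hE hπ
  algebraMap_mem_iff a := by
    constructor
    · rintro ⟨z, hz⟩
      change GRed π (algebraMap L (LaurentSeries L) a) z at hz
      rw [algebraMap_eq_C] at hz
      exact mem_of_gRed_C hπ hz
    · intro ha
      exact ⟨_, gRed_algebraMap π ⟨a, ha⟩⟩
  red :=
    { toFun := fun f => ⟨f.2.choose, h1 _ _ (f : E).2 f.2.choose_spec⟩
      map_one' := Subtype.ext (GRed.unique (Exists.choose_spec _) (gRed_one π))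
      map_mul' := fun f g => Subtype.ext (GRed.unique (Exists.choose_spec _)
        (f.2.choose_spec.mul g.2.choose_spec))
      map_zero' := Subtype.ext (GRed.unique (Exists.choose_spec _) (gRed_zero π))
      map_add' := fun f g => Subtype.ext (GRed.unique (Exists.choose_spec _)
        (f.2.choose_spec.add g.2.choose_spec)) }
  red_surjective := by
    rintro ⟨z, hz⟩
    obtain ⟨f, hf, hfz⟩ := h2 z hz
    refine ⟨⟨⟨f, hf⟩, z, hfz⟩, ?_⟩
    exact Subtype.ext (GRed.unique (Exists.choose_spec _) hfz)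
  red_eq_zero_iff := by
    intro f
    constructor
    · intro h hu
      obtain ⟨g, hg⟩ := hu.exists_right_inv
      have h3 : f.2.choose = 0 := congrArg Subtype.val h
      have h4 := f.2.choose_spec.mul g.2.choose_spec
      rw [h3, zero_mul] at h4
      have h5 : ((f : E) : LaurentSeries L) * ((g : E) : LaurentSeries L) = 1 :=
        congrArg (fun y : gaussO hE hπ => ((y : E) : LaurentSeries L)) hg
      rw [h5] at h4
      exact one_ne_zero ((gRed_one π).unique h4)
    · intro hu
      by_contra h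
      have h3 : f.2.choose ≠ 0 := fun h0 => h (Subtype.ext h0)
      have h4 := f.2.choose_spec.inv h3
      apply hu
      have hf0 : (f : E) ≠ 0 := by
        intro h0
        exact f.2.choose_spec.ne_zero h3 (congrArg Subtype.val h0)
      exact IsUnit.of_mul_eq_one ⟨(f : E)⁻¹, _, h4⟩ (Subtype.ext (mul_inv_cancel₀ hf0))
  red_algebraMap a := by
    apply Subtype.ext
    exact GRed.unique (Exists.choose_spec _) (gRed_algebraMap π a)
  exists_scale := by
    intro f hf
    have hf' : (f : LaurentSeries L) ≠ 0 := fun h => hf (Subtype.ext h)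
    obtain ⟨c, z, hc, hz, hcf⟩ := hE.exists_scale f.2 hf'
    exact ⟨c, hc, ⟨z, hcf⟩, ⟨z⁻¹, hcf.inv hz⟩⟩

theorem gaussConstRed_isRed {hE : GaussField π E} {hπ : ∀ a : A, π a = 0 ↔ ¬ IsUnit a}
    {Ek : IntermediateField k (LaurentSeries k)}
    {h1 : ∀ (f : LaurentSeries L) (z : LaurentSeries k), f ∈ E → GRed π f z → z ∈ Ek}
    {h2 : ∀ z ∈ Ek, ∃ f ∈ E, GRed π f z} {f : E} {z : Ek} :
    (gaussConstRed hE hπ Ek h1 h2).IsRed f z ↔ GRed π (f : LaurentSeries L) z := by
  constructor
  · rintro ⟨h, rfl⟩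
    exact (h : ∃ z, GRed π (f : LaurentSeries L) z).choose_spec
  · intro h
    have h3 : ∃ z, GRed π (f : LaurentSeries L) z := ⟨z, h⟩
    exact ⟨h3, Subtype.ext (GRed.unique h3.choose_spec h)⟩

variable (π) in
/-- The residue field of the Gauss valuation of `E`. -/
def gaussRes (E : IntermediateField L (LaurentSeries L)) (hπ : Function.Surjective π) :
    IntermediateField k (LaurentSeries k) where
  carrier := {z | ∃ f ∈ E, GRed π f z}
  mul_mem' := by
    rintro z w ⟨f, hf, hz⟩ ⟨g, hg, hw⟩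
    exact ⟨f * g, mul_mem hf hg, hz.mul hw⟩
  one_mem' := ⟨1, one_mem _, gRed_one π⟩
  add_mem' := by
    rintro z w ⟨f, hf, hz⟩ ⟨g, hg, hw⟩
    exact ⟨f + g, add_mem hf hg, hz.add hw⟩
  zero_mem' := ⟨0, zero_mem _, gRed_zero π⟩
  algebraMap_mem' := by
    intro r
    obtain ⟨a, rfl⟩ := hπ r
    exact ⟨_, E.algebraMap_mem _, gRed_algebraMap π a⟩
  inv_mem' := by
    rintro z ⟨f, hf, hz⟩
    by_cases h0 : z = 0
    · refine ⟨0, zero_mem _, ?_⟩
      rw [h0, inv_zero]
      exact gRed_zero π
    · exact ⟨f⁻¹, inv_mem hf, hz.inv h0⟩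

theorem mem_gaussRes {hπ : Function.Surjective π} {z : LaurentSeries k} :
    z ∈ gaussRes π E hπ ↔ ∃ f ∈ E, GRed π f z := Iff.rfl

end Fermat.Agent.Red
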