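import Fermat.Agent.Red.Gauss
import Fermat.Agent.Red.Content
import Fermat.Agent.Red.Lattice

/-!
# The Gauss valuation on fields generated by integral `q`-series
-/

set_option autoImplicit false
set_option linter.unusedSectionVars false
set_option linter.style.haveILetI false
set_option linter.unusedVariables false

noncomputable section

open AlgebraicCurve IntermediateField ModularCurve

namespace Fermat.Agent.Red

variable {L k : Type*} [Field L] [Field k] {A : ValuationSubring L} {π : A →+* k}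

/-- series with coefficients in `A` -/
theorem exists_iotaA (f : LaurentSeries L) (hf : ∀ n, f.coeff n ∈ A) :
    ∃ a : LaurentSeries A, iotaA A a = f := by
  refine ⟨⟨fun n => ⟨f.coeff n, hf n⟩, ?_⟩, ?_⟩
  · refine f.isPWO_support.mono ?_
    intro n hn
    rw [Function.mem_support] at hn
    rw [HahnSeries.mem_support]
    intro h
    exact hn (Subtype.ext h)
  · ext n
    rfl

theorem exists_scale_of_integral [Algebra ℚ L] {ℓ : ℕ} (hℓ : ℓ.Prime) (hA : A.LiesOverPrime ℓ)
    [Algebra.IsAlgebraic ℚ L] {ι : Type*} (s : Finset ι) (c : ι → L) (y : ι → LaurentSeries ℤ)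
    (P : LaurentSeries L)
    (hP : P = ∑ i ∈ s, algebraMap L (LaurentSeries L) (c i) * coeffMap (Int.castRingHom L) (y i))
    (hP0 : P ≠ 0) : ∃ (d : L) (a : LaurentSeries A), d ≠ 0 ∧ rhoA π a ≠ 0 ∧
      P = algebraMap L (LaurentSeries L) d * iotaA A a := by
  classical
  haveI : CharZero L := algebraRat.charZero L
  -- the coefficients of `P`
  have hcoeff : ∀ n, P.coeff n = ∑ i ∈ s, c i * (((y i).coeff n : ℤ) : L) := by
    intro n
    rw [hP, HahnSeries.coeff_sum]
    refine Finset.sum_congr rfl fun i _ => ?_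
    rw [algebraMap_eq_C, HahnSeries.C_mul_eq_smul, HahnSeries.coeff_smul, smul_eq_mul]
    rfl
  obtain ⟨i₀, hi₀s, hi₀⟩ : ∃ i ∈ s, c i ≠ 0 := by
    by_contra h
    push Not at h
    apply hP0
    rw [hP]
    refine Finset.sum_eq_zero fun i hi => ?_
    rw [h i hi, map_zero, zero_mul]
  obtain ⟨i₁, hi₁s, hi₁, hmax⟩ := exists_max A s c ⟨i₀, hi₀s, hi₀⟩
  set K₀ : IntermediateField ℚ L := IntermediateField.adjoin ℚ (s.image c : Set L) with hK₀
  haveI : FiniteDimensional ℚ K₀ := IntermediateField.finiteDimensional_adjoin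
    fun x _ => (Algebra.IsAlgebraic.isAlgebraic x).isIntegral
  have hcK : ∀ i ∈ s, c i ∈ K₀ := fun i hi =>
    IntermediateField.subset_adjoin _ _ (by exact_mod_cast Finset.mem_image_of_mem c hi)
  set T : Set L := Set.range fun n : ℤ => P.coeff n / c i₁ with hT
  have hTA : ∀ t ∈ T, t ∈ A := by
    rintro _ ⟨n, rfl⟩
    simp only
    rw [hcoeff, Finset.sum_div]
    refine sum_mem fun i hi => ?_
    rw [mul_div_right_comm]
    exact mul_mem (hmax i hi) (intCast_mem A _)
  have hTK : ∀ t ∈ T, t ∈ K₀ := by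
    rintro _ ⟨n, rfl⟩
    simp only
    rw [hcoeff]
    exact div_mem (sum_mem fun i hi => mul_mem (hcK i hi) (intCast_mem K₀ _)) (hcK i₁ hi₁s)
  have hne : ∃ t ∈ T, t ≠ 0 := by
    obtain ⟨n, hn⟩ : ∃ n, P.coeff n ≠ 0 := by
      by_contra h
      push Not at h
      exact hP0 (HahnSeries.ext (funext h))
    exact ⟨_, ⟨n, rfl⟩, div_ne_zero hn hi₁⟩
  obtain ⟨t, ⟨n₀, ht⟩, ht0, hdiv⟩ := exists_content A hℓ hA K₀ T hTA hTK hne
  have hd0 : c i₁ * t ≠ 0 := mul_ne_zero hi₁ ht0
  obtain ⟨a, ha⟩ := exists_iotaA (A := A) (algebraMap L (LaurentSeries L) (c i₁ * t)⁻¹ * P) (by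
    intro n
    rw [algebraMap_eq_C, HahnSeries.C_mul_eq_smul, HahnSeries.coeff_smul, smul_eq_mul]
    have := hdiv _ ⟨n, rfl⟩
    simp only at this
    have h2 : (c i₁ * t)⁻¹ * P.coeff n = P.coeff n / c i₁ / t := by
      field_simp
    rw [h2]
    exact this)
  refine ⟨c i₁ * t, a, hd0, ?_, ?_⟩
  · intro h
    have h1 : (iotaA A a).coeff n₀ = 1 := by
      rw [ha, algebraMap_eq_C, HahnSeries.C_mul_eq_smul, HahnSeries.coeff_smul, smul_eq_mul]
      have h2 : (c i₁ * t)⁻¹ * P.coeff n₀ = P.coeff n₀ / c i₁ / t := by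
        field_simp
      rw [h2]
      simp only at ht
      rw [ht, div_self ht0]
    have h2 : a.coeff n₀ = 1 := Subtype.ext h1
    have h3 := congrArg (fun x => HahnSeries.coeff x n₀) h
    simp only [coeffMap_coeff, h2, map_one, HahnSeries.coeff_zero] at h3
    exact one_ne_zero h3
  · rw [ha, ← mul_assoc, ← map_mul, mul_inv_cancel₀ hd0, map_one, one_mul]

/-- Fields generated by integral series. -/
theorem gaussField_adjoin [Algebra ℚ L] [Algebra.IsAlgebraic ℚ L] {ℓ : ℕ} (hℓ : ℓ.Prime)
    (hA : A.LiesOverPrime ℓ) (G : Set (LaurentSeries L))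
    (hG : ∀ g ∈ G, ∃ y : LaurentSeries ℤ, g = coeffMap (Int.castRingHom L) y) :
    GaussField π (IntermediateField.adjoin L G) where
  exists_frac := by
    classical
    have hrep : ∀ P ∈ Algebra.adjoin L G, ∃ (ι : Type) (_ : Fintype ι) (c : ι → L)
        (y : ι → LaurentSeries ℤ),
        P = ∑ i, algebraMap L (LaurentSeries L) (c i) * coeffMap (Int.castRingHom L) (y i) := by
      intro P hP
      induction hP using Algebra.adjoin_induction with
      | mem x hx =>
        obtain ⟨y, rfl⟩ := hG x hx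
        exact ⟨Unit, inferInstance, fun _ => 1, fun _ => y, by simp⟩
      | algebraMap r => exact ⟨Unit, inferInstance, fun _ => r, fun _ => 1, by simp⟩
      | add u v _ _ hu hv =>
        obtain ⟨ι, _, c, y, rfl⟩ := hu
        obtain ⟨ι', _, c', y', rfl⟩ := hv
        exact ⟨ι ⊕ ι', inferInstance, Sum.elim c c', Sum.elim y y', by simp⟩
      | mul u v _ _ hu hv =>
        obtain ⟨ι, _, c, y, rfl⟩ := hu
        obtain ⟨ι', _, c', y', rfl⟩ := hv
        refine ⟨ι × ι', inferInstance, fun p => c p.1 * c' p.2, fun p => y p.1 * y' p.2, ?_⟩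
        rw [Finset.sum_mul_sum, Fintype.sum_prod_type]
        refine Finset.sum_congr rfl fun i _ => Finset.sum_congr rfl fun j _ => ?_
        rw [map_mul, map_mul]
        ring
    have key : ∀ P ∈ Algebra.adjoin L G, P ≠ 0 → ∃ (d : L) (a : LaurentSeries A), d ≠ 0 ∧
        rhoA π a ≠ 0 ∧ P = algebraMap L (LaurentSeries L) d * iotaA A a := by
      intro P hP hP0
      obtain ⟨ι, _, c, y, hsum⟩ := hrep P hP
      exact exists_scale_of_integral hℓ hA Finset.univ c y P hsum hP0
    intro f hf hf0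
    rw [IntermediateField.mem_adjoin_iff_div] at hf
    obtain ⟨r, hr, s, hs, rfl⟩ := hf
    have hr0 : r ≠ 0 := by rintro rfl; simp at hf0
    have hs0 : s ≠ 0 := by rintro rfl; simp at hf0
    obtain ⟨d, a, hd, ha, hra⟩ := key r hr hr0
    obtain ⟨e, b, he, hb, hsb⟩ := key s hs hs0
    have hd' : algebraMap L (LaurentSeries L) d ≠ 0 := by simpa using hd
    have he' : algebraMap L (LaurentSeries L) e ≠ 0 := by simpa using he
    have haE : iotaA A a = algebraMap L (LaurentSeries L) d⁻¹ * r := by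
      rw [hra, ← mul_assoc, ← map_mul, inv_mul_cancel₀ hd, map_one, one_mul]
    have hbE : iotaA A b = algebraMap L (LaurentSeries L) e⁻¹ * s := by
      rw [hsb, ← mul_assoc, ← map_mul, inv_mul_cancel₀ he, map_one, one_mul]
    refine ⟨d / e, a, b, div_ne_zero hd he, ha, hb, ?_, ?_, ?_⟩
    · rw [haE]
      exact mul_mem (IntermediateField.algebraMap_mem _ _)
        (IntermediateField.algebra_adjoin_le_adjoin _ _ hr)
    · rw [hbE]
      exact mul_mem (IntermediateField.algebraMap_mem _ _)
        (IntermediateField.algebra_adjoin_le_adjoin _ _ hs)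
    · have hb0 : iotaA A b ≠ 0 := by
        intro h
        rw [hsb, h, mul_zero] at hs0
        exact hs0 rfl
      rw [hra, hsb, map_div₀]
      field_simp

end Fermat.Agent.Red
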