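import Fermat.Agent.Red.JFixed
import Fermat.Agent.Cusp.Fricke

/-!
# The residue discs of the cusps of `X₀(p)` modulo `ℓ ≠ p`
-/

set_option autoImplicit false
set_option linter.unusedSectionVars false
set_option linter.style.haveILetI false
set_option linter.unusedVariables false

noncomputable section

open AlgebraicCurve IntermediateField Module ModularCurve Fermat.Agent.Cusp Fermat.Agent.JZ

namespace Fermat.Agent.Red

open Fermat.Agent.FF

section General

variable {K k : Type*} [Field K] [Field k] {A : ValuationSubring K} {π : A →+* k}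
  {F Fk : Type*} [Field F] [Algebra K F] [Field Fk] [Algebra k Fk]
  {R : ConstRed A π F Fk}

theorem Spec.add_ord_le' [CharZero K] [IsFnField K F] (S : Spec R) {f : F} {z : Fk}
    (h : R.IsRed f z) (hz : z ≠ 0) (Q : Place k Fk) {P P' : Place K F}
    (hreg : ∀ P', S.r P' = Q → P' ≠ P → 0 ≤ P'.ord f) (hP : S.r P = Q) (hP' : S.r P' = Q)
    (hne : P' ≠ P) : P.ord f + P'.ord f ≤ Q.ord z := by
  classical
  rw [S.ord_eq_sum h hz Q]
  set s := {P'' ∈ (divOf (K := K) f).support | S.r P'' = Q} with hs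
  have h0 : ∑ P'' ∈ insert P (insert P' s), P''.ord f = ∑ P'' ∈ s, P''.ord f := by
    symm
    apply Finset.sum_subset (fun x hx => Finset.mem_insert_of_mem (Finset.mem_insert_of_mem hx))
    intro x hx hxs
    have hxQ : S.r x = Q := by
      rw [Finset.mem_insert, Finset.mem_insert] at hx
      rcases hx with rfl | rfl | hx
      · exact hP
      · exact hP'
      · exact absurd hx hxs
    by_contra hx0
    apply hxs
    rw [hs, Finset.mem_filter, Finsupp.mem_support_iff]
    exact ⟨hx0, hxQ⟩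
  rw [← h0]
  have hsub : ({P, P'} : Finset (Place K F)) ⊆ insert P (insert P' s) := by
    intro x hx
    rw [Finset.mem_insert, Finset.mem_singleton] at hx
    rw [Finset.mem_insert, Finset.mem_insert]
    rcases hx with rfl | rfl
    · exact Or.inl rfl
    · exact Or.inr (Or.inl rfl)
  have h1 := Finset.sum_le_sum_of_subset_of_nonneg (f := fun P : Place K F => P.ord f) hsub
    (fun P'' hP'' hP2 => by
      rw [Finset.mem_insert, Finset.mem_insert] at hP''
      rw [Finset.mem_insert, Finset.mem_singleton, not_or] at hP2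
      refine hreg P'' ?_ hP2.1
      rcases hP'' with h | h | h
      · exact absurd h hP2.1
      · exact absurd h hP2.2
      · rw [hs, Finset.mem_filter] at h
        exact h.2)
  rwa [Finset.sum_pair hne.symm] at h1

variable {x : F} {xb : Fk} [IsAlgClosed K] [IsFnField K F] [IsAlgClosed k] [IsFnField k Fk]
  (hC : Chart R x xb) (hC' : Chart R x⁻¹ xb⁻¹)

/-- the places where `x` is not integral are those of the polar discs -/
theorem spec_ord_neg_iff {P : Place K F} :
    (spec hC hC' P).ord xb < 0 ↔ ¬ ∃ a : A, HasVal P x a := by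
  constructor
  · intro h1 h2
    have h3 : Sp R x xb P (spec hC hC' P) := by
      rw [spec, dif_pos h2]
      exact (hC.exists_sp h2.choose_spec).choose_spec
    exact absurd h3.2.1 (not_le.mpr h1)
  · intro h
    obtain ⟨b, hb, hπb⟩ := exists_hasVal_inv R P x h
    have h2 : Sp R x⁻¹ xb⁻¹ P (spec hC hC' P) := by
      rw [spec, dif_neg h]
      exact (hC'.exists_sp (exists_hasVal_inv R P x h).choose_spec.1).choose_spec
    have h3 := hC'.sp_val_x h2 hb
    rw [hπb, hasVal_zero_iff, Place.ord_inv] at h3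
    have h4 := h3.resolve_left (inv_ne_zero hC.isCoord.ne_zero)
    omega

theorem ord_nonpos_of_spec {P : Place K F} (h : (spec hC hC' P).ord xb < 0) : P.ord x ≤ 0 := by
  by_contra hcon
  push Not at hcon
  rw [spec_ord_neg_iff] at h
  exact h ⟨0, by
    have : HasVal P x 0 := hasVal_zero_iff.2 (Or.inr hcon)
    exact this⟩

end General

section Cusps

variable (p : ℕ) [hp : Fact p.Prime] {ℓ : ℕ} [hℓ : Fact ℓ.Prime]
  {A : ValuationSubring (AlgebraicClosure ℚ)} {k : Type*} [Field k] {π : A →+* k}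
  (hA : A.LiesOverPrime ℓ)
  (hπ : ∀ a : A, π a = 0 ↔ ¬ IsUnit a) (hs : Function.Surjective π) (hN : ¬ ℓ ∣ p)

local notation "Qb" => AlgebraicClosure ℚ

theorem jE_eq_jB : jE Qb p = jB p := Subtype.ext (ModFn.coeffMap_jqModC (algebraMap ℚ Qb))

variable (k) in
/-- the reduction of `j_p` -/
def xjN : modularFunctionFieldFullC k p :=
  ⟨qExpand k p (jqModC k), jqModCd_mem_full k p dvd_rfl⟩

theorem isRed_jE : (redX p hA hπ hs hN).IsRed (jE Qb p) (RedQ.xj k p) := by
  rw [jE_eq_jB]
  exact isRed_redX.2 (gRed_jB p)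

theorem isRed_jEN : (redX p hA hπ hs hN).IsRed (jEN Qb p) (xjN p k) := by
  rw [isRed_redX, coe_jEN]
  have h1 : (coeffEmb Qb jq : LaurentSeries Qb) = jqModC Qb :=
    ModFn.coeffMap_jqModC (algebraMap ℚ Qb)
  rw [h1]
  exact gRed_jqd π p

variable (k) in
/-- the cusp `∞` in characteristic `ℓ` -/
def cuspInfK : Place k (modularFunctionFieldFullC k p) :=
  placeInf _ (exists_order_neg_one_full k p)

theorem cuspInfK_xj : (cuspInfK p k).ord (RedQ.xj k p) = -1 := by
  rw [cuspInfK, ord_placeInf]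
  exact ModFn.order_jqModC

theorem cuspInfK_xjN : (cuspInfK p k).ord (xjN p k) = -p := by
  rw [cuspInfK, ord_placeInf]
  change (qExpand k p (jqModC k)).order = _
  rw [ModFn.order_qExpand, ModFn.order_jqModC]
  ring

local notation "rho" => rX hA hπ hs hN

theorem rX_ord_neg_iff {P : Place Qb (FN Qb p)} :
    (rho P).ord (RedQ.xj k p) < 0 ↔ ¬ ∃ a : A, HasVal P (jE Qb p) a := by
  haveI := charP_of_liesOverPrime (k := k) hA hπ
  haveI : IsAlgClosed k := isAlgClosed_of_surjective hs
  haveI := isFnField_bar p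
  haveI := isFnField_fullC (k := k) p ℓ hN
  rw [jE_eq_jB]
  exact spec_ord_neg_iff (chart_jB hA hπ hs hN) (chart_jB_inv hA hπ hs hN)

theorem ord_nonpos_of_rX {P : Place Qb (FN Qb p)} (h : (rho P).ord (RedQ.xj k p) < 0) :
    P.ord (jE Qb p) ≤ 0 := by
  haveI := charP_of_liesOverPrime (k := k) hA hπ
  haveI : IsAlgClosed k := isAlgClosed_of_surjective hs
  haveI := isFnField_bar p
  haveI := isFnField_fullC (k := k) p ℓ hN
  rw [jE_eq_jB]
  exact ord_nonpos_of_spec (chart_jB hA hπ hs hN) (chart_jB_inv hA hπ hs hN) h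

theorem rX_ord_neg_of_pole {P : Place Qb (FN Qb p)} (h : P.ord (jE Qb p) < 0) :
    (rho P).ord (RedQ.xj k p) < 0 := by
  rw [rX_ord_neg_iff]
  rintro ⟨a, ha⟩
  exact absurd ha.nonneg (not_le.mpr h)

theorem rX_ord_nonneg {f : modularFunctionFieldBar p} {z : modularFunctionFieldFullC k p}
    (h : (redX p hA hπ hs hN).IsRed f z) (hz : z ≠ 0) (Q : Place k (modularFunctionFieldFullC k p))
    (hreg : ∀ P, rho P = Q → 0 ≤ P.ord f) : 0 ≤ Q.ord z := by
  haveI := charP_of_liesOverPrime (k := k) hA hπ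
  haveI : IsAlgClosed k := isAlgClosed_of_surjective hs
  haveI := isFnField_bar p
  haveI := isFnField_fullC (k := k) p ℓ hN
  exact (specX hA hπ hs hN).ord_nonneg h hz Q hreg

theorem rX_ord_le {f : modularFunctionFieldBar p} {z : modularFunctionFieldFullC k p}
    (h : (redX p hA hπ hs hN).IsRed f z) (hz : z ≠ 0) {Q : Place k (modularFunctionFieldFullC k p)}
    (hreg : ∀ P, rho P = Q → 0 ≤ P.ord f) {P : Place Qb (modularFunctionFieldBar p)}
    (hP : rho P = Q) : P.ord f ≤ Q.ord z := by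
  haveI := charP_of_liesOverPrime (k := k) hA hπ
  haveI : IsAlgClosed k := isAlgClosed_of_surjective hs
  haveI := isFnField_bar p
  haveI := isFnField_fullC (k := k) p ℓ hN
  exact (specX hA hπ hs hN).ord_le h hz Q hreg hP

theorem rX_add_ord_le {f : modularFunctionFieldBar p} {z : modularFunctionFieldFullC k p}
    (h : (redX p hA hπ hs hN).IsRed f z) (hz : z ≠ 0) {Q : Place k (modularFunctionFieldFullC k p)}
    {P P' : Place Qb (modularFunctionFieldBar p)}
    (hreg : ∀ P', rho P' = Q → P' ≠ P → 0 ≤ P'.ord f)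
    (hP : rho P = Q) (hP' : rho P' = Q) (hne : P' ≠ P) : P.ord f + P'.ord f ≤ Q.ord z := by
  haveI := charP_of_liesOverPrime (k := k) hA hπ
  haveI : IsAlgClosed k := isAlgClosed_of_surjective hs
  haveI := isFnField_bar p
  haveI := isFnField_fullC (k := k) p ℓ hN
  exact (specX hA hπ hs hN).add_ord_le' h hz Q hreg hP hP' hne

theorem rX_val [IsAlgClosed k] [IsFnField k (modularFunctionFieldFullC k p)]
    {f : modularFunctionFieldBar p} {z : modularFunctionFieldFullC k p}
    (h : (redX p hA hπ hs hN).IsRed f z) {Q : Place k (modularFunctionFieldFullC k p)}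
    (hreg : ∀ P, rho P = Q → 0 ≤ P.ord f) {P : Place Qb (modularFunctionFieldBar p)}
    (hP : rho P = Q) {c : Qb} (hc : HasVal P f c) : ∃ h : c ∈ A, HasVal Q z (π ⟨c, h⟩) := by
  haveI := charP_of_liesOverPrime (k := k) hA hπ
  haveI := isFnField_bar p
  haveI := isFnField_fullC (k := k) p ℓ hN
  exact spec_val (chart_jB hA hπ hs hN) (chart_jB_inv hA hπ hs hN) h hreg hP hc

theorem xj_ne_zero : RedQ.xj k p ≠ 0 := by
  intro h
  have h1 := cuspInfK_xj p (k := k)
  rw [h, Place.ord_zero] at h1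
  norm_num at h1

theorem xjN_ne_zero : xjN p k ≠ 0 := by
  intro h
  have h1 := cuspInfK_xjN p (k := k)
  have := hp.out.pos
  rw [h, Place.ord_zero] at h1
  omega

/-- the discs of poles are those of the cusps -/
theorem eq_rX_cusp {Q : Place k (modularFunctionFieldFullC k p)}
    (hQ : Q.ord (RedQ.xj k p) < 0) : Q = rho (cuspInf p) ∨ Q = rho (cuspZero p) := by
  by_contra hcon
  push Not at hcon
  have h1 := rX_ord_nonneg p hA hπ hs hN (isRed_jE p hA hπ hs hN) (xj_ne_zero p) Q (fun P hP => by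
      by_contra hneg
      push Not at hneg
      rcases eq_cusp p P hneg with rfl | rfl
      · exact hcon.1 hP.symm
      · exact hcon.2 hP.symm)
  exact absurd hQ (not_lt.mpr h1)

theorem ord_inv_nonneg_of_rX {Q : Place k (modularFunctionFieldFullC k p)}
    (hQ : Q.ord (RedQ.xj k p) < 0) {P : Place Qb (modularFunctionFieldBar p)} (hP : rho P = Q) :
    0 ≤ P.ord (jE Qb p)⁻¹ := by
  rw [← hP] at hQ
  have := ord_nonpos_of_rX p hA hπ hs hN hQ
  rw [P.ord_inv]
  exact neg_nonneg.mpr this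

theorem cuspInf_disc : (rho (cuspInf p)).ord (RedQ.xj k p) < 0 :=
  rX_ord_neg_of_pole p hA hπ hs hN (by rw [cuspInf_j]; norm_num)

theorem cuspZero_disc : (rho (cuspZero p)).ord (RedQ.xj k p) < 0 :=
  rX_ord_neg_of_pole p hA hπ hs hN (by
    rw [cuspZero_j]
    have := hp.out.pos
    omega)

theorem rX_cusp_ne : rho (cuspInf p) ≠ rho (cuspZero p) := by
  intro heq
  have h2 := rX_add_ord_le p hA hπ hs hN ((isRed_jE p hA hπ hs hN).inv (xj_ne_zero p))
    (inv_ne_zero (xj_ne_zero p)) (P := cuspInf p) (P' := cuspZero p)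
    (fun P hP _ => ord_inv_nonneg_of_rX p hA hπ hs hN (cuspInf_disc p hA hπ hs hN) hP)
    rfl heq.symm (cuspInf_ne_cuspZero p).symm
  rw [Place.ord_inv, Place.ord_inv, Place.ord_inv, cuspInf_j, cuspZero_j] at h2
  have h3 : cuspInfK p k = rho (cuspInf p) := by
    have h4 : (cuspInfK p k).ord (RedQ.xj k p) < 0 := by rw [cuspInfK_xj]; norm_num
    rcases eq_rX_cusp p hA hπ hs hN h4 with h | h
    · exact h
    · rw [h, heq]
  rw [← h3, cuspInfK_xj] at h2
  have := hp.out.pos
  omega

/-- the cusp `∞` reduces to the cusp `∞` -/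
theorem rX_cuspInf : rho (cuspInf p) = cuspInfK p k := by
  have h4 : (cuspInfK p k).ord (RedQ.xj k p) < 0 := by rw [cuspInfK_xj]; norm_num
  rcases eq_rX_cusp p hA hπ hs hN h4 with h | h
  · exact h.symm
  · exfalso
    have h2 := rX_ord_le p hA hπ hs hN ((isRed_jE p hA hπ hs hN).inv (xj_ne_zero p))
      (inv_ne_zero (xj_ne_zero p)) (P := cuspZero p)
      (fun P hP => ord_inv_nonneg_of_rX p hA hπ hs hN (cuspZero_disc p hA hπ hs hN) hP) rfl
    rw [Place.ord_inv, Place.ord_inv, cuspZero_j, ← h, cuspInfK_xj] at h2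
    have := hp.out.one_lt
    omega

/-- a function regular on the disc of `Q` whose reduction vanishes at `Q` takes small values -/
theorem rX_val_zero {f : modularFunctionFieldBar p} {z : modularFunctionFieldFullC k p}
    (h : (redX p hA hπ hs hN).IsRed f z) {Q : Place k (modularFunctionFieldFullC k p)}
    (hreg : ∀ P, rho P = Q → 0 ≤ P.ord f) (hQ : 0 < Q.ord z)
    {P : Place Qb (modularFunctionFieldBar p)}
    (hP : rho P = Q) {c : Qb} (hc : HasVal P f c) : ∃ h : c ∈ A, π ⟨c, h⟩ = 0 := by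
  haveI : IsAlgClosed k := isAlgClosed_of_surjective hs
  haveI := charP_of_liesOverPrime (k := k) hA hπ
  haveI := isFnField_fullC (k := k) p ℓ hN
  obtain ⟨h1, h2⟩ := rX_val p hA hπ hs hN h hreg hP hc
  exact ⟨h1, h2.unique (hasVal_zero_iff.2 (Or.inr hQ))⟩

theorem jE_ne_zero : jE Qb p ≠ 0 := by
  intro h
  have h1 := cuspInf_j p
  rw [h, Place.ord_zero] at h1
  norm_num at h1

theorem jEN_ne_zero : jEN Qb p ≠ 0 := by
  intro h
  have h1 := cuspInf_jN p
  have := hp.out.pos
  rw [h, Place.ord_zero] at h1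
  omega

theorem isRed_ratio : (redX p hA hπ hs hN).IsRed (jEN Qb p * (jE Qb p)⁻¹)
    (xjN p k * (RedQ.xj k p)⁻¹) :=
  (isRed_jEN p hA hπ hs hN).mul ((isRed_jE p hA hπ hs hN).inv (xj_ne_zero p))

theorem isRed_ratio' : (redX p hA hπ hs hN).IsRed (jE Qb p * (jEN Qb p)⁻¹)
    (RedQ.xj k p * (xjN p k)⁻¹) :=
  (isRed_jE p hA hπ hs hN).mul ((isRed_jEN p hA hπ hs hN).inv (xjN_ne_zero p))

/-- `j_p / j` is regular on the disc of the cusp `0`. -/
theorem ratio_regular {P : Place Qb (modularFunctionFieldBar p)}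
    (hP : rho P = rho (cuspZero p)) : 0 ≤ P.ord (jEN Qb p * (jE Qb p)⁻¹) := by
  have h1 : P.ord (jE Qb p) ≤ 0 := ord_nonpos_of_rX p hA hπ hs hN (by
    rw [hP]; exact cuspZero_disc p hA hπ hs hN)
  rw [P.ord_mul (jEN_ne_zero p) (inv_ne_zero (jE_ne_zero p)), P.ord_inv]
  by_cases h2 : P.ord (jE Qb p) < 0
  · rcases eq_cusp p P h2 with rfl | rfl
    · exact absurd hP (rX_cusp_ne p hA hπ hs hN)
    · rw [cuspZero_j, cuspZero_jN]
      have := hp.out.pos
      omega
  · have h3 : ¬ P.ord (jEN Qb p) < 0 := by rwa [← j_neg_iff]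
    omega

/-- `j_p / j` is small on the disc of the cusp `0`. -/
theorem val_of_disc_zero {P : Place Qb (modularFunctionFieldBar p)}
    (hP : rho P = rho (cuspZero p)) {c : Qb} (hc : HasVal P (jEN Qb p * (jE Qb p)⁻¹) c) :
    ∃ h : c ∈ A, π ⟨c, h⟩ = 0 := by
  refine rX_val_zero p hA hπ hs hN (isRed_ratio p hA hπ hs hN)
    (fun P hP => ratio_regular p hA hπ hs hN hP) ?_ hP hc
  have h1 := rX_ord_le p hA hπ hs hN (isRed_ratio p hA hπ hs hN)
    (mul_ne_zero (xjN_ne_zero p) (inv_ne_zero (xj_ne_zero p)))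
    (fun P hP => ratio_regular p hA hπ hs hN hP) (P := cuspZero p) rfl
  rw [(cuspZero p).ord_mul (jEN_ne_zero p) (inv_ne_zero (jE_ne_zero p)), Place.ord_inv,
    cuspZero_j, cuspZero_jN] at h1
  have := hp.out.one_lt
  omega

/-- `j_p` has no zero on the disc of the cusp `∞` -/
theorem jEN_disc_inf {P : Place Qb (modularFunctionFieldBar p)}
    (hP : rho P = rho (cuspInf p)) (hne : P ≠ cuspInf p) : P.ord (jEN Qb p) = 0 := by
  have hreg : ∀ P', rho P' = rho (cuspInf p) → P' ≠ cuspInf p → 0 ≤ P'.ord (jEN Qb p) := by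
    intro P' hP' hne'
    by_contra hneg
    push Not at hneg
    rw [← j_neg_iff] at hneg
    rcases eq_cusp p P' hneg with h | h
    · exact hne' h
    · rw [h] at hP'
      exact rX_cusp_ne p hA hπ hs hN hP'.symm
  have h1 := rX_add_ord_le p hA hπ hs hN (isRed_jEN p hA hπ hs hN) (xjN_ne_zero p)
    (Q := rho (cuspInf p)) hreg rfl hP hne
  rw [cuspInf_jN, rX_cuspInf, cuspInfK_xjN] at h1
  have h2 := hreg P hP hne
  omega

theorem ratio_regular' {P : Place Qb (modularFunctionFieldBar p)}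
    (hP : rho P = rho (cuspInf p)) : 0 ≤ P.ord (jE Qb p * (jEN Qb p)⁻¹) := by
  rw [P.ord_mul (jE_ne_zero p) (inv_ne_zero (jEN_ne_zero p)), P.ord_inv]
  by_cases hne : P = cuspInf p
  · rw [hne, cuspInf_j, cuspInf_jN]
    have := hp.out.pos
    omega
  · have h1 := jEN_disc_inf p hA hπ hs hN hP hne
    have h2 : ¬ P.ord (jE Qb p) < 0 := by
      rw [j_neg_iff, h1]
      norm_num
    omega

/-- `j / j_p` is small on the disc of the cusp `∞`. -/
theorem val_of_disc_inf {P : Place Qb (modularFunctionFieldBar p)}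
    (hP : rho P = rho (cuspInf p)) {c : Qb} (hc : HasVal P (jE Qb p * (jEN Qb p)⁻¹) c) :
    ∃ h : c ∈ A, π ⟨c, h⟩ = 0 := by
  refine rX_val_zero p hA hπ hs hN (isRed_ratio' p hA hπ hs hN)
    (fun P hP => ratio_regular' p hA hπ hs hN hP) ?_ hP hc
  rw [rX_cuspInf, (cuspInfK p k).ord_mul (xj_ne_zero p) (inv_ne_zero (xjN_ne_zero p)),
    Place.ord_inv, cuspInfK_xj, cuspInfK_xjN]
  have := hp.out.one_lt
  omega

/-- **(R5)**: a point near the cusps with `|j_p| > |j|` is in the disc of `∞`. -/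
theorem rX_eq_cuspInf {P : Place Qb (modularFunctionFieldBar p)} {a b : Qb}
    (ha : HasVal P (jE Qb p) a) (hb : HasVal P (jEN Qb p) b) (haA : a ∉ A)
    (hab : b * a⁻¹ ∉ A) : rho P = rho (cuspInf p) := by
  haveI := isFnField_bar p
  have ha0 : a ≠ 0 := by rintro rfl; exact haA A.zero_mem
  have hQ : (rho P).ord (RedQ.xj k p) < 0 := by
    rw [rX_ord_neg_iff]
    rintro ⟨a', ha'⟩
    rw [ha.unique ha'] at haA
    exact haA a'.2
  rcases eq_rX_cusp p hA hπ hs hN hQ with h | h
  · exact h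
  · exfalso
    obtain ⟨h1, -⟩ := val_of_disc_zero p hA hπ hs hN h (hb.mul (ha.inv ha0))
    exact hab h1

/-- **(R5)**: a point near the cusps with `|j_p| ≤ |j|` is in the disc of `0`. -/
theorem rX_eq_cuspZero {P : Place Qb (modularFunctionFieldBar p)} {a b : Qb}
    (ha : HasVal P (jE Qb p) a) (hb : HasVal P (jEN Qb p) b) (haA : a ∉ A)
    (hab : b * a⁻¹ ∈ A) : rho P = rho (cuspZero p) := by
  haveI := isFnField_bar p
  have ha0 : a ≠ 0 := by rintro rfl; exact haA A.zero_mem
  have hQ : (rho P).ord (RedQ.xj k p) < 0 := by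
    rw [rX_ord_neg_iff]
    rintro ⟨a', ha'⟩
    rw [ha.unique ha'] at haA
    exact haA a'.2
  rcases eq_rX_cusp p hA hπ hs hN hQ with h | h
  · exfalso
    have hb0 : b ≠ 0 := by
      rintro rfl
      by_cases hP : P = cuspInf p
      · rw [hP] at hb
        have h1 := hb.nonneg
        rw [cuspInf_jN] at h1
        have := hp.out.pos
        omega
      · have h1 := jEN_disc_inf p hA hπ hs hN h hP
        rw [hasVal_zero_iff] at hb
        rcases hb with hb | hb
        · exact jEN_ne_zero p hb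
        · omega
    obtain ⟨h1, h2⟩ := val_of_disc_inf p hA hπ hs hN h (ha.mul (hb.inv hb0))
    have h3 : (⟨a * b⁻¹, h1⟩ : A) * ⟨b * a⁻¹, hab⟩ = 1 := Subtype.ext (by
      change a * b⁻¹ * (b * a⁻¹) = 1
      field_simp)
    have h4 := congrArg π h3
    rw [map_mul, h2, zero_mul, map_one] at h4
    exact zero_ne_one h4
  · exact h

/-- places with the same reduction have the same class after reduction -/
theorem redJ_mk_eq_zero {P P' : Place Qb (modularFunctionFieldBar p)} (h : rho P = rho P')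
    (D : Divisor.degZero (K := Qb) (F := modularFunctionFieldBar p))
    (hD : (D : Divisor Qb (modularFunctionFieldBar p)) =
      Finsupp.single P 1 - Finsupp.single P' 1) :
    redJ hA hπ hs hN (Pic0.mk D) = 0 := by
  rw [redJ_mk]
  have h1 : (divX hA hπ hs hN).degZeroHom D = 0 := by
    apply Subtype.ext
    rw [coe_degZeroHom, hD, Finsupp.mapDomain_sub, Finsupp.mapDomain_single,
      Finsupp.mapDomain_single, h, sub_self]
    rfl
  rw [h1]
  rfl

end Cusps

end Fermat.Agent.Red
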