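import Fermat.Agent.Red.RelExt
import Fermat.Agent.Red.ChartGenus
import Fermat.Agent.ESh.Rigid
import Fermat.Agent.FF.Fiber

/-!
# Specialisation of places: uniqueness, functoriality and descent
-/

set_option autoImplicit false
set_option linter.unusedSectionVars false
set_option linter.style.haveILetI false
set_option linter.unusedVariables false

open AlgebraicCurve IntermediateField Module

namespace Fermat.Agent.Red

open Fermat.Agent.FF

section PushPull

variable {K F F' : Type*} [Field K] [Field F] [Field F'] [Algebra K F] [Algebra K F']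
  [Algebra F F'] [IsScalarTower K F F'] [Module.Finite F F'] [Algebra.IsSeparable F F']
  [IsAlgClosed K] [IsFnField K F] [IsFnField K F']

theorem pushforward_eq_mapDomain (D : Divisor K F') :
    Divisor.pushforward F D = Finsupp.mapDomain (fun w : Place K F' => w.restrict F) D := by
  haveI : HasPrincipalDivisors K F' := RR.hasPrincipalDivisors K F'
  induction D using Finsupp.induction_linear with
  | zero => rw [map_zero, Finsupp.mapDomain_zero]
  | add f g hf hg => rw [map_add, Finsupp.mapDomain_add, hf, hg]
  | single w n =>
    rw [Divisor.pushforward_single, Finsupp.mapDomain_single, inertiaDeg_eq_one, Nat.cast_one,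
      mul_one]

theorem exists_restrict_eq' (v : Place K F) : ∃ w : Place K F', w.restrict F = v := by
  haveI : HasPrincipalDivisors K F' := RR.hasPrincipalDivisors K F'
  by_contra hcon
  push Not at hcon
  have h1 := sum_ramificationIndex (F' := F') v
  have h2 : v.fiber F' = ∅ := by
    rw [Finset.eq_empty_iff_forall_notMem]
    intro w hw
    exact hcon w (Place.mem_fiber.1 hw)
  rw [h2, Finset.sum_empty] at h1
  have h3 : 0 < Module.finrank F F' := finrank_pos
  omega

variable [HasPrincipalDivisors K F']

theorem pushforward_pullback' (D : Divisor K F) :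
    Divisor.pushforward F (Divisor.pullback F' D) = Module.finrank F F' • D := by
  induction D using Finsupp.induction_linear with
  | zero => simp
  | add f g hf hg => rw [map_add, map_add, hf, hg, smul_add]
  | single v n =>
    rw [Divisor.pullback_single, map_sum]
    have h1 : ∀ w ∈ v.fiber F', Divisor.pushforward F
        (Finsupp.single w (n * (w.ramificationIndex F : ℤ))) =
        Finsupp.single v (n * (w.ramificationIndex F : ℤ)) := by
      intro w hw
      rw [Divisor.pushforward_single, Place.mem_fiber.1 hw, inertiaDeg_eq_one, Nat.cast_one,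
        mul_one]
    have h3 : ∑ w ∈ v.fiber F', (Finsupp.single v
        (n * (w.ramificationIndex F : ℤ)) : Divisor K F) =
        Finsupp.single v (∑ w ∈ v.fiber F', n * (w.ramificationIndex F : ℤ)) :=
      (map_sum (Finsupp.singleAddHom v) _ _).symm
    rw [Finset.sum_congr rfl h1, h3, ← Finset.mul_sum, sum_ramificationIndex v,
      Finsupp.smul_single]
    simp [mul_comm]

end PushPull

section HasVal

variable {K F F' : Type*} [Field K] [Field F] [Field F'] [Algebra K F] [Algebra K F']
  [Algebra F F'] [IsScalarTower K F F'] [Algebra.IsIntegral F F']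
  [IsAlgClosed K] [IsFnField K F] [IsFnField K F']

theorem hasVal_restrict {P : Place K F'} {f : F} {c : K} :
    HasVal P (algebraMap F F' f) c ↔ HasVal (P.restrict F) f c := by
  rw [hasVal_iff, hasVal_iff]
  have h1 : algebraMap F F' f - algebraMap K F' c = algebraMap F F' (f - algebraMap K F c) := by
    rw [map_sub, ← IsScalarTower.algebraMap_apply]
  have h0 : (0 : ℤ) < P.ramificationIndex (F := F) := by exact_mod_cast P.ramificationIndex_pos
  rw [h1, map_eq_zero_iff _ (algebraMap F F').injective, Place.ord_restrict]
  constructor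
  · rintro (h | h)
    · exact Or.inl h
    · exact Or.inr (by nlinarith)
  · rintro (h | h)
    · exact Or.inl h
    · exact Or.inr (by positivity)

end HasVal

variable {K k : Type*} [Field K] [Field k] {A : ValuationSubring K} {π : A →+* k}
  {F Fk : Type*} [Field F] [Algebra K F] [Field Fk] [Algebra k Fk]

/-- A specialisation of places compatible with the divisors of functions. -/
structure PSpec (R : ConstRed A π F Fk) where
  /-- the specialisation of places -/
  r : Place K F → Place k Fk
  surj : Function.Surjective r
  deg_eq : ∀ P, (r P).deg = P.deg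
  ord_eq : ∀ (f : F) (z : Fk), R.IsRed f z → z ≠ 0 → ∀ D : Divisor K F, (∀ P, D P = P.ord f) →
    ∀ Q, Finsupp.mapDomain r D Q = Q.ord z

/-- forget the local lifts -/
def Spec.toPSpec {R : ConstRed A π F Fk} (S : Spec R) : PSpec R where
  r := S.r
  surj := S.surj
  deg_eq := S.deg_eq
  ord_eq := S.ord_eq

section Rigid

variable [IsAlgClosed K] [IsFnField K F] {R : ConstRed A π F Fk}

/-- Rigidity: a bounded homomorphism killing the divisors of functions with nonzero reduction
kills the divisors of degree zero. -/
theorem rigid (R : ConstRed A π F Fk) {ι : Type*} (δ : Divisor K F →+ (ι →₀ ℤ)) (C : ℤ)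
    (hC : ∀ (P : Place K F) (Y : ι), |δ (Finsupp.single P 1) Y| ≤ C)
    (h : ∀ (f : F) (z : Fk), R.IsRed f z → z ≠ 0 → ∀ D : Divisor K F, (∀ P, D P = P.ord f) →
      δ D = 0)
    (D : Divisor K F) (hD : Divisor.degree D = 0) : δ D = 0 := by
  refine ESh.eq_zero_of_bounded' δ C hC (fun E hE => ?_) D hD
  obtain ⟨f, hf, hE⟩ := hE
  obtain ⟨c, hc, z, hz, hcz⟩ := R.exists_isRed_mul hf
  refine h _ z hcz hz E fun P => ?_
  rw [P.ord_mul (by simpa using hc) hf, FF.ord_algebraMap, zero_add, hE]

/-- a bounded difference of two maps of places -/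
theorem eq_of_rigid {X : Type*} [Nontrivial X] (r₁ r₂ : Place K F → X)
    (hs : Function.Surjective r₁)
    (h : ∀ D : Divisor K F, Divisor.degree D = 0 →
      Finsupp.mapDomain r₁ D = Finsupp.mapDomain r₂ D) : r₁ = r₂ := by
  classical
  have h1 : ∀ P Q : Place K F, Finsupp.single (r₁ P) (1 : ℤ) - Finsupp.single (r₁ Q) 1 =
      Finsupp.single (r₂ P) 1 - Finsupp.single (r₂ Q) 1 := by
    intro P Q
    have := h (Finsupp.single P 1 - Finsupp.single Q 1) (by
      rw [map_sub, RR.degree_single', RR.degree_single', sub_self])
    rwa [Finsupp.mapDomain_sub, Finsupp.mapDomain_sub, Finsupp.mapDomain_single,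
      Finsupp.mapDomain_single, Finsupp.mapDomain_single, Finsupp.mapDomain_single] at this
  funext P
  by_contra hne
  obtain ⟨X', hX'⟩ := exists_ne (r₁ P)
  obtain ⟨Q, rfl⟩ := hs X'
  have h2 := congrArg (fun E : X →₀ ℤ => E (r₁ P)) (h1 P Q)
  simp only [Finsupp.sub_apply, Finsupp.single_apply, if_true, if_neg hX',
    if_neg (Ne.symm hne)] at h2
  split_ifs at h2 <;> omega

end Rigid

section Unique

variable [IsAlgClosed K] [IsFnField K F] [IsAlgClosed k] [IsFnField k Fk] {R : ConstRed A π F Fk}

theorem nontrivial_place (K F : Type*) [Field K] [Field F] [Algebra K F] [IsAlgClosed K]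
    [IsFnField K F] : Nontrivial (Place K F) := by
  haveI := infinite_places (K := K) (F := F)
  infer_instance

theorem single_bound {X : Type*} (a b : X) (Y : X) :
    |(Finsupp.single a (1 : ℤ) - Finsupp.single b 1 : X →₀ ℤ) Y| ≤ 1 := by
  classical
  rw [Finsupp.sub_apply, Finsupp.single_apply, Finsupp.single_apply]
  split_ifs <;> norm_num

/-- uniqueness of the specialisation of places -/
theorem PSpec.r_eq (S S' : PSpec R) : S.r = S'.r := by
  classical
  haveI := nontrivial_place k Fk
  refine eq_of_rigid S.r S'.r S.surj fun D hD => ?_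
  have := rigid R (Finsupp.mapDomain.addMonoidHom S.r - Finsupp.mapDomain.addMonoidHom S'.r) 1
    ?_ ?_ D hD
  · rw [AddMonoidHom.sub_apply, sub_eq_zero] at this
    exact this
  · intro P Y
    change |(Finsupp.mapDomain S.r (Finsupp.single P (1 : ℤ)) -
      Finsupp.mapDomain S'.r (Finsupp.single P (1 : ℤ)) : Place k Fk →₀ ℤ) Y| ≤ 1
    rw [Finsupp.mapDomain_single, Finsupp.mapDomain_single]
    exact single_bound _ _ _
  · intro f z hf hz E hE
    rw [AddMonoidHom.sub_apply, sub_eq_zero]
    ext Q
    exact (S.ord_eq f z hf hz E hE Q).trans (S'.ord_eq f z hf hz E hE Q).symm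

end Unique

end Fermat.Agent.Red
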